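import Mathlib

set_option autoImplicit false

/-!
Number of ideals of given norm of a number field: multiplicativity and crude bounds.
-/

namespace Fermat.Agent.H25

open NumberField Ideal

variable (K : Type*) [Field K] [NumberField K]

/-- number of ideals of norm `n`. -/
noncomputable def idealCount (n : ℕ) : ℕ := Nat.card {I : Ideal (𝓞 K) // absNorm I = n}

variable {K}

theorem sup_mul_sup_eq {I : Ideal (𝓞 K)} {m n : ℕ} (hmn : m.Coprime n)
    (hI : absNorm I = m * n) :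
    (I ⊔ span {(m : 𝓞 K)}) * (I ⊔ span {(n : 𝓞 K)}) = I := by
  apply le_antisymm
  · rw [Ideal.sup_mul, Ideal.mul_sup, Ideal.mul_sup]
    refine sup_le (sup_le Ideal.mul_le_left Ideal.mul_le_left) (sup_le Ideal.mul_le_right ?_)
    rw [Ideal.span_singleton_mul_span_singleton, Ideal.span_singleton_le_iff_mem]
    have := absNorm_mem I
    rw [hI] at this
    exact_mod_cast this
  · have hcop : span {(m : 𝓞 K)} ⊔ span {(n : 𝓞 K)} = ⊤ := by
      rw [Ideal.eq_top_iff_one]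
      have h := (Nat.isCoprime_iff_coprime.mpr hmn)
      obtain ⟨a, b, hab⟩ := h
      have : (1 : 𝓞 K) = (a : 𝓞 K) * (m : 𝓞 K) + (b : 𝓞 K) * (n : 𝓞 K) := by
        exact_mod_cast (congrArg (fun z : ℤ => (z : 𝓞 K)) hab).symm
      rw [this]
      exact Submodule.add_mem_sup (Ideal.mul_mem_left _ _ (Ideal.mem_span_singleton_self _))
        (Ideal.mul_mem_left _ _ (Ideal.mem_span_singleton_self _))
    calc I = I * (span {(m : 𝓞 K)} ⊔ span {(n : 𝓞 K)}) := by rw [hcop, Ideal.mul_top]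
      _ = I * span {(m : 𝓞 K)} ⊔ I * span {(n : 𝓞 K)} := by rw [Ideal.mul_sup]
      _ ≤ _ := by
        refine sup_le ?_ ?_
        · rw [mul_comm]
          exact Ideal.mul_mono le_sup_right le_sup_left
        · exact Ideal.mul_mono le_sup_left le_sup_right

theorem absNorm_sup_dvd_pow (I : Ideal (𝓞 K)) (m : ℕ) :
    absNorm (I ⊔ span {(m : 𝓞 K)}) ∣ m ^ Module.finrank ℤ (𝓞 K) := by
  have h := absNorm_dvd_absNorm_of_le (le_sup_right : span {(m : 𝓞 K)} ≤ I ⊔ span {(m : 𝓞 K)})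
  rwa [absNorm_span_natCast] at h

theorem absNorm_sup_eq {I : Ideal (𝓞 K)} {m n : ℕ} (hmn : m.Coprime n)
    (hm : m ≠ 0) (hn : n ≠ 0)
    (hI : absNorm I = m * n) :
    absNorm (I ⊔ span {(m : 𝓞 K)}) = m ∧ absNorm (I ⊔ span {(n : 𝓞 K)}) = n := by
  have h1 := absNorm_sup_dvd_pow I m
  have h2 := absNorm_sup_dvd_pow I n
  have h3 := congrArg absNorm (sup_mul_sup_eq hmn hI)
  rw [map_mul, hI] at h3
  have c1 : (absNorm (I ⊔ span {(m : 𝓞 K)})).Coprime n :=
    Nat.Coprime.coprime_dvd_left h1 (Nat.Coprime.pow_left _ hmn)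
  have c2 : (absNorm (I ⊔ span {(n : 𝓞 K)})).Coprime m :=
    Nat.Coprime.coprime_dvd_left h2 (Nat.Coprime.pow_left _ hmn.symm)
  have d1 : absNorm (I ⊔ span {(m : 𝓞 K)}) ∣ m :=
    c1.dvd_of_dvd_mul_right (h3 ▸ dvd_mul_right _ _)
  have d2 : absNorm (I ⊔ span {(n : 𝓞 K)}) ∣ n :=
    c2.dvd_of_dvd_mul_left (h3 ▸ dvd_mul_left _ _)
  obtain ⟨u, hu⟩ := d1
  obtain ⟨v, hv⟩ := d2
  have ha : absNorm (I ⊔ span {(m : 𝓞 K)}) ≠ 0 := by
    intro h; rw [h, zero_mul] at hu; exact hm hu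
  have hb : absNorm (I ⊔ span {(n : 𝓞 K)}) ≠ 0 := by
    intro h; rw [h, zero_mul] at hv; exact hn hv
  have huv : u * v = 1 := by
    have : absNorm (I ⊔ span {(m : 𝓞 K)}) * absNorm (I ⊔ span {(n : 𝓞 K)}) * (u * v)
        = absNorm (I ⊔ span {(m : 𝓞 K)}) * absNorm (I ⊔ span {(n : 𝓞 K)}) := by
      calc _ = (absNorm (I ⊔ span {(m : 𝓞 K)}) * u) * (absNorm (I ⊔ span {(n : 𝓞 K)}) * v) := by
            ring
        _ = m * n := by rw [← hu, ← hv]
        _ = _ := h3.symm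
    exact Nat.eq_of_mul_eq_mul_left (Nat.pos_of_ne_zero (mul_ne_zero ha hb)) (by rw [this, mul_one])
  have hu1 : u = 1 := Nat.eq_one_of_mul_eq_one_right huv
  have hv1 : v = 1 := Nat.eq_one_of_mul_eq_one_left huv
  constructor
  · rw [hu1, mul_one] at hu; exact hu.symm
  · rw [hv1, mul_one] at hv; exact hv.symm

theorem mul_sup_eq {I J : Ideal (𝓞 K)} {m n : ℕ} (hmn : m.Coprime n)
    (hI : absNorm I = m) (hJ : absNorm J = n) : I * J ⊔ span {(m : 𝓞 K)} = I := by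
  have hm : (m : 𝓞 K) ∈ I := by rw [← hI]; exact_mod_cast absNorm_mem I
  have hn : (n : 𝓞 K) ∈ J := by rw [← hJ]; exact_mod_cast absNorm_mem J
  apply le_antisymm
  · exact sup_le Ideal.mul_le_left (by rwa [Ideal.span_singleton_le_iff_mem])
  · have hcop : J ⊔ span {(m : 𝓞 K)} = ⊤ := by
      rw [Ideal.eq_top_iff_one]
      have h := (Nat.isCoprime_iff_coprime.mpr hmn)
      obtain ⟨a, b, hab⟩ := h
      have : (1 : 𝓞 K) = (b : 𝓞 K) * (n : 𝓞 K) + (a : 𝓞 K) * (m : 𝓞 K) := by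
        rw [add_comm]
        exact_mod_cast (congrArg (fun z : ℤ => (z : 𝓞 K)) hab).symm
      rw [this]
      exact Submodule.add_mem_sup (Ideal.mul_mem_left _ _ hn)
        (Ideal.mul_mem_left _ _ (Ideal.mem_span_singleton_self _))
    calc I = I * (J ⊔ span {(m : 𝓞 K)}) := by rw [hcop, Ideal.mul_top]
      _ = I * J ⊔ I * span {(m : 𝓞 K)} := by rw [Ideal.mul_sup]
      _ ≤ _ := sup_le_sup_left Ideal.mul_le_right _

theorem idealCount_mul {m n : ℕ} (hmn : m.Coprime n) (hm : m ≠ 0) (hn : n ≠ 0) :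
    idealCount K (m * n) = idealCount K m * idealCount K n := by
  rw [idealCount, idealCount, idealCount, ← Nat.card_prod]
  refine Nat.card_congr
    { toFun := fun I => (⟨I.1 ⊔ span {(m : 𝓞 K)}, (absNorm_sup_eq hmn hm hn I.2).1⟩,
        ⟨I.1 ⊔ span {(n : 𝓞 K)}, (absNorm_sup_eq hmn hm hn I.2).2⟩)
      invFun := fun P => ⟨P.1.1 * P.2.1, by rw [map_mul, P.1.2, P.2.2]⟩
      left_inv := fun I => Subtype.ext (sup_mul_sup_eq hmn I.2)
      right_inv := fun P => Prod.ext (Subtype.ext (mul_sup_eq hmn P.1.2 P.2.2))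
        (Subtype.ext (by
          show P.1.1 * P.2.1 ⊔ _ = _
          rw [mul_comm]; exact mul_sup_eq hmn.symm P.2.2 P.1.2)) }

theorem idealCount_one : idealCount K 1 = 1 := by
  rw [idealCount, Nat.card_eq_one_iff_exists]
  exact ⟨⟨⊤, by simp⟩, fun I => Subtype.ext (absNorm_eq_one_iff.mp I.2)⟩

end Fermat.Agent.H25
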