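import Mathlib
import Fermat.Agent.H25.IdealCount

set_option autoImplicit false

/-!
Counting degree one primes of subfields of a Galois extension of `ℚ` in terms of
decomposition groups.
-/

namespace Fermat.Agent.H25

open NumberField Ideal MulAction
open scoped Pointwise

variable (L : Type*) [Field L] [NumberField L] [IsGalois ℚ L]

/-- the fixed field of a subgroup -/
abbrev fixF (H : Subgroup Gal(L/ℚ)) : IntermediateField ℚ L := FixedPoints.intermediateField H

instance instGalFix (H : Subgroup Gal(L/ℚ)) : IsGaloisGroup H (𝓞 (fixF L H)) (𝓞 L) :=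
  IsGaloisGroup.of_isFractionRing H _ _ (fixF L H) L

theorem perfectField_residueField {R : Type*} [CommRing R] [IsDedekindDomain R] [Module.Free ℤ R]
    [Module.Finite ℤ R] (p : Ideal R) [p.IsPrime] (hp : p ≠ ⊥) :
    PerfectField p.ResidueField := by
  have : p.IsMaximal := Ideal.IsPrime.isMaximal ‹_› hp
  have : Finite (R ⧸ p) := Ideal.finiteQuotientOfFreeOfNeBot p hp
  let _ : Field (R ⧸ p) := Ideal.Quotient.field p
  have e := RingEquiv.ofBijective (algebraMap (R ⧸ p) p.ResidueField)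
    (Ideal.bijective_algebraMap_quotient_residueField p)
  have : Finite p.ResidueField := Finite.of_equiv _ e.toEquiv
  infer_instance

variable {L} {p : ℕ} (hp : p.Prime) (hur : Algebra.IsUnramifiedIn (𝓞 L) (span {(p : ℤ)}))

include hp in
theorem isPrime_span : (span {(p : ℤ)} : Ideal ℤ).IsPrime := by
  rw [Ideal.span_singleton_prime (by exact_mod_cast hp.ne_zero)]
  exact Nat.prime_iff_prime_int.mp hp

include hp in
theorem span_ne_bot : (span {(p : ℤ)} : Ideal ℤ) ≠ ⊥ := by
  rw [Ne, Ideal.span_singleton_eq_bot]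
  exact_mod_cast hp.ne_zero

include hp in
theorem ne_bot_of_liesOver {R : Type*} [CommRing R] [Nontrivial R] [Module.Free ℤ R]
    (P : Ideal R) [hP : P.LiesOver (span {(p : ℤ)})] :
    P ≠ ⊥ := by
  rintro rfl
  have h := hP.over
  have h2 : (p : ℤ) ∈ (⊥ : Ideal R).under ℤ := by
    rw [← h]; exact Ideal.mem_span_singleton_self _
  rw [Ideal.mem_comap, Ideal.mem_bot] at h2
  have h3 : algebraMap ℤ R (p : ℤ) = algebraMap ℤ R 0 := by rw [h2, map_zero]
  have := (FaithfulSMul.algebraMap_injective ℤ R) h3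
  exact hp.ne_zero (by exact_mod_cast this)

include hp hur in
theorem card_inertia_eq_one (P : Ideal (𝓞 L)) [P.IsPrime] [P.LiesOver (span {(p : ℤ)})] :
    Nat.card (inertia Gal(L/ℚ) P) = 1 := by
  have := isPrime_span hp
  have := perfectField_residueField (span {(p : ℤ)} : Ideal ℤ) (span_ne_bot hp)
  rw [card_inertia_eq_ramificationIdxIn (span {(p : ℤ)} : Ideal ℤ) P,
    ramificationIdxIn_eq_ramificationIdx (span {(p : ℤ)} : Ideal ℤ) P Gal(L/ℚ)]
  exact hur.ramificationIdx_eq_one inferInstance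

include hp hur in
theorem inertia_eq_bot (P : Ideal (𝓞 L)) [P.IsPrime] [P.LiesOver (span {(p : ℤ)})] :
    inertia Gal(L/ℚ) P = ⊥ :=
  Subgroup.card_eq_one.mp (card_inertia_eq_one hp hur P)

include hp hur in
theorem card_stab (P : Ideal (𝓞 L)) [P.IsPrime] [P.LiesOver (span {(p : ℤ)})] :
    Nat.card (stabilizer Gal(L/ℚ) P) = P.inertiaDeg ℤ := by
  have := isPrime_span hp
  have := perfectField_residueField (span {(p : ℤ)} : Ideal ℤ) (span_ne_bot hp)
  rw [card_stabilizer_eq_card_inertia_mul_finrank (span {(p : ℤ)} : Ideal ℤ) P,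
    card_inertia_eq_one hp hur, one_mul]

include hp hur in
theorem card_stab_sub (H : Subgroup Gal(L/ℚ)) (P : Ideal (𝓞 L)) [P.IsPrime]
    [P.LiesOver (span {(p : ℤ)})] :
    Nat.card (stabilizer H P) = P.inertiaDeg (𝓞 (fixF L H)) := by
  have h1 : (P.under (𝓞 (fixF L H))) ≠ ⊥ := by
    have : (P.under (𝓞 (fixF L H))).LiesOver (span {(p : ℤ)}) := inferInstance
    exact ne_bot_of_liesOver hp _
  have := perfectField_residueField (P.under (𝓞 (fixF L H))) h1
  have key := card_stabilizer_eq_card_inertia_mul_finrank (G := H) (P.under (𝓞 (fixF L H))) P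
  have h2 : Nat.card (inertia H P) = 1 := by
    rw [Subgroup.card_eq_one, eq_bot_iff]
    intro h hh
    have h3 : (h : Gal(L/ℚ)) ∈ inertia Gal(L/ℚ) P := hh
    rw [inertia_eq_bot hp hur P, Subgroup.mem_bot] at h3
    rw [Subgroup.mem_bot]
    exact Subtype.ext h3
  rw [h2, one_mul] at key
  exact key

omit [IsGalois ℚ L] in
theorem stabilizer_sub (H : Subgroup Gal(L/ℚ)) (P : Ideal (𝓞 L)) :
    stabilizer H P = (stabilizer Gal(L/ℚ) P).subgroupOf H := by
  ext h; simp [Subgroup.mem_subgroupOf, mem_stabilizer_iff, Subgroup.smul_def]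

include hp hur in
theorem stab_le_iff (H : Subgroup Gal(L/ℚ)) (P : Ideal (𝓞 L)) [P.IsPrime]
    [P.LiesOver (span {(p : ℤ)})] :
    stabilizer Gal(L/ℚ) P ≤ H ↔ absNorm (P.under (𝓞 (fixF L H))) = p := by
  have hlo : (P.under (𝓞 (fixF L H))).LiesOver (span {(p : ℤ)}) := inferInstance
  have e1 := card_stab hp hur P
  have e2 := card_stab_sub hp hur H P
  have e3 := inertiaDeg_tower (R := ℤ) (P.under (𝓞 (fixF L H))) P
  have e4 := pow_inertiaDeg p (P.under (𝓞 (fixF L H)))
  rw [← e4]
  have hpos : 0 < P.inertiaDeg (𝓞 (fixF L H)) := by rw [← e2]; exact Nat.card_pos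
  have e5 : (p ^ (P.under (𝓞 (fixF L H))).inertiaDeg ℤ = p) ↔
      (P.under (𝓞 (fixF L H))).inertiaDeg ℤ = 1 := by
    constructor
    · intro h
      exact Nat.pow_right_injective hp.two_le (by simpa using h)
    · intro h; rw [h, pow_one]
  rw [e5]
  have hcard : Nat.card (stabilizer H P) = Nat.card ↥(stabilizer Gal(L/ℚ) P ⊓ H) := by
    rw [stabilizer_sub, ← Subgroup.inf_subgroupOf_right]
    exact Nat.card_congr (Subgroup.subgroupOfEquivOfLe inf_le_right).toEquiv
  constructor
  · intro h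
    rw [inf_eq_left.mpr h, e1, e2, e3] at hcard
    have : (P.under (𝓞 (fixF L H))).inertiaDeg ℤ * P.inertiaDeg (𝓞 (fixF L H)) =
        1 * P.inertiaDeg (𝓞 (fixF L H)) := by rw [one_mul]; exact hcard.symm
    exact Nat.eq_of_mul_eq_mul_right hpos this
  · intro h
    rw [h, one_mul] at e3
    have hc : Nat.card ↥(stabilizer Gal(L/ℚ) P ⊓ H) = Nat.card (stabilizer Gal(L/ℚ) P) := by
      rw [← hcard, e1, e2, e3]
    have := Subgroup.eq_of_le_of_card_ge (inf_le_left : stabilizer Gal(L/ℚ) P ⊓ H ≤ _) hc.ge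
    exact inf_eq_left.mp this

variable (L p) in
/-- primes of `L` over `p` whose decomposition group lies in `H`. -/
abbrev DecIn (H : Subgroup Gal(L/ℚ)) : Type _ :=
  {P : Ideal (𝓞 L) // (P.IsPrime ∧ P.LiesOver (span {(p : ℤ)})) ∧ stabilizer Gal(L/ℚ) P ≤ H}

variable (L) in
include hp in
omit [IsGalois ℚ L] in
theorem finite_primes : Finite {P : Ideal (𝓞 L) // P.IsPrime ∧ P.LiesOver (span {(p : ℤ)})} := by
  have := isPrime_span hp
  exact (Algebra.QuasiFinite.finite_primesOver (S := 𝓞 L) (span {(p : ℤ)} : Ideal ℤ)).to_subtype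

include hp in
omit [IsGalois ℚ L] in
theorem finite_decIn (H : Subgroup Gal(L/ℚ)) : Finite (DecIn L p H) := by
  have := finite_primes L hp
  refine Finite.of_injective (β := {P : Ideal (𝓞 L) // P.IsPrime ∧ P.LiesOver (span {(p : ℤ)})})
    (fun P => ⟨P.1, P.2.1⟩) (fun P Q h => ?_)
  exact Subtype.ext (Subtype.mk.inj h)

theorem finite_idealNorm (K : Type*) [Field K] [NumberField K] (n : ℕ) :
    Finite {I : Ideal (𝓞 K) // absNorm I = n} := by
  exact (Ideal.finite_setOfPred_absNorm_eq (S := 𝓞 K) n).to_subtype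

include hp in
theorem liesOver_of_absNorm {K : Type*} [Field K] [NumberField K] {I : Ideal (𝓞 K)}
    (hI : absNorm I = p) : I.IsPrime ∧ I.LiesOver (span {(p : ℤ)}) := by
  have hIprime : I.IsPrime := isPrime_of_irreducible_absNorm (by rw [hI]; exact hp)
  have := isPrime_span hp
  refine ⟨hIprime, ⟨?_⟩⟩
  have hmax : (span {(p : ℤ)} : Ideal ℤ).IsMaximal :=
    Ideal.IsPrime.isMaximal inferInstance (span_ne_bot hp)
  refine hmax.eq_of_le ?_ ?_
  · exact (Ideal.IsPrime.under ℤ I).ne_top
  · rw [Ideal.span_singleton_le_iff_mem, Ideal.mem_comap]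
    have := absNorm_mem I
    rw [hI] at this
    simpa using this

include hp hur in
theorem card_mul_idealCount (H : Subgroup Gal(L/ℚ)) :
    Nat.card H * idealCount (fixF L H) p =
      inertiaDegIn (span {(p : ℤ)}) (𝓞 L) * Nat.card (DecIn L p H) := by
  have := isPrime_span hp
  have := finite_decIn (L := L) hp H
  have := finite_idealNorm (fixF L H) p
  let π : DecIn L p H → {I : Ideal (𝓞 (fixF L H)) // absNorm I = p} := fun P =>
    ⟨P.1.under _, by
      have := P.2.1.1
      have := P.2.1.2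
      exact (stab_le_iff hp hur H P.1).mp P.2.2⟩
  have hfib : ∀ I : {I : Ideal (𝓞 (fixF L H)) // absNorm I = p},
      inertiaDegIn (span {(p : ℤ)}) (𝓞 L) * Nat.card {y // π y = I} = Nat.card H := by
    intro I
    obtain ⟨hIprime, hIlo⟩ := liesOver_of_absNorm hp I.2
    obtain ⟨⟨P, hP⟩⟩ := (inferInstance : Nonempty (primesOver I.1 (𝓞 L)))
    have hP1 := hP.1
    have hP2 := hP.2
    have hP3 : P.LiesOver (span {(p : ℤ)}) := LiesOver.trans P I.1 _
    have hpf := perfectField_residueField I.1 (ne_bot_of_liesOver hp I.1)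
    have key := ncard_primesOver_mul_card_inertia_mul_finrank (G := H) I.1 P
    have h2 : Nat.card (inertia H P) = 1 := by
      rw [Subgroup.card_eq_one, eq_bot_iff]
      intro h hh
      have h3 : (h : Gal(L/ℚ)) ∈ inertia Gal(L/ℚ) P := hh
      rw [inertia_eq_bot hp hur P, Subgroup.mem_bot] at h3
      rw [Subgroup.mem_bot]
      exact Subtype.ext h3
    rw [h2, mul_one] at key
    have h4 : inertiaDegIn (span {(p : ℤ)}) (𝓞 L) = P.inertiaDeg (𝓞 (fixF L H)) := by
      rw [inertiaDegIn_eq_inertiaDeg (span {(p : ℤ)} : Ideal ℤ) P Gal(L/ℚ),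
        inertiaDeg_tower (R := ℤ) I.1 P]
      have e4 := pow_inertiaDeg p I.1
      rw [I.2] at e4
      have : I.1.inertiaDeg ℤ = 1 := Nat.pow_right_injective hp.two_le (by simpa using e4)
      rw [this, one_mul]
    rw [h4, mul_comm, ← key, ← Nat.card_coe_set_eq]
    congr 1
    refine Nat.card_congr
      { toFun := fun y => ⟨y.1.1, y.1.2.1.1, ⟨?_⟩⟩
        invFun := fun Q => ⟨⟨Q.1, ⟨Q.2.1, ?_⟩, ?_⟩, ?_⟩
        left_inv := fun y => rfl
        right_inv := fun y => rfl }
    · exact (congrArg Subtype.val y.2).symm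
    · have := Q.2.2
      exact LiesOver.trans Q.1 I.1 _
    · have := Q.2.1
      have := Q.2.2
      have : Q.1.LiesOver (span {(p : ℤ)}) := LiesOver.trans Q.1 I.1 _
      rw [stab_le_iff hp hur H Q.1]
      have h5 : Q.1.under (𝓞 (fixF L H)) = I.1 := (Ideal.over_def Q.1 I.1).symm
      rw [h5]
      exact I.2
    · have := Q.2.2
      exact Subtype.ext (Ideal.over_def Q.1 I.1).symm
  have := Fintype.ofFinite {I : Ideal (𝓞 (fixF L H)) // absNorm I = p}
  have hcard : Nat.card (DecIn L p H) =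
      ∑ I : {I : Ideal (𝓞 (fixF L H)) // absNorm I = p}, Nat.card {y // π y = I} := by
    rw [← Nat.card_sigma]
    exact Nat.card_congr (Equiv.sigmaFiberEquiv π).symm
  rw [hcard, Finset.mul_sum, Finset.sum_congr rfl (fun I _ => hfib I), Finset.sum_const,
    idealCount, Nat.card_eq_fintype_card (α := {I : Ideal (𝓞 (fixF L H)) // absNorm I = p}),
    smul_eq_mul, mul_comm, Finset.card_univ]

end Fermat.Agent.H25
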