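import Mathlib
import Fermat.Agent.H25.CountGalois

set_option autoImplicit false

namespace Fermat.Agent.H25

open NumberField Ideal MulAction
open scoped Pointwise

variable {L : Type*} [Field L] [NumberField L] [IsGalois ℚ L]
variable {p : ℕ} (hp : p.Prime) (hur : Algebra.IsUnramifiedIn (𝓞 L) (span {(p : ℤ)}))

include hp in
omit [IsGalois ℚ L] in
theorem card_under (P : Ideal (𝓞 L)) [P.LiesOver (span {(p : ℤ)})] :
    Nat.card (ℤ ⧸ P.under ℤ) = p := by
  rw [← Ideal.over_def P (span {(p : ℤ)})]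
  rw [Nat.card_congr (Int.quotientSpanEquivZMod (p : ℤ)).toEquiv]
  simp

include hp in
omit [IsGalois ℚ L] in
theorem pow_frob_apply (P : Ideal (𝓞 L)) [P.IsPrime] [P.LiesOver (span {(p : ℤ)})]
    (φ : Gal(L/ℚ)) (hφ : IsArithFrobAt ℤ φ P) (k : ℕ) (x : 𝓞 L) :
    (φ ^ k) • x - x ^ (p ^ k) ∈ P := by
  induction k generalizing x with
  | zero => simp
  | succ k ih =>
    have h1 := hφ ((φ ^ k) • x)
    rw [card_under hp P] at h1
    have h2 : (φ ^ (k + 1)) • x = φ • ((φ ^ k) • x) := by rw [pow_succ', mul_smul]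
    have h3 : ((φ ^ k) • x) ^ p - (x ^ (p ^ k)) ^ p ∈ P := by
      obtain ⟨c, hc⟩ := sub_dvd_pow_sub_pow ((φ ^ k) • x) (x ^ (p ^ k)) p
      rw [hc]; exact P.mul_mem_right _ (ih x)
    rw [h2, pow_succ p k, pow_mul]
    have := P.add_mem h1 h3
    simpa using this

include hp hur in
theorem frob_generates (P : Ideal (𝓞 L)) [P.IsPrime] [P.LiesOver (span {(p : ℤ)})]
    (φ : Gal(L/ℚ)) (hφ : IsArithFrobAt ℤ φ P) :
    stabilizer Gal(L/ℚ) P = Subgroup.zpowers φ := by
  symm
  have hmem : φ ∈ stabilizer Gal(L/ℚ) P := hφ.mem_stabilizer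
  refine Subgroup.eq_of_le_of_card_ge (by simpa using hmem) ?_
  rw [Nat.card_zpowers, card_stab hp hur P]
  set k := orderOf φ with hk
  have hkpos : 0 < k := orderOf_pos φ
  have hPbot := ne_bot_of_liesOver (p := p) hp P
  have hmax : P.IsMaximal := Ideal.IsPrime.isMaximal ‹_› hPbot
  let _ : Field (𝓞 L ⧸ P) := Ideal.Quotient.field P
  have hfin : Finite (𝓞 L ⧸ P) := Ideal.finiteQuotientOfFreeOfNeBot P hPbot
  have hroots : ∀ y : 𝓞 L ⧸ P, y ^ (p ^ k) = y := by
    intro y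
    obtain ⟨x, rfl⟩ := Ideal.Quotient.mk_surjective y
    have h := pow_frob_apply hp P φ hφ k x
    rw [hk, pow_orderOf_eq_one, one_smul, ← hk] at h
    rw [← map_pow]
    exact (Ideal.Quotient.eq.mpr h).symm
  have hcard : Nat.card (𝓞 L ⧸ P) ≤ p ^ k := by
    classical
    have := Fintype.ofFinite (𝓞 L ⧸ P)
    rw [Nat.card_eq_fintype_card]
    have h1 : 1 < p ^ k := Nat.one_lt_pow hkpos.ne' hp.one_lt
    have hne := FiniteField.X_pow_card_sub_X_ne_zero (𝓞 L ⧸ P) h1
    have hdeg := FiniteField.X_pow_card_sub_X_natDegree_eq (𝓞 L ⧸ P) h1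
    rw [← hdeg]
    calc Fintype.card (𝓞 L ⧸ P) = (Finset.univ : Finset (𝓞 L ⧸ P)).card := rfl
      _ ≤ (Polynomial.roots (Polynomial.X ^ (p ^ k) - Polynomial.X :
            Polynomial (𝓞 L ⧸ P))).toFinset.card := by
          apply Finset.card_le_card
          intro y _
          rw [Multiset.mem_toFinset, Polynomial.mem_roots hne]
          simp [Polynomial.IsRoot, hroots y]
      _ ≤ Multiset.card (Polynomial.roots (Polynomial.X ^ (p ^ k) - Polynomial.X :
            Polynomial (𝓞 L ⧸ P))) := Multiset.toFinset_card_le _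
      _ ≤ _ := Polynomial.card_roots' _
  have h5 := pow_inertiaDeg p P
  have h6 : absNorm P = Nat.card (𝓞 L ⧸ P) := by
    rw [absNorm_apply, Submodule.cardQuot_apply]
  rw [← h6, ← h5] at hcard
  exact (Nat.pow_le_pow_iff_right hp.one_lt).mp hcard

end Fermat.Agent.H25
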