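import Mathlib
import Fermat.Agent.H25.FrobGen

set_option autoImplicit false

namespace Fermat.Agent.H25

open NumberField Ideal MulAction
open scoped Pointwise ArithmeticFunction.Moebius

section group

variable {G : Type*} [Group G] [Finite G]

omit [Finite G] in
theorem mem_zpowers_pow_iff (σ : G) {d : ℕ} (hd : d ∣ orderOf σ) (k : ℤ) :
    σ ^ k ∈ Subgroup.zpowers (σ ^ d) ↔ (d : ℤ) ∣ k := by
  constructor
  · rintro ⟨j, hj⟩
    simp only at hj
    rw [← zpow_natCast, ← zpow_mul] at hj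
    have h1 : σ ^ ((d : ℤ) * j - k) = 1 := by rw [zpow_sub, hj, mul_inv_cancel]
    have h2 : (orderOf σ : ℤ) ∣ (d : ℤ) * j - k := orderOf_dvd_iff_zpow_eq_one.mpr h1
    have h3 : (d : ℤ) ∣ (d : ℤ) * j - k := dvd_trans (by exact_mod_cast hd) h2
    have h4 : (d : ℤ) ∣ (d : ℤ) * j := dvd_mul_right _ _
    have := dvd_sub h4 h3
    simpa using this
  · rintro ⟨j, rfl⟩
    exact ⟨j, by simp only; rw [← zpow_natCast, ← zpow_mul]⟩

open scoped Classical in
theorem moebius_sum (σ φ : G)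
    (h : ∑ d ∈ (orderOf σ).divisors, (μ d : ℤ) *
      (if φ ∈ Subgroup.zpowers (σ ^ d) then 1 else 0) ≠ 0) :
    Subgroup.zpowers φ = Subgroup.zpowers σ := by
  have hn : orderOf σ ≠ 0 := (orderOf_pos σ).ne'
  by_cases hφ : φ ∈ Subgroup.zpowers σ
  · obtain ⟨k, hk⟩ := hφ
    simp only at hk
    subst hk
    set g := Nat.gcd (orderOf σ) k.natAbs with hg
    have hg0 : g ≠ 0 := by
      rw [hg]; exact Nat.gcd_ne_zero_left hn
    have h1 : ∑ d ∈ (orderOf σ).divisors, (μ d : ℤ) *
        (if σ ^ k ∈ Subgroup.zpowers (σ ^ d) then 1 else 0) = ∑ d ∈ g.divisors, μ d := by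
      rw [← Finset.sum_subset (s₁ := g.divisors) (s₂ := (orderOf σ).divisors)]
      · refine Finset.sum_congr rfl fun d hd => ?_
        have hd1 : d ∣ orderOf σ := (Nat.dvd_of_mem_divisors hd).trans (Nat.gcd_dvd_left _ _)
        have hd2 : (d : ℤ) ∣ k := by
          rw [Int.natCast_dvd]
          exact (Nat.dvd_of_mem_divisors hd).trans (Nat.gcd_dvd_right _ _)
        rw [if_pos ((mem_zpowers_pow_iff σ hd1 k).mpr hd2), mul_one]
      · intro d hd
        rw [Nat.mem_divisors] at hd ⊢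
        exact ⟨hd.1.trans (Nat.gcd_dvd_left _ _), hn⟩
      · intro d hd hd'
        have hd1 : d ∣ orderOf σ := Nat.dvd_of_mem_divisors hd
        rw [if_neg, mul_zero]
        rw [mem_zpowers_pow_iff σ hd1 k]
        intro h3
        apply hd'
        rw [Nat.mem_divisors]
        exact ⟨Nat.dvd_gcd hd1 (Int.natCast_dvd.mp h3), hg0⟩
    rw [h1] at h
    have h2 : g = 1 := by
      by_contra hg1
      apply h
      have := DFunLike.congr_fun ArithmeticFunction.moebius_mul_coe_zeta g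
      rw [ArithmeticFunction.coe_mul_zeta_apply, ArithmeticFunction.one_apply_ne hg1] at this
      exact this
    have h3 : IsCoprime (orderOf σ : ℤ) k := by
      rw [Int.isCoprime_iff_gcd_eq_one, Int.gcd]
      simpa using h2
    obtain ⟨a, b, hab⟩ := h3
    apply le_antisymm
    · rw [Subgroup.zpowers_le]; exact ⟨k, rfl⟩
    · rw [Subgroup.zpowers_le]
      refine ⟨b, ?_⟩
      simp only
      rw [← zpow_mul]
      have : k * b = 1 - a * orderOf σ := by linarith
      rw [this, zpow_sub, zpow_one, mul_comm a, zpow_mul, zpow_natCast, pow_orderOf_eq_one,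
        one_zpow, inv_one, mul_one]
  · exfalso
    apply h
    refine Finset.sum_eq_zero fun d _ => ?_
    rw [if_neg, mul_zero]
    intro h1
    exact hφ ((Subgroup.zpowers_le (H := Subgroup.zpowers σ)).mpr
      (Subgroup.npow_mem_zpowers σ d) h1)

end group

variable {L : Type*} [Field L] [NumberField L] [IsGalois ℚ L]

/-- The coefficient of the combination of zeta functions. -/
noncomputable def bcoef (σ : Gal(L/ℚ)) (p : ℕ) : ℤ :=
  ∑ d ∈ (orderOf σ).divisors, (μ d : ℤ) * ((orderOf σ / d : ℕ) : ℤ) *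
    (idealCount (fixF L (Subgroup.zpowers (σ ^ d))) p : ℤ)

theorem exists_frob_of_bcoef_ne_zero (σ : Gal(L/ℚ)) {p : ℕ} (hp : p.Prime)
    (hur : Algebra.IsUnramifiedIn (𝓞 L) (span {(p : ℤ)})) (hb : bcoef σ p ≠ 0) :
    ∃ (P : Ideal (𝓞 L)) (φ : Gal(L/ℚ)), P.IsPrime ∧ P.LiesOver (span {(p : ℤ)}) ∧
      IsArithFrobAt ℤ φ P ∧ Subgroup.zpowers φ = Subgroup.zpowers σ := by
  classical
  let X := {P : Ideal (𝓞 L) // P.IsPrime ∧ P.LiesOver (span {(p : ℤ)})}
  have hX : Finite X := finite_primes L hp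
  have := Fintype.ofFinite X
  have hfrob : ∀ P : X, ∃ φ : Gal(L/ℚ), IsArithFrobAt ℤ φ P.1 := by
    intro P
    have h1 := P.2.1
    have h2 := P.2.2
    have : Finite (𝓞 L ⧸ P.1) := Ideal.finiteQuotientOfFreeOfNeBot P.1 (ne_bot_of_liesOver hp _)
    exact IsArithFrobAt.exists_of_isInvariant ℤ Gal(L/ℚ) P.1
  choose φ hφ using hfrob
  have hstab : ∀ P : X, stabilizer Gal(L/ℚ) P.1 = Subgroup.zpowers (φ P) := fun P => by
    have h1 := P.2.1
    have h2 := P.2.2
    exact frob_generates hp hur P.1 (φ P) (hφ P)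
  have hcardDec : ∀ H : Subgroup Gal(L/ℚ), (Nat.card (DecIn L p H) : ℤ) =
      ∑ P : X, if φ P ∈ H then 1 else 0 := by
    intro H
    have e : DecIn L p H ≃ {P : X // φ P ∈ H} :=
      { toFun := fun P => ⟨⟨P.1, P.2.1⟩, by
          have := P.2.2
          rw [hstab ⟨P.1, P.2.1⟩, Subgroup.zpowers_le] at this
          exact this⟩
        invFun := fun P => ⟨P.1.1, P.1.2, by
          rw [hstab P.1, Subgroup.zpowers_le]; exact P.2⟩
        left_inv := fun _ => rfl
        right_inv := fun _ => rfl }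
    rw [Nat.card_congr e, Nat.card_eq_fintype_card, Fintype.card_subtype, Finset.sum_boole]
  have hb2 : bcoef σ p = (inertiaDegIn (span {(p : ℤ)}) (𝓞 L) : ℤ) *
      ∑ P : X, ∑ d ∈ (orderOf σ).divisors, (μ d : ℤ) *
        (if φ P ∈ Subgroup.zpowers (σ ^ d) then 1 else 0) := by
    rw [bcoef, Finset.sum_comm, Finset.mul_sum]
    refine Finset.sum_congr rfl fun d hd => ?_
    have hdn := Nat.dvd_of_mem_divisors hd
    have hd0 : d ≠ 0 := (Nat.pos_of_mem_divisors hd).ne'
    have hc : Nat.card (Subgroup.zpowers (σ ^ d)) = orderOf σ / d := by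
      rw [Nat.card_zpowers, orderOf_pow_of_dvd hd0 hdn]
    have key := card_mul_idealCount hp hur (Subgroup.zpowers (σ ^ d))
    rw [hc] at key
    have key' : ((orderOf σ / d : ℕ) : ℤ) *
        (idealCount (fixF L (Subgroup.zpowers (σ ^ d))) p : ℤ) =
        (inertiaDegIn (span {(p : ℤ)}) (𝓞 L) : ℤ) *
          (Nat.card (DecIn L p (Subgroup.zpowers (σ ^ d))) : ℤ) := by exact_mod_cast key
    rw [mul_assoc, key', hcardDec, ← Finset.mul_sum]
    ring
  rw [hb2] at hb
  have h3 := right_ne_zero_of_mul hb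
  obtain ⟨P, _, hP⟩ := Finset.exists_ne_zero_of_sum_ne_zero h3
  exact ⟨P.1, φ P, P.2.1, P.2.2, hφ P, moebius_sum σ (φ P) hP⟩

end Fermat.Agent.H25
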