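import Mathlib
import Fermat.Agent.H25.IdealCount

set_option autoImplicit false

namespace Fermat.Agent.H25

open NumberField Ideal Filter Topology Asymptotics
open scoped nonZeroDivisors

variable (K : Type*) [Field K] [NumberField K]

/-- crude bound on number of ideals of norm `p ^ e`. -/
theorem idealCount_prime_pow_le {p : ℕ} (hp : p.Prime) (e : ℕ) :
    idealCount K (p ^ e) ≤ (e + 1) ^ Module.finrank ℚ K := by
  classical
  have hpr : (span {(p : ℤ)} : Ideal ℤ).IsPrime := by
    rw [Ideal.span_singleton_prime (by exact_mod_cast hp.ne_zero)]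
    exact Nat.prime_iff_prime_int.mp hp
  have hbot : (span {(p : ℤ)} : Ideal ℤ) ≠ ⊥ := by
    rw [Ne, Ideal.span_singleton_eq_bot]
    exact_mod_cast hp.ne_zero
  have hmax : (span {(p : ℤ)} : Ideal ℤ).IsMaximal := Ideal.IsPrime.isMaximal hpr hbot
  let S : Finset (Ideal (𝓞 K)) := IsDedekindDomain.primesOverFinset (span {(p : ℤ)}) (𝓞 K)
  have hS : S.card ≤ Module.finrank ℚ K := by
    exact Ideal.card_primesOverFinset_le_finrank (𝓞 K) ℚ K hbot
  -- the map
  have hne : ∀ I : {I : Ideal (𝓞 K) // absNorm I = p ^ e}, I.1 ≠ 0 := by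
    intro I h
    have := I.2
    rw [h, Submodule.zero_eq_bot, absNorm_bot] at this
    exact pow_ne_zero e hp.ne_zero this.symm
  have hdvd : ∀ I : {I : Ideal (𝓞 K) // absNorm I = p ^ e}, ∀ P : Ideal (𝓞 K),
      P ∈ UniqueFactorizationMonoid.normalizedFactors I.1 → P ∈ S := by
    intro I P hP
    have hPprime := UniqueFactorizationMonoid.prime_of_normalized_factor P hP
    have hPdvd := UniqueFactorizationMonoid.dvd_of_mem_normalizedFactors hP
    have hPp : P.IsPrime := Ideal.isPrime_of_prime hPprime
    rw [IsDedekindDomain.mem_primesOverFinset_iff hbot]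
    refine ⟨hPp, ⟨?_⟩⟩
    refine hmax.eq_of_le (Ideal.IsPrime.under ℤ P).ne_top ?_
    rw [Ideal.span_singleton_le_iff_mem, Ideal.mem_comap]
    have h1 : ((p ^ e : ℕ) : 𝓞 K) ∈ P := by
      have := absNorm_mem I.1
      rw [I.2] at this
      exact (Ideal.le_of_dvd hPdvd) this
    rw [Nat.cast_pow] at h1
    have := hPp.mem_of_pow_mem _ h1
    simpa using this
  have hcount : ∀ I : {I : Ideal (𝓞 K) // absNorm I = p ^ e}, ∀ P : Ideal (𝓞 K),
      Multiset.count P (UniqueFactorizationMonoid.normalizedFactors I.1) < e + 1 := by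
    intro I P
    by_cases hP : P ∈ UniqueFactorizationMonoid.normalizedFactors I.1
    · have hPprime := UniqueFactorizationMonoid.prime_of_normalized_factor P hP
      set k := Multiset.count P (UniqueFactorizationMonoid.normalizedFactors I.1) with hk
      have h1 : P ^ k ∣ I.1 := by
        have h2 : Multiset.replicate k P ≤ UniqueFactorizationMonoid.normalizedFactors I.1 :=
          Multiset.le_count_iff_replicate_le.mp le_rfl
        have h3 := Multiset.prod_dvd_prod_of_le h2
        rw [Multiset.prod_replicate] at h3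
        exact h3.trans (UniqueFactorizationMonoid.prod_normalizedFactors (hne I)).dvd
      have h4 : absNorm P ^ k ∣ p ^ e := by
        rw [← I.2, ← map_pow]
        exact map_dvd absNorm h1
      have h5 : 2 ≤ absNorm P := by
        have h6 : absNorm P ≠ 1 := by
          rw [Ne, absNorm_eq_one_iff]
          exact (Ideal.isPrime_of_prime hPprime).ne_top
        have h7 : absNorm P ≠ 0 := by
          rw [Ne, absNorm_eq_zero_iff]
          exact hPprime.ne_zero
        omega
      have h8 : absNorm P ∣ p ^ e := by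
        rw [← I.2]
        exact map_dvd absNorm (UniqueFactorizationMonoid.dvd_of_mem_normalizedFactors hP)
      obtain ⟨j, hj, hj2⟩ := (Nat.dvd_prime_pow hp).mp h8
      have hj0 : j ≠ 0 := by
        rintro rfl
        rw [pow_zero] at hj2
        omega
      rw [hj2, ← pow_mul] at h4
      have h9 := (Nat.pow_dvd_pow_iff_le_right hp.one_lt).mp h4
      have : k ≤ j * k := Nat.le_mul_of_pos_left k (Nat.pos_of_ne_zero hj0)
      omega
    · rw [Multiset.count_eq_zero_of_notMem hP]
      omega
  let F : {I : Ideal (𝓞 K) // absNorm I = p ^ e} → (S → Fin (e + 1)) := fun I P =>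
    ⟨Multiset.count P.1 (UniqueFactorizationMonoid.normalizedFactors I.1), hcount I P.1⟩
  have hF : Function.Injective F := by
    intro I J h
    apply Subtype.ext
    have h1 : UniqueFactorizationMonoid.normalizedFactors I.1 =
        UniqueFactorizationMonoid.normalizedFactors J.1 := by
      ext P
      by_cases hP : P ∈ S
      · have := congrArg Fin.val (congrFun h ⟨P, hP⟩)
        exact this
      · rw [Multiset.count_eq_zero_of_notMem (fun h => hP (hdvd I P h)),
          Multiset.count_eq_zero_of_notMem (fun h => hP (hdvd J P h))]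
    have h2 := UniqueFactorizationMonoid.prod_normalizedFactors (hne I)
    have h3 := UniqueFactorizationMonoid.prod_normalizedFactors (hne J)
    rw [h1] at h2
    exact associated_iff_eq.mp (h2.symm.trans h3)
  have h4 := Nat.card_le_card_of_injective F hF
  rw [idealCount]
  refine h4.trans ?_
  rw [Nat.card_fun, Nat.card_eq_fintype_card, Nat.card_eq_fintype_card, Fintype.card_fin,
    Fintype.card_coe]
  exact Nat.pow_le_pow_right (by omega) hS

theorem tendsto_sum_div :
    Tendsto (fun n : ℕ => (∑ k ∈ Finset.Icc 1 n, (idealCount K k : ℝ)) / (n : ℝ)) atTop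
      (𝓝 (dedekindZeta_residue K)) := by
  refine ((Ideal.tendsto_norm_le_div_atTop₀ K).comp tendsto_natCast_atTop_atTop).congr fun n ↦ ?_
  simp only [Function.comp_apply, Nat.cast_le, ← Nat.cast_sum, idealCount]
  congr
  rw [← add_left_inj 1, ← card_norm_le_eq_card_norm_le_add_one,
    show Finset.Icc 1 n = Finset.Ioc 0 n from Finset.Icc_succ_left_eq_Ioc _ _,
    show 1 = Nat.card {I : Ideal (𝓞 K) // absNorm I = 0} by simp [Ideal.absNorm_eq_zero_iff],
    Finset.sum_Ioc_add_eq_sum_Icc (n.zero_le),
    ← Finset.card_preimage_eq_sum_card_image_eq (fun k _ ↦ finite_setOfPred_absNorm_eq k)]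
  simp [Set.coe_eq_subtype]

theorem lseriesSummable {s : ℝ} (hs : 1 < s) :
    LSeriesSummable (fun n ↦ (((idealCount K n : ℕ) : ℝ) : ℂ)) (s : ℂ) := by
  refine LSeriesSummable_of_sum_norm_bigO_and_nonneg (r := 1) ?_ (fun n => Nat.cast_nonneg _)
    zero_le_one (by simpa using hs)
  refine Asymptotics.isBigO_atTop_natCast_rpow_of_tendsto_div_rpow (a := dedekindZeta_residue K) ?_
  simpa using tendsto_sum_div K

/-- the terms of the Dedekind zeta function at a real point -/
noncomputable def zterm (s : ℝ) (n : ℕ) : ℝ := if n = 0 then 0 else (idealCount K n : ℝ) / (n : ℝ) ^ s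

theorem term_eq (s : ℝ) (n : ℕ) :
    LSeries.term (fun n ↦ (((idealCount K n : ℕ) : ℝ) : ℂ)) (s : ℂ) n = ((zterm K s n : ℝ) : ℂ) := by
  rw [LSeries.term_def, zterm]
  split_ifs with h
  · simp
  · push_cast
    rw [Complex.ofReal_cpow (Nat.cast_nonneg n)]
    simp

theorem zterm_nonneg (s : ℝ) (n : ℕ) : 0 ≤ zterm K s n := by
  rw [zterm]; split_ifs
  · exact le_rfl
  · positivity

theorem summable_zterm {s : ℝ} (hs : 1 < s) : Summable (zterm K s) := by
  have h := lseriesSummable K hs
  rw [LSeriesSummable] at h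
  have h2 : (fun n => ((zterm K s n : ℝ) : ℂ)) =
      LSeries.term (fun n ↦ (((idealCount K n : ℕ) : ℝ) : ℂ)) (s : ℂ) := by
    funext n; exact (term_eq K s n).symm
  rw [← h2] at h
  exact Complex.summable_ofReal.mp h

/-- the real Dedekind zeta function -/
noncomputable def Zr (s : ℝ) : ℝ := ∑' n, zterm K s n

theorem tendsto_Zr : Tendsto (fun s : ℝ => (s - 1) * Zr K s) (𝓝[>] 1) (𝓝 (dedekindZeta_residue K)) := by
  have h := tendsto_sub_one_mul_dedekindZeta_nhdsGT K
  have h2 : ∀ s : ℝ, ((s : ℂ) - 1) * dedekindZeta K (s : ℂ) = (((s - 1) * Zr K s : ℝ) : ℂ) := by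
    intro s
    have h3 : dedekindZeta K (s : ℂ) = ((Zr K s : ℝ) : ℂ) := by
      rw [dedekindZeta, LSeries, Zr, Complex.ofReal_tsum]
      congr 1
      funext n
      rw [← term_eq]
      rfl
    rw [h3]; push_cast; ring
  simp_rw [h2] at h
  exact (Complex.continuous_re.tendsto _).comp h

theorem zterm_mul (s : ℝ) {m n : ℕ} (hmn : m.Coprime n) :
    zterm K s (m * n) = zterm K s m * zterm K s n := by
  by_cases hm : m = 0
  · simp [zterm, hm]
  by_cases hn : n = 0
  · simp [zterm, hn]
  rw [zterm, zterm, zterm, if_neg (mul_ne_zero hm hn), if_neg hm, if_neg hn,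
    idealCount_mul hmn hm hn]
  push_cast
  rw [Real.mul_rpow (Nat.cast_nonneg _) (Nat.cast_nonneg _)]
  field_simp

theorem zterm_one (s : ℝ) : zterm K s 1 = 1 := by
  simp [zterm, idealCount_one]

theorem hasProd_Zr {s : ℝ} (hs : 1 < s) :
    HasProd (fun p : Nat.Primes => ∑' e : ℕ, zterm K s ((p : ℕ) ^ e)) (Zr K s) :=
  EulerProduct.eulerProduct_hasProd (zterm_one K s) (zterm_mul K s)
    ((summable_zterm K hs).norm) (by simp [zterm])

end Fermat.Agent.H25
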