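import Mathlib
import Fermat.Agent.H25.ZetaLog

set_option autoImplicit false

namespace Fermat.Agent.H25

open NumberField Ideal Filter Topology Asymptotics

variable (K : Type*) [Field K] [NumberField K]

/-- constant -/
noncomputable def C0 : ℝ := ∑' e : ℕ, ((e : ℝ) + 3) ^ (Module.finrank ℚ K) * (1 / 2 : ℝ) ^ e

theorem summable_C0 : Summable fun e : ℕ =>
    ((e : ℝ) + 3) ^ (Module.finrank ℚ K) * (1 / 2 : ℝ) ^ e := by
  have h1 : Summable fun e : ℕ => (e : ℝ) ^ (Module.finrank ℚ K) * (1 / 2 : ℝ) ^ e :=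
    summable_pow_mul_geometric_of_norm_lt_one _ (by norm_num)
  have h2 := (summable_nat_add_iff 3).mpr h1
  have h3 := h2.mul_left (8 : ℝ)
  refine h3.congr fun e => ?_
  push_cast
  rw [pow_add]
  ring

theorem C0_nonneg : 0 ≤ C0 K := tsum_nonneg fun e => by positivity

theorem zterm_prime_pow_le {s : ℝ} (hs : 1 ≤ s) {p : ℕ} (hp : p.Prime) (e : ℕ) :
    zterm K s (p ^ e) ≤ ((e : ℝ) + 1) ^ (Module.finrank ℚ K) / (p : ℝ) ^ e := by
  have hp0 : (0 : ℝ) < p := by exact_mod_cast hp.pos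
  have hp1 : (1 : ℝ) ≤ p := by exact_mod_cast hp.one_lt.le
  rw [zterm, if_neg (pow_ne_zero e hp.ne_zero)]
  have h1 : (idealCount K (p ^ e) : ℝ) ≤ ((e : ℝ) + 1) ^ (Module.finrank ℚ K) := by
    exact_mod_cast idealCount_prime_pow_le K hp e
  have h2 : (p : ℝ) ^ e ≤ ((p ^ e : ℕ) : ℝ) ^ s := by
    push_cast
    calc (p : ℝ) ^ e = ((p : ℝ) ^ e) ^ (1 : ℝ) := (Real.rpow_one _).symm
      _ ≤ _ := Real.rpow_le_rpow_of_exponent_le (one_le_pow₀ hp1) hs
  have h3 : (0 : ℝ) < (p : ℝ) ^ e := by positivity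
  gcongr

theorem summable_zterm_pow {s : ℝ} (hs : 1 < s) {p : ℕ} (hp : p.Prime) :
    Summable fun e : ℕ => zterm K s (p ^ e) :=
  (summable_zterm K hs).comp_injective (Nat.pow_right_injective hp.two_le)

/-- the remainder -/
noncomputable def rem (s : ℝ) (p : ℕ) : ℝ := ∑' e : ℕ, zterm K s (p ^ (e + 2))

theorem rem_nonneg (s : ℝ) (p : ℕ) : 0 ≤ rem K s p := tsum_nonneg fun _ => zterm_nonneg K s _

theorem rem_le {s : ℝ} (hs : 1 < s) {p : ℕ} (hp : p.Prime) :
    rem K s p ≤ C0 K / (p : ℝ) ^ 2 := by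
  have hp0 : (0 : ℝ) < p := by exact_mod_cast hp.pos
  have hp2 : (2 : ℝ) ≤ p := by exact_mod_cast hp.two_le
  rw [rem, C0, ← tsum_div_const]
  refine Summable.tsum_le_tsum (fun e => ?_) ?_ ((summable_C0 K).div_const _)
  · refine (zterm_prime_pow_le K hs.le hp (e + 2)).trans ?_
    push_cast
    have h1 : ((e : ℝ) + 2 + 1) = (e : ℝ) + 3 := by ring
    rw [h1, pow_add (p : ℝ) e 2, div_mul_eq_div_div]
    have h2 : (1 / (p : ℝ) ^ e) ≤ (1 / 2 : ℝ) ^ e := by
      rw [one_div_pow]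
      gcongr
    have h3 : ((e : ℝ) + 3) ^ Module.finrank ℚ K / (p : ℝ) ^ e ≤
        ((e : ℝ) + 3) ^ Module.finrank ℚ K * (1 / 2 : ℝ) ^ e := by
      rw [div_eq_mul_one_div]
      exact mul_le_mul_of_nonneg_left h2 (by positivity)
    gcongr
  · exact (summable_nat_add_iff (f := fun e : ℕ => zterm K s (p ^ e)) 2).mpr
      (summable_zterm_pow K hs hp)

theorem tsum_zterm_pow {s : ℝ} (hs : 1 < s) {p : ℕ} (hp : p.Prime) :
    ∑' e : ℕ, zterm K s (p ^ e) = 1 + (zterm K s p + rem K s p) := by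
  have h : Summable (fun e : ℕ => zterm K s (p ^ e)) := summable_zterm_pow K hs hp
  have h2 := Summable.sum_add_tsum_nat_add 2 h
  rw [← h2, Finset.sum_range_succ, Finset.sum_range_one, pow_zero, pow_one, zterm_one, rem]
  ring

theorem zterm_prime_le {s : ℝ} (hs : 1 ≤ s) {p : ℕ} (hp : p.Prime) :
    zterm K s p ≤ (2 : ℝ) ^ (Module.finrank ℚ K) / (p : ℝ) := by
  have := zterm_prime_pow_le K hs hp 1
  norm_num at this
  exact this

/-- constant -/
noncomputable def C1 : ℝ := C0 K + ((2 : ℝ) ^ (Module.finrank ℚ K) + C0 K) ^ 2 / 2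

theorem abs_log_sub_le {s : ℝ} (hs : 1 < s) {p : ℕ} (hp : p.Prime) :
    |Real.log (∑' e : ℕ, zterm K s (p ^ e)) - zterm K s p| ≤ C1 K / (p : ℝ) ^ 2 := by
  have hp0 : (0 : ℝ) < p := by exact_mod_cast hp.pos
  have hp1 : (1 : ℝ) ≤ p := by exact_mod_cast hp.one_lt.le
  rw [tsum_zterm_pow K hs hp]
  set a := zterm K s p with ha
  set r := rem K s p with hr
  have ha0 : 0 ≤ a := zterm_nonneg K s p
  have hr0 : 0 ≤ r := rem_nonneg K s p
  have ha1 : a ≤ (2 : ℝ) ^ (Module.finrank ℚ K) / (p : ℝ) := zterm_prime_le K hs.le hp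
  have hr1 : r ≤ C0 K / (p : ℝ) ^ 2 := rem_le K hs hp
  have hr2 : r ≤ C0 K / (p : ℝ) := by
    refine hr1.trans ?_
    have := C0_nonneg K
    gcongr
    nlinarith
  have hx0 : 0 ≤ a + r := by positivity
  have hx1 : a + r ≤ ((2 : ℝ) ^ (Module.finrank ℚ K) + C0 K) / p := by
    rw [add_div]; linarith
  have hup : Real.log (1 + (a + r)) ≤ a + r := by
    have := Real.log_le_sub_one_of_pos (show 0 < 1 + (a + r) by linarith)
    linarith
  have hlo : (a + r) - (a + r) ^ 2 / 2 ≤ Real.log (1 + (a + r)) := by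
    have h1 := Real.le_log_one_add_of_nonneg hx0
    refine le_trans ?_ h1
    rw [le_div_iff₀ (by linarith)]
    nlinarith [pow_nonneg hx0 3]
  have hsq : (a + r) ^ 2 ≤ (((2 : ℝ) ^ (Module.finrank ℚ K) + C0 K)) ^ 2 / (p : ℝ) ^ 2 := by
    rw [← div_pow]
    exact pow_le_pow_left₀ hx0 hx1 2
  have hC : C1 K / (p : ℝ) ^ 2 = C0 K / (p : ℝ) ^ 2 +
      (((2 : ℝ) ^ (Module.finrank ℚ K) + C0 K)) ^ 2 / (p : ℝ) ^ 2 / 2 := by
    rw [C1]; ring
  rw [abs_le, hC]
  constructor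
  · have : 0 ≤ C0 K / (p : ℝ) ^ 2 := by have := C0_nonneg K; positivity
    linarith
  · have : 0 ≤ (((2 : ℝ) ^ (Module.finrank ℚ K) + C0 K)) ^ 2 / (p : ℝ) ^ 2 / 2 := by positivity
    linarith

theorem Zr_pos {s : ℝ} (hs : 1 < s) : 0 < Zr K s := by
  rw [Zr]
  exact (summable_zterm K hs).tsum_pos (fun n => zterm_nonneg K s n) 1 (by rw [zterm_one]; exact one_pos)

theorem hasSum_log {s : ℝ} (hs : 1 < s) :
    HasSum (fun p : Nat.Primes => Real.log (∑' e : ℕ, zterm K s ((p : ℕ) ^ e)))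
      (Real.log (Zr K s)) := by
  have h := hasProd_Zr K hs
  have hne : ∀ p : Nat.Primes, (∑' e : ℕ, zterm K s ((p : ℕ) ^ e)) ≠ 0 := by
    intro p
    rw [tsum_zterm_pow K hs p.2]
    have h1 := zterm_nonneg K s p
    have h2 := rem_nonneg K s p
    positivity
  have h3 := (Real.continuousAt_log (Zr_pos K hs).ne').tendsto.comp
    (show Tendsto (fun t : Finset Nat.Primes => ∏ b ∈ t, ∑' e : ℕ, zterm K s ((b : ℕ) ^ e))
      (SummationFilter.unconditional Nat.Primes).filter (𝓝 (Zr K s)) from h)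
  refine Tendsto.congr (fun t => ?_) h3
  simp only [Function.comp_apply]
  rw [Real.log_prod fun p _ => hne p]

theorem summable_zterm_primes {s : ℝ} (hs : 1 < s) :
    Summable fun p : Nat.Primes => zterm K s (p : ℕ) :=
  (summable_zterm K hs).comp_injective Nat.Primes.coe_nat_injective

/-- constant -/
noncomputable def C2 : ℝ := ∑' p : Nat.Primes, C1 K / ((p : ℕ) : ℝ) ^ 2

theorem summable_C2 : Summable fun p : Nat.Primes => C1 K / ((p : ℕ) : ℝ) ^ 2 := by
  have h : Summable fun p : Nat.Primes => ((p : ℕ) : ℝ) ^ (-2 : ℝ) :=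
    Nat.Primes.summable_rpow.mpr (by norm_num)
  refine (h.mul_left (C1 K)).congr fun p => ?_
  rw [Real.rpow_neg (Nat.cast_nonneg _), div_eq_mul_inv]
  norm_num

/-- the sum over primes -/
noncomputable def Pr (s : ℝ) : ℝ := ∑' p : Nat.Primes, zterm K s (p : ℕ)

theorem abs_log_Zr_sub_le {s : ℝ} (hs : 1 < s) : |Real.log (Zr K s) - Pr K s| ≤ C2 K := by
  have h1 := (hasSum_log K hs).sub (summable_zterm_primes K hs).hasSum
  rw [Pr, ← h1.tsum_eq]
  refine (Real.norm_eq_abs _).symm.trans_le ?_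
  exact tsum_of_norm_bounded (summable_C2 K).hasSum fun p => by
    rw [Real.norm_eq_abs]; exact abs_log_sub_le K hs p.2

theorem tendsto_log_one_div : Tendsto (fun s : ℝ => Real.log (1 / (s - 1))) (𝓝[>] 1) atTop := by
  have h1 : Tendsto (fun s : ℝ => s - 1) (𝓝[>] 1) (𝓝[>] 0) := by
    have : Tendsto (fun s : ℝ => s - 1) (𝓝 1) (𝓝 0) := by
      have : Continuous (fun s : ℝ => s - 1) := by fun_prop
      simpa using this.tendsto 1
    refine tendsto_nhdsWithin_iff.mpr ⟨this.mono_left nhdsWithin_le_nhds, ?_⟩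
    filter_upwards [self_mem_nhdsWithin] with s hs
    simp only [Set.mem_Ioi] at hs ⊢
    linarith
  have h2 := (tendsto_inv_nhdsGT_zero.comp h1)
  refine (Real.tendsto_log_atTop.comp h2).congr fun s => ?_
  simp [Function.comp_apply]

theorem tendsto_Pr_div :
    Tendsto (fun s : ℝ => Pr K s / Real.log (1 / (s - 1))) (𝓝[>] 1) (𝓝 1) := by
  have hκ : 0 < dedekindZeta_residue K := dedekindZeta_residue_pos K
  have h1 : Tendsto (fun s : ℝ => Real.log ((s - 1) * Zr K s)) (𝓝[>] 1)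
      (𝓝 (Real.log (dedekindZeta_residue K))) :=
    (Real.continuousAt_log hκ.ne').tendsto.comp (tendsto_Zr K)
  have h2 : Tendsto (fun s : ℝ => Real.log ((s - 1) * Zr K s) / Real.log (1 / (s - 1))) (𝓝[>] 1)
      (𝓝 0) := h1.div_atTop tendsto_log_one_div
  have h3 : Tendsto (fun s : ℝ => (Pr K s - Real.log (Zr K s)) / Real.log (1 / (s - 1))) (𝓝[>] 1)
      (𝓝 0) := by
    have h4 : Tendsto (fun s : ℝ => C2 K / Real.log (1 / (s - 1))) (𝓝[>] 1) (𝓝 0) :=
      tendsto_const_nhds.div_atTop tendsto_log_one_div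
    refine squeeze_zero_norm' ?_ h4
    filter_upwards [self_mem_nhdsWithin, tendsto_log_one_div.eventually_gt_atTop 0] with s hs hs2
    rw [Real.norm_eq_abs, abs_div, abs_of_pos hs2, abs_sub_comm]
    have := abs_log_Zr_sub_le K (show 1 < s from hs)
    gcongr
  have h5 := (h2.add h3).add (tendsto_const_nhds (x := (1 : ℝ)))
  rw [zero_add, zero_add] at h5
  refine h5.congr' ?_
  filter_upwards [self_mem_nhdsWithin, tendsto_log_one_div.eventually_gt_atTop 0] with s hs hs2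
  have hs' : 0 < s - 1 := by simp only [Set.mem_Ioi] at hs; linarith
  rw [Real.log_mul hs'.ne' (Zr_pos K hs).ne']
  have h6 : Real.log (s - 1) = - Real.log (1 / (s - 1)) := by
    rw [one_div, Real.log_inv, neg_neg]
  rw [h6]
  field_simp
  ring

end Fermat.Agent.H25
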