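import Mathlib
import Fermat.Agent.H25.ZetaLog2
import Fermat.Agent.H25.Moebius

set_option autoImplicit false

namespace Fermat.Agent.H25

open NumberField Ideal Filter Topology Asymptotics MulAction
open scoped ArithmeticFunction.Moebius

variable {L : Type*} [Field L] [NumberField L] [IsGalois ℚ L]

theorem sum_moebius_mul_div (n : ℕ) (hn : 0 < n) :
    ∑ d ∈ n.divisors, (μ d : ℤ) * ((n / d : ℕ) : ℤ) = (Nat.totient n : ℤ) := by
  have h := (ArithmeticFunction.sum_eq_iff_sum_mul_moebius_eq (R := ℤ)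
    (f := fun n => (Nat.totient n : ℤ)) (g := fun n => (n : ℤ))).mp
    (fun m _ => by exact_mod_cast Nat.sum_totient m) n hn
  simp only [Int.cast_id] at h
  rw [← h, Nat.sum_divisorsAntidiagonal (f := fun a b => (μ a : ℤ) * (b : ℤ))]

theorem exists_frobenius_finite (σ : Gal(L/ℚ)) (T : Finset ℕ) :
    ∃ p : ℕ, p.Prime ∧ p ∉ T ∧ Algebra.IsUnramifiedIn (𝓞 L) (span {(p : ℤ)}) ∧
    ∃ (P : Ideal (𝓞 L)) (φ : Gal(L/ℚ)), P.IsPrime ∧ P.LiesOver (span {(p : ℤ)}) ∧
      IsArithFrobAt ℤ φ P ∧ Subgroup.zpowers φ = Subgroup.zpowers σ := by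
  classical
  by_contra hcon
  set n := orderOf σ with hn
  have hnpos : 0 < n := orderOf_pos σ
  let T' : Finset ℕ := T ∪ (discr L).natAbs.divisors
  have hzero : ∀ p : ℕ, p.Prime → p ∉ T' → bcoef σ p = 0 := by
    intro p hp hpT
    rw [Finset.mem_union, not_or] at hpT
    have hdisc : ¬ (p : ℤ) ∣ discr L := by
      intro h
      apply hpT.2
      rw [Nat.mem_divisors]
      exact ⟨Int.natCast_dvd.mp h, Int.natAbs_ne_zero.mpr (discr_ne_zero L)⟩
    have hur : Algebra.IsUnramifiedIn (𝓞 L) (span {(p : ℤ)}) :=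
      (not_dvd_discr_iff_isUnramifiedIn L (𝓞 L) (Nat.prime_iff_prime_int.mp hp)).mp hdisc
    by_contra hb
    exact hcon ⟨p, hp, hpT.1, hur, exists_frob_of_bcoef_ne_zero σ hp hur hb⟩
  let c : ℕ → ℝ := fun d => ((μ d : ℤ) : ℝ) * ((n / d : ℕ) : ℝ)
  let B : ℝ → ℝ := fun s => ∑ d ∈ n.divisors, c d * Pr (fixF L (Subgroup.zpowers (σ ^ d))) s
  have hB1 : Tendsto (fun s : ℝ => B s / Real.log (1 / (s - 1))) (𝓝[>] 1)
      (𝓝 (Nat.totient n : ℝ)) := by
    have h1 : Tendsto (fun s : ℝ => ∑ d ∈ n.divisors,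
        c d * (Pr (fixF L (Subgroup.zpowers (σ ^ d))) s / Real.log (1 / (s - 1)))) (𝓝[>] 1)
        (𝓝 (∑ d ∈ n.divisors, c d * 1)) :=
      tendsto_finsetSum _ fun d _ => (tendsto_Pr_div _).const_mul (c d)
    have h2 : ∑ d ∈ n.divisors, c d * 1 = (Nat.totient n : ℝ) := by
      have := congrArg (fun z : ℤ => (z : ℝ)) (sum_moebius_mul_div n hnpos)
      simp only [mul_one, c]
      simp only [Int.cast_sum, Int.cast_mul, Int.cast_natCast] at this
      exact this
    rw [h2] at h1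
    refine h1.congr fun s => ?_
    simp only [B]
    rw [Finset.sum_div]
    exact Finset.sum_congr rfl fun d _ => by ring
  have hB2 : ∀ s : ℝ, 1 < s → |B s| ≤ ∑ p ∈ T', |(bcoef σ p : ℝ)| := by
    intro s hs
    have h1 : HasSum (fun p : Nat.Primes => ∑ d ∈ n.divisors,
        c d * zterm (fixF L (Subgroup.zpowers (σ ^ d))) s (p : ℕ)) (B s) :=
      hasSum_sum fun d _ => ((summable_zterm_primes _ hs).hasSum).mul_left (c d)
    have h2 : ∀ p : Nat.Primes, ∑ d ∈ n.divisors,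
        c d * zterm (fixF L (Subgroup.zpowers (σ ^ d))) s (p : ℕ) =
          (bcoef σ p : ℝ) / ((p : ℕ) : ℝ) ^ s := by
      intro p
      rw [bcoef]
      simp only [Int.cast_sum, Int.cast_mul, Int.cast_natCast]
      rw [Finset.sum_div]
      refine Finset.sum_congr rfl fun d _ => ?_
      rw [zterm, if_neg p.2.ne_zero]
      simp only [c]
      ring
    simp_rw [h2] at h1
    let T'' : Finset Nat.Primes := T'.preimage (fun p : Nat.Primes => (p : ℕ))
      Nat.Primes.coe_nat_injective.injOn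
    have h3 : HasSum (fun p : Nat.Primes => (bcoef σ p : ℝ) / ((p : ℕ) : ℝ) ^ s)
        (∑ p ∈ T'', (bcoef σ p : ℝ) / ((p : ℕ) : ℝ) ^ s) := by
      refine hasSum_sum_of_ne_finset_zero fun p hp => ?_
      rw [hzero p p.2 (fun h => hp (Finset.mem_preimage.mpr h)), Int.cast_zero, zero_div]
    rw [h1.unique h3]
    refine (Finset.abs_sum_le_sum_abs _ _).trans ?_
    have h4 : ∑ p ∈ T'', |(bcoef σ p : ℝ) / ((p : ℕ) : ℝ) ^ s| ≤
        ∑ p ∈ T'', |(bcoef σ (p : ℕ) : ℝ)| := by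
      refine Finset.sum_le_sum fun p _ => ?_
      rw [abs_div]
      have hp1 : (1 : ℝ) ≤ ((p : ℕ) : ℝ) ^ s := by
        exact Real.one_le_rpow (by exact_mod_cast p.2.one_lt.le) (by linarith)
      rw [abs_of_pos (lt_of_lt_of_le one_pos hp1)]
      exact div_le_self (abs_nonneg _) hp1
    refine h4.trans ?_
    rw [← Finset.sum_image (f := fun p : ℕ => |(bcoef σ p : ℝ)|) (g := fun p : Nat.Primes => (p : ℕ))
      Nat.Primes.coe_nat_injective.injOn]
    refine Finset.sum_le_sum_of_subset_of_nonneg ?_ (fun _ _ _ => abs_nonneg _)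
    intro p hp
    obtain ⟨q, hq, rfl⟩ := Finset.mem_image.mp hp
    exact Finset.mem_preimage.mp hq
  have hB3 : Tendsto (fun s : ℝ => B s / Real.log (1 / (s - 1))) (𝓝[>] 1) (𝓝 0) := by
    have h4 : Tendsto (fun s : ℝ => (∑ p ∈ T', |(bcoef σ p : ℝ)|) / Real.log (1 / (s - 1)))
        (𝓝[>] 1) (𝓝 0) := tendsto_const_nhds.div_atTop tendsto_log_one_div
    refine squeeze_zero_norm' ?_ h4
    filter_upwards [self_mem_nhdsWithin, tendsto_log_one_div.eventually_gt_atTop 0] with s hs hs2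
    rw [Real.norm_eq_abs, abs_div, abs_of_pos hs2]
    have := hB2 s hs
    gcongr
  have h6 := tendsto_nhds_unique hB1 hB3
  have h7 : (0 : ℝ) < (Nat.totient n : ℝ) := by exact_mod_cast Nat.totient_pos.mpr hnpos
  linarith

end Fermat.Agent.H25
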