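import Mathlib
import Fermat.Agent.H25.FiniteDensity
import Fermat.Agent.H25.FrobGen
import Fermat.Agent.H05_Unram

set_option autoImplicit false

namespace Fermat.Agent.H25

open NumberField Ideal MulAction
open scoped Pointwise

section General

variable {L : Type*} [Field L] [CharZero L]

/-- Inclusion of the ring of integers of a subfield into the ring of all algebraic integers. -/
noncomputable def inclInt (E : IntermediateField ℚ L) : 𝓞 E →+* integralClosure ℤ L where
  toFun x := ⟨((x : E) : L), by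
    have h1 : IsIntegral ℤ (x : E) := x.isIntegral_coe
    exact h1.map (E.val.restrictScalars ℤ)⟩
  map_one' := rfl
  map_zero' := rfl
  map_add' x y := rfl
  map_mul' x y := rfl

theorem inclInt_coe (E : IntermediateField ℚ L) (x : 𝓞 E) :
    ((inclInt E x : integralClosure ℤ L) : L) = ((x : E) : L) := rfl

theorem inclInt_smul (E : IntermediateField ℚ L) [Normal ℚ E] (σ : L ≃ₐ[ℚ] L) (x : 𝓞 E) :
    inclInt E ((AlgEquiv.restrictNormalHom E σ) • x) = σ • inclInt E x := by
  apply Subtype.ext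
  rw [inclInt_coe]
  have h := AlgEquiv.restrictNormal_commutes σ E (x : E)
  exact h

/-- The prime of `𝓞 E` below a place of `L`. -/
noncomputable def placeUnder (E : IntermediateField ℚ L) (A : ValuationSubring L) :
    Ideal (𝓞 E) := (Fermat.Agent.H05.center A).comap (inclInt E)

theorem mem_placeUnder (E : IntermediateField ℚ L) (A : ValuationSubring L) (x : 𝓞 E) :
    x ∈ placeUnder E A ↔ inclInt E x ∈ Fermat.Agent.H05.center A := Iff.rfl

instance instPlaceUnderIsPrime (E : IntermediateField ℚ L) (A : ValuationSubring L) :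
    (placeUnder E A).IsPrime :=
  Ideal.IsPrime.comap _

theorem placeUnder_under (E : IntermediateField ℚ L) {A : ValuationSubring L} {p : ℕ}
    (hp : p.Prime) (hA : A.LiesOverPrime p) :
    (placeUnder E A).under ℤ = span {(p : ℤ)} := by
  rw [← Fermat.Agent.H05.center_under hp hA]
  ext c
  have h1 : inclInt E (algebraMap ℤ (𝓞 E) c) = algebraMap ℤ (integralClosure ℤ L) c := by
    rw [← RingHom.comp_apply]
    exact RingHom.congr_fun (Subsingleton.elim _ _) c
  rw [Ideal.under, Ideal.under, Ideal.mem_comap, Ideal.mem_comap, mem_placeUnder, h1]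

theorem placeUnder_smul (E : IntermediateField ℚ L) [Normal ℚ E] (A : ValuationSubring L)
    (g : L ≃ₐ[ℚ] L) :
    placeUnder E (g • A) = (AlgEquiv.restrictNormalHom E g) • placeUnder E A := by
  ext x
  rw [Ideal.mem_pointwise_smul_iff_inv_smul_mem, mem_placeUnder, mem_placeUnder,
    Fermat.Agent.H05.mem_center_smul_iff, ← map_inv, inclInt_smul]

theorem isArithFrobAt_placeUnder (E : IntermediateField ℚ L) [Normal ℚ E] [NumberField E]
    {A : ValuationSubring L} {p : ℕ}
    (hp : p.Prime) (hA : A.LiesOverPrime p) {φ : L ≃ₐ[ℚ] L} (hφ : A.IsFrobeniusAt φ p) :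
    IsArithFrobAt ℤ (AlgEquiv.restrictNormalHom E φ) (placeUnder E A) := by
  intro x
  have : (placeUnder E A).LiesOver (span {(p : ℤ)}) := ⟨(placeUnder_under E hp hA).symm⟩
  rw [card_under hp (placeUnder E A), mem_placeUnder, map_sub]
  obtain ⟨h1, h2⟩ := hφ
  have h3 := h2 (IsLocalRing.residue A (Fermat.Agent.H05.toA A (inclInt E x)))
  rw [← map_pow, ← map_pow] at h3
  have h4 : IsLocalRing.residue A (Fermat.Agent.H05.toA A (φ • (inclInt E x))) =
      IsLocalRing.residue A (Fermat.Agent.H05.toA A (inclInt E x ^ p)) := h3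
  rw [← sub_eq_zero, ← map_sub, ← map_sub, IsLocalRing.residue_eq_zero_iff] at h4
  rw [map_pow]
  have h5 : φ • (inclInt E x) - inclInt E x ^ p ∈ Fermat.Agent.H05.center A := h4
  have h6 : inclInt E ((MulSemiringAction.toAlgHom ℤ (𝓞 E)
      (AlgEquiv.restrictNormalHom E φ)) x) = φ • inclInt E x := inclInt_smul E φ x
  rw [h6]
  exact h5

theorem exists_frobenius_aux [IsGalois ℚ L] (E : IntermediateField ℚ L) [Normal ℚ E]
    [FiniteDimensional ℚ E] (T : Finset ℕ) (σ : L ≃ₐ[ℚ] L) :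
    ∃ (ℓ : ℕ) (_ : ℓ.Prime) (_ : ℓ ∉ T) (A : ValuationSubring L)
      (_ : A.LiesOverPrime ℓ) (φ : L ≃ₐ[ℚ] L) (_ : A.IsFrobeniusAt φ ℓ) (m n : ℕ),
      (∀ x ∈ E, φ x = (σ ^ m) x) ∧ (∀ x ∈ E, σ x = (φ ^ n) x) := by
  classical
  have hEg : IsGalois ℚ E := ⟨⟩
  have hEN : NumberField E := { to_charZero := inferInstance, to_finiteDimensional := inferInstance }
  obtain ⟨p, hp, hpT, hur, P, φE, hPp, hPo, hφE, hgen⟩ :=
    exists_frobenius_finite (AlgEquiv.restrictNormalHom E σ) T
  obtain ⟨A0, hA0⟩ := Fermat.Agent.H05.exists_liesOverPrime L hp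
  obtain ⟨g, hg⟩ := Algebra.IsInvariant.exists_smul_of_under_eq ℤ (𝓞 E) Gal(E/ℚ)
    (placeUnder E A0) P
    (by rw [placeUnder_under E hp hA0, ← Ideal.over_def P (span {(p : ℤ)})])
  obtain ⟨g', rfl⟩ := AlgEquiv.restrictNormalHom_surjective (F := ℚ) (K₁ := E) L g
  obtain ⟨A, rfl⟩ : ∃ A, A = g' • A0 := ⟨_, rfl⟩
  have hA : (g' • A0).LiesOverPrime p :=
    (Fermat.Agent.H05.liesOverPrime_smul_iff g' A0 p).mpr hA0
  rw [← placeUnder_smul] at hg
  subst hg
  obtain ⟨φ, hφ⟩ := Fermat.Agent.H05.exists_isFrobeniusAt hp hA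
  have hφP := isArithFrobAt_placeUnder E hp hA hφ
  have heq : AlgEquiv.restrictNormalHom E φ = φE := by
    have h1 := hφP.mul_inv_mem_inertia hφE
    rw [inertia_eq_bot hp hur (placeUnder E (g' • A0)), Subgroup.mem_bot, mul_inv_eq_one] at h1
    exact h1
  have h1 : φE ∈ Subgroup.zpowers (AlgEquiv.restrictNormalHom E σ) := by
    rw [← hgen]; exact Subgroup.mem_zpowers _
  have h2 : AlgEquiv.restrictNormalHom E σ ∈ Subgroup.zpowers φE := by
    rw [hgen]; exact Subgroup.mem_zpowers _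
  rw [(isOfFinOrder_of_finite _).mem_zpowers_iff_mem_range_orderOf] at h1 h2
  obtain ⟨m, -, hm⟩ := Finset.mem_image.mp h1
  obtain ⟨n, -, hn⟩ := Finset.mem_image.mp h2
  refine ⟨p, hp, hpT, g' • A0, hA, φ, hφ, m, n, ?_, ?_⟩
  · intro x hx
    have h3 : AlgEquiv.restrictNormalHom E φ = AlgEquiv.restrictNormalHom E (σ ^ m) := by
      rw [heq, map_pow]; exact hm.symm
    have h4 := AlgEquiv.restrictNormal_commutes φ E ⟨x, hx⟩
    have h5 := AlgEquiv.restrictNormal_commutes (σ ^ m) E ⟨x, hx⟩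
    have h6 : φ.restrictNormal E = (σ ^ m).restrictNormal E := h3
    rw [h6] at h4
    exact h4.symm.trans h5
  · intro x hx
    have h3 : AlgEquiv.restrictNormalHom E σ = AlgEquiv.restrictNormalHom E (φ ^ n) := by
      rw [map_pow, heq]; exact hn.symm
    have h4 := AlgEquiv.restrictNormal_commutes σ E ⟨x, hx⟩
    have h5 := AlgEquiv.restrictNormal_commutes (φ ^ n) E ⟨x, hx⟩
    have h6 : σ.restrictNormal E = (φ ^ n).restrictNormal E := h3
    rw [h6] at h4
    exact h4.symm.trans h5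

end General

/-- **Frobenius density theorem**: every element of a finite quotient of the absolute Galois group
of `ℚ` generates the same subgroup as a Frobenius element at a prime outside a given finite
set. -/
theorem exists_frobenius (F : IntermediateField ℚ (AlgebraicClosure ℚ)) [FiniteDimensional ℚ F]
    (T : Finset ℕ) (σ : AlgebraicClosure ℚ ≃ₐ[ℚ] AlgebraicClosure ℚ) :
    ∃ (ℓ : ℕ) (_ : ℓ.Prime) (_ : ℓ ∉ T) (A : ValuationSubring (AlgebraicClosure ℚ))
      (_ : A.LiesOverPrime ℓ) (φ : AlgebraicClosure ℚ ≃ₐ[ℚ] AlgebraicClosure ℚ)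
      (_ : A.IsFrobeniusAt φ ℓ) (m n : ℕ),
      (∀ x ∈ F, φ x = (σ ^ m) x) ∧ (∀ x ∈ F, σ x = (φ ^ n) x) := by
  have hnc : Normal ℚ (AlgebraicClosure ℚ) := IsAlgClosure.normal ℚ (AlgebraicClosure ℚ)
  have hg : IsGalois ℚ (AlgebraicClosure ℚ) := ⟨⟩
  let E : IntermediateField ℚ (AlgebraicClosure ℚ) :=
    IntermediateField.normalClosure ℚ F (AlgebraicClosure ℚ)
  have hFE : F ≤ E := F.le_normalClosure
  have hEn : Normal ℚ E := normalClosure.normal ℚ F (AlgebraicClosure ℚ)
  have hEf : FiniteDimensional ℚ E :=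
    normalClosure.is_finiteDimensional ℚ F (AlgebraicClosure ℚ)
  obtain ⟨ℓ, h1, h2, A, h3, φ, h4, m, n, h5, h6⟩ := exists_frobenius_aux E T σ
  exact ⟨ℓ, h1, h2, A, h3, φ, h4, m, n, fun x hx => h5 x (hFE hx), fun x hx => h6 x (hFE hx)⟩

theorem weakChebotarev : Fermat.Agent.H05.WeakChebotarev := by
  intro F hF S σ
  obtain ⟨ℓ, h1, h2, A, h3, φ, h4, m, n, h5, h6⟩ := exists_frobenius F S σ
  exact ⟨ℓ, h1, h2, A, h3, φ, h4, n, h6⟩

end Fermat.Agent.H25
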