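import Mathlib

set_option autoImplicit false

namespace Fermat.Agent.H25

open MonoidAlgebra

/-- Two-dimensional pseudocharacters. -/
structure IsPseudo2 {R G : Type*} [CommRing R] [Group G] (t : G → R) : Prop where
  one : t 1 = 2
  comm : ∀ g h, t (g * h) = t (h * g)
  tri : ∀ g h k, t g * t h * t k - t g * t (h * k) - t h * t (g * k) - t k * t (g * h)
    + t (g * h * k) + t (g * k * h) = 0

variable {K : Type*} [Field K] {G : Type*} [Group G]

/-- Linear extension of a function on the group to the group algebra. -/
noncomputable def linT (t : G → K) : MonoidAlgebra K G →ₗ[K] K :=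
  (Finsupp.linearCombination K t).comp (MonoidAlgebra.coeffLinearEquiv (S := K) K).toLinearMap

theorem linT_of (t : G → K) (g : G) : linT t (MonoidAlgebra.of K G g) = t g := by
  simp [linT, MonoidAlgebra.coeffLinearEquiv, MonoidAlgebra.of_apply]

variable {t : G → K}

theorem linT_comm (ht : IsPseudo2 t) (x y : MonoidAlgebra K G) :
    linT t (x * y) = linT t (y * x) := by
  induction x using MonoidAlgebra.induction_on with
  | of g =>
    induction y using MonoidAlgebra.induction_on with
    | of h => rw [← map_mul, ← map_mul, linT_of, linT_of, ht.comm]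
    | add x y hx hy => rw [mul_add, add_mul, map_add, map_add, hx, hy]
    | smul r x hx => rw [mul_smul_comm, smul_mul_assoc, map_smul, map_smul, hx]
  | add x y hx hy => rw [mul_add, add_mul, map_add, map_add, hx, hy]
  | smul r x hx => rw [mul_smul_comm, smul_mul_assoc, map_smul, map_smul, hx]

theorem linT_tri (ht : IsPseudo2 t) (x y z : MonoidAlgebra K G) :
    linT t x * linT t y * linT t z - linT t x * linT t (y * z) - linT t y * linT t (x * z)
      - linT t z * linT t (x * y) + linT t (x * y * z) + linT t (x * z * y) = 0 := by
  induction x using MonoidAlgebra.induction_on with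
  | of g =>
    induction y using MonoidAlgebra.induction_on with
    | of h =>
      induction z using MonoidAlgebra.induction_on with
      | of k => simp only [← map_mul, linT_of]; exact ht.tri g h k
      | add x y hx hy =>
        simp only [mul_add, add_mul, map_add]
        linear_combination hx + hy
      | smul r x hx =>
        simp only [mul_smul_comm, smul_mul_assoc, map_smul, smul_eq_mul]
        linear_combination r * hx
    | add x y hx hy =>
      simp only [mul_add, add_mul, map_add]
      linear_combination hx + hy
    | smul r x hx =>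
      simp only [mul_smul_comm, smul_mul_assoc, map_smul, smul_eq_mul]
      linear_combination r * hx
  | add x y hx hy =>
    simp only [add_mul, map_add]
    linear_combination hx + hy
  | smul r x hx =>
    simp only [smul_mul_assoc, map_smul, smul_eq_mul]
    linear_combination r * hx

theorem linT_corner (ht : IsPseudo2 t) {e : MonoidAlgebra K G} (he : e * e = e)
    (h1 : linT t e = 1) (x y : MonoidAlgebra K G) :
    linT t (e * x * e * y) = linT t (e * x) * linT t (e * y) := by
  have h := linT_tri ht e (e * x * e) (e * y * e)
  have e1 : linT t (e * x * e) = linT t (e * x) := by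
    rw [linT_comm ht, ← mul_assoc, he]
  have e2 : linT t (e * y * e) = linT t (e * y) := by
    rw [linT_comm ht, ← mul_assoc, he]
  have e3 : e * (e * x * e) = e * x * e := by rw [← mul_assoc, ← mul_assoc, he]
  have e4 : e * (e * y * e) = e * y * e := by rw [← mul_assoc, ← mul_assoc, he]
  have e5 : linT t (e * x * e * (e * y * e)) = linT t (e * x * e * y) := by
    rw [← mul_assoc, linT_comm ht]
    congr 1
    simp only [← mul_assoc, he]
    rw [mul_assoc (e * x) e e, he]
  have e6 : linT t (e * y * e * (e * x * e)) = linT t (e * x * e * y) := by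
    rw [linT_comm ht, e5]
  rw [e3, e4, h1, e1, e2, e5, e6] at h
  linear_combination h

section Construction

variable (K) in
/-- The idempotent `(1 + c) / 2`. -/
noncomputable def idemP (c : G) : MonoidAlgebra K G :=
  (2⁻¹ : K) • (1 + MonoidAlgebra.of K G c)

variable (K) in
/-- The idempotent `(1 - c) / 2`. -/
noncomputable def idemM (c : G) : MonoidAlgebra K G :=
  (2⁻¹ : K) • (1 - MonoidAlgebra.of K G c)

variable [NeZero (2 : K)] {c : G} (hc : c * c = 1)

omit [NeZero (2 : K)] in
include hc in
theorem of_c_mul_self : (MonoidAlgebra.of K G c) * (MonoidAlgebra.of K G c) = 1 := by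
  rw [← map_mul, hc, map_one]

include hc in
theorem idemP_mul_self : idemP K c * idemP K c = idemP K c := by
  have h2 : (2 : K) ≠ 0 := NeZero.ne 2
  rw [idemP, smul_mul_smul_comm, mul_add, mul_one, add_mul, one_mul, of_c_mul_self hc]
  have : (1 : MonoidAlgebra K G) + MonoidAlgebra.of K G c + (MonoidAlgebra.of K G c + 1) =
    (2 : K) • (1 + MonoidAlgebra.of K G c) := by rw [two_smul]; abel
  rw [this, smul_smul]
  congr 1
  field_simp

include hc in
theorem idemM_mul_self : idemM K c * idemM K c = idemM K c := by
  have h2 : (2 : K) ≠ 0 := NeZero.ne 2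
  rw [idemM, smul_mul_smul_comm, mul_sub, mul_one, sub_mul, one_mul, of_c_mul_self hc]
  have : (1 : MonoidAlgebra K G) - MonoidAlgebra.of K G c - (MonoidAlgebra.of K G c - 1) =
    (2 : K) • (1 - MonoidAlgebra.of K G c) := by rw [two_smul]; abel
  rw [this, smul_smul]
  congr 1
  field_simp

include hc in
omit [NeZero (2 : K)] in
theorem idemP_mul_idemM : idemP K c * idemM K c = 0 := by
  rw [idemP, idemM, smul_mul_smul_comm, mul_sub, mul_one, add_mul, one_mul, of_c_mul_self hc]
  have : (1 : MonoidAlgebra K G) + MonoidAlgebra.of K G c - (MonoidAlgebra.of K G c + 1) = 0 := by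
    abel
  rw [this, smul_zero]

include hc in
omit [NeZero (2 : K)] in
theorem idemM_mul_idemP : idemM K c * idemP K c = 0 := by
  rw [idemP, idemM, smul_mul_smul_comm, mul_add, mul_one, sub_mul, one_mul, of_c_mul_self hc]
  have : (1 : MonoidAlgebra K G) - MonoidAlgebra.of K G c + (MonoidAlgebra.of K G c - 1) = 0 := by
    abel
  rw [this, smul_zero]

theorem idemP_add_idemM : idemP K c + idemM K c = 1 := by
  have h2 : (2 : K) ≠ 0 := NeZero.ne 2
  rw [idemP, idemM, ← smul_add]
  have : (1 : MonoidAlgebra K G) + MonoidAlgebra.of K G c + (1 - MonoidAlgebra.of K G c) =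
    (2 : K) • 1 := by rw [two_smul]; abel
  rw [this, smul_smul, inv_mul_cancel₀ h2, one_smul]

theorem linT_idemP (ht : IsPseudo2 t) (htc : t c = 0) : linT t (idemP K c) = 1 := by
  have h2 : (2 : K) ≠ 0 := NeZero.ne 2
  rw [idemP, map_smul, map_add, linT_of, ← map_one (MonoidAlgebra.of K G), linT_of, ht.one, htc,
    add_zero, smul_eq_mul, inv_mul_cancel₀ h2]

theorem linT_idemM (ht : IsPseudo2 t) (htc : t c = 0) : linT t (idemM K c) = 1 := by
  have h2 : (2 : K) ≠ 0 := NeZero.ne 2
  rw [idemM, map_smul, map_sub, linT_of, ← map_one (MonoidAlgebra.of K G), linT_of, ht.one, htc,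
    sub_zero, smul_eq_mul, inv_mul_cancel₀ h2]

include hc in
/-- **A two-dimensional pseudocharacter over a field with an involution of trace zero is the
trace of a representation.** -/
theorem exists_matrix_rep (ht : IsPseudo2 t) (htc : t c = 0) :
    ∃ (M : G →* Matrix (Fin 2) (Fin 2) K) (z : Fin 2 → Fin 2 → MonoidAlgebra K G),
      (∀ g i j, M g i j = linT t (MonoidAlgebra.of K G g * z i j)) ∧
      (∀ g, M g 0 0 + M g 1 1 = t g) := by
  classical
  let e := idemP K c
  let f := idemM K c
  have hee : e * e = e := idemP_mul_self hc
  have hff : f * f = f := idemM_mul_self hc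
  have hef : e * f = 0 := idemP_mul_idemM hc
  have hfe : f * e = 0 := idemM_mul_idemP hc
  have hadd : e + f = 1 := idemP_add_idemM
  have hTe : linT t e = 1 := linT_idemP ht htc
  have hTf : linT t f = 1 := linT_idemM ht htc
  obtain ⟨ι, hι⟩ : ∃ ι : G →* MonoidAlgebra K G, ι = MonoidAlgebra.of K G := ⟨_, rfl⟩
  let T := linT t
  have Tcomm : ∀ x y, T (x * y) = T (y * x) := linT_comm ht
  have ce : ∀ x y, T (e * x * e * y) = T (e * x) * T (e * y) := linT_corner ht hee hTe
  have cf : ∀ x y, T (f * x * f * y) = T (f * x) * T (f * y) := linT_corner ht hff hTf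
  have htr : ∀ g, T (ι g * e) + T (ι g * f) = t g := by
    intro g
    rw [← map_add, ← mul_add, hadd, mul_one, hι]
    exact linT_of t g
  -- splitting
  have split : ∀ u x y : MonoidAlgebra K G, T (u * x * y) = T (u * x * e * y) + T (u * x * f * y) := by
    intro u x y
    rw [← map_add, ← add_mul, ← mul_add, hadd, mul_one]
  by_cases hx : ∃ r s : G, T (e * ι r * f * ι s) ≠ 0
  · obtain ⟨r, s, hrs⟩ := hx
    set x0 := T (e * ι r * f * ι s) with hx0
    -- the rank one relation
    have rank1 : ∀ x y z w : MonoidAlgebra K G, T (e * x * f * y) * T (e * z * f * w) =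
        T (e * x * f * w) * T (e * z * f * y) := by
      intro x y z w
      have h1 : T (e * x * f * y) * T (e * z * f * w) = T (e * (x * f * y) * e * (z * f * w)) := by
        rw [ce]; simp only [mul_assoc]
      have h2 : T (e * (x * f * y) * e * (z * f * w)) =
          T (f * (y * e * z) * f * (w * e * x)) := by
        have : e * (x * f * y) * e * (z * f * w) = (e * x) * (f * (y * e * z) * f * w) := by
          simp only [mul_assoc]
        rw [this, Tcomm]
        simp only [mul_assoc]
      have h3 : T (e * x * f * w) = T (f * (w * e * x)) := by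
        have : e * x * f * w = (e * x) * (f * w) := by simp only [mul_assoc]
        rw [this, Tcomm]; simp only [mul_assoc]
      have h4 : T (e * z * f * y) = T (f * (y * e * z)) := by
        have : e * z * f * y = (e * z) * (f * y) := by simp only [mul_assoc]
        rw [this, Tcomm]; simp only [mul_assoc]
      rw [h1, h2, cf, h3, h4, mul_comm]
    let M : G → Matrix (Fin 2) (Fin 2) K := fun g =>
      !![T (e * ι g), T (e * ι g * f * ι s) / x0; T (e * ι r * f * ι g), T (f * ι g)]
    have hM1 : M 1 = 1 := by
      ext i j
      fin_cases i <;> fin_cases j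
      · change T (e * ι 1) = 1
        rw [map_one ι, mul_one]
        exact hTe
      · change T (e * ι 1 * f * ι s) / x0 = 0
        rw [map_one ι, mul_one, hef, zero_mul, map_zero, zero_div]
      · change T (e * ι r * f * ι 1) = 0
        rw [map_one ι, mul_one, Tcomm, ← mul_assoc, hfe, zero_mul, map_zero]
      · change T (f * ι 1) = 1
        rw [map_one ι, mul_one]
        exact hTf
    have hMmul : ∀ g h, M (g * h) = M g * M h := by
      intro g h
      have h11 : T (e * ι (g * h)) = T (e * ι g) * T (e * ι h) +
          T (e * ι g * f * ι s) / x0 * T (e * ι r * f * ι h) := by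
        have h1 : T (e * ι (g * h)) = T (e * ι g * e * ι h) + T (e * ι g * f * ι h) := by
          rw [← split, map_mul ι, ← mul_assoc]
        rw [h1, ce, div_mul_eq_mul_div, rank1, mul_div_assoc, ← hx0, div_self hrs, mul_one]
      have h12 : T (e * ι (g * h) * f * ι s) = T (e * ι g) * T (e * ι h * f * ι s) +
          T (e * ι g * f * ι s) * T (f * ι h) := by
        have h1 : T (e * ι (g * h) * f * ι s) =
            T (e * ι g * e * (ι h * f * ι s)) + T (e * ι g * f * (ι h * f * ι s)) := by
          rw [← split, map_mul ι]; simp only [mul_assoc]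
        have h2 : T (e * ι g * f * (ι h * f * ι s)) = T (f * ι h * f * (ι s * e * ι g)) := by
          have : e * ι g * f * (ι h * f * ι s) = (e * ι g) * (f * ι h * f * ι s) := by
            simp only [mul_assoc]
          rw [this, Tcomm]; simp only [mul_assoc]
        have h3 : T (e * ι g * f * ι s) = T (f * (ι s * e * ι g)) := by
          have : e * ι g * f * ι s = (e * ι g) * (f * ι s) := by simp only [mul_assoc]
          rw [this, Tcomm]; simp only [mul_assoc]
        rw [h1, ce, h2, cf, h3, mul_comm (T (f * ι h))]
        simp only [mul_assoc]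
      have h21 : T (e * ι r * f * ι (g * h)) = T (e * ι r * f * ι g) * T (e * ι h) +
          T (f * ι g) * T (e * ι r * f * ι h) := by
        have h1 : T (e * ι r * f * ι (g * h)) =
            T (e * ι r * f * ι g * e * ι h) + T (e * ι r * f * ι g * f * ι h) := by
          have := split (e * ι r * f) (ι g) (ι h)
          rw [← this, map_mul ι]; simp only [mul_assoc]
        have h2 : T (e * ι r * f * ι g * e * ι h) = T (e * ι r * f * ι g) * T (e * ι h) := by
          have := ce (ι r * f * ι g) (ι h)
          simp only [mul_assoc] at this ⊢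
          exact this
        have h3 : T (e * ι r * f * ι g * f * ι h) = T (f * ι g) * T (f * (ι h * e * ι r)) := by
          rw [← cf]
          have : e * ι r * f * ι g * f * ι h = (e * ι r) * (f * ι g * f * ι h) := by
            simp only [mul_assoc]
          rw [this, Tcomm]; simp only [mul_assoc]
        have h4 : T (e * ι r * f * ι h) = T (f * (ι h * e * ι r)) := by
          have : e * ι r * f * ι h = (e * ι r) * (f * ι h) := by simp only [mul_assoc]
          rw [this, Tcomm]; simp only [mul_assoc]
        rw [h1, h2, h3, h4]
      have h22 : T (f * ι (g * h)) = T (e * ι r * f * ι g) * (T (e * ι h * f * ι s) / x0) +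
          T (f * ι g) * T (f * ι h) := by
        have h1 : T (f * ι (g * h)) = T (f * ι g * e * ι h) + T (f * ι g * f * ι h) := by
          rw [← split, map_mul ι, ← mul_assoc]
        have h2 : T (f * ι g * e * ι h) = T (e * ι h * f * ι g) := by
          have : f * ι g * e * ι h = (f * ι g) * (e * ι h) := by simp only [mul_assoc]
          rw [this, Tcomm]; simp only [mul_assoc]
        rw [h1, cf, h2, ← mul_div_assoc, rank1 (ι r) (ι g) (ι h) (ι s), ← hx0,
          mul_div_cancel_left₀ _ hrs]
      ext i j
      fin_cases i <;> fin_cases j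
      · simpa [M, Matrix.mul_apply, Fin.sum_univ_two] using h11
      · simp only [M, Matrix.mul_apply, Fin.sum_univ_two, Matrix.of_apply]
        simp only [Fin.zero_eta, Fin.isValue, Fin.mk_one, Matrix.cons_val', Matrix.cons_val_one,
          Matrix.cons_val_fin_one, Matrix.cons_val_zero]
        rw [h12]
        ring
      · simpa [M, Matrix.mul_apply, Fin.sum_univ_two] using h21
      · simpa [M, Matrix.mul_apply, Fin.sum_univ_two] using h22
    refine ⟨{ toFun := M, map_one' := hM1, map_mul' := hMmul },
      fun i j => !![e, x0⁻¹ • (f * ι s * e); e * ι r * f, f] i j, ?_, ?_⟩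
    · intro g i j
      rw [← hι]
      change M g i j = _
      fin_cases i <;> fin_cases j
      · exact Tcomm e (ι g)
      · have h1 : T (e * ι g * f * ι s) = T (ι g * (f * ι s * e)) := by
          have : e * ι g * f * ι s = e * (ι g * f * ι s) := by simp only [mul_assoc]
          rw [this, Tcomm]; simp only [mul_assoc]
        have h2 : M g 0 1 = T (e * ι g * f * ι s) / x0 := rfl
        have h3 : T (ι g * (x0⁻¹ • (f * ι s * e))) = x0⁻¹ * T (ι g * (f * ι s * e)) := by
          rw [mul_smul_comm, map_smul, smul_eq_mul]
        change M g 0 1 = T (ι g * (x0⁻¹ • (f * ι s * e)))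
        rw [h2, h3, h1, div_eq_inv_mul]
      · exact Tcomm (e * ι r * f) (ι g)
      · exact Tcomm f (ι g)
    · intro g
      change T (e * ι g) + T (f * ι g) = t g
      rw [Tcomm e, Tcomm f, htr]
  · push Not at hx
    have hx' : ∀ r : G, ∀ y : MonoidAlgebra K G, T (e * ι r * f * y) = 0 := by
      intro r y
      induction y using MonoidAlgebra.induction_on with
      | of h => rw [← hι]; exact hx r h
      | add x y hx hy => rw [mul_add, map_add, hx, hy, add_zero]
      | smul a x hx => rw [mul_smul_comm, map_smul, hx, smul_zero]
    let M : G → Matrix (Fin 2) (Fin 2) K := fun g => !![T (e * ι g), 0; 0, T (f * ι g)]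
    have hM1 : M 1 = 1 := by
      ext i j
      fin_cases i <;> fin_cases j
      · change T (e * ι 1) = 1
        rw [map_one ι, mul_one]
        exact hTe
      · rfl
      · rfl
      · change T (f * ι 1) = 1
        rw [map_one ι, mul_one]
        exact hTf
    have hMmul : ∀ g h, M (g * h) = M g * M h := by
      intro g h
      have h11 : T (e * ι (g * h)) = T (e * ι g) * T (e * ι h) := by
        have h1 : T (e * ι (g * h)) = T (e * ι g * e * ι h) + T (e * ι g * f * ι h) := by
          rw [← split, map_mul ι, ← mul_assoc]
        rw [h1, ce, hx', add_zero]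
      have h22 : T (f * ι (g * h)) = T (f * ι g) * T (f * ι h) := by
        have h1 : T (f * ι (g * h)) = T (f * ι g * e * ι h) + T (f * ι g * f * ι h) := by
          rw [← split, map_mul ι, ← mul_assoc]
        have h2 : T (f * ι g * e * ι h) = T (e * ι h * f * ι g) := by
          have : f * ι g * e * ι h = (f * ι g) * (e * ι h) := by simp only [mul_assoc]
          rw [this, Tcomm]; simp only [mul_assoc]
        rw [h1, cf, h2, hx', zero_add]
      ext i j
      fin_cases i <;> fin_cases j
      · simpa [M, Matrix.mul_apply, Fin.sum_univ_two] using h11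
      · simp [M, Matrix.mul_apply, Fin.sum_univ_two]
      · simp [M, Matrix.mul_apply, Fin.sum_univ_two]
      · simpa [M, Matrix.mul_apply, Fin.sum_univ_two] using h22
    refine ⟨{ toFun := M, map_one' := hM1, map_mul' := hMmul },
      fun i j => !![e, 0; 0, f] i j, ?_, ?_⟩
    · intro g i j
      rw [← hι]
      change M g i j = T (ι g * _)
      fin_cases i <;> fin_cases j
      · exact Tcomm e (ι g)
      · change 0 = T (ι g * 0)
        rw [mul_zero, map_zero]
      · change 0 = T (ι g * 0)
        rw [mul_zero, map_zero]
      · exact Tcomm f (ι g)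
    · intro g
      change T (e * ι g) + T (f * ι g) = t g
      rw [Tcomm e, Tcomm f, htr]

end Construction

end Fermat.Agent.H25
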