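import Mathlib
import Fermat.Agent.H25.Pseudo

set_option autoImplicit false

namespace Fermat.Agent.H25

open MonoidAlgebra Module Polynomial

section Good

variable {R : Type*} [CommRing R] [IsDomain R] {K : Type*} [Field K] [Algebra R K]
  [IsFractionRing R K] {G : Type*} [Group G] {t : G → R}

/-- Denominators for the functionals `g ↦ T (g z)`. -/
theorem exists_denominator (t : G → R) (z : MonoidAlgebra K G) :
    ∃ δ : R, δ ≠ 0 ∧
      (∀ u : G, ∃ a : R, algebraMap R K a =
        algebraMap R K δ * linT (fun g => algebraMap R K (t g)) (MonoidAlgebra.of K G u * z)) ∧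
      (∀ (I : Ideal R) (u : G), (∀ g, t (u * g) - t g ∈ I) → ∃ a ∈ I, algebraMap R K a =
        algebraMap R K δ * (linT (fun g => algebraMap R K (t g)) (MonoidAlgebra.of K G u * z) -
          linT (fun g => algebraMap R K (t g)) z)) := by
  induction z using MonoidAlgebra.induction_on with
  | of h =>
    refine ⟨1, one_ne_zero, fun u => ⟨t (u * h), ?_⟩, fun I u hI => ⟨t (u * h) - t h, hI h, ?_⟩⟩
    · rw [← map_mul (MonoidAlgebra.of K G), linT_of, map_one, one_mul]
    · rw [← map_mul (MonoidAlgebra.of K G), linT_of, linT_of, map_one, one_mul, map_sub]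
  | add x y hx hy =>
    obtain ⟨δ₁, h1, h2, h3⟩ := hx
    obtain ⟨δ₂, h4, h5, h6⟩ := hy
    refine ⟨δ₁ * δ₂, mul_ne_zero h1 h4, fun u => ?_, fun I u hI => ?_⟩
    · obtain ⟨a, ha⟩ := h2 u
      obtain ⟨b, hb⟩ := h5 u
      refine ⟨δ₂ * a + δ₁ * b, ?_⟩
      rw [map_add, map_mul, map_mul, ha, hb, mul_add, map_add, map_mul (algebraMap R K)]
      ring
    · obtain ⟨a, ha', ha⟩ := h3 I u hI
      obtain ⟨b, hb', hb⟩ := h6 I u hI
      refine ⟨δ₂ * a + δ₁ * b, I.add_mem (I.mul_mem_left _ ha') (I.mul_mem_left _ hb'), ?_⟩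
      rw [map_add, map_mul, map_mul, ha, hb, mul_add, map_add, map_add, map_mul (algebraMap R K)]
      ring
  | smul r x hx =>
    obtain ⟨δ, h1, h2, h3⟩ := hx
    obtain ⟨a0, b0, hb0, rfl⟩ := IsFractionRing.div_surjective (A := R) r
    have hb0' : b0 ≠ 0 := nonZeroDivisors.ne_zero hb0
    have hb0K : algebraMap R K b0 ≠ 0 := by
      rw [Ne, FaithfulSMul.algebraMap_eq_zero_iff]; exact hb0'
    refine ⟨b0 * δ, mul_ne_zero hb0' h1, fun u => ?_, fun I u hI => ?_⟩
    · obtain ⟨a, ha⟩ := h2 u
      refine ⟨a0 * a, ?_⟩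
      rw [map_mul, ha, mul_smul_comm, map_smul, smul_eq_mul, map_mul (algebraMap R K)]
      field_simp
    · obtain ⟨a, ha', ha⟩ := h3 I u hI
      refine ⟨a0 * a, I.mul_mem_left _ ha', ?_⟩
      rw [map_mul, ha, mul_smul_comm, map_smul, map_smul, smul_eq_mul, smul_eq_mul,
        map_mul (algebraMap R K)]
      field_simp

end Good

theorem IsPseudo2.map {R S G : Type*} [CommRing R] [CommRing S] [Group G] {t : G → R}
    (ht : IsPseudo2 t) (f : R →+* S) : IsPseudo2 (fun g => f (t g)) where
  one := by rw [ht.one, map_ofNat]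
  comm g h := by rw [ht.comm]
  tri g h k := by
    have := congrArg f (ht.tri g h k)
    simpa only [map_add, map_sub, map_mul, map_zero] using this

/-- The trace, determinant relation in rank two. -/
theorem two_mul_det_eq {R V : Type*} [CommRing R] [Nontrivial R] [AddCommGroup V] [Module R V]
    [Module.Free R V] [Module.Finite R V] (hV : finrank R V = 2) (f : Module.End R V) :
    2 * LinearMap.det f = LinearMap.trace R V f ^ 2 - LinearMap.trace R V (f * f) := by
  classical
  let b : Basis (Fin 2) R V := (Module.finBasis R V).reindex (finCongr hV)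
  rw [← LinearMap.det_toMatrix b, LinearMap.trace_eq_matrix_trace R b,
    LinearMap.trace_eq_matrix_trace R b, LinearMap.toMatrix_mul, Matrix.det_fin_two,
    Matrix.trace_fin_two, Matrix.trace_fin_two, Matrix.mul_apply, Matrix.mul_apply,
    Fin.sum_univ_two, Fin.sum_univ_two]
  ring

theorem charpoly_eq_of_finrank_two {R V : Type*} [CommRing R] [Nontrivial R] [AddCommGroup V]
    [Module R V] [Module.Free R V] [Module.Finite R V] (hV : finrank R V = 2)
    (f : Module.End R V) :
    LinearMap.charpoly f = X ^ 2 - C (LinearMap.trace R V f) * X + C (LinearMap.det f) := by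
  classical
  let b : Basis (Fin 2) R V := (Module.finBasis R V).reindex (finCongr hV)
  rw [← LinearMap.charpoly_toMatrix f b, Matrix.charpoly_fin_two,
    ← LinearMap.trace_eq_matrix_trace, LinearMap.det_toMatrix]

section Lattice

variable {R : Type*} [CommRing R] [IsDomain R] [IsPrincipalIdealRing R] {K : Type*} [Field K]
  [Algebra R K] [IsFractionRing R K] {G : Type*} [Group G]
  (M : G →* Matrix (Fin 2) (Fin 2) K)

variable (R) in
/-- The lattice generated by the columns of all the matrices. -/
def colLattice : Submodule R (Fin 2 → K) :=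
  Submodule.span R (Set.range fun x : G × Fin 2 => (M x.1).col x.2)

omit [IsDomain R] [IsPrincipalIdealRing R] [IsFractionRing R K] in
theorem single_mem_colLattice (j : Fin 2) :
    (Pi.single j 1 : Fin 2 → K) ∈ colLattice R M := by
  refine Submodule.subset_span ⟨(1, j), ?_⟩
  funext i
  simp [Matrix.one_apply, Pi.single_apply]

theorem isLattice_colLattice {δ : R} (hδ : δ ≠ 0)
    (hb : ∀ g i j, ∃ a : R, algebraMap R K a = algebraMap R K δ * M g i j) :
    Submodule.IsLattice K (colLattice R M) where
  fg := by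
    have hδK : algebraMap R K δ ≠ 0 := by
      rw [Ne, FaithfulSMul.algebraMap_eq_zero_iff]; exact hδ
    let s : Set (Fin 2 → K) := Set.range fun j : Fin 2 =>
      (Pi.single j (algebraMap R K δ)⁻¹ : Fin 2 → K)
    have hfg : (Submodule.span R s).FG := Submodule.fg_span (Set.finite_range _)
    have hle : colLattice R M ≤ Submodule.span R s := by
      refine Submodule.span_le.mpr ?_
      rintro _ ⟨⟨g, j⟩, rfl⟩
      choose a ha using fun i => hb g i j
      have : (M g).col j = ∑ i, a i • (Pi.single i (algebraMap R K δ)⁻¹ : Fin 2 → K) := by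
        funext i
        simp only [Matrix.col_apply, Finset.sum_apply, Pi.smul_apply]
        rw [Finset.sum_eq_single i]
        · rw [Pi.single_eq_same, Algebra.smul_def, ha i]
          field_simp
        · intro k _ hk
          rw [Pi.single_eq_of_ne (Ne.symm hk), smul_zero]
        · intro h; exact absurd (Finset.mem_univ i) h
      show (M g).col j ∈ Submodule.span R s
      rw [this]
      exact Submodule.sum_mem _ fun i _ => Submodule.smul_mem _ _ (Submodule.subset_span ⟨i, rfl⟩)
    have : IsNoetherian R (Submodule.span R s) := isNoetherian_of_fg_of_noetherian _ hfg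
    have h2 : IsNoetherian R (colLattice R M) := isNoetherian_of_le hle
    exact Module.Finite.iff_fg.mp inferInstance
  span_eq_top := by
    rw [eq_top_iff, ← (Pi.basisFun K (Fin 2)).span_eq]
    refine Submodule.span_mono ?_
    rintro _ ⟨j, rfl⟩
    rw [Pi.basisFun_apply]
    exact single_mem_colLattice M j

omit [IsDomain R] [IsPrincipalIdealRing R] [IsFractionRing R K] in
theorem mulVec_mem_colLattice (g : G) {v : Fin 2 → K} (hv : v ∈ colLattice R M) :
    (M g).mulVec v ∈ colLattice R M := by
  induction hv using Submodule.span_induction with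
  | mem x hx =>
    obtain ⟨⟨h, j⟩, rfl⟩ := hx
    refine Submodule.subset_span ⟨(g * h, j), ?_⟩
    funext i
    simp only [map_mul, Matrix.col_apply, Matrix.mul_apply, Matrix.mulVec, dotProduct]
  | zero => rw [Matrix.mulVec_zero]; exact Submodule.zero_mem _
  | add x y _ _ hx hy => rw [Matrix.mulVec_add]; exact Submodule.add_mem _ hx hy
  | smul a x _ hx => rw [Matrix.mulVec_smul]; exact Submodule.smul_mem _ _ hx

/-- The representation on the lattice. -/
def latticeRep : G →* Module.End R (colLattice R M) where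
  toFun g := ((Matrix.mulVecLin (M g)).restrictScalars R).restrict
    (fun _ hv => mulVec_mem_colLattice M g hv)
  map_one' := by
    ext v : 2
    simp
  map_mul' g h := by
    ext v : 2
    change (M (g * h)).mulVec (v : Fin 2 → K) = (M g).mulVec ((M h).mulVec (v : Fin 2 → K))
    rw [map_mul, Matrix.mulVec_mulVec]

omit [IsDomain R] [IsPrincipalIdealRing R] [IsFractionRing R K] in
theorem latticeRep_coe (g : G) (v : colLattice R M) :
    ((latticeRep M g v : colLattice R M) : Fin 2 → K) = (M g).mulVec (v : Fin 2 → K) := rfl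

theorem algebraMap_trace_latticeRep {δ : R} (hδ : δ ≠ 0)
    (hb : ∀ g i j, ∃ a : R, algebraMap R K a = algebraMap R K δ * M g i j) (g : G) :
    algebraMap R K (LinearMap.trace R _ (latticeRep (R := R) M g)) = M g 0 0 + M g 1 1 := by
  classical
  have := isLattice_colLattice M hδ hb
  have := Submodule.IsLattice.free K (colLattice R M)
  have hfr : finrank R (colLattice R M) = 2 := by
    rw [Submodule.IsLattice.finrank_of_pi K]; simp
  let b : Basis (Fin 2) R (colLattice R M) := (Module.finBasis R _).reindex (finCongr hfr)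
  let b' := b.extendOfIsLattice K
  have h1 : (LinearMap.toMatrix b b (latticeRep (R := R) M g)).map (algebraMap R K) =
      LinearMap.toMatrix b' b' (Matrix.mulVecLin (M g)) := by
    ext i j
    rw [Matrix.map_apply, LinearMap.toMatrix_apply, LinearMap.toMatrix_apply]
    have h2 : Matrix.mulVecLin (M g) (b' j) = ∑ k, algebraMap R K
        (b.repr (latticeRep (R := R) M g (b j)) k) • b' k := by
      have h3 := congrArg (Submodule.subtype _) (b.sum_repr (latticeRep (R := R) M g (b j)))
      rw [map_sum] at h3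
      have h4 : Matrix.mulVecLin (M g) (b' j) =
          (Submodule.subtype (colLattice R M)) (latticeRep (R := R) M g (b j)) := by
        rw [Submodule.subtype_apply, latticeRep_coe, Matrix.mulVecLin_apply,
          Basis.extendOfIsLattice_apply]
      rw [h4, ← h3]
      refine Finset.sum_congr rfl fun k _ => ?_
      rw [map_smul, Basis.extendOfIsLattice_apply, Submodule.subtype_apply, algebraMap_smul]
    rw [h2, map_sum, Finsupp.finsetSum_apply]
    simp only [map_smul, Finsupp.smul_apply, Basis.repr_self, smul_eq_mul]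
    rw [Finset.sum_eq_single i]
    · rw [Finsupp.single_eq_same, mul_one]
    · intro k _ hk
      rw [Finsupp.single_eq_of_ne (Ne.symm hk), mul_zero]
    · intro h; exact absurd (Finset.mem_univ i) h
  rw [LinearMap.trace_eq_matrix_trace R b, AddMonoidHom.map_trace (algebraMap R K)]
  have h5 : (LinearMap.toMatrix b b (latticeRep (R := R) M g)).map (⇑(algebraMap R K)) =
      LinearMap.toMatrix b' b' (Matrix.mulVecLin (M g)) := h1
  rw [h5, ← LinearMap.trace_eq_matrix_trace K b',
    LinearMap.trace_eq_matrix_trace K (Pi.basisFun K (Fin 2))]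
  rw [← Matrix.toLin'_apply', LinearMap.toMatrix_eq_toMatrix', LinearMap.toMatrix'_toLin',
    Matrix.trace_fin_two]

end Lattice

open IsLocalRing in
theorem exists_pow_le_span {R : Type*} [CommRing R] [IsDomain R] [IsDiscreteValuationRing R]
    {δ : R} (hδ : δ ≠ 0) (n : ℕ) :
    ∃ m : ℕ, ∀ a ∈ maximalIdeal R ^ m, ∃ b ∈ maximalIdeal R ^ n, a = δ * b := by
  obtain ⟨ϖ, hϖ⟩ := IsDiscreteValuationRing.exists_irreducible R
  obtain ⟨k, u, hu⟩ := IsDiscreteValuationRing.eq_unit_mul_pow_irreducible hδ hϖ
  refine ⟨k + n, fun a ha => ?_⟩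
  rw [hϖ.maximalIdeal_eq, Ideal.span_singleton_pow, Ideal.mem_span_singleton] at ha
  obtain ⟨c, rfl⟩ := ha
  refine ⟨ϖ ^ n * ((u⁻¹ : Rˣ) * c), ?_, ?_⟩
  · rw [hϖ.maximalIdeal_eq, Ideal.span_singleton_pow, Ideal.mem_span_singleton]
    exact dvd_mul_right _ _
  · rw [hu, pow_add]
    have : (u : R) * ((u⁻¹ : Rˣ) : R) = 1 := Units.mul_inv u
    linear_combination (-(ϖ ^ k * ϖ ^ n * c)) * this

open IsLocalRing in
/-- **Representations over a discrete valuation ring from pseudocharacters.** -/
theorem exists_lattice_rep {R : Type} [CommRing R] [IsDomain R] [IsDiscreteValuationRing R]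
    (h2 : (2 : R) ≠ 0) {G : Type} [Group G] {t : G → R} (ht : IsPseudo2 t) {c : G}
    (hc : c * c = 1) (htc : t c = 0) :
    ∃ (V : Type) (_ : AddCommGroup V) (_ : Module R V) (_ : Module.Free R V)
      (_ : Module.Finite R V) (ρ : G →* Module.End R V),
      finrank R V = 2 ∧
      (∀ g, LinearMap.trace R V (ρ g) = t g) ∧
      (∀ u, (∀ g, t (u * g) = t g) → ρ u = 1) ∧
      (∀ n : ℕ, ∃ m : ℕ, ∀ u, (∀ g, t (u * g) - t g ∈ maximalIdeal R ^ m) →
        ∀ v, ρ u v - v ∈ (maximalIdeal R ^ n) • (⊤ : Submodule R V)) := by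
  classical
  let K := FractionRing R
  have hinj : Function.Injective (algebraMap R K) := IsFractionRing.injective R K
  let tK : G → K := fun g => algebraMap R K (t g)
  have htK : IsPseudo2 tK := ht.map (algebraMap R K)
  have h2K : (2 : K) ≠ 0 := by
    intro h
    apply h2
    apply hinj
    rw [map_ofNat, map_zero]
    exact h
  have : NeZero (2 : K) := ⟨h2K⟩
  have htcK : tK c = 0 := by simp only [tK, htc, map_zero]
  obtain ⟨M, z, hM, htr⟩ := exists_matrix_rep hc htK htcK
  -- common denominator
  choose d hd1 hd2 hd3 using fun ij : Fin 2 × Fin 2 => exists_denominator t (z ij.1 ij.2)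
  obtain ⟨δ, hδ⟩ : ∃ δ, δ = ∏ ij : Fin 2 × Fin 2, d ij := ⟨_, rfl⟩
  have hδ0 : δ ≠ 0 := by rw [hδ]; exact Finset.prod_ne_zero_iff.mpr fun ij _ => hd1 ij
  have hdvd : ∀ ij, ∃ e, δ = e * d ij := by
    intro ij
    obtain ⟨e, he⟩ := Finset.dvd_prod_of_mem d (Finset.mem_univ ij)
    exact ⟨e, by rw [hδ, he, mul_comm]⟩
  have hb : ∀ g i j, ∃ a : R, algebraMap R K a = algebraMap R K δ * M g i j := by
    intro g i j
    obtain ⟨e, he⟩ := hdvd (i, j)
    obtain ⟨a, ha⟩ := hd2 (i, j) g
    refine ⟨e * a, ?_⟩
    rw [map_mul, ha, he, map_mul (algebraMap R K), hM]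
    ring
  have hb' : ∀ (I : Ideal R) (u : G), (∀ g, t (u * g) - t g ∈ I) → ∀ i j, ∃ a ∈ I,
      algebraMap R K a = algebraMap R K δ * (M u i j - M 1 i j) := by
    intro I u hI i j
    obtain ⟨e, he⟩ := hdvd (i, j)
    obtain ⟨a, ha', ha⟩ := hd3 (i, j) I u hI
    refine ⟨e * a, I.mul_mem_left _ ha', ?_⟩
    rw [map_mul, ha, he, map_mul (algebraMap R K), hM, hM, map_one (MonoidAlgebra.of K G),
      one_mul]
    ring
  have hδK : algebraMap R K δ ≠ 0 := by
    rw [Ne, FaithfulSMul.algebraMap_eq_zero_iff]; exact hδ0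
  have hlat := isLattice_colLattice M hδ0 hb
  have hfree := Submodule.IsLattice.free K (colLattice R M)
  have hfr : finrank R (colLattice R M) = 2 := by
    rw [Submodule.IsLattice.finrank_of_pi K]; simp
  have hone : ∀ i j, M 1 i j = if i = j then 1 else 0 := by
    intro i j; rw [map_one, Matrix.one_apply]
  refine ⟨colLattice R M, inferInstance, inferInstance, hfree, inferInstance, latticeRep M, hfr,
    ?_, ?_, ?_⟩
  · intro g
    apply hinj
    rw [algebraMap_trace_latticeRep M hδ0 hb, htr]
  · intro u hu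
    have hMu : M u = 1 := by
      rw [← map_one M]
      ext i j
      obtain ⟨a, ha', ha⟩ := hb' ⊥ u (fun g => by rw [hu g, sub_self]; exact Ideal.zero_mem _) i j
      rw [Ideal.mem_bot] at ha'
      rw [ha', map_zero, eq_comm, mul_eq_zero] at ha
      exact sub_eq_zero.mp (ha.resolve_left hδK)
    ext v : 2
    rw [latticeRep_coe, hMu, Matrix.one_mulVec, Module.End.one_apply]
  · intro n
    obtain ⟨m, hm⟩ := exists_pow_le_span (mul_ne_zero hδ0 hδ0) n
    refine ⟨m, fun u hu v => ?_⟩
    -- `δ v` is integral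
    have hv : ∀ i, ∃ a : R, algebraMap R K a = algebraMap R K δ * (v : Fin 2 → K) i := by
      obtain ⟨w, hw⟩ := v
      simp only
      induction hw using Submodule.span_induction with
      | mem x hx =>
        obtain ⟨⟨g, j⟩, rfl⟩ := hx
        intro i
        exact hb g i j
      | zero => intro i; exact ⟨0, by simp⟩
      | add x y _ _ hx hy =>
        intro i
        obtain ⟨a, ha⟩ := hx i
        obtain ⟨b, hb⟩ := hy i
        exact ⟨a + b, by rw [map_add, ha, hb, Pi.add_apply, mul_add]⟩
      | smul a x _ hx =>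
        intro i
        obtain ⟨b, hb⟩ := hx i
        exact ⟨a * b, by rw [map_mul, hb, Pi.smul_apply, Algebra.smul_def]; ring⟩
    choose a ha using hv
    have hc' : ∀ i j, ∃ b ∈ maximalIdeal R ^ n,
        M u i j - M 1 i j = algebraMap R K δ * algebraMap R K b := by
      intro i j
      obtain ⟨x, hx', hx⟩ := hb' (maximalIdeal R ^ m) u hu i j
      obtain ⟨b, hb1, hb2⟩ := hm x hx'
      refine ⟨b, hb1, ?_⟩
      rw [hb2, map_mul, map_mul, mul_assoc] at hx
      exact (mul_left_cancel₀ hδK hx).symm
    choose b hb1 hb2 using hc'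
    have key : latticeRep (R := R) M u v - v = ∑ i, (∑ j, b i j * a j) •
        (⟨Pi.single i 1, single_mem_colLattice M i⟩ : colLattice R M) := by
      apply Subtype.ext
      rw [Submodule.coe_sub, latticeRep_coe, Submodule.coe_sum]
      funext k
      rw [Finset.sum_apply, Finset.sum_eq_single k]
      · rw [Submodule.coe_smul]
        change (M u).mulVec (v : Fin 2 → K) k - (v : Fin 2 → K) k =
          (∑ j, b k j * a j) • (Pi.single k 1 : Fin 2 → K) k
        rw [Pi.single_eq_same, Algebra.smul_def, mul_one, map_sum, Matrix.mulVec, dotProduct]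
        have h5 : (v : Fin 2 → K) k = ∑ j, M 1 k j * (v : Fin 2 → K) j := by
          simp only [hone, ite_mul, one_mul, zero_mul, Finset.sum_ite_eq, Finset.mem_univ, if_true]
        rw [h5, ← Finset.sum_sub_distrib]
        refine Finset.sum_congr rfl fun j _ => ?_
        rw [← sub_mul, hb2, map_mul, ha]
        ring
      · intro i _ hi
        rw [Submodule.coe_smul]
        change (∑ j, b i j * a j) • (Pi.single i 1 : Fin 2 → K) k = 0
        rw [Pi.single_eq_of_ne (Ne.symm hi), smul_zero]
      · intro h; exact absurd (Finset.mem_univ k) h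
    rw [key]
    refine Submodule.sum_mem _ fun i _ => Submodule.smul_mem_smul ?_ Submodule.mem_top
    exact Ideal.sum_mem _ fun j _ => Ideal.mul_mem_right _ _ (hb1 i j)

end Fermat.Agent.H25
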