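import Mathlib
import Fermat.Agent.H09.Minkowski

set_option autoImplicit false
set_option linter.style.haveILetI false

/-!
# The decomposition group is generated by Frobenius and inertia, modulo open normal subgroups
-/

namespace Fermat.Agent.H25

open scoped NumberField Pointwise
open Fermat.Agent.H05 Fermat.Agent.H09

/-- An injective endomorphism of a finite field of characteristic `q` is a power of Frobenius. -/
theorem exists_pow_frobenius {k : Type*} [Field k] [Finite k] {q : ℕ} (hq : q.Prime) [CharP k q]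
    (f : k →+* k) : ∃ n : ℕ, ∀ x, f x = x ^ q ^ n := by
  haveI : Fact q.Prime := ⟨hq⟩
  letI : Algebra (ZMod q) k := ZMod.algebra k q
  haveI : Fintype k := Fintype.ofFinite k
  haveI : Module.Finite (ZMod q) k := inferInstance
  let f' : k →ₐ[ZMod q] k := { f with
    commutes' := by
      intro r
      obtain ⟨n, rfl⟩ := ZMod.natCast_zmod_surjective r
      simp }
  obtain ⟨n, hn⟩ := (FiniteField.bijective_frobeniusAlgHom_pow (ZMod q) k).2 f'
  refine ⟨n, fun x => ?_⟩
  have h1 := DFunLike.congr_fun hn x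
  simp only [AlgHom.coe_pow, FiniteField.coe_frobeniusAlgHom, pow_iterate, ZMod.card] at h1
  exact h1.symm

variable {L : Type*} [Field L] [CharZero L] [IsGalois ℚ L]

/-- The image of the `H`-fixed integers in the residue field is finite. -/
theorem finite_image_fixed {A : ValuationSubring L} {q : ℕ} (hq : q.Prime)
    (hA : A.LiesOverPrime q) (H : Subgroup (L ≃ₐ[ℚ] L)) (hH : IsOpen (H : Set (L ≃ₐ[ℚ] L))) :
    {y : IsLocalRing.ResidueField A | ∃ x : integralClosure ℤ L, (∀ h ∈ H, h • x = x) ∧
      IsLocalRing.residue A (toA A x) = y}.Finite := by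
  let Hc : ClosedSubgroup (L ≃ₐ[ℚ] L) := ⟨H, Subgroup.isClosed_of_isOpen H hH⟩
  let F : IntermediateField ℚ L := IntermediateField.fixedField H
  have hfix : F.fixingSubgroup = H := InfiniteGalois.fixingSubgroup_fixedField Hc
  haveI hfin : FiniteDimensional ℚ F := by
    rw [← InfiniteGalois.isOpen_iff_finite, hfix]
    exact hH
  haveI : CharZero F := inferInstance
  haveI : NumberField F := ⟨⟩
  -- ring hom from `𝓞 F`
  let g : 𝓞 F →+* integralClosure ℤ L :=
    { toFun := fun x => ⟨algebraMap F L (x : F), x.isIntegral_coe.map (IsScalarTower.toAlgHom ℤ F L)⟩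
      map_one' := by ext; simp
      map_mul' := fun x y => by ext; simp
      map_zero' := by ext; simp
      map_add' := fun x y => by ext; simp }
  let f : 𝓞 F →+* IsLocalRing.ResidueField A := (IsLocalRing.residue A).comp ((toA A).comp g)
  have hq0 : f (q : 𝓞 F) = 0 := by
    haveI := charP_residueField hq hA
    rw [map_natCast, CharP.cast_eq_zero]
  have hqne : Ideal.span {(q : 𝓞 F)} ≠ ⊥ := by
    rw [Ne, Ideal.span_singleton_eq_bot]
    exact Nat.cast_ne_zero.mpr hq.ne_zero
  haveI : Finite (𝓞 F ⧸ Ideal.span {(q : 𝓞 F)}) := Ideal.finiteQuotientOfFreeOfNeBot _ hqne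
  let f' : 𝓞 F ⧸ Ideal.span {(q : 𝓞 F)} →+* IsLocalRing.ResidueField A :=
    Ideal.Quotient.lift _ f (by
      intro a ha
      obtain ⟨b, rfl⟩ := Ideal.mem_span_singleton.mp ha
      rw [map_mul, hq0, zero_mul])
  refine (Set.finite_range f').subset ?_
  rintro _ ⟨x, hx, rfl⟩
  have hxF : (x : L) ∈ F := by
    rw [IntermediateField.mem_fixedField_iff]
    intro h hh
    exact congrArg Subtype.val (hx h hh)
  have hint : IsIntegral ℤ (⟨(x : L), hxF⟩ : F) := by
    have := x.2
    exact (isIntegral_algHom_iff (IsScalarTower.toAlgHom ℤ F L)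
      (algebraMap F L).injective).mp this
  refine ⟨Ideal.Quotient.mk _ ⟨⟨(x : L), hxF⟩, hint⟩, ?_⟩
  rfl

/-- Modulo an open normal subgroup, each element of the decomposition group is a power of
Frobenius times an element of the inertia group. -/
theorem exists_decomp {A : ValuationSubring L} {q : ℕ} (hq : q.Prime) (hA : A.LiesOverPrime q)
    {φ : L ≃ₐ[ℚ] L} (hφ : A.IsFrobeniusAt φ q) {d : L ≃ₐ[ℚ] L}
    (hd : d ∈ A.decompositionSubgroup ℚ)
    (H : Subgroup (L ≃ₐ[ℚ] L)) [H.Normal] (hH : IsOpen (H : Set (L ≃ₐ[ℚ] L))) :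
    ∃ n : ℕ, ∃ h ∈ H, ∃ σ ∈ A.inertiaSubgroupIn ℚ, d = φ ^ n * (h * σ) := by
  haveI := charP_residueField hq hA
  let D := A.decompositionSubgroup ℚ
  let κ := IsLocalRing.ResidueField A
  let S : Set κ := {y | ∃ x : integralClosure ℤ L, (∀ h ∈ H, h • x = x) ∧
      IsLocalRing.residue A (toA A x) = y}
  have hSfin : S.Finite := finite_image_fixed hq hA H hH
  -- `S` is a subring
  let R : Subring κ :=
    { carrier := S
      mul_mem' := by
        rintro _ _ ⟨x, hx, rfl⟩ ⟨y, hy, rfl⟩
        exact ⟨x * y, fun h hh => by rw [smul_mul', hx h hh, hy h hh], by rw [map_mul, map_mul]⟩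
      one_mem' := ⟨1, fun h _ => smul_one h, by rw [map_one, map_one]⟩
      add_mem' := by
        rintro _ _ ⟨x, hx, rfl⟩ ⟨y, hy, rfl⟩
        exact ⟨x + y, fun h hh => by rw [smul_add, hx h hh, hy h hh], by rw [map_add, map_add]⟩
      zero_mem' := ⟨0, fun h _ => smul_zero h, by rw [map_zero, map_zero]⟩
      neg_mem' := by
        rintro _ ⟨x, hx, rfl⟩
        exact ⟨-x, fun h hh => by rw [smul_neg, hx h hh], by rw [map_neg, map_neg]⟩ }
  haveI : Finite R := hSfin.to_subtype
  letI : Field R := (Finite.isDomain_to_isField R).toField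
  haveI : CharP R q := by
    refine ⟨fun n => ?_⟩
    rw [← CharP.cast_eq_zero_iff κ q n, ← Subring.coe_natCast R n, ZeroMemClass.coe_eq_zero]
  -- action of `d` on residues
  have hdB : ∀ x : integralClosure ℤ L, (⟨d, hd⟩ : D) • IsLocalRing.residue A (toA A x) =
      IsLocalRing.residue A (toA A (d • x)) := fun x => rfl
  have hstab : ∀ y ∈ S, (⟨d, hd⟩ : D) • y ∈ S := by
    rintro _ ⟨x, hx, rfl⟩
    refine ⟨d • x, fun h hh => ?_, (hdB x).symm⟩
    have h1 : d⁻¹ * h * d ∈ H := by
      have := (inferInstance : H.Normal).conj_mem h hh d⁻¹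
      simpa using this
    calc h • d • x = d • ((d⁻¹ * h * d) • x) := by
          rw [← mul_smul, ← mul_smul]; congr 1; group
      _ = d • x := by rw [hx _ h1]
  let f : R →+* R :=
    { toFun := fun y => ⟨(⟨d, hd⟩ : D) • (y : κ), hstab y y.2⟩
      map_one' := by ext; exact smul_one _
      map_mul' := fun x y => by ext; exact smul_mul' _ _ _
      map_zero' := by ext; exact smul_zero _
      map_add' := fun x y => by ext; exact smul_add _ _ _ }
  obtain ⟨n, hn⟩ := exists_pow_frobenius hq f
  -- `φ ^ n` acts in the same way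
  have hφD := hφ.mem_decompositionSubgroup
  have hφn : ∀ (n : ℕ) (y : κ), (⟨φ, hφD⟩ : D) ^ n • y = y ^ q ^ n := by
    intro n
    induction n with
    | zero => intro y; simp
    | succ n ih =>
      intro y
      rw [pow_succ, mul_smul, hφ.smul_residue_eq, ih, ← pow_mul, pow_succ, mul_comm q]
  have key : ∀ x : integralClosure ℤ L, (∀ h ∈ H, h • x = x) →
      ((φ ^ n)⁻¹ * d) • x - x ∈ center A := by
    intro x hx
    have h1 := congrArg Subtype.val (hn ⟨_, x, hx, rfl⟩)
    have h2 : (⟨d, hd⟩ : D) • IsLocalRing.residue A (toA A x) =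
        (IsLocalRing.residue A (toA A x)) ^ q ^ n := h1
    rw [← hφn n] at h2
    have h3 : ((⟨φ, hφD⟩ : D) ^ n)⁻¹ • (⟨d, hd⟩ : D) • IsLocalRing.residue A (toA A x) =
        IsLocalRing.residue A (toA A x) := by rw [h2, inv_smul_smul]
    rw [← mul_smul] at h3
    have h4 : IsLocalRing.residue A (toA A (((φ ^ n)⁻¹ * d) • x)) =
        IsLocalRing.residue A (toA A x) := by
      rw [← h3]; rfl
    rw [← sub_eq_zero, ← map_sub, ← map_sub, IsLocalRing.residue_eq_zero_iff] at h4
    exact h4
  obtain ⟨h, hh, hI⟩ := exists_inertia_lift hq hA H (Subgroup.isClosed_of_isOpen H hH) _ key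
  refine ⟨n, h⁻¹, inv_mem hh, _, hI, ?_⟩
  group

end Fermat.Agent.H25
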