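import Mathlib
import Fermat.Agent.DefRing.PowSer

set_option autoImplicit false
set_option linter.unusedSectionVars false
set_option linter.style.haveILetI false

/-!
# Power series over complete local rings; universal property
-/

namespace Fermat.Agent.H25.PS

open MvPowerSeries IsLocalRing Fermat.Agent.H04

section Complete

variable {σ A : Type} [CommRing A] [IsLocalRing A]

theorem mem_maximalIdeal_iff (f : MvPowerSeries σ A) :
    f ∈ maximalIdeal (MvPowerSeries σ A) ↔ constantCoeff f ∈ maximalIdeal A := by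
  rw [mem_maximalIdeal, mem_maximalIdeal, mem_nonunits_iff, mem_nonunits_iff,
    MvPowerSeries.isUnit_iff_constantCoeff]

theorem C_mem_pow {a : A} {n : ℕ} (ha : a ∈ maximalIdeal A ^ n) :
    (C a : MvPowerSeries σ A) ∈ maximalIdeal (MvPowerSeries σ A) ^ n := by
  have h1 : (maximalIdeal A).map (C : A →+* MvPowerSeries σ A) ≤
      maximalIdeal (MvPowerSeries σ A) := by
    rw [Ideal.map_le_iff_le_comap]
    intro x hx
    rw [Ideal.mem_comap, mem_maximalIdeal_iff, constantCoeff_C]
    exact hx
  have h2 : (C a : MvPowerSeries σ A) ∈ (maximalIdeal A ^ n).map (C : A →+* MvPowerSeries σ A) :=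
    Ideal.mem_map_of_mem _ ha
  rw [Ideal.map_pow] at h2
  exact Ideal.pow_right_mono h1 n h2

theorem X_mem (i : σ) : (X i : MvPowerSeries σ A) ∈ maximalIdeal (MvPowerSeries σ A) := by
  rw [mem_maximalIdeal_iff, constantCoeff_X]
  exact zero_mem _

theorem XI_le : XI σ A ≤ maximalIdeal (MvPowerSeries σ A) := by
  rw [Ideal.span_le]
  rintro _ ⟨i, rfl⟩
  exact X_mem i

theorem monomial_mem_pow {a : A} {n : ℕ} (d : σ →₀ ℕ) (ha : a ∈ maximalIdeal A ^ (n - d.degree)) :
    (monomial d a : MvPowerSeries σ A) ∈ maximalIdeal (MvPowerSeries σ A) ^ n := by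
  classical
  have h1 : (monomial d a : MvPowerSeries σ A) = C a * ∏ i ∈ d.support, X i ^ d i := by
    have h2 : (monomial d (1 : A) : MvPowerSeries σ A) = ∏ i ∈ d.support, X i ^ d i := by
      have := MvPolynomial.monomial_eq (R := A) (s := d) (a := 1)
      have h3 := congrArg (fun p : MvPolynomial σ A => (p : MvPowerSeries σ A)) this
      simp only [MvPolynomial.coe_monomial] at h3
      rw [h3, map_one, one_mul, Finsupp.prod]
      have h4 := map_prod (MvPolynomial.coeToMvPowerSeries.ringHom (R := A) (σ := σ))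
        (fun i => (MvPolynomial.X i : MvPolynomial σ A) ^ d i) d.support
      simpa using h4
    rw [← h2, ← mul_one a, ← smul_eq_mul, ← smul_eq_C_mul, map_smul, smul_eq_mul, mul_one]
  have h5 : (∏ i ∈ d.support, X i ^ d i : MvPowerSeries σ A) ∈
      maximalIdeal (MvPowerSeries σ A) ^ d.degree := by
    rw [Finsupp.degree_apply, ← Finset.prod_pow_eq_pow_sum]
    exact Ideal.prod_mem_prod fun i _ => Ideal.pow_mem_pow (X_mem i) _
  rw [h1]
  have h6 := Ideal.mul_mem_mul (C_mem_pow (σ := σ) ha) h5
  rw [← pow_add] at h6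
  exact Ideal.pow_le_pow_right (by omega) h6

theorem coeff_mem_of_mem_pow {n : ℕ} {f : MvPowerSeries σ A}
    (hf : f ∈ maximalIdeal (MvPowerSeries σ A) ^ n) (d : σ →₀ ℕ) :
    coeff d f ∈ maximalIdeal A ^ (n - d.degree) := by
  classical
  induction n generalizing f d with
  | zero => simp
  | succ n ih =>
    rw [pow_succ] at hf
    refine Submodule.mul_induction_on hf (fun g hg h hh => ?_) (fun g h hg hh => ?_)
    · rw [coeff_mul]
      refine Ideal.sum_mem _ fun ab hab => ?_
      rw [Finset.HasAntidiagonal.mem_antidiagonal] at hab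
      have h1 := ih hg ab.1
      by_cases h0 : ab.2 = 0
      · have h2 : coeff ab.2 h ∈ maximalIdeal A := by
          rw [h0, coeff_zero_eq_constantCoeff_apply]
          exact (mem_maximalIdeal_iff h).mp hh
        have h3 := Ideal.mul_mem_mul h1 h2
        rw [← pow_succ] at h3
        refine Ideal.pow_le_pow_right ?_ h3
        rw [← hab, h0, add_zero]
        omega
      · have h2 : 1 ≤ ab.2.degree := by
          rw [Nat.one_le_iff_ne_zero, Ne, Finsupp.degree_eq_zero_iff]
          exact h0
        refine Ideal.mul_mem_right _ _ (Ideal.pow_le_pow_right ?_ h1)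
        rw [← hab, map_add]
        omega
    · rw [map_add]
      exact Ideal.add_mem _ hg hh

theorem mem_pow_of_coeff_mem [Finite σ] {n : ℕ} {f : MvPowerSeries σ A}
    (h : ∀ d : σ →₀ ℕ, d.degree < n → coeff d f ∈ maximalIdeal A ^ (n - d.degree)) :
    f ∈ maximalIdeal (MvPowerSeries σ A) ^ n := by
  classical
  have h1 := Ideal.pow_right_mono (XI_le (σ := σ) (A := A)) n (sub_trunc_mem n f)
  have h2 : ((truncTotal n f : MvPolynomial σ A) : MvPowerSeries σ A) ∈
      maximalIdeal (MvPowerSeries σ A) ^ n := by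
    rw [MvPolynomial.as_sum (truncTotal n f)]
    have h3 := map_sum (MvPolynomial.coeToMvPowerSeries.ringHom (R := A) (σ := σ))
      (fun v => MvPolynomial.monomial v (MvPolynomial.coeff v (truncTotal n f)))
      (truncTotal n f).support
    rw [MvPolynomial.coeToMvPowerSeries.ringHom_apply] at h3
    rw [h3]
    refine Ideal.sum_mem _ fun d _ => ?_
    rw [MvPolynomial.coeToMvPowerSeries.ringHom_apply, MvPolynomial.coe_monomial]
    refine monomial_mem_pow d ?_
    rw [coeff_truncTotal_eq_ite]
    split_ifs with hd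
    · exact h d hd
    · exact zero_mem _
  have h3 := Ideal.add_mem _ h1 h2
  rwa [sub_add_cancel] at h3

theorem isAdicComplete [Finite σ] [IsAdicComplete (maximalIdeal A) A] :
    IsAdicComplete (maximalIdeal (MvPowerSeries σ A)) (MvPowerSeries σ A) where
  haus' f hf := by
    ext d
    rw [coeff_zero]
    refine IsHausdorff.haus (I := maximalIdeal A) inferInstance _ fun n => ?_
    rw [SModEq.zero, smul_eq_mul, Ideal.mul_top]
    have h1 := hf (n + d.degree)
    rw [SModEq.zero, smul_eq_mul, Ideal.mul_top] at h1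
    have h2 := coeff_mem_of_mem_pow h1 d
    rwa [Nat.add_sub_cancel] at h2
  prec' f hf := by
    have h1 : ∀ d : σ →₀ ℕ, ∃ L : A, ∀ n, coeff d (f (n + d.degree)) ≡ L
        [SMOD (maximalIdeal A ^ n • ⊤ : Submodule A A)] := by
      intro d
      refine IsPrecomplete.prec (I := maximalIdeal A) inferInstance fun {m n} hmn => ?_
      have h2 := hf (show m + d.degree ≤ n + d.degree by omega)
      rw [SModEq.sub_mem, smul_eq_mul, Ideal.mul_top] at h2 ⊢
      have h3 := coeff_mem_of_mem_pow h2 d
      rwa [map_sub, Nat.add_sub_cancel] at h3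
    choose L hL using h1
    let F : MvPowerSeries σ A := (fun d => L d : (σ →₀ ℕ) → A)
    have hF : ∀ d, coeff d F = L d := fun d => rfl
    refine ⟨F, fun n => ?_⟩
    rw [SModEq.sub_mem, smul_eq_mul, Ideal.mul_top]
    refine mem_pow_of_coeff_mem fun d hd => ?_
    have h2 := hL d (n - d.degree)
    rw [SModEq.sub_mem, smul_eq_mul, Ideal.mul_top, Nat.sub_add_cancel hd.le] at h2
    rw [map_sub, hF]
    exact h2

end Complete

section Univ

variable {σ : Type} [Finite σ] {O : Type} [CommRing O] {B : Type} [CommRing B] [Algebra O B]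

/-- existence of algebra homomorphisms from power series rings to complete rings -/
theorem exists_algHom (J : Ideal B) [IsAdicComplete J B] (a : σ → B) (ha : ∀ i, a i ∈ J) :
    ∃ f : MvPowerSeries σ O →ₐ[O] B, ∀ i, f (X i) = a i := by
  have h1 : ∀ n : ℕ, ∃ f : MvPowerSeries σ O →ₐ[O] B ⧸ J ^ n, ∀ i, f (X i) =
      Ideal.Quotient.mk (J ^ n) (a i) := by
    intro n
    refine H04.exists_algHom _ (J.map (Ideal.Quotient.mk (J ^ n))) (n := n) ?_
      fun i => Ideal.mem_map_of_mem _ (ha i)
    rw [← Ideal.map_pow, Ideal.map_quotient_self]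
  choose f hf using h1
  have hcomp : ∀ {m n : ℕ} (hle : m ≤ n),
      (Ideal.Quotient.factorₐ O (Ideal.pow_le_pow_right hle)).comp (f n) = f m := by
    intro m n hle
    refine H04.algHom_unique _ _ (J.map (Ideal.Quotient.mk (J ^ m))) (n := m) ?_ ?_ ?_
    · intro i
      rw [AlgHom.comp_apply, hf]
      exact Ideal.mem_map_of_mem _ (ha i)
    · intro i
      rw [AlgHom.comp_apply, hf, hf]
      rfl
    · rw [← Ideal.map_pow, Ideal.map_quotient_self]
  refine ⟨IsAdicComplete.liftAlgHom J f hcomp, fun i => ?_⟩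
  have h2 : IsHausdorff J B := inferInstance
  have h3 := h2.haus (IsAdicComplete.liftAlgHom J f hcomp (X i) - a i) fun n => by
    rw [SModEq.zero, smul_eq_mul, Ideal.mul_top, ← Ideal.Quotient.eq,
      IsAdicComplete.mk_liftAlgHom, hf]
  exact sub_eq_zero.mp h3

theorem algHom_ext (J : Ideal B) [IsHausdorff J B] {f g : MvPowerSeries σ O →ₐ[O] B}
    (hf : ∀ i, f (X i) ∈ J) (hfg : ∀ i, f (X i) = g (X i)) : f = g := by
  ext p
  have h2 : IsHausdorff J B := inferInstance
  have h3 := h2.haus (f p - g p) fun n => by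
    rw [SModEq.zero, smul_eq_mul, Ideal.mul_top]
    exact algHom_congr_pow f g J hf hfg n p
  exact sub_eq_zero.mp h3

end Univ

section Surj

variable {R B : Type*} [CommRing R] [IsLocalRing R] [CommRing B] [IsLocalRing B]

/-- surjectivity criterion -/
theorem surjective_of_cotangent [IsNoetherianRing B]
    [IsPrecomplete (maximalIdeal R) R] (f : R →+* B) [IsLocalHom f]
    (hres : ∀ b : B, ∃ r : R, b - f r ∈ maximalIdeal B)
    (hm : maximalIdeal B ≤ (maximalIdeal R).map f ⊔ maximalIdeal B ^ 2) :
    Function.Surjective f := by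
  have h1 : maximalIdeal B ≤ (maximalIdeal R).map f := by
    refine Submodule.le_of_le_smul_of_le_jacobson_bot (I := maximalIdeal B)
      (IsNoetherian.noetherian _) (IsLocalRing.maximalIdeal_le_jacobson _) ?_
    rwa [smul_eq_mul, ← pow_two]
  have h2 : (maximalIdeal R).map f = maximalIdeal B := by
    refine le_antisymm ?_ h1
    rw [Ideal.map_le_iff_le_comap]
    intro x hx
    exact (map_mem_nonunits_iff f x).mpr hx
  have h3 : IsHausdorff ((maximalIdeal R).map f) B := by
    rw [h2]
    exact ⟨fun x hx => by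
      have h4 : x ∈ (⨅ i : ℕ, maximalIdeal B ^ i) := by
        rw [Ideal.mem_iInf]
        intro i
        have := hx i
        rwa [SModEq.zero, smul_eq_mul, Ideal.mul_top] at this
      rw [Ideal.iInf_pow_eq_bot_of_isLocalRing _ (IsLocalRing.maximalIdeal.isMaximal B).ne_top] at h4
      exact h4⟩
  refine surjective_of_mk_map_comp_surjective (I := maximalIdeal R) f fun b => ?_
  obtain ⟨b, rfl⟩ := Ideal.Quotient.mk_surjective b
  obtain ⟨r, hr⟩ := hres b
  refine ⟨r, ?_⟩
  rw [RingHom.comp_apply, eq_comm, Ideal.Quotient.eq, h2]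
  exact hr

end Surj

end Fermat.Agent.H25.PS
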