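import Mathlib
import Fermat.Agent.H25.PowC

set_option autoImplicit false
set_option linter.unusedSectionVars false
set_option linter.style.haveILetI false

/-!
# Bounding the number of generators of a complete local algebra by counting derivations
-/

namespace Fermat.Agent.H25.GD

open IsLocalRing

section Der

variable {O B k : Type} [CommRing O] [CommRing B] [Field k] [Algebra O B]

/-- `k`-valued `O`-derivations of `B`, where `k` is a `B`-algebra through `res`. -/
structure IsDer (O : Type) {B k : Type} [CommRing O] [CommRing B] [Field k] [Algebra O B]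
    (res : B →+* k) (d : B → k) : Prop where
  add : ∀ x y, d (x + y) = d x + d y
  mul : ∀ x y, d (x * y) = res x * d y + res y * d x
  const : ∀ a : O, d (algebraMap O B a) = 0

variable {res : B →+* k} {d : B → k}

namespace IsDer

variable (hd : IsDer O res d)
include hd

theorem zero : d 0 = 0 := by
  have := hd.const 0
  rwa [map_zero] at this

theorem one : d 1 = 0 := by
  have := hd.const 1
  rwa [map_one] at this

theorem neg (x : B) : d (-x) = - d x := by
  have := hd.add x (-x)
  rw [add_neg_cancel, hd.zero] at this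
  exact (neg_eq_of_add_eq_zero_right this.symm).symm

theorem sub (x y : B) : d (x - y) = d x - d y := by
  rw [sub_eq_add_neg, hd.add, hd.neg, sub_eq_add_neg]

theorem sum {ι : Type*} (s : Finset ι) (f : ι → B) : d (∑ i ∈ s, f i) = ∑ i ∈ s, d (f i) := by
  classical
  induction s using Finset.induction_on with
  | empty => simp [hd.zero]
  | insert i s hi ih => rw [Finset.sum_insert hi, Finset.sum_insert hi, hd.add, ih]

theorem smul (a : O) (x : B) : d (a • x) = res (algebraMap O B a) * d x := by
  rw [Algebra.smul_def, hd.mul, hd.const, mul_zero, add_zero]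

/-- derivations vanish on `K²` if `res` vanishes on `K` -/
theorem eq_zero_of_mem_sq {K : Ideal B} (hK : ∀ x ∈ K, res x = 0) {x : B} (hx : x ∈ K ^ 2) :
    d x = 0 := by
  rw [pow_two] at hx
  refine Submodule.mul_induction_on hx (fun a ha b hb => ?_) (fun a b ha hb => ?_)
  · rw [hd.mul, hK a ha, hK b hb, zero_mul, zero_mul, add_zero]
  · rw [hd.add, ha, hb, add_zero]

/-- derivations vanishing on generators of an ideal contained in the kernel of `res` vanish
on the ideal -/
theorem eq_zero_of_mem_span {s : Set B} (hs : ∀ x ∈ s, res x = 0) (hds : ∀ x ∈ s, d x = 0)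
    {x : B} (hx : x ∈ Ideal.span s) : d x = 0 := by
  have h0 : ∀ x ∈ Ideal.span s, res x = 0 := fun x hx =>
    (Ideal.span_le (I := RingHom.ker res)).mpr (fun y hy => hs y hy) hx
  refine Submodule.span_induction (p := fun x _ => d x = 0) hds hd.zero
    (fun a b _ _ ha hb => by rw [hd.add, ha, hb, add_zero]) (fun a b hb hb' => ?_) hx
  rw [smul_eq_mul, hd.mul, hb', mul_zero, zero_add, h0 b hb, zero_mul]

theorem ext_adjoin {d' : B → k} (hd' : IsDer O res d') {s : Set B}
    (hs : Algebra.adjoin O s = ⊤) (h : ∀ x ∈ s, d x = d' x) : d = d' := by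
  funext x
  have hx : x ∈ Algebra.adjoin O s := by rw [hs]; trivial
  induction hx using Algebra.adjoin_induction with
  | mem x hx => exact h x hx
  | algebraMap r => rw [hd.const, hd'.const]
  | add x y _ _ hx hy => rw [hd.add, hd'.add, hx, hy]
  | mul x y _ _ hx hy => rw [hd.mul, hd'.mul, hx, hy]

end IsDer

end Der

section Bound

variable {O B k : Type} [CommRing O] [CommRing B] [IsLocalRing B] [IsNoetherianRing B]
  [Field k] [Finite k] [Algebra O B]

/-- **Generators from counting derivations.** -/
theorem exists_generators (res : B →+* k) (hres : ∀ c : k, ∃ a : O, res (algebraMap O B a) = c)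
    (J : Ideal B) (hJ : ∀ x ∈ J, res x = 0)
    (hOJ : ∀ a : O, res (algebraMap O B a) = 0 → algebraMap O B a ∈ J)
    (r : ℕ) (hfin : {d : B → k | IsDer O res d ∧ ∀ x ∈ J, d x = 0}.Finite)
    (hcard : {d : B → k | IsDer O res d ∧ ∀ x ∈ J, d x = 0}.ncard ≤ Nat.card k ^ r) :
    ∃ x : Fin r → B, (∀ i, x i ∈ maximalIdeal B) ∧
      maximalIdeal B ≤ Ideal.span (Set.range x) ⊔ J ⊔ maximalIdeal B ^ 2 := by
  classical
  have hker : ∀ x : B, x ∈ maximalIdeal B ↔ res x = 0 := by
    intro x
    have hsurj : Function.Surjective res := fun c => by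
      obtain ⟨a, ha⟩ := hres c
      exact ⟨_, ha⟩
    have h1 : (RingHom.ker res).IsMaximal := RingHom.ker_isMaximal_of_surjective res hsurj
    rw [← IsLocalRing.eq_maximalIdeal h1, RingHom.mem_ker]
  -- the residue field
  haveI : IsLocalHom res := ⟨fun x hx => by
    by_contra hn
    have h1 : x ∈ maximalIdeal B := hn
    rw [(hker x).mp h1] at hx
    exact not_isUnit_zero hx⟩
  let e : ResidueField B →+* k := IsLocalRing.ResidueField.lift res
  have he : ∀ x, e (residue B x) = res x := fun x => IsLocalRing.ResidueField.lift_residue_apply ..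
  have heb : Function.Bijective e := by
    refine ⟨e.injective, fun c => ?_⟩
    obtain ⟨a, ha⟩ := hres c
    exact ⟨residue B (algebraMap O B a), by rw [he, ha]⟩
  have hcardk : Nat.card (ResidueField B) = Nat.card k := Nat.card_eq_of_bijective e heb
  haveI : Finite (ResidueField B) := Finite.of_injective e heb.1
  -- the cotangent space
  let C := CotangentSpace B
  let W : Submodule (ResidueField B) C :=
    Submodule.span (ResidueField B) ((maximalIdeal B).toCotangent '' {x | (x : B) ∈ J})
  let V := C ⧸ W
  haveI : Module.Finite (ResidueField B) V := inferInstance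
  haveI : Finite V := Module.finite_of_finite (ResidueField B)
  haveI : Finite (Module.Dual (ResidueField B) V) := Module.finite_of_finite (ResidueField B)
  -- a section
  choose s hs using hres
  have hmem : ∀ b : B, b - algebraMap O B (s (res b)) ∈ maximalIdeal B := by
    intro b
    rw [hker, map_sub, hs, sub_self]
  let q : maximalIdeal B → V := fun x => W.mkQ ((maximalIdeal B).toCotangent x)
  have hqJ : ∀ x : maximalIdeal B, (x : B) ∈ J → q x = 0 := by
    intro x hx
    exact (Submodule.Quotient.mk_eq_zero W).mpr (Submodule.subset_span ⟨x, hx, rfl⟩)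
  have hqadd : ∀ x y : maximalIdeal B, q (x + y) = q x + q y := by
    intro x y
    simp only [q, map_add]
  have hqsmul : ∀ (b : B) (x : maximalIdeal B), q (b • x) = residue B b • q x := by
    intro b x
    simp only [q, map_smul]
    rfl
  have hqmul : ∀ x y : maximalIdeal B, q ⟨(x : B) * y, Ideal.mul_mem_left _ _ y.2⟩ = 0 := by
    intro x y
    have h1 : (⟨(x : B) * y, Ideal.mul_mem_left _ _ y.2⟩ : maximalIdeal B) = (x : B) • y := rfl
    rw [h1, hqsmul]
    have : residue B (x : B) = 0 := by
      rw [residue_eq_zero_iff]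
      exact x.2
    rw [this, zero_smul]
  let dd : Module.Dual (ResidueField B) V → B → k := fun ψ b => e (ψ (q ⟨_, hmem b⟩))
  have hdm : ∀ (ψ : Module.Dual (ResidueField B) V) (b : B) (hb : b ∈ maximalIdeal B),
      dd ψ b = e (ψ (q ⟨b, hb⟩)) := by
    intro ψ b hb
    have h1 : (⟨b, hb⟩ : maximalIdeal B) = ⟨_, hmem b⟩ +
        ⟨algebraMap O B (s (res b)), by rw [hker, hs, ← hker]; exact hb⟩ := by
      apply Subtype.ext
      simp
    have h2 : q ⟨algebraMap O B (s (res b)), by rw [hker, hs, ← hker]; exact hb⟩ = 0 := by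
      refine hqJ _ (hOJ _ ?_)
      rw [hs, ← hker]
      exact hb
    rw [h1, hqadd, h2, add_zero]
  have hdd : ∀ ψ : Module.Dual (ResidueField B) V,
      dd ψ ∈ {d : B → k | IsDer O res d ∧ ∀ x ∈ J, d x = 0} := by
    intro ψ
    have hconst : ∀ a : O, dd ψ (algebraMap O B a) = 0 := by
      intro a
      have h1 : q ⟨_, hmem (algebraMap O B a)⟩ = 0 := by
        refine hqJ _ ?_
        change algebraMap O B a - algebraMap O B (s (res (algebraMap O B a))) ∈ J
        rw [← map_sub]
        refine hOJ _ ?_
        rw [map_sub, map_sub, hs, sub_self]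
      change e (ψ (q _)) = 0
      rw [h1, map_zero, map_zero]
    have hadd : ∀ x y, dd ψ (x + y) = dd ψ x + dd ψ y := by
      intro x y
      have h1 : (⟨_, hmem x⟩ + ⟨_, hmem y⟩ : maximalIdeal B) = ⟨_, hmem (x + y)⟩ +
          ⟨algebraMap O B (s (res (x + y)) - s (res x) - s (res y)), by
            rw [hker, map_sub, map_sub, map_sub, map_sub, hs, hs, hs, map_add]; ring⟩ := by
        apply Subtype.ext
        simp only [AddMemClass.mk_add_mk, map_sub]
        ring
      have h2 : q ⟨algebraMap O B (s (res (x + y)) - s (res x) - s (res y)), by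
            rw [hker, map_sub, map_sub, map_sub, map_sub, hs, hs, hs, map_add]; ring⟩ = 0 := by
        refine hqJ _ (hOJ _ ?_)
        rw [map_sub, map_sub, map_sub, map_sub, hs, hs, hs, map_add]
        ring
      have h3 := congrArg q h1
      rw [hqadd, hqadd, h2, add_zero] at h3
      change e (ψ (q _)) = e (ψ (q _)) + e (ψ (q _))
      rw [← h3, map_add, map_add]
    refine ⟨⟨hadd, ?_, hconst⟩, ?_⟩
    · intro x y
      -- write x = a + m, y = b + n
      have hc : ∀ (a : O) (y : B), dd ψ (algebraMap O B a * y) =
          res (algebraMap O B a) * dd ψ y := by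
        intro a y
        have h1 : algebraMap O B a * y = algebraMap O B a * (y - algebraMap O B (s (res y))) +
            algebraMap O B (a * s (res y)) := by
          rw [map_mul]; ring
        rw [h1, hadd, hconst, add_zero, hdm ψ _ (Ideal.mul_mem_left _ _ (hmem y))]
        have h2 : (⟨algebraMap O B a * (y - algebraMap O B (s (res y))),
          Ideal.mul_mem_left _ _ (hmem y)⟩ : maximalIdeal B) =
            algebraMap O B a • ⟨_, hmem y⟩ := rfl
        rw [h2, hqsmul, map_smul, smul_eq_mul, map_mul, he]
      have h1 : x * y = algebraMap O B (s (res x)) * y +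
          (algebraMap O B (s (res y)) * (x - algebraMap O B (s (res x))) +
          (x - algebraMap O B (s (res x))) * (y - algebraMap O B (s (res y)))) := by ring
      have h2 : dd ψ ((x - algebraMap O B (s (res x))) * (y - algebraMap O B (s (res y)))) = 0 := by
        rw [hdm ψ _ (Ideal.mul_mem_left _ _ (hmem y)), hqmul ⟨_, hmem x⟩ ⟨_, hmem y⟩, map_zero,
          map_zero]
      have h3 : dd ψ (x - algebraMap O B (s (res x))) = dd ψ x := by
        have h4 := hadd (x - algebraMap O B (s (res x))) (algebraMap O B (s (res x)))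
        rw [sub_add_cancel, hconst, add_zero] at h4
        exact h4.symm
      rw [h1, hadd, hadd, h2, hc, hc, h3, hs, hs, add_zero]
    · intro x hx
      have hxm : x ∈ maximalIdeal B := (hker x).mpr (hJ x hx)
      rw [hdm ψ x hxm, hqJ _ hx, map_zero, map_zero]
  have hinj : Function.Injective dd := by
    intro ψ ψ' h
    refine LinearMap.ext fun v => ?_
    obtain ⟨c, rfl⟩ := W.mkQ_surjective v
    obtain ⟨x, rfl⟩ := (maximalIdeal B).toCotangent_surjective c
    have h1 := congrFun h (x : B)
    rw [hdm ψ _ x.2, hdm ψ' _ x.2] at h1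
    exact e.injective h1
  -- counting
  have hle : Nat.card (Module.Dual (ResidueField B) V) ≤ Nat.card k ^ r := by
    refine le_trans ?_ hcard
    rw [← Nat.card_coe_set_eq]
    haveI := hfin.to_subtype
    exact Nat.card_le_card_of_injective (fun ψ => (⟨dd ψ, hdd ψ⟩ :
      {d : B → k | IsDer O res d ∧ ∀ x ∈ J, d x = 0})) fun ψ ψ' h => hinj (Subtype.ext_iff.mp h)
  have hrank : Module.finrank (ResidueField B) V ≤ r := by
    rw [Module.natCard_eq_pow_finrank (K := ResidueField B), hcardk, Subspace.dual_finrank_eq] at hle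
    have h1 : 1 < Nat.card k := by
      have : Nontrivial k := inferInstance
      exact Finite.one_lt_card
    exact (Nat.pow_le_pow_iff_right h1).mp hle
  -- spanning vectors
  obtain ⟨v, hv⟩ : ∃ v : Fin r → V, Submodule.span (ResidueField B) (Set.range v) = ⊤ := by
    let b := Module.finBasis (ResidueField B) V
    refine ⟨fun i => if h : (i : ℕ) < Module.finrank (ResidueField B) V then b ⟨i, h⟩ else 0, ?_⟩
    rw [eq_top_iff, ← b.span_eq]
    refine Submodule.span_mono ?_
    rintro _ ⟨i, rfl⟩
    refine ⟨⟨i, lt_of_lt_of_le i.2 hrank⟩, ?_⟩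
    simp
  choose c hc using fun i => W.mkQ_surjective (v i)
  choose x hx using fun i => (maximalIdeal B).toCotangent_surjective (c i)
  refine ⟨fun i => x i, fun i => (x i).2, ?_⟩
  intro m hm
  set K := Ideal.span (Set.range fun i => ((x i : maximalIdeal B) : B)) ⊔ J ⊔ maximalIdeal B ^ 2 with hK
  -- the submodule of cotangent vectors having a representative in K
  have key : ∀ c : C, c ∈ (Submodule.span (ResidueField B) (Set.range fun i => (maximalIdeal B).toCotangent (x i)) ⊔ W) →
      ∀ y : maximalIdeal B, (maximalIdeal B).toCotangent y = c → (y : B) ∈ K := by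
    intro c hc
    have h1 : ∃ y : maximalIdeal B, (maximalIdeal B).toCotangent y = c ∧ (y : B) ∈ K := by
      have hspan : ∀ (S : Set C), (∀ c ∈ S, ∃ y : maximalIdeal B,
          (maximalIdeal B).toCotangent y = c ∧ (y : B) ∈ K) →
          ∀ c ∈ Submodule.span (ResidueField B) S, ∃ y : maximalIdeal B,
          (maximalIdeal B).toCotangent y = c ∧ (y : B) ∈ K := by
        intro S hS c hc
        induction hc using Submodule.span_induction with
        | mem c hc => exact hS c hc
        | zero => exact ⟨0, map_zero _, zero_mem _⟩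
        | add a b _ _ ha hb =>
          obtain ⟨y, hy, hy'⟩ := ha
          obtain ⟨z, hz, hz'⟩ := hb
          exact ⟨y + z, by rw [map_add, hy, hz], add_mem hy' hz'⟩
        | smul a b _ hb =>
          obtain ⟨y, hy, hy'⟩ := hb
          obtain ⟨a', rfl⟩ := residue_surjective a
          refine ⟨a' • y, ?_, Ideal.mul_mem_left _ _ hy'⟩
          rw [map_smul, hy]
          rfl
      rw [← Submodule.span_union] at hc
      refine hspan _ ?_ c hc
      rintro c (⟨i, rfl⟩ | ⟨y, hy, rfl⟩)
      · exact ⟨x i, rfl, by
          rw [hK]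
          exact Ideal.mem_sup_left (Ideal.mem_sup_left (Ideal.subset_span ⟨i, rfl⟩))⟩
      · exact ⟨y, rfl, by
          rw [hK]
          exact Ideal.mem_sup_left (Ideal.mem_sup_right hy)⟩
    obtain ⟨y', hy', hyK⟩ := h1
    intro y hy
    rw [← hy', Ideal.toCotangent_eq] at hy
    have h2 : (y : B) = (y - y') + y' := by ring
    rw [h2]
    exact add_mem (by rw [hK]; exact Ideal.mem_sup_right hy) hyK
  refine key _ ?_ ⟨m, hm⟩ rfl
  -- every cotangent vector is in the span
  have h3 : (W.mkQ ((maximalIdeal B).toCotangent ⟨m, hm⟩)) ∈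
      Submodule.span (ResidueField B) (Set.range v) := by rw [hv]; trivial
  have h4 : Set.range v = W.mkQ '' (Set.range fun i => (maximalIdeal B).toCotangent (x i)) := by
    rw [← Set.range_comp]
    congr 1
    funext i
    rw [Function.comp_apply, hx, hc]
  rw [h4, Submodule.span_image, Submodule.mem_map] at h3
  obtain ⟨z, hz, hz'⟩ := h3
  have h5 : (maximalIdeal B).toCotangent ⟨m, hm⟩ - z ∈ W := by
    rw [← Submodule.Quotient.mk_eq_zero, ← Submodule.mkQ_apply, map_sub, hz', sub_self]
  have h6 := Submodule.add_mem_sup hz h5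
  rwa [add_sub_cancel] at h6

/-- **Surjection from a power series ring.** -/
theorem exists_surjection [IsLocalRing O] [IsNoetherianRing O] [IsAdicComplete (maximalIdeal O) O]
    [IsAdicComplete (maximalIdeal B) B]
    (res : B →+* k) (hres : ∀ c : k, ∃ a : O, res (algebraMap O B a) = c)
    {τ : Type} [Finite τ] (b : τ → B) (hb : ∀ j, res (b j) = 0) (r : ℕ)
    (hfin : {d : B → k | IsDer O res d ∧ ∀ j, d (b j) = 0}.Finite)
    (hcard : {d : B → k | IsDer O res d ∧ ∀ j, d (b j) = 0}.ncard ≤ Nat.card k ^ r) :
    ∃ f : MvPowerSeries (τ ⊕ Fin r) O →ₐ[O] B, Function.Surjective f ∧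
      (∀ j, f (MvPowerSeries.X (Sum.inl j)) = b j) ∧
      ∀ i, res (f (MvPowerSeries.X (Sum.inr i))) = 0 := by
  classical
  have hsurj : Function.Surjective res := fun c => by
    obtain ⟨a, ha⟩ := hres c
    exact ⟨_, ha⟩
  have hker : ∀ x : B, x ∈ maximalIdeal B ↔ res x = 0 := by
    intro x
    have h1 : (RingHom.ker res).IsMaximal := RingHom.ker_isMaximal_of_surjective res hsurj
    rw [← IsLocalRing.eq_maximalIdeal h1, RingHom.mem_ker]
  -- residue of O
  have hO : ∀ a : O, res (algebraMap O B a) = 0 ↔ a ∈ maximalIdeal O := by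
    intro a
    have h1 : (RingHom.ker (res.comp (algebraMap O B))).IsMaximal := by
      refine RingHom.ker_isMaximal_of_surjective _ fun c => ?_
      obtain ⟨a, ha⟩ := hres c
      exact ⟨a, ha⟩
    rw [← IsLocalRing.eq_maximalIdeal h1, RingHom.mem_ker]
    rfl
  let J : Ideal B := (maximalIdeal O).map (algebraMap O B) ⊔ Ideal.span (Set.range b)
  have hJ : ∀ x ∈ J, res x = 0 := by
    have : J ≤ RingHom.ker res := by
      refine sup_le ?_ ?_
      · rw [Ideal.map_le_iff_le_comap]
        intro a ha
        exact (hO a).mpr ha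
      · rw [Ideal.span_le]
        rintro _ ⟨j, rfl⟩
        exact hb j
    exact fun x hx => this hx
  have hset : {d : B → k | IsDer O res d ∧ ∀ x ∈ J, d x = 0} =
      {d : B → k | IsDer O res d ∧ ∀ j, d (b j) = 0} := by
    ext d
    constructor
    · rintro ⟨hd, hd'⟩
      exact ⟨hd, fun j => hd' _ (Ideal.mem_sup_right (Ideal.subset_span ⟨j, rfl⟩))⟩
    · rintro ⟨hd, hd'⟩
      refine ⟨hd, fun x hx => ?_⟩
      obtain ⟨y, hy, z, hz, rfl⟩ := Submodule.mem_sup.mp hx
      rw [hd.add]
      have h1 : d y = 0 := by
        refine hd.eq_zero_of_mem_span (s := algebraMap O B '' (maximalIdeal O)) ?_ ?_ hy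
        · rintro _ ⟨a, ha, rfl⟩
          exact (hO a).mpr ha
        · rintro _ ⟨a, ha, rfl⟩
          exact hd.const a
      have h2 : d z = 0 := by
        refine hd.eq_zero_of_mem_span (s := Set.range b) ?_ ?_ hz
        · rintro _ ⟨j, rfl⟩
          exact hb j
        · rintro _ ⟨j, rfl⟩
          exact hd' j
      rw [h1, h2, add_zero]
  obtain ⟨x, hx, hxm⟩ := exists_generators (O := O) res hres J hJ
    (fun a ha => Ideal.mem_sup_left (Ideal.mem_map_of_mem _ ((hO a).mp ha))) r
    (by rw [hset]; exact hfin) (by rw [hset]; exact hcard)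
  obtain ⟨f, hf⟩ := PS.exists_algHom (O := O) (maximalIdeal B) (Sum.elim b x) (by
    rintro (j | i)
    · exact (hker _).mpr (hb j)
    · exact hx i)
  refine ⟨f, ?_, fun j => hf (Sum.inl j), fun i => ?_⟩
  · haveI : IsAdicComplete (maximalIdeal (MvPowerSeries (τ ⊕ Fin r) O))
      (MvPowerSeries (τ ⊕ Fin r) O) := PS.isAdicComplete
    have hloc : IsLocalHom (f : MvPowerSeries (τ ⊕ Fin r) O →+* B) := by
      refine ⟨fun p hp => ?_⟩
      by_contra hn
      have h1 : p ∈ maximalIdeal (MvPowerSeries (τ ⊕ Fin r) O) := hn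
      rw [PS.mem_maximalIdeal_iff] at h1
      have h2 : f p ∈ maximalIdeal B := by
        have h3 := Fermat.Agent.H04.sub_trunc_mem 1 p
        have h4 := Fermat.Agent.H04.algHom_maps_pow f (maximalIdeal B) (fun i => by
          rw [hf]
          rcases i with j | i
          · exact (hker _).mpr (hb j)
          · exact hx i) 1 h3
        rw [pow_one, map_sub] at h4
        have h5 : ((MvPowerSeries.truncTotal 1 p : MvPolynomial (τ ⊕ Fin r) O) :
            MvPowerSeries (τ ⊕ Fin r) O) = algebraMap O _ (MvPowerSeries.constantCoeff p) := by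
          rw [MvPowerSeries.algebraMap_apply]
          ext d
          rw [MvPolynomial.coeff_coe, MvPowerSeries.coeff_truncTotal_eq_ite,
            MvPowerSeries.coeff_C]
          by_cases hd : d = 0
          · simp [hd]
          · rw [if_neg hd, if_neg]
            have : d.degree ≠ 0 := by rwa [Ne, Finsupp.degree_eq_zero_iff]
            omega
        rw [h5, AlgHom.commutes] at h4
        have h6 : algebraMap O B (MvPowerSeries.constantCoeff p) ∈ maximalIdeal B :=
          (hker _).mpr ((hO _).mpr h1)
        have h7 := Ideal.add_mem _ h4 h6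
        rwa [sub_add_cancel] at h7
      exact h2 hp
    refine PS.surjective_of_cotangent (f : MvPowerSeries (τ ⊕ Fin r) O →+* B) (fun y => ?_) ?_
    · obtain ⟨a, ha⟩ := hres (res y)
      refine ⟨algebraMap O _ a, ?_⟩
      change y - f (algebraMap O _ a) ∈ _
      rw [AlgHom.commutes, hker, map_sub, ha, sub_self]
    · refine hxm.trans ?_
      refine sup_le (sup_le ?_ (sup_le ?_ ?_)) le_sup_right
      · refine le_trans ?_ le_sup_left
        rw [Ideal.span_le]
        rintro _ ⟨i, rfl⟩
        have := Ideal.mem_map_of_mem (f : MvPowerSeries (τ ⊕ Fin r) O →+* B)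
          (PS.X_mem (A := O) (Sum.inr i : τ ⊕ Fin r))
        have h1 : (f : MvPowerSeries (τ ⊕ Fin r) O →+* B) (MvPowerSeries.X (Sum.inr i)) = x i :=
          hf (Sum.inr i)
        rw [h1] at this
        exact this
      · refine le_trans ?_ le_sup_left
        rw [Ideal.map_le_iff_le_comap]
        intro a ha
        have h1 : algebraMap O (MvPowerSeries (τ ⊕ Fin r) O) a ∈
            maximalIdeal (MvPowerSeries (τ ⊕ Fin r) O) := by
          rw [MvPowerSeries.algebraMap_apply, PS.mem_maximalIdeal_iff,
            MvPowerSeries.constantCoeff_C]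
          exact ha
        have h2 := Ideal.mem_map_of_mem (f : MvPowerSeries (τ ⊕ Fin r) O →+* B) h1
        have h3 : (f : MvPowerSeries (τ ⊕ Fin r) O →+* B) (algebraMap O _ a) = algebraMap O B a :=
          f.commutes a
        rw [h3] at h2
        exact h2
      · refine le_trans ?_ le_sup_left
        rw [Ideal.span_le]
        rintro _ ⟨j, rfl⟩
        have := Ideal.mem_map_of_mem (f : MvPowerSeries (τ ⊕ Fin r) O →+* B)
          (PS.X_mem (A := O) (Sum.inl j : τ ⊕ Fin r))
        have h1 : (f : MvPowerSeries (τ ⊕ Fin r) O →+* B) (MvPowerSeries.X (Sum.inl j)) = b j :=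
          hf (Sum.inl j)
        rw [h1] at this
        exact this
  · rw [hf, ← hker]
    exact hx i

end Bound

end Fermat.Agent.H25.GD
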