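import Mathlib
import Fermat.Agent.H25.DecGen
import Fermat.Agent.H12.Tame

set_option autoImplicit false
set_option linter.style.haveILetI false
set_option linter.unusedSectionVars false

/-!
# Restriction of a matrix representation to a decomposition group away from `p`
-/

namespace Fermat.Agent.H25

open scoped Pointwise
open Fermat.Agent.H05 Fermat.Agent.H09 Fermat.Agent.H12

section MatCong

variable {A : Type*} [CommRing A] {n : Type*} [Fintype n] [DecidableEq n]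

/-- `X ≡ Y` entrywise modulo `J`. -/
def MatCong (J : Ideal A) (X Y : Matrix n n A) : Prop := ∀ i j, (X - Y) i j ∈ J

theorem matCong_iff_map {J : Ideal A} {X Y : Matrix n n A} :
    MatCong J X Y ↔ (Ideal.Quotient.mk J).mapMatrix X = (Ideal.Quotient.mk J).mapMatrix Y := by
  constructor
  · intro h
    ext i j
    exact Ideal.Quotient.eq.mpr (h i j)
  · intro h i j
    exact Ideal.Quotient.eq.mp (congrFun (congrFun h i) j)

theorem MatCong.refl {J : Ideal A} (X : Matrix n n A) : MatCong J X X :=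
  matCong_iff_map.mpr rfl

theorem MatCong.symm {J : Ideal A} {X Y : Matrix n n A} (h : MatCong J X Y) : MatCong J Y X :=
  matCong_iff_map.mpr (matCong_iff_map.mp h).symm

theorem MatCong.trans {J : Ideal A} {X Y Z : Matrix n n A} (h : MatCong J X Y)
    (h' : MatCong J Y Z) : MatCong J X Z :=
  matCong_iff_map.mpr ((matCong_iff_map.mp h).trans (matCong_iff_map.mp h'))

theorem MatCong.mul {J : Ideal A} {X Y X' Y' : Matrix n n A} (h : MatCong J X Y)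
    (h' : MatCong J X' Y') : MatCong J (X * X') (Y * Y') := by
  rw [matCong_iff_map] at *
  rw [map_mul, map_mul, h, h']

theorem MatCong.pow {J : Ideal A} {X Y : Matrix n n A} (h : MatCong J X Y) (k : ℕ) :
    MatCong J (X ^ k) (Y ^ k) := by
  rw [matCong_iff_map] at *
  rw [map_pow, map_pow, h]

theorem MatCong.mono {J J' : Ideal A} (hJ : J ≤ J') {X Y : Matrix n n A} (h : MatCong J X Y) :
    MatCong J' X Y := fun i j => hJ (h i j)

theorem MatCong.mul_mem {J K : Ideal A} {X Y : Matrix n n A} (hX : MatCong J X 0)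
    (hY : MatCong K Y 0) : MatCong (J * K) (X * Y) 0 := by
  intro i j
  rw [sub_zero, Matrix.mul_apply]
  refine Ideal.sum_mem _ fun k _ => Ideal.mul_mem_mul ?_ ?_
  · simpa using hX i k
  · simpa using hY k j

theorem matCong_zero_add {J : Ideal A} {X Y : Matrix n n A} (hX : MatCong J X 0)
    (hY : MatCong J Y 0) : MatCong J (X + Y) 0 := by
  rw [matCong_iff_map] at *
  rw [map_add, hX, hY, map_zero, add_zero]

/-- `X ≡ 1 (J^k)` implies `X^p ≡ 1 (J^(k+1))` if `p ∈ J`, `k ≥ 1`. -/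
theorem MatCong.pow_prime {J : Ideal A} {p : ℕ} (hp : (p : A) ∈ J) {k : ℕ} (hk : 1 ≤ k)
    {X : Matrix n n A} (h : MatCong (J ^ k) X 1) : MatCong (J ^ (k + 1)) (X ^ p) 1 := by
  set Y := X - 1 with hY
  have hX : X = 1 + Y := by rw [hY]; abel
  have hY0 : MatCong (J ^ k) Y 0 := fun i j => by simpa [hY] using h i j
  -- `X ^ p - 1 = Y * (∑ i < p, X ^ i)` and `∑ X^i ≡ p ≡ 0 mod J`
  have h1 : X ^ p - 1 = (∑ i ∈ Finset.range p, X ^ i) * (X - 1) := (geom_sum_mul X p).symm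
  have h2 : MatCong J (∑ i ∈ Finset.range p, X ^ i) 0 := by
    have h3 : MatCong J X 1 := h.mono (by
      calc J ^ k ≤ J ^ 1 := Ideal.pow_le_pow_right hk
        _ = J := pow_one J)
    rw [matCong_iff_map] at *
    rw [map_sum, map_zero]
    simp only [map_pow, h3, map_one, one_pow, Finset.sum_const, Finset.card_range]
    ext i j
    rw [Matrix.smul_apply, Matrix.zero_apply, nsmul_eq_mul]
    have : ((p : ℕ) : A ⧸ J) = 0 := by
      rw [← map_natCast (Ideal.Quotient.mk J)]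
      exact Ideal.Quotient.eq_zero_iff_mem.mpr hp
    rw [this, zero_mul]
  have h3 := h2.mul_mem hY0
  intro i j
  rw [h1, ← hY]
  have := h3 i j
  rw [sub_zero] at this
  rwa [pow_succ, mul_comm]

theorem MatCong.pow_prime_pow {J : Ideal A} {p : ℕ} (hp : (p : A) ∈ J)
    {X : Matrix n n A} (h : MatCong J X 1) (k : ℕ) : MatCong (J ^ (k + 1)) (X ^ p ^ k) 1 := by
  induction k with
  | zero => simpa using h
  | succ k ih =>
    rw [pow_succ p k, pow_mul]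
    exact ih.pow_prime hp (by omega)

theorem eq_of_forall_matCong {J : Ideal A} [IsHausdorff J A] {X Y : Matrix n n A}
    (h : ∀ k, MatCong (J ^ k) X Y) : X = Y := by
  ext i j
  rw [← sub_eq_zero]
  refine IsHausdorff.haus' (I := J) _ fun k => ?_
  rw [SModEq.zero]
  have := h k i j
  rw [Matrix.sub_apply] at this
  simpa using this

end MatCong

section Local

variable {L : Type*} [Field L] [CharZero L] [IsGalois ℚ L]
variable {A : Type*} [CommRing A] {n : Type*} [Fintype n] [DecidableEq n]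

/-- `J`-adic continuity of a matrix representation of the Galois group. -/
def AdicCont (J : Ideal A) (ρ : (L ≃ₐ[ℚ] L) →* Matrix n n A) : Prop :=
  ∀ k : ℕ, ∃ U : Subgroup (L ≃ₐ[ℚ] L), IsOpen (U : Set (L ≃ₐ[ℚ] L)) ∧
    ∀ u ∈ U, MatCong (J ^ k) (ρ u) 1

/-- The kernel of `ρ` modulo `J`. -/
def kerMod (J : Ideal A) (ρ : (L ≃ₐ[ℚ] L) →* Matrix n n A) : Subgroup (L ≃ₐ[ℚ] L) :=
  (((Ideal.Quotient.mk J).mapMatrix.toMonoidHom).comp ρ).toHomUnits.ker

theorem mem_kerMod {J : Ideal A} {ρ : (L ≃ₐ[ℚ] L) →* Matrix n n A} {g : L ≃ₐ[ℚ] L} :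
    g ∈ kerMod J ρ ↔ MatCong J (ρ g) 1 := by
  rw [kerMod, MonoidHom.mem_ker, matCong_iff_map, Units.ext_iff, map_one]
  rfl

instance (J : Ideal A) (ρ : (L ≃ₐ[ℚ] L) →* Matrix n n A) : (kerMod J ρ).Normal :=
  inferInstanceAs (MonoidHom.ker _).Normal

theorem AdicCont.isOpen_kerMod {J : Ideal A} {ρ : (L ≃ₐ[ℚ] L) →* Matrix n n A}
    (h : AdicCont J ρ) (k : ℕ) : IsOpen (kerMod (J ^ k) ρ : Set (L ≃ₐ[ℚ] L)) := by
  obtain ⟨U, hU, hU'⟩ := h k
  exact Subgroup.isOpen_mono (fun u hu => mem_kerMod.mpr (hU' u hu)) hU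

theorem mk_eq_iff_matCong {J : Ideal A} {ρ : (L ≃ₐ[ℚ] L) →* Matrix n n A} {g g' : L ≃ₐ[ℚ] L} :
    (QuotientGroup.mk g : (L ≃ₐ[ℚ] L) ⧸ kerMod J ρ) = QuotientGroup.mk g' ↔
      MatCong J (ρ g) (ρ g') := by
  rw [QuotientGroup.eq, mem_kerMod]
  constructor
  · intro h
    have := (MatCong.refl (J := J) (ρ g)).mul h
    rw [← map_mul, mul_inv_cancel_left, mul_one] at this
    exact this.symm
  · intro h
    have := (MatCong.refl (J := J) (ρ g⁻¹)).mul h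
    rw [← map_mul, ← map_mul, inv_mul_cancel, map_one] at this
    exact this.symm

theorem conj_mem_inertia {Av : ValuationSubring L} {d σ : L ≃ₐ[ℚ] L}
    (hd : d ∈ Av.decompositionSubgroup ℚ) (hσ : σ ∈ Av.inertiaSubgroupIn ℚ) :
    d * σ * d⁻¹ ∈ Av.inertiaSubgroupIn ℚ := by
  rw [mem_inertiaSubgroupIn_iff] at hσ ⊢
  obtain ⟨h1, h2⟩ := hσ
  refine ⟨mul_mem (mul_mem hd h1) (inv_mem hd), fun x => ?_⟩
  have : (⟨d * σ * d⁻¹, mul_mem (mul_mem hd h1) (inv_mem hd)⟩ : Av.decompositionSubgroup ℚ) =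
    ⟨d, hd⟩ * ⟨σ, h1⟩ * ⟨d, hd⟩⁻¹ := rfl
  rw [this, mul_smul, mul_smul, h2, smul_inv_smul]

variable [IsAlgClosed L]

/-- **Structure of the restriction to a decomposition group at `q ≠ p`**, when inertia acts
trivially modulo the ideal `J ∋ p`. -/
theorem local_structure {Av : ValuationSubring L} {q : ℕ} (hq : q.Prime)
    (hA : Av.LiesOverPrime q) {p : ℕ} (hp : p.Prime) (hpq : p ≠ q) {π₁ : L}
    (hπ₁ : π₁ ^ p = (q : L)) {τ φ : L ≃ₐ[ℚ] L} (hτI : τ ∈ Av.inertiaSubgroupIn ℚ)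
    (hτ : τ π₁ ≠ π₁) (hφ : Av.IsFrobeniusAt φ q)
    {J : Ideal A} (hpJ : (p : A) ∈ J) {ρ : (L ≃ₐ[ℚ] L) →* Matrix n n A} (hρ : AdicCont J ρ)
    (hI : ∀ σ ∈ Av.inertiaSubgroupIn ℚ, ∃ j : ℕ, MatCong J (ρ σ ^ p ^ j) 1) (k : ℕ) :
    (∀ σ ∈ Av.inertiaSubgroupIn ℚ, ∃ b : ℕ, MatCong (J ^ k) (ρ σ) (ρ τ ^ b)) ∧
    (∀ d ∈ Av.decompositionSubgroup ℚ, ∃ a b : ℕ,
      MatCong (J ^ k) (ρ d) (ρ φ ^ a * ρ τ ^ b)) ∧
    MatCong (J ^ k) (ρ φ * ρ τ) (ρ τ ^ q * ρ φ) := by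
  classical
  set K := kerMod (J ^ k) ρ with hK
  have hKo : IsOpen (K : Set (L ≃ₐ[ℚ] L)) := hρ.isOpen_kerMod k
  haveI : Finite ((L ≃ₐ[ℚ] L) ⧸ K) := Subgroup.quotient_finite_of_isOpen K hKo
  let f : ↥(Av.inertiaSubgroupIn ℚ) →* (L ≃ₐ[ℚ] L) ⧸ K :=
    (QuotientGroup.mk' K).comp (Av.inertiaSubgroupIn ℚ).subtype
  obtain ⟨h1, h2⟩ := tame_inertia hq hA hp hpq π₁ hπ₁ τ hτI hτ f (by
      intro σ
      obtain ⟨j, hj⟩ := hI σ σ.2
      refine ⟨j + k, ?_⟩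
      rw [← map_pow, MonoidHom.comp_apply, QuotientGroup.mk'_apply, QuotientGroup.eq_one_iff,
        mem_kerMod, map_pow, map_pow, pow_add, pow_mul]
      exact (hj.pow_prime_pow hpJ k).mono (Ideal.pow_le_pow_right (by omega))) K hKo (by
      intro σ hσ
      rw [MonoidHom.comp_apply, QuotientGroup.mk'_apply, QuotientGroup.eq_one_iff]
      exact hσ)
  -- integer powers can be replaced by natural powers
  have hnat : ∀ (g : L ≃ₐ[ℚ] L) (z : ℤ), ∃ b : ℕ,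
      (QuotientGroup.mk g : (L ≃ₐ[ℚ] L) ⧸ K) ^ z = (QuotientGroup.mk g) ^ b := by
    intro g z
    have ho : 0 < orderOf (QuotientGroup.mk g : (L ≃ₐ[ℚ] L) ⧸ K) := orderOf_pos _
    refine ⟨(z % orderOf (QuotientGroup.mk g : (L ≃ₐ[ℚ] L) ⧸ K)).toNat, ?_⟩
    rw [← zpow_natCast, Int.toNat_of_nonneg (Int.emod_nonneg _ (by positivity)), zpow_mod_orderOf]
  have part1 : ∀ σ ∈ Av.inertiaSubgroupIn ℚ, ∃ b : ℕ, MatCong (J ^ k) (ρ σ) (ρ τ ^ b) := by
    intro σ hσ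
    obtain ⟨z, hz⟩ := h1 ⟨σ, hσ⟩
    obtain ⟨b, hb⟩ := hnat τ z
    refine ⟨b, ?_⟩
    rw [← map_pow, ← mk_eq_iff_matCong]
    have h3 : (QuotientGroup.mk σ : (L ≃ₐ[ℚ] L) ⧸ K) = (QuotientGroup.mk τ) ^ z := hz
    rw [h3, hb]
    rfl
  refine ⟨part1, ?_, ?_⟩
  · intro d hd
    obtain ⟨a, h, hh, σ, hσ, rfl⟩ := exists_decomp hq hA hφ hd K hKo
    obtain ⟨b, hb⟩ := part1 σ hσ
    refine ⟨a, b, ?_⟩
    rw [map_mul, map_pow, map_mul]
    refine (MatCong.refl _).mul ?_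
    have h4 : MatCong (J ^ k) (ρ h) 1 := mem_kerMod.mp hh
    have h5 := h4.mul hb
    rwa [one_mul] at h5
  · have hτ' : φ * τ * φ⁻¹ ∈ Av.inertiaSubgroupIn ℚ :=
      conj_mem_inertia hφ.mem_decompositionSubgroup hτI
    have h3 := h2 φ hφ τ hτI hτ'
    have h4 : (QuotientGroup.mk (φ * τ * φ⁻¹) : (L ≃ₐ[ℚ] L) ⧸ K) = QuotientGroup.mk (τ ^ q) := h3
    rw [mk_eq_iff_matCong] at h4
    have h5 := h4.mul (MatCong.refl (ρ φ))
    rw [← map_mul, inv_mul_cancel_right, map_mul, map_pow] at h5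
    exact h5

/-- The relation `Φ Σ = Σ ^ q Φ`. -/
theorem frob_tame_relation {Av : ValuationSubring L} {q : ℕ} (hq : q.Prime)
    (hA : Av.LiesOverPrime q) {p : ℕ} (hp : p.Prime) (hpq : p ≠ q) {π₁ : L}
    (hπ₁ : π₁ ^ p = (q : L)) {τ φ : L ≃ₐ[ℚ] L} (hτI : τ ∈ Av.inertiaSubgroupIn ℚ)
    (hτ : τ π₁ ≠ π₁) (hφ : Av.IsFrobeniusAt φ q)
    {J : Ideal A} [IsHausdorff J A] (hpJ : (p : A) ∈ J) {ρ : (L ≃ₐ[ℚ] L) →* Matrix n n A}
    (hρ : AdicCont J ρ)
    (hI : ∀ σ ∈ Av.inertiaSubgroupIn ℚ, ∃ j : ℕ, MatCong J (ρ σ ^ p ^ j) 1) :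
    ρ φ * ρ τ = ρ τ ^ q * ρ φ :=
  eq_of_forall_matCong (J := J) fun k =>
    (local_structure hq hA hp hpq hπ₁ hτI hτ hφ hpJ hρ hI k).2.2

end Local

end Fermat.Agent.H25
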