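import Mathlib
import Fermat.Agent.H25.Cotan
import Fermat.Agent.H25.LocRep
import Fermat.Agent.TW.Select

set_option autoImplicit false
set_option linter.unusedSectionVars false
set_option linter.style.haveILetI false

/-!
# First order deformations and Selmer classes, with frames
-/

namespace Fermat.Agent.H25.GD

open IsLocalRing Fermat.Agent.CC Fermat.Agent.TW Matrix

section Mat

variable {O B k : Type} [CommRing O] [CommRing B] [Field k] [Algebra O B] {res : B →+* k}
  {d : B → k}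

theorem IsDer.mat_mul (hd : IsDer O res d) (X Y : Mt B) :
    (X * Y).map d = X.map d * Y.map res + X.map res * Y.map d := by
  ext i j
  simp only [Matrix.map_apply, Matrix.mul_apply, Matrix.add_apply]
  rw [hd.sum, ← Finset.sum_add_distrib]
  refine Finset.sum_congr rfl fun l _ => ?_
  rw [hd.mul]
  ring

theorem IsDer.mat_add (hd : IsDer O res d) (X Y : Mt B) :
    (X + Y).map d = X.map d + Y.map d := by
  ext i j
  simp only [Matrix.map_apply, Matrix.add_apply, hd.add]

theorem IsDer.mat_sub (hd : IsDer O res d) (X Y : Mt B) :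
    (X - Y).map d = X.map d - Y.map d := by
  ext i j
  simp only [Matrix.map_apply, Matrix.sub_apply, hd.sub]

theorem IsDer.mat_const (hd : IsDer O res d) (X : Mt O) :
    (X.map (algebraMap O B)).map d = 0 := by
  ext i j
  simp only [Matrix.map_apply, Matrix.zero_apply, hd.const]

theorem IsDer.mat_one (hd : IsDer O res d) : (1 : Mt B).map d = 0 := by
  ext i j
  simp only [Matrix.map_apply, Matrix.zero_apply, Matrix.one_apply]
  split_ifs
  · exact hd.one
  · exact hd.zero

theorem IsDer.mat_trace (hd : IsDer O res d) (X : Mt B) : d X.trace = (X.map d).trace := by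
  rw [Matrix.trace, Matrix.trace, hd.sum]
  rfl

/-- derivations on congruent matrices -/
theorem IsDer.mat_cong (hd : IsDer O res d) {X Y : Mt B}
    (h : MatCong (RingHom.ker res ^ 2) X Y) : X.map d = Y.map d := by
  ext i j
  have h1 := hd.eq_zero_of_mem_sq (K := RingHom.ker res) (fun x hx => hx) (h i j)
  rw [Matrix.sub_apply, hd.sub, sub_eq_zero] at h1
  exact h1

theorem map_res_cong {X Y : Mt B} (h : MatCong (RingHom.ker res ^ 2) X Y) :
    X.map res = Y.map res := by
  ext i j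
  have h1 : (X - Y) i j ∈ RingHom.ker res := Ideal.pow_le_self two_ne_zero (h i j)
  rw [RingHom.mem_ker, Matrix.sub_apply, map_sub, sub_eq_zero] at h1
  exact h1

end Mat

section Coc

variable {O A k : Type} [CommRing O] [CommRing A] [Field k] [Algebra O A] {res : A →+* k}
  {ρ : GQ →* Mt A} {rbar : GQ →* Mt k}

/-- The cocycle of a first order deformation. -/
noncomputable def cocVal (ρ : GQ →* Mt A) (rbar : GQ →* Mt k) (d : A → k) (g : GQ) : Mt k :=
  (ρ g).map d * rbar g⁻¹

theorem cocVal_mul_r (d : A → k) (g : GQ) : cocVal ρ rbar d g * rbar g = (ρ g).map d := by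
  rw [cocVal, mul_assoc, r_inv_mul, mul_one]

theorem cocVal_mul {d : A → k} (hd : IsDer O res d) (hbar : ∀ g, (ρ g).map res = rbar g)
    (g h : GQ) :
    cocVal ρ rbar d (g * h) = cocVal ρ rbar d g + rbar g * cocVal ρ rbar d h * rbar g⁻¹ := by
  rw [cocVal, cocVal, cocVal, map_mul, hd.mat_mul, hbar, hbar, _root_.mul_inv_rev, map_mul,
    add_mul]
  congr 1
  · rw [mul_assoc, ← mul_assoc (rbar h), r_mul_inv, one_mul]
  · simp only [mul_assoc]

theorem inv_eq_adj (g : GQ) : rbar g⁻¹ = (rbar g⁻¹).det • (rbar g).adjugate := by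
  have h1 : (rbar g).adjugate * (rbar g * rbar g⁻¹) = (rbar g).adjugate := by
    rw [r_mul_inv, mul_one]
  rw [← mul_assoc, Matrix.adjugate_mul, Matrix.smul_mul, one_mul] at h1
  rw [← h1, smul_smul, ← Matrix.det_mul, r_inv_mul, Matrix.det_one, one_smul]

theorem trace_cocVal {d : A → k} (hd : IsDer O res d) (hbar : ∀ g, (ρ g).map res = rbar g)
    (hdet : ∀ g, ∃ a : O, (ρ g).det = algebraMap O A a) (g : GQ) :
    (cocVal ρ rbar d g).trace = 0 := by
  obtain ⟨a, ha⟩ := hdet g
  have h1 : d (ρ g).det = 0 := by rw [ha, hd.const]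
  rw [Matrix.det_fin_two, hd.sub, hd.mul, hd.mul] at h1
  have hb : ∀ i j, res (ρ g i j) = rbar g i j := fun i j => by
    rw [← hbar g, Matrix.map_apply]
  simp only [hb] at h1
  rw [cocVal, inv_eq_adj, Matrix.mul_smul, Matrix.trace_smul, Matrix.adjugate_fin_two,
    Matrix.trace_fin_two, Matrix.mul_apply, Matrix.mul_apply, Fin.sum_univ_two, Fin.sum_univ_two]
  simp only [Matrix.map_apply, Matrix.of_apply, Matrix.cons_val', Matrix.cons_val_zero,
    Matrix.cons_val_one, Matrix.cons_val_fin_one]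
  rw [smul_eq_mul]
  linear_combination (rbar g⁻¹).det * h1

variable {S : Finset Nat.Primes}

/-- The cocycle of a first order deformation, as an element of `Z1`. -/
noncomputable def coc {d : A → k} (hd : IsDer O res d) (hbar : ∀ g, (ρ g).map res = rbar g)
    (hdet : ∀ g, ∃ a : O, (ρ g).det = algebraMap O A a)
    (hcont : ∃ U, (levS S).isOpen U ∧ ∀ s ∈ U, MatCong (RingHom.ker res ^ 2) (ρ s) 1) :
    Z1 (levS S) (Ad0 rbar (1 : GQ →* k)) :=
  ⟨fun g => Ad0.mk (cocVal ρ rbar d g) (trace_cocVal hd hbar hdet g), by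
    have hmul : ∀ g h, (Ad0.mk (cocVal ρ rbar d (g * h)) (trace_cocVal hd hbar hdet (g * h)) :
        Ad0 rbar (1 : GQ →* k)) = Ad0.mk (cocVal ρ rbar d g) (trace_cocVal hd hbar hdet g) +
        g • Ad0.mk (cocVal ρ rbar d h) (trace_cocVal hd hbar hdet h) := by
      intro g h
      apply Ad0.ext
      rw [Ad0.val_add, Ad0.val_gsmul, Ad0.val_mk, Ad0.val_mk, Ad0.val_mk, cocVal_mul hd hbar,
        MonoidHom.one_apply, one_smul]
    refine ⟨?_, hmul⟩
    obtain ⟨U, hU, hU'⟩ := hcont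
    refine ⟨U, hU, fun g s hs => ?_⟩
    have h1 : cocVal ρ rbar d s = 0 := by
      rw [cocVal, hd.mat_cong (hU' s hs), hd.mat_one, zero_mul]
    beta_reduce
    rw [hmul]
    apply Ad0.ext
    rw [Ad0.val_add, Ad0.val_gsmul, Ad0.val_mk, Ad0.val_mk, h1, mul_zero, zero_mul, smul_zero,
      add_zero]⟩

theorem coc_val {d : A → k} (hd : IsDer O res d) (hbar : ∀ g, (ρ g).map res = rbar g)
    (hdet : ∀ g, ∃ a : O, (ρ g).det = algebraMap O A a)
    (hcont : ∃ U, (levS S).isOpen U ∧ ∀ s ∈ U, MatCong (RingHom.ker res ^ 2) (ρ s) 1) (g : GQ) :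
    ((coc hd hbar hdet hcont).1 g).val = cocVal ρ rbar d g := rfl

/-- Cohomologous first order deformations are equal (traces generate). -/
theorem eq_of_mk_eq {d d' : A → k} (hd : IsDer O res d) (hd' : IsDer O res d')
    (hbar : ∀ g, (ρ g).map res = rbar g)
    (hdet : ∀ g, ∃ a : O, (ρ g).det = algebraMap O A a)
    (hcont : ∃ U, (levS S).isOpen U ∧ ∀ s ∈ U, MatCong (RingHom.ker res ^ 2) (ρ s) 1)
    (hgen : Algebra.adjoin O (Set.range fun g => (ρ g).trace) = ⊤)
    (h : H1.mk _ _ (coc hd hbar hdet hcont) = H1.mk _ _ (coc hd' hbar hdet hcont)) : d = d' := by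
  rw [← sub_eq_zero, ← map_sub, H1.mk_eq_zero] at h
  obtain ⟨a, ha⟩ := h
  refine hd.ext_adjoin hd' hgen ?_
  rintro _ ⟨g, rfl⟩
  beta_reduce
  rw [hd.mat_trace, hd'.mat_trace, ← cocVal_mul_r (ρ := ρ) (rbar := rbar) d g,
    ← cocVal_mul_r (ρ := ρ) (rbar := rbar) d' g, ← sub_eq_zero, ← Matrix.trace_sub, ← sub_mul]
  have h1 := congrArg Ad0.val (ha g)
  have h2 : ((coc hd hbar hdet hcont - coc hd' hbar hdet hcont).1 g).val =
      cocVal ρ rbar d g - cocVal ρ rbar d' g := rfl
  rw [h2, Ad0.val_sub, Ad0.val_gsmul, MonoidHom.one_apply, one_smul] at h1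
  rw [h1, sub_mul, Matrix.trace_sub, mul_assoc (rbar g * a.val), r_inv_mul, mul_one,
    Matrix.trace_mul_comm, sub_self]

end Coc

section PSDer

variable {O A k σ : Type} [CommRing O] [CommRing A] [Field k] [Algebra O A] [Finite σ]

/-- derivations on power series rings are determined by coefficients and variables -/
theorem ps_ext {res : MvPowerSeries σ A →+* k} (hX : ∀ i, res (MvPowerSeries.X i) = 0)
    {d d' : MvPowerSeries σ A → k} (hd : IsDer O res d) (hd' : IsDer O res d')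
    (hC : ∀ a, d (MvPowerSeries.C a) = d' (MvPowerSeries.C a))
    (hXd : ∀ i, d (MvPowerSeries.X i) = d' (MvPowerSeries.X i)) : d = d' := by
  have hK : ∀ x ∈ Fermat.Agent.H04.XI σ A, res x = 0 := by
    have : Fermat.Agent.H04.XI σ A ≤ RingHom.ker res := by
      rw [Ideal.span_le]
      rintro _ ⟨i, rfl⟩
      exact hX i
    exact fun x hx => this hx
  have hpoly : ∀ p : MvPolynomial σ A, d (p : MvPowerSeries σ A) = d' (p : MvPowerSeries σ A) := by
    intro p
    induction p using MvPolynomial.induction_on with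
    | C a => rw [MvPolynomial.coe_C]; exact hC a
    | add p q hp hq => rw [MvPolynomial.coe_add, hd.add, hd'.add, hp, hq]
    | mul_X p i hp =>
      rw [MvPolynomial.coe_mul, MvPolynomial.coe_X, hd.mul, hd'.mul, hp, hXd]
  funext f
  have h1 := Fermat.Agent.H04.sub_trunc_mem 2 f
  have h2 := hd.eq_zero_of_mem_sq hK h1
  have h3 := hd'.eq_zero_of_mem_sq hK h1
  rw [hd.sub, sub_eq_zero] at h2
  rw [hd'.sub, sub_eq_zero] at h3
  rw [h2, h3, hpoly]

theorem IsDer.comp_C {res : MvPowerSeries σ A →+* k} {d : MvPowerSeries σ A → k}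
    (hd : IsDer O res d) :
    IsDer O (res.comp MvPowerSeries.C) (fun a => d (MvPowerSeries.C a)) where
  add x y := by rw [map_add, hd.add]
  mul x y := by rw [map_mul, hd.mul]; rfl
  const a := by
    have := hd.const a
    rwa [MvPowerSeries.algebraMap_apply] at this

end PSDer

section Frame

variable {A 𝒯 : Type} [CommRing A]

/-- The generic trace zero matrix at `q`. -/
noncomputable def frameY (A : Type) [CommRing A] {𝒯 : Type} (q : 𝒯) :
    Mt (MvPowerSeries (𝒯 × Fin 3) A) :=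
  !![MvPowerSeries.X (q, 0), MvPowerSeries.X (q, 1); MvPowerSeries.X (q, 2),
    -MvPowerSeries.X (q, 0)]

/-- The generic frame at `q`. -/
noncomputable def frameF (A : Type) [CommRing A] {𝒯 : Type} (q : 𝒯) :
    Mt (MvPowerSeries (𝒯 × Fin 3) A) := 1 + frameY A q

theorem isUnit_det_frameF (q : 𝒯) : IsUnit (frameF A q).det := by
  rw [MvPowerSeries.isUnit_iff_constantCoeff]
  have : MvPowerSeries.constantCoeff (frameF A q).det = 1 := by
    rw [Matrix.det_fin_two]
    simp [frameF, frameY]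
  rw [this]
  exact isUnit_one

/-- The framed matrix `F M F⁻¹`. -/
noncomputable def conjF (q : 𝒯) (M : Mt A) : Mt (MvPowerSeries (𝒯 × Fin 3) A) :=
  frameF A q * M.map MvPowerSeries.C * (frameF A q)⁻¹

theorem frameF_mul_inv (q : 𝒯) : frameF A q * (frameF A q)⁻¹ = 1 :=
  Matrix.mul_nonsing_inv _ (isUnit_det_frameF q)

theorem frameF_inv_mul (q : 𝒯) : (frameF A q)⁻¹ * frameF A q = 1 :=
  Matrix.nonsing_inv_mul _ (isUnit_det_frameF q)

variable {O k : Type} [CommRing O] [Field k] [Algebra O A]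

variable {res : MvPowerSeries (𝒯 × Fin 3) A →+* k} (hX : ∀ i, res (MvPowerSeries.X i) = 0)

include hX

theorem res_frameF (q : 𝒯) : (frameF A q).map res = 1 := by
  ext i j
  fin_cases i <;> fin_cases j <;> simp [frameF, frameY, hX]

theorem res_frameF_inv (q : 𝒯) : ((frameF A q)⁻¹).map res = 1 := by
  have h1 : (frameF A q * (frameF A q)⁻¹).map res = 1 := by
    rw [frameF_mul_inv]
    ext i j
    rw [Matrix.map_apply, Matrix.one_apply, Matrix.one_apply]
    split_ifs <;> simp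
  have h2 := Matrix.map_mul (L := frameF A q) (M := (frameF A q)⁻¹) (f := res)
  rw [h1, res_frameF hX, one_mul] at h2
  exact h2.symm

theorem der_conjF {d : MvPowerSeries (𝒯 × Fin 3) A → k} (hd : IsDer O res d) (q : 𝒯) (M : Mt A) :
    (conjF q M).map d = (frameY A q).map d * (M.map (res.comp MvPowerSeries.C)) +
      M.map (fun a => d (MvPowerSeries.C a)) -
      M.map (res.comp MvPowerSeries.C) * (frameY A q).map d := by
  have hF : (frameF A q).map d = (frameY A q).map d := by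
    rw [frameF, hd.mat_add, hd.mat_one, zero_add]
  have hFi : ((frameF A q)⁻¹).map d = - (frameY A q).map d := by
    have h1 : (frameF A q * (frameF A q)⁻¹).map d = 0 := by
      rw [frameF_mul_inv, hd.mat_one]
    rw [hd.mat_mul, res_frameF hX, res_frameF_inv hX, hF, one_mul, mul_one] at h1
    exact eq_neg_of_add_eq_zero_right h1
  have h2 : (M.map (MvPowerSeries.C (σ := 𝒯 × Fin 3))).map res =
      M.map (res.comp MvPowerSeries.C) := by
    ext i j
    rfl
  have h3 : (M.map (MvPowerSeries.C (σ := 𝒯 × Fin 3))).map d =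
      M.map (fun a => d (MvPowerSeries.C a)) := by
    ext i j
    rfl
  rw [conjF, hd.mat_mul, hd.mat_mul, hFi, hF, res_frameF_inv hX, res_frameF hX, h3, mul_one,
    one_mul, Matrix.map_mul, res_frameF hX, one_mul, h2, mul_neg, sub_eq_add_neg]

end Frame

section Count

/-- The framed entries of Frobenius and tame generators, centred. -/
noncomputable def framedGen {O A 𝒯 : Type} [CommRing O] [CommRing A] [Algebra O A]
    (ρ : GQ →* Mt A) (φ τ : 𝒯 → GQ) (P₀ T₀ : 𝒯 → Mt O) (j : 𝒯 × Bool × Fin 2 × Fin 2) :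
    MvPowerSeries (𝒯 × Fin 3) A :=
  (conjF j.1 (ρ (cond j.2.1 (φ j.1) (τ j.1))) -
    (cond j.2.1 (P₀ j.1) (T₀ j.1)).map (algebraMap O (MvPowerSeries (𝒯 × Fin 3) A)))
    j.2.2.1 j.2.2.2

/-- the `𝒯`-frame vector of a derivation -/
noncomputable def yvec {A k 𝒯 : Type} [CommRing A] [Field k] (rbar : GQ →* Mt k)
    (d : MvPowerSeries (𝒯 × Fin 3) A → k)
    (hneg : ∀ x, d (-x) = - d x) (q : 𝒯) : Ad0 rbar (1 : GQ →* k) :=
  Ad0.mk ((frameY A q).map d) (by
    rw [Matrix.trace_fin_two]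
    simp [frameY, hneg])

variable {O A k 𝒯 : Type} [CommRing O] [CommRing A] [Field k] [Finite k] [Algebra O A]
  [Finite 𝒯] {S : Finset Nat.Primes}

/-- **Counting framed first order deformations.** -/
theorem card_framed (res : A →+* k) (ρ : GQ →* Mt A) (rbar : GQ →* Mt k)
    (hbar : ∀ g, (ρ g).map res = rbar g)
    (hdet : ∀ g, ∃ a : O, (ρ g).det = algebraMap O A a)
    (hcont : ∃ U, (levS S).isOpen U ∧ ∀ s ∈ U, MatCong (RingHom.ker res ^ 2) (ρ s) 1)
    (hgen : Algebra.adjoin O (Set.range fun g => (ρ g).trace) = ⊤)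
    (D : 𝒯 → Subgroup GQ) (φ τ : 𝒯 → GQ)
    (hD : ∀ q, ∀ g ∈ D q, ∃ a b : ℕ,
      MatCong (RingHom.ker res ^ 2) (ρ g) (ρ (φ q) ^ a * ρ (τ q) ^ b))
    (P₀ T₀ : 𝒯 → Mt O)
    (Sel : AddSubgroup (H1 (levS S) (Ad0 rbar (1 : GQ →* k)))) [Finite Sel]
    (hSel : ∀ (d : A → k) (hd : IsDer O res d),
      (∀ q, ∃ a : Ad0 rbar (1 : GQ →* k), ∀ g ∈ D q,
        (coc hd hbar hdet hcont).1 g = g • a - a) →
      H1.mk _ _ (coc hd hbar hdet hcont) ∈ Sel) :
    {d : MvPowerSeries (𝒯 × Fin 3) A → k |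
        IsDer O (res.comp MvPowerSeries.constantCoeff) d ∧
        ∀ j : 𝒯 × Bool × Fin 2 × Fin 2, d (framedGen ρ φ τ P₀ T₀ j) = 0}.Finite ∧
    {d : MvPowerSeries (𝒯 × Fin 3) A → k |
        IsDer O (res.comp MvPowerSeries.constantCoeff) d ∧
        ∀ j : 𝒯 × Bool × Fin 2 × Fin 2, d (framedGen ρ φ τ P₀ T₀ j) = 0}.ncard ≤
      Nat.card Sel * Nat.card (∀ q, H0 (D q) (Ad0 rbar (1 : GQ →* k))) := by
  classical
  set resB : MvPowerSeries (𝒯 × Fin 3) A →+* k := res.comp MvPowerSeries.constantCoeff with hresB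
  have hX : ∀ i, resB (MvPowerSeries.X i) = 0 := fun i => by
    rw [hresB, RingHom.comp_apply, MvPowerSeries.constantCoeff_X, map_zero]
  have hC : resB.comp MvPowerSeries.C = res := by
    ext a
    rw [hresB, RingHom.comp_apply, RingHom.comp_apply, MvPowerSeries.constantCoeff_C]
  set 𝒟 := {d : MvPowerSeries (𝒯 × Fin 3) A → k | IsDer O resB d ∧
        ∀ j : 𝒯 × Bool × Fin 2 × Fin 2, d (framedGen ρ φ τ P₀ T₀ j) = 0}
    with h𝒟
  -- restriction to A
  have hdA : ∀ d : 𝒟, IsDer O res (fun a => d.1 (MvPowerSeries.C a)) := fun d => by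
    have := d.2.1.comp_C
    rwa [hC] at this
  let y : ∀ (_ : 𝒟) (_ : 𝒯), Ad0 rbar (1 : GQ →* k) := fun d q => yvec rbar d.1 d.2.1.neg q
  have hyval : ∀ (d : 𝒟) (q : 𝒯), (y d q).val = (frameY A q).map d.1 := fun d q => rfl
  -- relation for general element with framed matrix constant
  have hrel : ∀ (d : 𝒟) (q : 𝒯) (g : GQ) (M : Mt O),
      (conjF q (ρ g) - M.map (algebraMap O _)).map d.1 = 0 →
      (coc (hdA d) hbar hdet hcont).1 g = g • y d q - y d q := by
    intro d q g M h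
    rw [d.2.1.mat_sub, d.2.1.mat_const, sub_zero, der_conjF hX d.2.1, hC, hbar] at h
    apply Ad0.ext
    rw [coc_val, Ad0.val_sub, Ad0.val_gsmul, MonoidHom.one_apply, one_smul, hyval, cocVal]
    have h1 : (ρ g).map (fun a => d.1 (MvPowerSeries.C a)) =
        rbar g * (frameY A q).map d.1 - (frameY A q).map d.1 * rbar g := by
      have h2 := h
      rw [sub_eq_zero] at h2
      rw [← h2]
      abel
    rw [h1, sub_mul, mul_assoc ((frameY A q).map d.1), r_mul_inv, mul_one]
  have hφ : ∀ (d : 𝒟) (q : 𝒯), (coc (hdA d) hbar hdet hcont).1 (φ q) =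
      φ q • y d q - y d q := by
    intro d q
    refine hrel d q (φ q) (P₀ q) ?_
    ext i j
    exact d.2.2 (q, true, i, j)
  have hτ : ∀ (d : 𝒟) (q : 𝒯), (coc (hdA d) hbar hdet hcont).1 (τ q) =
      τ q • y d q - y d q := by
    intro d q
    refine hrel d q (τ q) (T₀ q) ?_
    ext i j
    exact d.2.2 (q, false, i, j)
  have hmul : ∀ (d : 𝒟) (q : 𝒯) (g h : GQ),
      (coc (hdA d) hbar hdet hcont).1 g = g • y d q - y d q →
      (coc (hdA d) hbar hdet hcont).1 h = h • y d q - y d q →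
      (coc (hdA d) hbar hdet hcont).1 (g * h) = (g * h) • y d q - y d q := by
    intro d q g h hg hh
    rw [(coc (hdA d) hbar hdet hcont).2.2, hg, hh, smul_sub, mul_smul]
    abel
  have hpow : ∀ (d : 𝒟) (q : 𝒯) (g : GQ),
      (coc (hdA d) hbar hdet hcont).1 g = g • y d q - y d q → ∀ n : ℕ,
      (coc (hdA d) hbar hdet hcont).1 (g ^ n) = (g ^ n) • y d q - y d q := by
    intro d q g hg n
    induction n with
    | zero =>
      have h1 := (coc (hdA d) hbar hdet hcont).2.2 1 1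
      rw [one_mul, one_smul] at h1
      rw [pow_zero, one_smul, sub_self]
      exact left_eq_add.mp h1
    | succ n ih =>
      rw [pow_succ]
      exact hmul d q _ _ ih hg
  have hDq : ∀ (d : 𝒟) (q : 𝒯), ∀ g ∈ D q,
      (coc (hdA d) hbar hdet hcont).1 g = g • y d q - y d q := by
    intro d q g hg
    obtain ⟨a, b, hab⟩ := hD q g hg
    have h1 := hmul d q _ _ (hpow d q _ (hφ d q) a) (hpow d q _ (hτ d q) b)
    have h2 : MatCong (RingHom.ker res ^ 2) (ρ g) (ρ (φ q ^ a * τ q ^ b)) := by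
      rwa [map_mul, map_pow, map_pow]
    have h3 : rbar g = rbar (φ q ^ a * τ q ^ b) := by
      rw [← hbar, ← hbar, map_res_cong h2]
    have h4 : rbar g⁻¹ = rbar (φ q ^ a * τ q ^ b)⁻¹ := by
      have e1 := r_mul_inv rbar (φ q ^ a * τ q ^ b)
      rw [← h3] at e1
      calc rbar g⁻¹ = rbar g⁻¹ * (rbar g * rbar (φ q ^ a * τ q ^ b)⁻¹) := by rw [e1, mul_one]
        _ = _ := by rw [← mul_assoc, r_inv_mul, one_mul]
    apply Ad0.ext
    have h5 := congrArg Ad0.val h1
    rw [coc_val, cocVal, Ad0.val_sub, Ad0.val_gsmul, MonoidHom.one_apply, one_smul] at h5 ⊢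
    rw [(hdA d).mat_cong h2, h4, h3, h5]
  -- determination
  have hdet' : ∀ d d' : 𝒟, H1.mk _ _ (coc (hdA d) hbar hdet hcont) =
      H1.mk _ _ (coc (hdA d') hbar hdet hcont) →
      ∀ a, d.1 (MvPowerSeries.C a) = d'.1 (MvPowerSeries.C a) := by
    intro d d' h a
    have := eq_of_mk_eq (hdA d) (hdA d') hbar hdet hcont hgen h
    exact congrFun this a
  have hall : ∀ d d' : 𝒟, (∀ a, d.1 (MvPowerSeries.C a) = d'.1 (MvPowerSeries.C a)) →
      (∀ q, y d q = y d' q) → d = d' := by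
    intro d d' h1 h2
    refine Subtype.ext (ps_ext hX d.2.1 d'.2.1 h1 ?_)
    rintro ⟨q, i⟩
    have h3 := congrArg Ad0.val (h2 q)
    rw [hyval, hyval] at h3
    have h4 : ∀ i j, d.1 (frameY A q i j) = d'.1 (frameY A q i j) := fun i j =>
      congrFun (congrFun h3 i) j
    fin_cases i
    · exact h4 0 0
    · exact h4 0 1
    · exact h4 1 0
  have hmemSel : ∀ d : 𝒟, H1.mk _ _ (coc (hdA d) hbar hdet hcont) ∈ Sel := fun d =>
    hSel _ (hdA d) fun q => ⟨y d q, hDq d q⟩
  -- representatives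
  let cl : 𝒟 → Sel := fun d => ⟨H1.mk _ _ (coc (hdA d) hbar hdet hcont), hmemSel d⟩
  let rep : Sel → Option 𝒟 := fun x => if h : ∃ d, cl d = x then some h.choose else none
  have hrep : ∀ d : 𝒟, ∃ d₀, rep (cl d) = some d₀ ∧ cl d₀ = cl d := by
    intro d
    have h : ∃ d', cl d' = cl d := ⟨d, rfl⟩
    exact ⟨h.choose, by simp only [rep]; rw [dif_pos h], h.choose_spec⟩
  choose d₀ hd₀ hd₀' using hrep
  have hd₀A : ∀ d : 𝒟, ∀ a, (d₀ d).1 (MvPowerSeries.C a) = d.1 (MvPowerSeries.C a) := fun d =>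
    hdet' _ _ (congrArg Subtype.val (hd₀' d))
  have hH0 : ∀ (d : 𝒟) (q : 𝒯), y d q - y (d₀ d) q ∈ H0 (D q) (Ad0 rbar (1 : GQ →* k)) := by
    intro d q g
    have h1 := hDq d q g g.2
    have h2 := hDq (d₀ d) q g g.2
    have h3 : (coc (hdA (d₀ d)) hbar hdet hcont).1 (g : GQ) =
        (coc (hdA d) hbar hdet hcont).1 (g : GQ) := by
      apply Ad0.ext
      rw [coc_val, coc_val, cocVal, cocVal]
      congr 1
      ext i j
      exact hd₀A d _
    rw [h3, h1] at h2
    rw [Ad0.smul_eq_of_mem, smul_sub]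
    rw [sub_eq_sub_iff_add_eq_add] at h2 ⊢
    rw [add_comm (y d q), ← h2]
  let F : 𝒟 → Sel × (∀ q, H0 (D q) (Ad0 rbar (1 : GQ →* k))) := fun d =>
    (cl d, fun q => ⟨y d q - y (d₀ d) q, hH0 d q⟩)
  have hF : Function.Injective F := by
    intro d d' h
    have h1 : cl d = cl d' := congrArg Prod.fst h
    have h2 : d₀ d = d₀ d' := by
      have e1 := hd₀ d
      rw [h1, hd₀ d'] at e1
      exact (Option.some_inj.mp e1).symm
    have h3 : ∀ q, y d q - y (d₀ d) q = y d' q - y (d₀ d') q := fun q =>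
      congrArg Subtype.val (congrFun (congrArg Prod.snd h) q)
    refine hall d d' (hdet' _ _ (congrArg Subtype.val h1)) fun q => ?_
    have := h3 q
    rw [h2] at this
    exact sub_left_injective this
  have hfinT : Finite (Sel × (∀ q, H0 (D q) (Ad0 rbar (1 : GQ →* k)))) := inferInstance
  haveI hfin : Finite 𝒟 := Finite.of_injective F hF
  refine ⟨Set.toFinite 𝒟, ?_⟩
  rw [← Nat.card_coe_set_eq, ← Nat.card_prod]
  exact Nat.card_le_card_of_injective F hF

/-- **The framed presentation.** -/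
theorem exists_framed_surjection [IsLocalRing O] [IsNoetherianRing O]
    [IsAdicComplete (maximalIdeal O) O] [IsLocalRing A] [IsNoetherianRing A]
    [IsAdicComplete (maximalIdeal A) A]
    (res : A →+* k) (hres : ∀ c : k, ∃ a : O, res (algebraMap O A a) = c)
    (ρ : GQ →* Mt A) (rbar : GQ →* Mt k)
    (hbar : ∀ g, (ρ g).map res = rbar g)
    (hdet : ∀ g, ∃ a : O, (ρ g).det = algebraMap O A a)
    (hcont : ∃ U, (levS S).isOpen U ∧ ∀ s ∈ U, MatCong (RingHom.ker res ^ 2) (ρ s) 1)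
    (hgen : Algebra.adjoin O (Set.range fun g => (ρ g).trace) = ⊤)
    (D : 𝒯 → Subgroup GQ) (φ τ : 𝒯 → GQ)
    (hD : ∀ q, ∀ g ∈ D q, ∃ a b : ℕ,
      MatCong (RingHom.ker res ^ 2) (ρ g) (ρ (φ q) ^ a * ρ (τ q) ^ b))
    (P₀ T₀ : 𝒯 → Mt O)
    (hP₀ : ∀ q, (P₀ q).map (res.comp (algebraMap O A)) = rbar (φ q))
    (hT₀ : ∀ q, (T₀ q).map (res.comp (algebraMap O A)) = rbar (τ q))
    (Sel : AddSubgroup (H1 (levS S) (Ad0 rbar (1 : GQ →* k)))) [Finite Sel]
    (hSel : ∀ (d : A → k) (hd : IsDer O res d),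
      (∀ q, ∃ a : Ad0 rbar (1 : GQ →* k), ∀ g ∈ D q,
        (coc hd hbar hdet hcont).1 g = g • a - a) →
      H1.mk _ _ (coc hd hbar hdet hcont) ∈ Sel) (r : ℕ)
    (hr : Nat.card Sel * Nat.card (∀ q, H0 (D q) (Ad0 rbar (1 : GQ →* k))) ≤ Nat.card k ^ r) :
    ∃ f : MvPowerSeries ((𝒯 × Bool × Fin 2 × Fin 2) ⊕ Fin r) O →ₐ[O]
      MvPowerSeries (𝒯 × Fin 3) A, Function.Surjective f ∧
      (∀ j, f (MvPowerSeries.X (Sum.inl j)) = framedGen ρ φ τ P₀ T₀ j) ∧
      ∀ i, res (MvPowerSeries.constantCoeff (f (MvPowerSeries.X (Sum.inr i)))) = 0 := by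
  obtain ⟨h1, h2⟩ := card_framed res ρ rbar hbar hdet hcont hgen D φ τ hD P₀ T₀ Sel hSel
  haveI : IsAdicComplete (maximalIdeal (MvPowerSeries (𝒯 × Fin 3) A))
    (MvPowerSeries (𝒯 × Fin 3) A) := PS.isAdicComplete
  have hX : ∀ i : 𝒯 × Fin 3, (res.comp MvPowerSeries.constantCoeff)
      (MvPowerSeries.X i : MvPowerSeries (𝒯 × Fin 3) A) = 0 := fun i => by
    rw [RingHom.comp_apply, MvPowerSeries.constantCoeff_X, map_zero]
  have hC : (res.comp MvPowerSeries.constantCoeff).comp
      (MvPowerSeries.C (σ := 𝒯 × Fin 3) (R := A)) = res := by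
    ext a
    rw [RingHom.comp_apply, RingHom.comp_apply, MvPowerSeries.constantCoeff_C]
  have key : ∀ (q : 𝒯) (g : GQ) (M : Mt O), M.map (res.comp (algebraMap O A)) = rbar g →
      (conjF q (ρ g) - M.map (algebraMap O (MvPowerSeries (𝒯 × Fin 3) A))).map
        (res.comp MvPowerSeries.constantCoeff) = 0 := by
    intro q g M hM
    have e1 : (conjF q (ρ g)).map (res.comp MvPowerSeries.constantCoeff) = rbar g := by
      rw [conjF, Matrix.map_mul, Matrix.map_mul, res_frameF hX, res_frameF_inv hX, one_mul,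
        mul_one, ← hbar]
      ext i j
      rw [Matrix.map_apply, Matrix.map_apply, Matrix.map_apply, ← hC]
      rfl
    have e2 : (M.map (algebraMap O (MvPowerSeries (𝒯 × Fin 3) A))).map
        (res.comp MvPowerSeries.constantCoeff) = rbar g := by
      rw [← hM]
      ext i j
      rw [Matrix.map_apply, Matrix.map_apply, Matrix.map_apply, MvPowerSeries.algebraMap_apply,
        RingHom.comp_apply, MvPowerSeries.constantCoeff_C, RingHom.comp_apply]
    ext i j
    have e1' := congrFun (congrFun e1 i) j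
    have e2' := congrFun (congrFun e2 i) j
    rw [Matrix.map_apply] at e1' e2' ⊢
    rw [Matrix.sub_apply, map_sub, e1', e2', sub_self, Matrix.zero_apply]
  refine exists_surjection (O := O) (res.comp MvPowerSeries.constantCoeff) (fun c => ?_)
    (framedGen ρ φ τ P₀ T₀) (fun j => ?_) r h1 (h2.trans hr)
  · obtain ⟨a, ha⟩ := hres c
    refine ⟨a, ?_⟩
    rw [MvPowerSeries.algebraMap_apply, RingHom.comp_apply, MvPowerSeries.constantCoeff_C]
    exact ha
  · obtain ⟨q, b, i, j⟩ := j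
    have hM : (cond b (P₀ q) (T₀ q)).map (res.comp (algebraMap O A)) =
        rbar (cond b (φ q) (τ q)) := by
      cases b
      · exact hT₀ q
      · exact hP₀ q
    exact congrFun (congrFun (key q _ _ hM) i) j

end Count

end Fermat.Agent.H25.GD
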