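import Mathlib

set_option autoImplicit false
set_option linter.unusedSectionVars false
set_option linter.style.haveILetI false

/-!
# Local structure at a Taylor-Wiles prime

Pure matrix algebra over a local ring: if `Φ Σ = Σ ^ q Φ`, `Σ ≡ 1`, and the eigenvalues `α, β` of
`Φ` satisfy `α ≢ q β`, `α ≢ β`, then `Σ` commutes with `Φ`.
-/

namespace Fermat.Agent.H25.TW

open Matrix

variable {A : Type*} [CommRing A]

local notation "M2" => Matrix (Fin 2) (Fin 2)

/-- Cayley-Hamilton for `2 × 2` matrices. -/
theorem cayley (X : M2 A) : X * X = X.trace • X - X.det • (1 : M2 A) := by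
  ext i j
  fin_cases i <;> fin_cases j <;>
    simp [Matrix.mul_apply, Fin.sum_univ_two, Matrix.trace_fin_two, Matrix.det_fin_two] <;> ring

/-- powers of a matrix congruent to one -/
theorem pow_eq (I : Ideal A) (S : M2 A) (hS : ∀ i j, (S - 1) i j ∈ I) (n : ℕ) :
    ∃ a b : A, S ^ n = a • S + b • (1 : M2 A) ∧ a - n ∈ I ∧ b - (1 - n) ∈ I := by
  have h00 : S 0 0 - 1 ∈ I := by simpa using hS 0 0
  have h11 : S 1 1 - 1 ∈ I := by simpa using hS 1 1
  have h01 : S 0 1 ∈ I := by simpa using hS 0 1
  have htr : S.trace - 2 ∈ I := by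
    rw [Matrix.trace_fin_two]
    have : S 0 0 + S 1 1 - 2 = (S 0 0 - 1) + (S 1 1 - 1) := by ring
    rw [this]; exact I.add_mem h00 h11
  have hdet : S.det - 1 ∈ I := by
    rw [Matrix.det_fin_two]
    have : S 0 0 * S 1 1 - S 0 1 * S 1 0 - 1 =
        S 1 1 * (S 0 0 - 1) + (S 1 1 - 1) - S 1 0 * S 0 1 := by ring
    rw [this]
    exact I.sub_mem (I.add_mem (I.mul_mem_left _ h00) h11) (I.mul_mem_left _ h01)
  induction n with
  | zero => exact ⟨0, 1, by simp, by simp, by simp⟩
  | succ n ih =>
    obtain ⟨a, b, h1, h2, h3⟩ := ih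
    refine ⟨a * S.trace + b, -(a * S.det), ?_, ?_, ?_⟩
    · rw [pow_succ, h1, add_mul, smul_mul_assoc, smul_mul_assoc, one_mul, cayley, smul_sub,
        smul_smul, smul_smul, add_smul, neg_smul]
      abel
    · have : a * S.trace + b - ((n + 1 : ℕ) : A) =
          a * (S.trace - 2) + 2 * (a - n) + (b - (1 - n)) := by push_cast; ring
      rw [this]
      exact I.add_mem (I.add_mem (I.mul_mem_left _ htr) (I.mul_mem_left _ h2)) h3
    · have : -(a * S.det) - (1 - ((n + 1 : ℕ) : A)) = -(a * (S.det - 1)) - (a - n) := by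
        push_cast; ring
      rw [this]
      exact I.sub_mem (I.neg_mem (I.mul_mem_left _ hdet)) h2

variable [IsLocalRing A]

/-- the idempotent projecting to the `α`-eigenspace -/
noncomputable def idem (P : M2 A) (β : A) (δ : A) : M2 A := δ • (P - β • (1 : M2 A))

section

variable {P : M2 A} {α β δ : A} (htr : P.trace = α + β) (hdet : P.det = α * β)
  (hδ : (α - β) * δ = 1)

include htr hdet in
theorem mul_eq : (P - β • (1 : M2 A)) * (P - β • (1 : M2 A)) =
    (α - β) • (P - β • (1 : M2 A)) := by
  rw [sub_mul, mul_sub, mul_sub, cayley, htr, hdet, smul_mul_assoc, smul_mul_assoc, mul_smul_comm,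
    mul_smul_comm, one_mul, mul_one, one_mul]
  ext i j
  simp only [Matrix.sub_apply, Matrix.smul_apply, smul_eq_mul]
  ring

include htr hdet hδ in
theorem idem_mul_self : idem P β δ * idem P β δ = idem P β δ := by
  rw [idem, smul_mul_smul_comm, mul_eq htr hdet, smul_smul]
  congr 1
  linear_combination δ * hδ

include htr hdet in
theorem mul_idem : P * idem P β δ = α • idem P β δ := by
  have h := mul_eq htr hdet
  rw [sub_mul, smul_mul_assoc, one_mul] at h
  have h2 : P * (P - β • (1 : M2 A)) = α • (P - β • (1 : M2 A)) := by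
    have := eq_add_of_sub_eq h
    rw [this, ← add_smul, sub_add_cancel]
  rw [idem, mul_smul_comm, h2, smul_comm]

include htr hdet in
theorem idem_mul : idem P β δ * P = α • idem P β δ := by
  rw [← mul_idem htr hdet (δ := δ), idem, smul_mul_assoc, mul_smul_comm, sub_mul, mul_sub,
    smul_mul_assoc, mul_smul_comm, one_mul, mul_one]

include htr hdet hδ in
theorem mul_one_sub_idem : P * (1 - idem P β δ) = β • (1 - idem P β δ) := by
  rw [mul_sub, mul_one, mul_idem htr hdet, smul_sub]
  have : P = (α - β) • idem P β δ + β • 1 := by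
    rw [idem, smul_smul, hδ, one_smul, sub_add_cancel]
  calc P - α • idem P β δ = ((α - β) • idem P β δ + β • 1) - α • idem P β δ :=
        congrArg (· - α • idem P β δ) this
    _ = β • 1 - β • idem P β δ := by rw [sub_smul]; abel

include htr hdet hδ in
theorem one_sub_idem_mul : (1 - idem P β δ) * P = β • (1 - idem P β δ) := by
  rw [← mul_one_sub_idem htr hdet hδ, sub_mul, mul_sub, one_mul, mul_one, mul_idem htr hdet,
    idem_mul htr hdet]

end

/-- **Local structure at Taylor-Wiles primes**: the "inertia matrix" commutes with Frobenius. -/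
theorem commute_of_rel {P S : M2 A} {α β δ : A} {q : ℕ} (htr : P.trace = α + β)
    (hdet : P.det = α * β) (hδ : (α - β) * δ = 1)
    (hS : ∀ i j, (S - 1) i j ∈ IsLocalRing.maximalIdeal A)
    (h1 : IsUnit (α - q * β)) (h2 : IsUnit (β - q * α)) (hrel : P * S = S ^ q * P) :
    S * idem P β δ = idem P β δ * S := by
  set e := idem P β δ with he
  have hee : e * e = e := idem_mul_self htr hdet hδ
  obtain ⟨a, b, hpow, ha, -⟩ := pow_eq (IsLocalRing.maximalIdeal A) S hS q
  have hPe : P * e = α • e := mul_idem htr hdet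
  have heP : e * P = α • e := idem_mul htr hdet
  have hPf : P * (1 - e) = β • (1 - e) := mul_one_sub_idem htr hdet hδ
  have hfP : (1 - e) * P = β • (1 - e) := one_sub_idem_mul htr hdet hδ
  have hef : e * (1 - e) = 0 := by rw [mul_sub, mul_one, hee, sub_self]
  have hfe : (1 - e) * e = 0 := by rw [sub_mul, one_mul, hee, sub_self]
  have key : ∀ (u v : A) (x y : M2 A), x * P = u • x → P * y = v • y → x * y = 0 →
      IsUnit (u - q * v) → x * S * y = 0 := by
    intro u v x y hx hy hxy huv
    have e1 : x * (P * S) * y = u • (x * S * y) := by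
      rw [← mul_assoc, hx, smul_mul_assoc, smul_mul_assoc]
    have e2 : x * (S ^ q * P) * y = (a * v) • (x * S * y) := by
      rw [mul_assoc, mul_assoc (S ^ q), hy, mul_smul_comm, mul_smul_comm, hpow, add_mul, mul_add,
        smul_mul_assoc, smul_mul_assoc, one_mul, mul_smul_comm, mul_smul_comm, hxy, smul_zero,
        add_zero, smul_smul, mul_comm v a, ← mul_assoc]
    have e3 : (u - a * v) • (x * S * y) = 0 := by
      rw [sub_smul, ← e1, ← e2, hrel, sub_self]
    have e4 : IsUnit (u - a * v) := by
      by_contra hn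
      have h5 : u - a * v ∈ IsLocalRing.maximalIdeal A := hn
      have h6 : u - q * v ∈ IsLocalRing.maximalIdeal A := by
        have : u - q * v = (u - a * v) + v * (a - q) := by ring
        rw [this]
        exact Ideal.add_mem _ h5 (Ideal.mul_mem_left _ _ ha)
      exact h6 huv
    obtain ⟨w, hw⟩ := e4
    have := congrArg (fun z => (↑w⁻¹ : A) • z) e3
    simp only [smul_zero, smul_smul, ← hw, Units.inv_mul, one_smul] at this
    exact this
  have k1 : e * S * (1 - e) = 0 := key α β e (1 - e) heP hPf hef h1
  have k2 : (1 - e) * S * e = 0 := key β α (1 - e) e hfP hPe hfe h2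
  have k3 : e * S = e * S * e := by
    rw [mul_sub, mul_one, sub_eq_zero] at k1; exact k1
  have k4 : S * e = e * S * e := by
    rw [sub_mul, one_mul, sub_mul, sub_eq_zero] at k2; exact k2
  rw [k4, ← k3]

/-- rank one idempotents: `e X e = tr (e X) e`. -/
theorem idem_sandwich {e : M2 A} (he : e * e = e) (htr : e.trace = 1) (X : M2 A) :
    e * X * e = (e * X).trace • e := by
  -- from Cayley-Hamilton for `e`: `det e = 0`
  have h1 := cayley e
  rw [he, htr, one_smul] at h1
  have hdet : e.det = 0 := by
    have := congrFun (congrFun h1 0) 0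
    simp only [Matrix.sub_apply, Matrix.smul_apply, Matrix.one_apply_eq, smul_eq_mul, mul_one] at this
    linear_combination this
  rw [Matrix.trace_fin_two] at htr
  rw [Matrix.det_fin_two] at hdet
  have h11 : e 1 1 = 1 - e 0 0 := by linear_combination htr
  ext i j
  fin_cases i <;> fin_cases j <;>
    simp only [Matrix.mul_apply, Fin.sum_univ_two, Matrix.trace_fin_two, Matrix.smul_apply,
      smul_eq_mul, Fin.zero_eta, Fin.isValue, Fin.mk_one]
  · linear_combination (X 1 1) * hdet * (-1)
  · linear_combination (X 0 1) * hdet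
  · linear_combination (X 1 0) * hdet
  · linear_combination -(X 0 0) * hdet

end Fermat.Agent.H25.TW
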