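import Mathlib
import Fermat.Agent.H25.TWLocal
import Fermat.Agent.H25.LocRep

set_option autoImplicit false
set_option linter.unusedSectionVars false
set_option linter.style.haveILetI false

/-!
# The character of inertia at a Taylor-Wiles prime
-/

namespace Fermat.Agent.H25.TW

open Matrix IsLocalRing

variable {A : Type*} [CommRing A]

local notation "M2" => Matrix (Fin 2) (Fin 2)

/-- Hensel lifting of the eigenvalues. -/
theorem exists_eigenvalues [HenselianLocalRing A] {P : M2 A}
    {a b : ResidueField A} (htr : residue A P.trace = a + b) (hdet : residue A P.det = a * b)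
    (hab : a ≠ b) :
    ∃ α β δ : A, P.trace = α + β ∧ P.det = α * β ∧ (α - β) * δ = 1 ∧ residue A α = a ∧
      residue A β = b := by
  obtain ⟨a₀, ha₀⟩ := residue_surjective a
  let f : Polynomial A := Polynomial.X ^ 2 - Polynomial.C P.trace * Polynomial.X +
    Polynomial.C P.det
  have hf : f.Monic := by
    have : f = Polynomial.X ^ 2 + (Polynomial.C (-P.trace) * Polynomial.X +
      Polynomial.C P.det) := by
      simp only [f, map_neg]; ring
    rw [this]
    refine Polynomial.monic_X_pow_add ?_
    refine lt_of_le_of_lt Polynomial.degree_linear_le ?_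
    norm_num
  have heval : ∀ x, f.eval x = x ^ 2 - P.trace * x + P.det := by
    intro x; simp [f]
  have hder : ∀ x, f.derivative.eval x = 2 * x - P.trace := by
    intro x
    simp [f]
    ring
  have h1 : f.eval a₀ ∈ maximalIdeal A := by
    rw [← residue_eq_zero_iff, heval, map_add, map_sub, map_pow, map_mul, htr, hdet, ha₀]
    ring
  have h2 : IsUnit (f.derivative.eval a₀) := by
    rw [hder]
    by_contra hn
    have h3 : (2 * a₀ - P.trace) ∈ maximalIdeal A := hn
    rw [← residue_eq_zero_iff, map_sub, map_mul, htr, ha₀, map_ofNat] at h3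
    apply hab
    linear_combination h3
  obtain ⟨α, hα, hα'⟩ := HenselianLocalRing.is_henselian f hf a₀ h1 h2
  have hroot : α ^ 2 - P.trace * α + P.det = 0 := by rw [← heval]; exact hα
  have hres : residue A α = a := by
    rw [← ha₀, ← sub_eq_zero, ← map_sub, residue_eq_zero_iff]
    exact hα'
  have hresb : residue A (P.trace - α) = b := by
    rw [map_sub, htr, hres]; ring
  have hu : IsUnit (α - (P.trace - α)) := by
    by_contra hn
    have h3 : (α - (P.trace - α)) ∈ maximalIdeal A := hn
    rw [← residue_eq_zero_iff, map_sub, hres, hresb, sub_eq_zero] at h3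
    exact hab h3
  obtain ⟨u, hu⟩ := hu
  refine ⟨α, P.trace - α, ↑u⁻¹, by ring, by linear_combination hroot, ?_, hres, hresb⟩
  rw [← hu, Units.mul_inv]

section

variable [IsLocalRing A]

variable {P S : M2 A} {α β δ : A} (htr : P.trace = α + β) (hdet : P.det = α * β)
  (hδ : (α - β) * δ = 1)

theorem trace_idem (htr : P.trace = α + β) (hδ : (α - β) * δ = 1) : (idem P β δ).trace = 1 := by
  rw [idem, Matrix.trace_smul, Matrix.trace_sub, Matrix.trace_smul, htr, Matrix.trace_one]
  simp only [smul_eq_mul, Fintype.card_fin, Nat.cast_ofNat]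
  linear_combination hδ

theorem trace_one_sub_idem (htr : P.trace = α + β) (hδ : (α - β) * δ = 1) :
    (1 - idem P β δ).trace = 1 := by
  rw [Matrix.trace_sub, trace_idem htr hδ, Matrix.trace_one]
  simp only [Fintype.card_fin, Nat.cast_ofNat]
  ring

/-- the eigenvalue of `S` on the `α`-line -/
noncomputable def xi (P S : M2 A) (β δ : A) : A := (idem P β δ * S).trace

/-- the eigenvalue of `S` on the `β`-line -/
noncomputable def xi' (P S : M2 A) (β δ : A) : A := ((1 - idem P β δ) * S).trace

include htr hdet hδ in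
theorem idem_mul_S (hc : S * idem P β δ = idem P β δ * S) :
    idem P β δ * S = xi P S β δ • idem P β δ := by
  have hee := idem_mul_self htr hdet hδ
  have h1 := idem_sandwich hee (trace_idem htr hδ) S
  rw [mul_assoc, hc, ← mul_assoc, hee] at h1
  exact h1

include htr hdet hδ in
theorem one_sub_idem_mul_S (hc : S * idem P β δ = idem P β δ * S) :
    (1 - idem P β δ) * S = xi' P S β δ • (1 - idem P β δ) := by
  have hee := idem_mul_self htr hdet hδ
  have hff : (1 - idem P β δ) * (1 - idem P β δ) = 1 - idem P β δ := by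
    rw [sub_mul, mul_sub, mul_sub, hee]; simp
  have hcf : S * (1 - idem P β δ) = (1 - idem P β δ) * S := by
    rw [mul_sub, sub_mul, hc, mul_one, one_mul]
  have h1 := idem_sandwich hff (trace_one_sub_idem htr hδ) S
  rw [mul_assoc, hcf, ← mul_assoc, hff] at h1
  exact h1

include htr hdet hδ in
theorem S_eq (hc : S * idem P β δ = idem P β δ * S) :
    S = xi P S β δ • idem P β δ + xi' P S β δ • (1 - idem P β δ) := by
  rw [← idem_mul_S htr hdet hδ hc, ← one_sub_idem_mul_S htr hdet hδ hc, ← add_mul,
    add_sub_cancel, one_mul]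

theorem xi_add (P S : M2 A) (β δ : A) : xi P S β δ + xi' P S β δ = S.trace := by
  rw [xi, xi', ← Matrix.trace_add, ← add_mul, add_sub_cancel, one_mul]

include htr hdet hδ in
theorem xi_mul_xi' (hc : S * idem P β δ = idem P β δ * S) :
    xi P S β δ * xi' P S β δ = S.det := by
  set e := idem P β δ with he
  set x := xi P S β δ with hx
  set y := xi' P S β δ with hy
  have hee : e * e = e := idem_mul_self htr hdet hδ
  have hS : S = x • e + y • (1 - e) := S_eq htr hdet hδ hc
  have h1 := cayley S
  rw [← xi_add P S β δ, ← hx, ← hy] at h1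
  have hef : e * (1 - e) = 0 := by rw [mul_sub, mul_one, hee, sub_self]
  have hfe : (1 - e) * e = 0 := by rw [sub_mul, one_mul, hee, sub_self]
  have hff : (1 - e) * (1 - e) = 1 - e := by rw [sub_mul, one_mul, hef, sub_zero]
  have h2 : S * S = (x * x) • e + (y * y) • (1 - e) := by
    rw [hS, mul_add, add_mul, add_mul, smul_mul_smul_comm, smul_mul_smul_comm,
      smul_mul_smul_comm, smul_mul_smul_comm, hee, hef, hfe, hff, smul_zero, smul_zero,
      add_zero, zero_add]
  have h3 : S.det • (1 : M2 A) = (x + y) • S - S * S := by rw [h1]; abel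
  have h4 : (x + y) • S - S * S = (x * y) • (1 : M2 A) := by
    rw [h2]
    conv_lhs => rw [hS]
    have : (1 : M2 A) = e + (1 - e) := by abel
    conv_rhs => rw [this]
    simp only [smul_add, smul_smul, add_mul, smul_sub]
    ext i j
    simp only [Matrix.sub_apply, Matrix.add_apply, Matrix.smul_apply, smul_eq_mul,
      Matrix.one_apply]
    ring
  rw [h4] at h3
  have := congrFun (congrFun h3 0) 0
  simpa using this.symm

include htr hdet hδ in
theorem pow_mul_idem (hc : S * idem P β δ = idem P β δ * S) (n : ℕ) :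
    S ^ n * idem P β δ = (xi P S β δ) ^ n • idem P β δ := by
  induction n with
  | zero => simp
  | succ n ih =>
    rw [pow_succ, mul_assoc, hc, ← mul_assoc, ih, smul_mul_assoc, idem_mul_S htr hdet hδ hc,
      smul_smul, pow_succ]

include htr hdet hδ in
theorem commute_P (hc : S * idem P β δ = idem P β δ * S) : P * S = S * P := by
  have : P = (α - β) • idem P β δ + β • 1 := by
    rw [idem, smul_smul, hδ, one_smul, sub_add_cancel]
  conv_lhs => rw [this]
  conv_rhs => rw [this]
  rw [add_mul, mul_add, smul_mul_assoc, mul_smul_comm, hc, smul_mul_assoc, mul_smul_comm,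
    one_mul, mul_one]

include htr hdet hδ in
theorem xi_pow_eq {q : ℕ} (hc : S * idem P β δ = idem P β δ * S) (hP : IsUnit P.det)
    (hrel : P * S = S ^ q * P) : (xi P S β δ) ^ q = xi P S β δ := by
  have h1 : S = S ^ q := by
    have h2 : S * P = S ^ q * P := by rw [← commute_P htr hdet hδ hc, hrel]
    have h3 := congrArg (· * P⁻¹) h2
    simpa only [mul_assoc, Matrix.mul_nonsing_inv P hP, mul_one] using h3
  have h4 := pow_mul_idem htr hdet hδ hc q
  rw [← h1, hc, idem_mul_S htr hdet hδ hc] at h4
  have h5 := congrArg Matrix.trace h4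
  rw [Matrix.trace_smul, Matrix.trace_smul, trace_idem htr hδ, smul_eq_mul, smul_eq_mul, mul_one,
    mul_one] at h5
  exact h5.symm

/-- if the eigenvalue on the `α`-line becomes trivial and `det S = 1` then `S` becomes trivial -/
theorem map_S_eq_one {B : Type*} [CommRing B] (f : A →+* B) (htr : P.trace = α + β)
    (hdet : P.det = α * β) (hδ : (α - β) * δ = 1) (hc : S * idem P β δ = idem P β δ * S)
    (hS : S.det = 1) (h : f (xi P S β δ) = 1) : S.map f = 1 := by
  have h1 := congrArg f (xi_mul_xi' htr hdet hδ hc)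
  rw [map_mul, h, one_mul, hS, map_one] at h1
  have h2 := S_eq htr hdet hδ hc
  ext i j
  have h3 := congrArg f (congrFun (congrFun h2 i) j)
  rw [Matrix.add_apply, Matrix.smul_apply, Matrix.smul_apply, smul_eq_mul, smul_eq_mul, map_add,
    map_mul, map_mul, h, h1, one_mul, one_mul, ← map_add, Matrix.sub_apply,
    add_sub_cancel] at h3
  rw [Matrix.map_apply, h3, Matrix.one_apply, Matrix.one_apply]
  split_ifs <;> simp

theorem map_xi_eq_one {B : Type*} [CommRing B] (f : A →+* B) (htr : P.trace = α + β)
    (hδ : (α - β) * δ = 1) (h : S.map f = 1) : f (xi P S β δ) = 1 := by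
  have h1 : f (xi P S β δ) = ((idem P β δ).map f * S.map f).trace := by
    rw [xi, ← Matrix.map_mul, Matrix.trace, Matrix.trace, map_sum]
    rfl
  rw [h1, h, mul_one]
  have h2 : ((idem P β δ).map f).trace = f (idem P β δ).trace := by
    rw [Matrix.trace, Matrix.trace, map_sum]
    rfl
  rw [h2, trace_idem htr hδ, map_one]

end

section Local

variable [IsLocalRing A]

/-- roots of unity of order prime to the residue characteristic -/
theorem eq_one_of_pow_eq_one {y : A} {u : ℕ} (hu : IsUnit (u : A)) (hy : y - 1 ∈ maximalIdeal A)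
    (h : y ^ u = 1) : y = 1 := by
  have h1 : (∑ i ∈ Finset.range u, y ^ i) * (y - 1) = 0 := by
    rw [geom_sum_mul, h, sub_self]
  have h2 : IsUnit (∑ i ∈ Finset.range u, y ^ i) := by
    by_contra hn
    have h3 : (∑ i ∈ Finset.range u, y ^ i) ∈ maximalIdeal A := hn
    rw [← residue_eq_zero_iff, map_sum] at h3
    have h4 : residue A y = 1 := by
      rw [← sub_eq_zero, ← map_one (residue A), ← map_sub, residue_eq_zero_iff]
      exact hy
    simp only [map_pow, h4, one_pow, Finset.sum_const, Finset.card_range, nsmul_eq_mul,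
      mul_one] at h3
    have h5 := hu.map (residue A)
    rw [map_natCast, h3] at h5
    exact not_isUnit_zero h5
  have h3 := (h2.mul_right_eq_zero).mp h1
  exact sub_eq_zero.mp h3

/-- the order of the eigenvalue -/
theorem pow_eq_one_of_pow_eq {x : A} {p q a u : ℕ} (hx : x - 1 ∈ maximalIdeal A)
    (hq : q - 1 = p ^ a * u) (hq1 : 1 ≤ q) (hu : IsUnit (u : A)) (h : x ^ q = x) :
    x ^ p ^ a = 1 := by
  have hxu : IsUnit x := by
    by_contra hn
    have h3 : x ∈ maximalIdeal A := hn
    have h4 := Ideal.sub_mem _ h3 hx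
    rw [sub_sub_cancel] at h4
    exact (Ideal.ne_top_iff_one _).mp (IsLocalRing.maximalIdeal.isMaximal A).ne_top h4
  have h1 : x ^ (q - 1) = 1 := by
    have h2 : x * x ^ (q - 1) = x * 1 := by
      rw [← pow_succ', Nat.sub_add_cancel hq1, h, mul_one]
    exact hxu.mul_left_cancel h2
  rw [hq, pow_mul] at h1
  refine eq_one_of_pow_eq_one hu ?_ h1
  rw [← residue_eq_zero_iff, map_sub, map_pow, map_one]
  have h4 : residue A x = 1 := by
    rw [← sub_eq_zero, ← map_one (residue A), ← map_sub, residue_eq_zero_iff]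
    exact hx
  rw [h4, one_pow, sub_self]

theorem xi_sub_one_mem {P S : M2 A} {α β δ : A} (htr : P.trace = α + β)
    (hδ : (α - β) * δ = 1) (hS : ∀ i j, (S - 1) i j ∈ maximalIdeal A) :
    xi P S β δ - 1 ∈ maximalIdeal A := by
  have h1 : xi P S β δ - 1 = (idem P β δ * (S - 1)).trace := by
    rw [mul_sub, Matrix.trace_sub, mul_one, trace_idem htr hδ, xi]
  rw [h1, Matrix.trace]
  refine Ideal.sum_mem _ fun i _ => ?_
  rw [Matrix.diag_apply, Matrix.mul_apply]
  exact Ideal.sum_mem _ fun j _ => Ideal.mul_mem_left _ _ (hS j i)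

/-- **Everything at a Taylor-Wiles prime.** -/
theorem exists_xi [HenselianLocalRing A] {P S : M2 A} {a b : ResidueField A}
    (htr : residue A P.trace = a + b) (hdet : residue A P.det = a * b) (hab : a ≠ b)
    (hSdet : S.det = 1) (hS : ∀ i j, (S - 1) i j ∈ maximalIdeal A) {p q k u : ℕ}
    (hPdet : IsUnit P.det) (hq1 : 1 ≤ q)
    (hqm : (q : A) - 1 ∈ maximalIdeal A)
    (hq : q - 1 = p ^ k * u) (hu : IsUnit (u : A)) (hrel : P * S = S ^ q * P) :
    ∃ (e : M2 A) (x : A), e * e = e ∧ e.trace = 1 ∧ S * e = e * S ∧ P * e = e * P ∧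
      e * S = x • e ∧ x - 1 ∈ maximalIdeal A ∧ x ^ p ^ k = 1 ∧
      ∀ (B : Type) [CommRing B] (f : A →+* B), f x = 1 ↔ S.map f = 1 := by
  obtain ⟨α, β, δ, h1, h2, h3, hα, hβ⟩ := exists_eigenvalues htr hdet hab
  have hu1 : ∀ (c d : A), residue A c ≠ residue A d → IsUnit (c - q * d) := by
    intro c d hcd
    by_contra hn
    have h4 : (c - q * d) ∈ maximalIdeal A := hn
    have h5 : c - d ∈ maximalIdeal A := by
      have : c - d = (c - q * d) + d * (q - 1) := by ring
      rw [this]
      exact Ideal.add_mem _ h4 (Ideal.mul_mem_left _ _ hqm)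
    rw [← residue_eq_zero_iff, map_sub, sub_eq_zero] at h5
    exact hcd h5
  have hc := commute_of_rel h1 h2 h3 hS (hu1 α β (by rw [hα, hβ]; exact hab))
    (hu1 β α (by rw [hα, hβ]; exact hab.symm)) hrel
  refine ⟨idem P β δ, xi P S β δ, idem_mul_self h1 h2 h3, trace_idem h1 h3, hc, ?_,
    idem_mul_S h1 h2 h3 hc, xi_sub_one_mem h1 h3 hS,
    pow_eq_one_of_pow_eq (xi_sub_one_mem h1 h3 hS) hq hq1 hu
      (xi_pow_eq h1 h2 h3 hc hPdet hrel), fun B _ f => ⟨fun h => map_S_eq_one f h1 h2 h3 hc hSdet h,
      fun h => map_xi_eq_one f h1 h3 h⟩⟩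
  rw [mul_idem h1 h2, idem_mul h1 h2]

end Local

end Fermat.Agent.H25.TW
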