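import Mathlib
import Fermat.Agent.H25.Pseudo

set_option autoImplicit false

namespace Fermat.Agent.H25.PR

open MonoidAlgebra Fermat.Agent.H25

variable {R : Type*} [CommRing R] {G : Type*} [Group G]

/-- Linear extension of a function on the group to the group algebra (commutative ring
coefficients). -/
noncomputable def linR (t : G → R) : MonoidAlgebra R G →ₗ[R] R :=
  (Finsupp.linearCombination R t).comp (MonoidAlgebra.coeffLinearEquiv (S := R) R).toLinearMap

theorem linR_of (t : G → R) (g : G) : linR t (MonoidAlgebra.of R G g) = t g := by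
  simp [linR, MonoidAlgebra.coeffLinearEquiv, MonoidAlgebra.of_apply]

variable {t : G → R}

theorem linR_comm (ht : IsPseudo2 t) (x y : MonoidAlgebra R G) :
    linR t (x * y) = linR t (y * x) := by
  induction x using MonoidAlgebra.induction_on with
  | of g =>
    induction y using MonoidAlgebra.induction_on with
    | of h => rw [← map_mul, ← map_mul, linR_of, linR_of, ht.comm]
    | add x y hx hy => rw [mul_add, add_mul, map_add, map_add, hx, hy]
    | smul r x hx => rw [mul_smul_comm, smul_mul_assoc, map_smul, map_smul, hx]
  | add x y hx hy => rw [mul_add, add_mul, map_add, map_add, hx, hy]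
  | smul r x hx => rw [mul_smul_comm, smul_mul_assoc, map_smul, map_smul, hx]

theorem linR_tri (ht : IsPseudo2 t) (x y z : MonoidAlgebra R G) :
    linR t x * linR t y * linR t z - linR t x * linR t (y * z) - linR t y * linR t (x * z)
      - linR t z * linR t (x * y) + linR t (x * y * z) + linR t (x * z * y) = 0 := by
  induction x using MonoidAlgebra.induction_on with
  | of g =>
    induction y using MonoidAlgebra.induction_on with
    | of h =>
      induction z using MonoidAlgebra.induction_on with
      | of k => simp only [← map_mul, linR_of]; exact ht.tri g h k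
      | add x y hx hy =>
        simp only [mul_add, add_mul, map_add]
        linear_combination hx + hy
      | smul r x hx =>
        simp only [mul_smul_comm, smul_mul_assoc, map_smul, smul_eq_mul]
        linear_combination r * hx
    | add x y hx hy =>
      simp only [mul_add, add_mul, map_add]
      linear_combination hx + hy
    | smul r x hx =>
      simp only [mul_smul_comm, smul_mul_assoc, map_smul, smul_eq_mul]
      linear_combination r * hx
  | add x y hx hy =>
    simp only [add_mul, map_add]
    linear_combination hx + hy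
  | smul r x hx =>
    simp only [smul_mul_assoc, map_smul, smul_eq_mul]
    linear_combination r * hx

theorem linR_corner (ht : IsPseudo2 t) {e : MonoidAlgebra R G} (he : e * e = e)
    (h1 : linR t e = 1) (x y : MonoidAlgebra R G) :
    linR t (e * x * e * y) = linR t (e * x) * linR t (e * y) := by
  have h := linR_tri ht e (e * x * e) (e * y * e)
  have e1 : linR t (e * x * e) = linR t (e * x) := by
    rw [linR_comm ht, ← mul_assoc, he]
  have e2 : linR t (e * y * e) = linR t (e * y) := by
    rw [linR_comm ht, ← mul_assoc, he]
  have e3 : e * (e * x * e) = e * x * e := by rw [← mul_assoc, ← mul_assoc, he]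
  have e4 : e * (e * y * e) = e * y * e := by rw [← mul_assoc, ← mul_assoc, he]
  have e5 : linR t (e * x * e * (e * y * e)) = linR t (e * x * e * y) := by
    rw [← mul_assoc, linR_comm ht]
    congr 1
    simp only [← mul_assoc, he]
    rw [mul_assoc (e * x) e e, he]
  have e6 : linR t (e * y * e * (e * x * e)) = linR t (e * x * e * y) := by
    rw [linR_comm ht, e5]
  rw [e3, e4, h1, e1, e2, e5, e6] at h
  linear_combination h

/-! ### explicit matrix entries -/

/-- `(t g + t (c g)) / 2`. -/
def entA (t : G → R) (hf : R) (c g : G) : R := hf * (t g + t (c * g))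

/-- `(t g - t (c g)) / 2`. -/
def entD (t : G → R) (hf : R) (c g : G) : R := hf * (t g - t (c * g))

/-- The product of the off-diagonal entries `b(g) c(h)`. -/
def entX (t : G → R) (hf : R) (c g h : G) : R :=
  hf * hf * (t (g * h) + t (c * g * h) - t (g * c * h) - t (c * g * c * h))

section Construction

variable {hf : R} (h2 : hf * 2 = 1) {c : G} (hc : c * c = 1)

/-- The idempotent `(1 + c) / 2`. -/
noncomputable def idP (hf : R) (c : G) : MonoidAlgebra R G :=
  hf • (1 + MonoidAlgebra.of R G c)

/-- The idempotent `(1 - c) / 2`. -/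
noncomputable def idM (hf : R) (c : G) : MonoidAlgebra R G :=
  hf • (1 - MonoidAlgebra.of R G c)

include hc in
theorem of_c_mul_self : (MonoidAlgebra.of R G c) * (MonoidAlgebra.of R G c) = 1 := by
  rw [← map_mul, hc, map_one]

include hc h2 in
theorem idP_mul_self : idP hf c * idP hf c = idP hf c := by
  rw [idP, smul_mul_smul_comm, mul_add, mul_one, add_mul, one_mul, of_c_mul_self hc]
  have : (1 : MonoidAlgebra R G) + MonoidAlgebra.of R G c + (MonoidAlgebra.of R G c + 1) =
    (2 : R) • (1 + MonoidAlgebra.of R G c) := by rw [two_smul]; abel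
  rw [this, smul_smul, mul_assoc, h2, mul_one]

include hc h2 in
theorem idM_mul_self : idM hf c * idM hf c = idM hf c := by
  rw [idM, smul_mul_smul_comm, mul_sub, mul_one, sub_mul, one_mul, of_c_mul_self hc]
  have : (1 : MonoidAlgebra R G) - MonoidAlgebra.of R G c - (MonoidAlgebra.of R G c - 1) =
    (2 : R) • (1 - MonoidAlgebra.of R G c) := by rw [two_smul]; abel
  rw [this, smul_smul, mul_assoc, h2, mul_one]

include hc in
theorem idP_mul_idM : idP hf c * idM hf c = 0 := by
  rw [idP, idM, smul_mul_smul_comm, mul_sub, mul_one, add_mul, one_mul, of_c_mul_self hc]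
  have : (1 : MonoidAlgebra R G) + MonoidAlgebra.of R G c - (MonoidAlgebra.of R G c + 1) = 0 := by
    abel
  rw [this, smul_zero]

include hc in
theorem idM_mul_idP : idM hf c * idP hf c = 0 := by
  rw [idP, idM, smul_mul_smul_comm, mul_add, mul_one, sub_mul, one_mul, of_c_mul_self hc]
  have : (1 : MonoidAlgebra R G) - MonoidAlgebra.of R G c + (MonoidAlgebra.of R G c - 1) = 0 := by
    abel
  rw [this, smul_zero]

include h2 in
theorem idP_add_idM : idP hf c + idM hf c = 1 := by
  rw [idP, idM, ← smul_add]
  have : (1 : MonoidAlgebra R G) + MonoidAlgebra.of R G c + (1 - MonoidAlgebra.of R G c) =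
    (2 : R) • 1 := by rw [two_smul]; abel
  rw [this, smul_smul, h2, one_smul]

include h2 in
theorem linR_idP (ht : IsPseudo2 t) (htc : t c = 0) : linR t (idP hf c) = 1 := by
  rw [idP, map_smul, map_add, linR_of, ← map_one (MonoidAlgebra.of R G), linR_of, ht.one, htc,
    add_zero, smul_eq_mul, h2]

include h2 in
theorem linR_idM (ht : IsPseudo2 t) (htc : t c = 0) : linR t (idM hf c) = 1 := by
  rw [idM, map_smul, map_sub, linR_of, ← map_one (MonoidAlgebra.of R G), linR_of, ht.one, htc,
    sub_zero, smul_eq_mul, h2]

theorem linR_idP_mul (g : G) : linR t (idP hf c * MonoidAlgebra.of R G g) = entA t hf c g := by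
  rw [idP, smul_mul_assoc, add_mul, one_mul, ← map_mul, map_smul, map_add, linR_of, linR_of,
    smul_eq_mul, entA]

theorem linR_idM_mul (g : G) : linR t (idM hf c * MonoidAlgebra.of R G g) = entD t hf c g := by
  rw [idM, smul_mul_assoc, sub_mul, one_mul, ← map_mul, map_smul, map_sub, linR_of, linR_of,
    smul_eq_mul, entD]

theorem linR_X (g h : G) : linR t (idP hf c * MonoidAlgebra.of R G g * idM hf c *
    MonoidAlgebra.of R G h) = entX t hf c g h := by
  have h1 : idP hf c * MonoidAlgebra.of R G g * idM hf c * MonoidAlgebra.of R G h =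
      (hf * hf) • (MonoidAlgebra.of R G (g * h) + MonoidAlgebra.of R G (c * g * h) -
        MonoidAlgebra.of R G (g * c * h) - MonoidAlgebra.of R G (c * g * c * h)) := by
    simp only [idP, idM, smul_mul_assoc, mul_smul_comm, smul_smul, map_mul]
    congr 1
    simp only [add_mul, mul_sub, sub_mul, one_mul, mul_one, mul_assoc]
    abel
  rw [h1, map_smul, map_sub, map_sub, map_add, linR_of, linR_of, linR_of, linR_of, smul_eq_mul,
    entX]

include h2 hc in
/-- **A two-dimensional pseudocharacter over a commutative ring with an involution of trace zero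
and with a unit off-diagonal product is the trace of a matrix representation**, with explicit
entries. -/
theorem exists_matrix_rep_ring (ht : IsPseudo2 t) (htc : t c = 0) (r s : G) (u : R)
    (hu : entX t hf c r s * u = 1) :
    ∃ M : G →* Matrix (Fin 2) (Fin 2) R, ∀ g,
      M g = !![entA t hf c g, entX t hf c g s * u; entX t hf c r g, entD t hf c g] := by
  classical
  let e := idP hf c
  let f := idM hf c
  have hee : e * e = e := idP_mul_self h2 hc
  have hff : f * f = f := idM_mul_self h2 hc
  have hef : e * f = 0 := idP_mul_idM hc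
  have hfe : f * e = 0 := idM_mul_idP hc
  have hadd : e + f = 1 := idP_add_idM h2
  have hTe : linR t e = 1 := linR_idP h2 ht htc
  have hTf : linR t f = 1 := linR_idM h2 ht htc
  obtain ⟨ι, hι⟩ : ∃ ι : G →* MonoidAlgebra R G, ι = MonoidAlgebra.of R G := ⟨_, rfl⟩
  let T := linR t
  have Tcomm : ∀ x y, T (x * y) = T (y * x) := linR_comm ht
  have ce : ∀ x y, T (e * x * e * y) = T (e * x) * T (e * y) := linR_corner ht hee hTe
  have cf : ∀ x y, T (f * x * f * y) = T (f * x) * T (f * y) := linR_corner ht hff hTf
  -- splitting
  have split : ∀ u x y : MonoidAlgebra R G, T (u * x * y) = T (u * x * e * y) + T (u * x * f * y) := by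
    intro u x y
    rw [← map_add, ← add_mul, ← mul_add, hadd, mul_one]
  have hA : ∀ g, entA t hf c g = T (e * ι g) := fun g => by rw [hι]; exact (linR_idP_mul g).symm
  have hD : ∀ g, entD t hf c g = T (f * ι g) := fun g => by rw [hι]; exact (linR_idM_mul g).symm
  have hX : ∀ g h, entX t hf c g h = T (e * ι g * f * ι h) := fun g h => by
    rw [hι]; exact (linR_X g h).symm
  obtain ⟨x0, hx0⟩ : ∃ x0, x0 = T (e * ι r * f * ι s) := ⟨_, rfl⟩
  have hu' : x0 * u = 1 := by rw [hx0, ← hX]; exact hu
  -- the rank one relation
  have rank1 : ∀ x y z w : MonoidAlgebra R G, T (e * x * f * y) * T (e * z * f * w) =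
      T (e * x * f * w) * T (e * z * f * y) := by
    intro x y z w
    have h1 : T (e * x * f * y) * T (e * z * f * w) = T (e * (x * f * y) * e * (z * f * w)) := by
      rw [ce]; simp only [mul_assoc]
    have h2 : T (e * (x * f * y) * e * (z * f * w)) =
        T (f * (y * e * z) * f * (w * e * x)) := by
      have : e * (x * f * y) * e * (z * f * w) = (e * x) * (f * (y * e * z) * f * w) := by
        simp only [mul_assoc]
      rw [this, Tcomm]
      simp only [mul_assoc]
    have h3 : T (e * x * f * w) = T (f * (w * e * x)) := by
      have : e * x * f * w = (e * x) * (f * w) := by simp only [mul_assoc]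
      rw [this, Tcomm]; simp only [mul_assoc]
    have h4 : T (e * z * f * y) = T (f * (y * e * z)) := by
      have : e * z * f * y = (e * z) * (f * y) := by simp only [mul_assoc]
      rw [this, Tcomm]; simp only [mul_assoc]
    rw [h1, h2, cf, h3, h4, mul_comm]
  let M : G → Matrix (Fin 2) (Fin 2) R := fun g =>
    !![T (e * ι g), T (e * ι g * f * ι s) * u; T (e * ι r * f * ι g), T (f * ι g)]
  have hM1 : M 1 = 1 := by
    ext i j
    fin_cases i <;> fin_cases j
    · change T (e * ι 1) = 1
      rw [map_one ι, mul_one]
      exact hTe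
    · change T (e * ι 1 * f * ι s) * u = 0
      rw [map_one ι, mul_one, hef, zero_mul, map_zero, zero_mul]
    · change T (e * ι r * f * ι 1) = 0
      rw [map_one ι, mul_one, Tcomm, ← mul_assoc, hfe, zero_mul, map_zero]
    · change T (f * ι 1) = 1
      rw [map_one ι, mul_one]
      exact hTf
  have hMmul : ∀ g h, M (g * h) = M g * M h := by
    intro g h
    have h11 : T (e * ι (g * h)) = T (e * ι g) * T (e * ι h) +
        T (e * ι g * f * ι s) * u * T (e * ι r * f * ι h) := by
      have h1 : T (e * ι (g * h)) = T (e * ι g * e * ι h) + T (e * ι g * f * ι h) := by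
        rw [← split, map_mul ι, ← mul_assoc]
      have h3 := rank1 (ι g) (ι s) (ι r) (ι h)
      rw [← hx0] at h3
      rw [h1, ce]
      linear_combination (-T (e * ι g * f * ι h)) * hu' - u * h3
    have h12 : T (e * ι (g * h) * f * ι s) = T (e * ι g) * T (e * ι h * f * ι s) +
        T (e * ι g * f * ι s) * T (f * ι h) := by
      have h1 : T (e * ι (g * h) * f * ι s) =
          T (e * ι g * e * (ι h * f * ι s)) + T (e * ι g * f * (ι h * f * ι s)) := by
        rw [← split, map_mul ι]; simp only [mul_assoc]
      have h2 : T (e * ι g * f * (ι h * f * ι s)) = T (f * ι h * f * (ι s * e * ι g)) := by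
        have : e * ι g * f * (ι h * f * ι s) = (e * ι g) * (f * ι h * f * ι s) := by
          simp only [mul_assoc]
        rw [this, Tcomm]; simp only [mul_assoc]
      have h3 : T (e * ι g * f * ι s) = T (f * (ι s * e * ι g)) := by
        have : e * ι g * f * ι s = (e * ι g) * (f * ι s) := by simp only [mul_assoc]
        rw [this, Tcomm]; simp only [mul_assoc]
      rw [h1, ce, h2, cf, h3, mul_comm (T (f * ι h))]
      simp only [mul_assoc]
    have h21 : T (e * ι r * f * ι (g * h)) = T (e * ι r * f * ι g) * T (e * ι h) +
        T (f * ι g) * T (e * ι r * f * ι h) := by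
      have h1 : T (e * ι r * f * ι (g * h)) =
          T (e * ι r * f * ι g * e * ι h) + T (e * ι r * f * ι g * f * ι h) := by
        have := split (e * ι r * f) (ι g) (ι h)
        rw [← this, map_mul ι]; simp only [mul_assoc]
      have h2 : T (e * ι r * f * ι g * e * ι h) = T (e * ι r * f * ι g) * T (e * ι h) := by
        have := ce (ι r * f * ι g) (ι h)
        simp only [mul_assoc] at this ⊢
        exact this
      have h3 : T (e * ι r * f * ι g * f * ι h) = T (f * ι g) * T (f * (ι h * e * ι r)) := by
        rw [← cf]
        have : e * ι r * f * ι g * f * ι h = (e * ι r) * (f * ι g * f * ι h) := by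
          simp only [mul_assoc]
        rw [this, Tcomm]; simp only [mul_assoc]
      have h4 : T (e * ι r * f * ι h) = T (f * (ι h * e * ι r)) := by
        have : e * ι r * f * ι h = (e * ι r) * (f * ι h) := by simp only [mul_assoc]
        rw [this, Tcomm]; simp only [mul_assoc]
      rw [h1, h2, h3, h4]
    have h22 : T (f * ι (g * h)) = T (e * ι r * f * ι g) * (T (e * ι h * f * ι s) * u) +
        T (f * ι g) * T (f * ι h) := by
      have h1 : T (f * ι (g * h)) = T (f * ι g * e * ι h) + T (f * ι g * f * ι h) := by
        rw [← split, map_mul ι, ← mul_assoc]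
      have h2 : T (f * ι g * e * ι h) = T (e * ι h * f * ι g) := by
        have : f * ι g * e * ι h = (f * ι g) * (e * ι h) := by simp only [mul_assoc]
        rw [this, Tcomm]; simp only [mul_assoc]
      have h3 := rank1 (ι r) (ι g) (ι h) (ι s)
      rw [← hx0] at h3
      rw [h1, cf, h2]
      linear_combination (-T (e * ι h * f * ι g)) * hu' - u * h3
    ext i j
    fin_cases i <;> fin_cases j
    · simpa [M, Matrix.mul_apply, Fin.sum_univ_two] using h11
    · simp only [M, Matrix.mul_apply, Fin.sum_univ_two, Matrix.of_apply]
      simp only [Fin.zero_eta, Fin.isValue, Fin.mk_one, Matrix.cons_val', Matrix.cons_val_one,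
        Matrix.cons_val_fin_one, Matrix.cons_val_zero]
      rw [h12]
      ring
    · simpa [M, Matrix.mul_apply, Fin.sum_univ_two] using h21
    · simpa [M, Matrix.mul_apply, Fin.sum_univ_two] using h22
  refine ⟨{ toFun := M, map_one' := hM1, map_mul' := hMmul }, fun g => ?_⟩
  change M g = _
  simp only [M, hA, hD, hX]

end Construction

end Fermat.Agent.H25.PR
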