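import Mathlib
import Fermat.Agent.H25.PseudoRing

set_option autoImplicit false
set_option linter.unusedSectionVars false
set_option linter.style.haveILetI false

/-!
# The trace ring

`B i` finitely many local rings finite over the complete local ring `O`, `t : G → Π i, B i` a
function (traces of representations) with the same residual values in the residue field of `O`.
The `O`-subalgebra `A` generated by the values is local with the residue field of `O`.
-/

namespace Fermat.Agent.H25.TR

open Fermat.Agent.H25 Fermat.Agent.H25.PR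

section Local

variable {O : Type*} [CommRing O] [IsLocalRing O] {ι : Type*} {B : ι → Type*}
  [∀ i, CommRing (B i)] [∀ i, IsLocalRing (B i)] [∀ i, Algebra O (B i)]

omit [IsLocalRing O] in
/-- elements of the product congruent to a constant of `O` modulo all maximal ideals -/
def congSub (O : Type*) [CommRing O] {ι : Type*} (B : ι → Type*)
    [∀ i, CommRing (B i)] [∀ i, IsLocalRing (B i)] [∀ i, Algebra O (B i)] :
    Subalgebra O (∀ i, B i) where
  carrier := {x | ∃ a : O, ∀ i, x i - algebraMap O (B i) a ∈ IsLocalRing.maximalIdeal (B i)}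
  mul_mem' := by
    rintro x y ⟨a, ha⟩ ⟨b, hb⟩
    refine ⟨a * b, fun i => ?_⟩
    have : (x * y) i - algebraMap O (B i) (a * b) =
        x i * (y i - algebraMap O (B i) b) + algebraMap O (B i) b * (x i - algebraMap O (B i) a) := by
      rw [map_mul, Pi.mul_apply]; ring
    rw [this]
    exact Ideal.add_mem _ (Ideal.mul_mem_left _ _ (hb i)) (Ideal.mul_mem_left _ _ (ha i))
  add_mem' := by
    rintro x y ⟨a, ha⟩ ⟨b, hb⟩
    refine ⟨a + b, fun i => ?_⟩
    have : (x + y) i - algebraMap O (B i) (a + b) =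
        (x i - algebraMap O (B i) a) + (y i - algebraMap O (B i) b) := by
      rw [map_add, Pi.add_apply]; ring
    rw [this]
    exact Ideal.add_mem _ (ha i) (hb i)
  algebraMap_mem' := by
    intro a
    refine ⟨a, fun i => ?_⟩
    simp

theorem mem_congSub {x : ∀ i, B i} : x ∈ congSub O B ↔
    ∃ a : O, ∀ i, x i - algebraMap O (B i) a ∈ IsLocalRing.maximalIdeal (B i) := Iff.rfl

variable [∀ i, IsLocalHom (algebraMap O (B i))]

theorem isUnit_const_iff {x : ∀ i, B i} {a : O}
    (ha : ∀ i, x i - algebraMap O (B i) a ∈ IsLocalRing.maximalIdeal (B i)) (i : ι) :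
    IsUnit (x i) ↔ IsUnit a := by
  constructor
  · intro h
    have h1 : IsUnit (algebraMap O (B i) a) := by
      by_contra hn
      have h2 : algebraMap O (B i) a ∈ IsLocalRing.maximalIdeal (B i) := hn
      have h3 := Ideal.add_mem _ (ha i) h2
      rw [sub_add_cancel] at h3
      exact h3 h
    exact isUnit_of_map_unit _ _ h1
  · intro h
    by_contra hn
    have h2 : x i ∈ IsLocalRing.maximalIdeal (B i) := hn
    have h3 := Ideal.sub_mem _ h2 (ha i)
    rw [sub_sub_cancel] at h3
    exact h3 (h.map (algebraMap O (B i)))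

/-- A subalgebra of `congSub`, integral over `O`, is local; its units are the elements with
unit residue. -/
theorem isUnit_iff_of_le [Algebra.IsIntegral O (∀ i, B i)]
    {A : Subalgebra O (∀ i, B i)} (hA : A ≤ congSub O B) (x : A) (i : ι) :
    IsUnit x ↔ IsUnit ((x : ∀ i, B i) i) := by
  constructor
  · intro h
    exact (h.map A.val.toRingHom).map (Pi.evalRingHom B i)
  · intro h
    obtain ⟨a, ha⟩ := hA x.2
    have haU : IsUnit a := (isUnit_const_iff ha i).mp h
    have hxU : IsUnit (x : ∀ i, B i) := Pi.isUnit_iff.mpr fun j => (isUnit_const_iff ha j).mpr haU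
    haveI : Algebra.IsIntegral A (∀ i, B i) := ⟨fun y =>
      (Algebra.IsIntegral.isIntegral (R := O) y).tower_top⟩
    haveI : IsLocalHom (algebraMap A (∀ i, B i)) :=
      (algebraMap_isIntegral_iff.mpr inferInstance).isLocalHom (FaithfulSMul.algebraMap_injective _ _)
    exact isUnit_of_map_unit (algebraMap A (∀ i, B i)) x hxU

theorem isUnit_iff_const [Nonempty ι] [Algebra.IsIntegral O (∀ i, B i)]
    {A : Subalgebra O (∀ i, B i)} (hA : A ≤ congSub O B) (x : A) {a : O}
    (ha : ∀ i, (x : ∀ i, B i) i - algebraMap O (B i) a ∈ IsLocalRing.maximalIdeal (B i)) :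
    IsUnit x ↔ IsUnit a := by
  obtain ⟨i⟩ := (inferInstance : Nonempty ι)
  rw [isUnit_iff_of_le hA x i, isUnit_const_iff ha i]

theorem isLocalRing_of_le [Nonempty ι] [Algebra.IsIntegral O (∀ i, B i)]
    {A : Subalgebra O (∀ i, B i)} (hA : A ≤ congSub O B) : IsLocalRing A := by
  obtain ⟨i⟩ := (inferInstance : Nonempty ι)
  haveI : Nontrivial A := by
    refine ⟨⟨0, 1, fun h => ?_⟩⟩
    have h1 := congrFun (congrArg Subtype.val h) i
    exact zero_ne_one (α := B i) h1
  refine IsLocalRing.of_nonunits_add fun x y hx hy hxy => ?_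
  rw [mem_nonunits_iff, isUnit_iff_of_le hA _ i] at hx hy
  rw [isUnit_iff_of_le hA _ i] at hxy
  have h3 := Ideal.add_mem (IsLocalRing.maximalIdeal (B i)) (show _ from hx) (show _ from hy)
  exact h3 hxy

theorem mem_maximalIdeal_iff [Nonempty ι] [Algebra.IsIntegral O (∀ i, B i)]
    {A : Subalgebra O (∀ i, B i)} (hA : A ≤ congSub O B) [IsLocalRing A] (x : A) (i : ι) :
    x ∈ IsLocalRing.maximalIdeal A ↔ (x : ∀ i, B i) i ∈ IsLocalRing.maximalIdeal (B i) := by
  rw [IsLocalRing.mem_maximalIdeal, IsLocalRing.mem_maximalIdeal, mem_nonunits_iff,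
    mem_nonunits_iff, isUnit_iff_of_le hA x i]

theorem exists_sub_mem_maximalIdeal [Nonempty ι] [Algebra.IsIntegral O (∀ i, B i)]
    {A : Subalgebra O (∀ i, B i)} (hA : A ≤ congSub O B) [IsLocalRing A] (x : A) :
    ∃ a : O, x - algebraMap O A a ∈ IsLocalRing.maximalIdeal A := by
  obtain ⟨i⟩ := (inferInstance : Nonempty ι)
  obtain ⟨a, ha⟩ := hA x.2
  exact ⟨a, (mem_maximalIdeal_iff hA _ i).mpr (ha i)⟩

end Local

section Rep

variable {O : Type*} [CommRing O] [IsLocalRing O] {ι : Type*} {B : ι → Type*}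
  [∀ i, CommRing (B i)] [∀ i, IsLocalRing (B i)] [∀ i, Algebra O (B i)]
  [∀ i, IsLocalHom (algebraMap O (B i))] {G : Type*} [Group G]

omit [IsLocalRing O] [∀ i, IsLocalRing (B i)] [∀ i, IsLocalHom (algebraMap O (B i))] in
/-- The trace ring. -/
def traceRing (O : Type*) [CommRing O] {ι : Type*} {B : ι → Type*}
    [∀ i, CommRing (B i)] [∀ i, Algebra O (B i)] {G : Type*} (t : ∀ i, G → B i) :
    Subalgebra O (∀ i, B i) :=
  Algebra.adjoin O (Set.range fun g i => t i g)

omit [IsLocalRing O] [∀ i, IsLocalRing (B i)] [∀ i, IsLocalHom (algebraMap O (B i))] in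
theorem mem_traceRing (t : ∀ i, G → B i) (g : G) : (fun i => t i g) ∈ traceRing O t :=
  Algebra.subset_adjoin ⟨g, rfl⟩

/-- The universal trace function. -/
def trA (O : Type*) [CommRing O] {ι : Type*} {B : ι → Type*}
    [∀ i, CommRing (B i)] [∀ i, Algebra O (B i)] {G : Type*} [Group G] (t : ∀ i, G → B i) (g : G) :
    traceRing O t := ⟨fun i => t i g, mem_traceRing t g⟩

omit [IsLocalRing O] [∀ i, IsLocalRing (B i)] [∀ i, IsLocalHom (algebraMap O (B i))] in
theorem isPseudo2_trA {t : ∀ i, G → B i} (ht : ∀ i, IsPseudo2 (t i)) : IsPseudo2 (trA O t) where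
  one := Subtype.ext (funext fun i => (ht i).one)
  comm g h := Subtype.ext (funext fun i => (ht i).comm g h)
  tri g h k := Subtype.ext (funext fun i => (ht i).tri g h k)

theorem traceRing_le {t : ∀ i, G → B i}
    (hres : ∀ g, ∃ a : O, ∀ i, t i g - algebraMap O (B i) a ∈ IsLocalRing.maximalIdeal (B i)) :
    traceRing O t ≤ congSub O B := by
  refine Algebra.adjoin_le ?_
  rintro _ ⟨g, rfl⟩
  exact hres g

/-- **The representation over the trace ring.** -/
theorem exists_rep_traceRing [Nonempty ι] [Algebra.IsIntegral O (∀ i, B i)] {t : ∀ i, G → B i}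
    (ht : ∀ i, IsPseudo2 (t i))
    (hres : ∀ g, ∃ a : O, ∀ i, t i g - algebraMap O (B i) a ∈ IsLocalRing.maximalIdeal (B i))
    {hf : O} (h2 : hf * 2 = 1) {c : G} (hc : c * c = 1) (htc : ∀ i, t i c = 0)
    (r s : G) (i₀ : ι) (hx : IsUnit (entX (t i₀) (algebraMap O (B i₀) hf) c r s)) :
    ∃ (u : (traceRing O t)ˣ) (M : G →* Matrix (Fin 2) (Fin 2) (traceRing O t)),
      (u : traceRing O t) = entX (trA O t) (algebraMap O _ hf) c r s ∧
      ∀ g, M g = !![entA (trA O t) (algebraMap O _ hf) c g,
          entX (trA O t) (algebraMap O _ hf) c g s * ↑u⁻¹;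
        entX (trA O t) (algebraMap O _ hf) c r g, entD (trA O t) (algebraMap O _ hf) c g] := by
  have hle := traceRing_le (O := O) hres
  have h1 : IsUnit (entX (trA O t) (algebraMap O (traceRing O t) hf) c r s) := by
    rw [isUnit_iff_of_le hle _ i₀]
    exact hx
  obtain ⟨u, hu⟩ := h1
  have h3 : algebraMap O (traceRing O t) hf * 2 = 1 := by
    rw [← map_ofNat (algebraMap O (traceRing O t)) 2, ← map_mul, h2, map_one]
  have h4 : trA O t c = 0 := Subtype.ext (funext fun i => htc i)
  obtain ⟨M, hM⟩ := exists_matrix_rep_ring h3 hc (isPseudo2_trA ht) h4 r s (↑u⁻¹ : traceRing O t)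
    (by rw [← hu]; exact u.mul_inv)
  exact ⟨u, M, hu, hM⟩

end Rep

end Fermat.Agent.H25.TR
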