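import Mathlib
import Fermat.Agent.H25.TraceRing
import Fermat.Agent.H25.DefCoc
import Fermat.Agent.H25.TWPrime
import Fermat.Prelude.Thm_IsLocalRing_isAdicComplete_of_module_finite

set_option autoImplicit false
set_option linter.unusedSectionVars false
set_option linter.style.haveILetI false

/-!
# Pseudocharacters over local algebras with fixed residual data, explicit representations
-/

namespace Fermat.Agent.H25.TR

open Fermat.Agent.H25 Fermat.Agent.H25.PR Fermat.Agent.CC Fermat.Agent.TW IsLocalRing Matrix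

section Generic

variable {G R R' : Type*} [Group G] [CommRing R] [CommRing R']

/-- The explicit matrices. -/
def repMat (t : G → R) (hf : R) (c r s : G) (u : R) (g : G) : Matrix (Fin 2) (Fin 2) R :=
  !![entA t hf c g, entX t hf c g s * u; entX t hf c r g, entD t hf c g]

theorem repMat_map (f : R →+* R') (t : G → R) (hf : R) (c r s : G) (u : R) (g : G) :
    (repMat t hf c r s u g).map f = repMat (fun g => f (t g)) (f hf) c r s (f u) g := by
  ext i j
  fin_cases i <;> fin_cases j <;>
    simp [repMat, entA, entD, entX, map_mul, map_add, map_sub]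

variable {t : G → R} {hf : R} {c r s : G} {u : R}

theorem trace_repMat (h2 : hf * 2 = 1) (g : G) : (repMat t hf c r s u g).trace = t g := by
  rw [Matrix.trace_fin_two]
  simp only [repMat, Matrix.of_apply, Matrix.cons_val', Matrix.cons_val_zero,
    Matrix.cons_val_one, Matrix.cons_val_fin_one, entA, entD]
  linear_combination (t g) * h2

theorem det_of_trace (h2 : hf * 2 = 1) (M : G →* Matrix (Fin 2) (Fin 2) R)
    (hM : ∀ g, (M g).trace = t g) (g : G) : (M g).det = hf * (t g * t g - t (g * g)) := by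
  have h1 := congrArg Matrix.trace (Fermat.Agent.H25.TW.cayley (M g))
  rw [← map_mul, hM, Matrix.trace_sub, Matrix.trace_smul, Matrix.trace_smul, hM,
    Matrix.trace_one] at h1
  simp only [smul_eq_mul, Fintype.card_fin, Nat.cast_ofNat] at h1
  linear_combination (-(M g).det) * h2 + hf * h1

section ND

variable (h2 : hf * 2 = 1) (hc : c * c = 1) (ht : IsPseudo2 t) (htc : t c = 0)
  (hu : entX t hf c r s * u = 1) {M : G →* Matrix (Fin 2) (Fin 2) R}
  (hM : ∀ g, M g = repMat t hf c r s u g)

include h2 hc ht htc hM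

theorem repMat_c : M c = !![1, 0; 0, -1] := by
  rw [hM, repMat]
  have e1 : t (c * c) = 2 := by rw [hc, ht.one]
  have hA : entA t hf c c = 1 := by
    rw [entA, htc, e1]; linear_combination h2
  have hD : entD t hf c c = -1 := by
    rw [entD, htc, e1]; linear_combination -h2
  have hX1 : entX t hf c c s = 0 := by
    rw [entX, hc, one_mul, one_mul]
    ring
  have hX2 : entX t hf c r c = 0 := by
    have e2 : t (r * c) = t (c * r) := ht.comm _ _
    have e3 : t (c * r * c) = t r := by
      rw [ht.comm, ← mul_assoc, hc, one_mul]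
    have e4 : t (r * c * c) = t r := by rw [mul_assoc, hc, mul_one]
    have e5 : t (c * r * c * c) = t (c * r) := by rw [mul_assoc (c * r), hc, mul_one]
    rw [entX, e2, e3, e4, e5]
    ring
  rw [hA, hD, hX1, hX2, zero_mul]

include hu in
/-- nondegeneracy of the trace form -/
theorem eq_zero_of_trace_mul {X : Matrix (Fin 2) (Fin 2) R}
    (h : ∀ g, (X * M g).trace = 0) : X = 0 := by
  have hMc := repMat_c h2 hc ht htc hM
  have htr : ∀ Y : Matrix (Fin 2) (Fin 2) R, (X * Y).trace =
      X 0 0 * Y 0 0 + X 0 1 * Y 1 0 + X 1 0 * Y 0 1 + X 1 1 * Y 1 1 := by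
    intro Y
    rw [Matrix.trace_fin_two, Matrix.mul_apply, Matrix.mul_apply, Fin.sum_univ_two,
      Fin.sum_univ_two]
    ring
  have h1 := h 1
  have h3 := h c
  rw [htr, map_one] at h1
  rw [htr, hMc] at h3
  simp only [Matrix.one_apply_eq, Matrix.of_apply, Matrix.cons_val', Matrix.cons_val_zero,
    Matrix.cons_val_one, Matrix.cons_val_fin_one, mul_zero, add_zero, mul_one] at h1 h3
  have o1 : (1 : Matrix (Fin 2) (Fin 2) R) 1 0 = 0 := Matrix.one_apply_ne (by decide)
  have o2 : (1 : Matrix (Fin 2) (Fin 2) R) 0 1 = 0 := Matrix.one_apply_ne (by decide)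
  rw [o1, o2, mul_zero, mul_zero, add_zero, add_zero] at h1
  have x00 : X 0 0 = 0 := by linear_combination (-X 0 0) * h2 + hf * h1 + hf * h3
  have x11 : X 1 1 = 0 := by linear_combination (-X 1 1) * h2 + hf * h1 - hf * h3
  have hr01 : M r 0 1 = 1 := by
    rw [hM, repMat]
    simpa using hu
  have hs10 : M s 1 0 * u = 1 := by
    rw [hM, repMat]
    simpa using hu
  have h4 := h r
  have h5 := h (c * r)
  rw [htr, x00, x11] at h4 h5
  rw [map_mul, hMc] at h5
  simp only [Matrix.mul_apply, Fin.sum_univ_two, Matrix.of_apply, Matrix.cons_val',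
    Matrix.cons_val_zero, Matrix.cons_val_one, Matrix.cons_val_fin_one, hr01] at h4 h5
  have x10 : X 1 0 = 0 := by linear_combination (-X 1 0) * h2 + hf * h4 + hf * h5
  have h6 := h s
  rw [htr, x00, x11, x10] at h6
  have x01 : X 0 1 = 0 := by linear_combination (-X 0 1) * hs10 + u * h6
  ext i j
  fin_cases i <;> fin_cases j
  · exact x00
  · exact x01
  · exact x10
  · exact x11

end ND

end Generic

/-- Residual data: the residual pseudocharacter and elements making the representation explicit. -/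
structure RD (O k : Type) [CommRing O] [Field k] where
  res : O →+* k
  surj : Function.Surjective res
  chi : GQ → O
  tbar : GQ → k
  c : GQ
  r : GQ
  s : GQ
  hf : O
  h2 : hf * 2 = 1
  cc : c * c = 1
  ps : IsPseudo2 tbar
  tc : tbar c = 0
  dt : ∀ g, tbar g * tbar g - tbar (g * g) = 2 * res (chi g)
  ent : entX tbar (res hf) c r s ≠ 0

namespace RD

variable {O k : Type} [CommRing O] [Field k] (D : RD O k)

theorem exists_rbar : ∃ M : GQ →* Mt k, ∀ g,
    M g = repMat D.tbar (D.res D.hf) D.c D.r D.s (entX D.tbar (D.res D.hf) D.c D.r D.s)⁻¹ g :=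
  exists_matrix_rep_ring (by rw [← map_ofNat D.res 2, ← map_mul, D.h2, map_one]) D.cc D.ps D.tc
    D.r D.s _ (mul_inv_cancel₀ D.ent)

/-- The residual representation. -/
noncomputable def rbar : GQ →* Mt k := D.exists_rbar.choose

theorem rbar_eq (g : GQ) : D.rbar g = repMat D.tbar (D.res D.hf) D.c D.r D.s
    (entX D.tbar (D.res D.hf) D.c D.r D.s)⁻¹ g := D.exists_rbar.choose_spec g

theorem h2k : D.res D.hf * 2 = 1 := by
  rw [← map_ofNat D.res 2, ← map_mul, D.h2, map_one]

theorem trace_rbar (g : GQ) : (D.rbar g).trace = D.tbar g := by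
  rw [rbar_eq, trace_repMat D.h2k]

theorem det_rbar (g : GQ) : (D.rbar g).det = D.res (D.chi g) := by
  rw [det_of_trace D.h2k D.rbar D.trace_rbar, D.dt]
  linear_combination (D.res (D.chi g)) * D.h2k

end RD

/-- A pseudocharacter over a local algebra lifting the residual data. -/
structure Comp {O k : Type} [CommRing O] [Field k] (D : RD O k) (B : Type) [CommRing B]
    [Algebra O B] where
  t : GQ → B
  resB : B →+* k
  res_comp : ∀ a : O, resB (algebraMap O B a) = D.res a
  loc : ∀ b : B, resB b ≠ 0 → IsUnit b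
  ps : IsPseudo2 t
  tc : t D.c = 0
  dt : ∀ g, t g * t g - t (g * g) = 2 * algebraMap O B (D.chi g)
  res_t : ∀ g, resB (t g) = D.tbar g

namespace Comp

variable {O k : Type} [CommRing O] [Field k] {D : RD O k} {B : Type} [CommRing B] [Algebra O B]
  (C : Comp D B)

theorem surj : Function.Surjective C.resB := fun x => by
  obtain ⟨a, ha⟩ := D.surj x
  exact ⟨algebraMap O B a, by rw [C.res_comp, ha]⟩

theorem isUnit_iff (b : B) : IsUnit b ↔ C.resB b ≠ 0 :=
  ⟨fun h => (h.map C.resB).ne_zero, C.loc b⟩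

include C in
theorem isLocalRing : IsLocalRing B := by
  haveI : Nontrivial B := C.resB.domain_nontrivial
  refine IsLocalRing.of_nonunits_add fun x y hx hy => ?_
  rw [mem_nonunits_iff, C.isUnit_iff, not_not] at hx hy ⊢
  rw [map_add, hx, hy, add_zero]

theorem mem_maximalIdeal [IsLocalRing B] (b : B) : b ∈ maximalIdeal B ↔ C.resB b = 0 := by
  rw [IsLocalRing.mem_maximalIdeal, mem_nonunits_iff, C.isUnit_iff, not_not]

theorem ker_resB [IsLocalRing B] : RingHom.ker C.resB = maximalIdeal B := by
  ext b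
  rw [RingHom.mem_ker, C.mem_maximalIdeal]

include C in
theorem h2B : algebraMap O B D.hf * 2 = 1 := by
  rw [← map_ofNat (algebraMap O B) 2, ← map_mul, D.h2, map_one]

theorem res_entX (g h : GQ) :
    C.resB (entX C.t (algebraMap O B D.hf) D.c g h) = entX D.tbar (D.res D.hf) D.c g h := by
  simp only [entX, map_mul, map_add, map_sub, C.res_t, C.res_comp]

theorem isUnit_entX : IsUnit (entX C.t (algebraMap O B D.hf) D.c D.r D.s) := by
  rw [C.isUnit_iff, C.res_entX]
  exact D.ent

/-- the inverse of the normalising entry -/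
noncomputable def ui : B := ↑(C.isUnit_entX.unit⁻¹)

theorem mul_ui : entX C.t (algebraMap O B D.hf) D.c D.r D.s * C.ui = 1 :=
  C.isUnit_entX.mul_val_inv

theorem exists_rho : ∃ M : GQ →* Mt B, ∀ g,
    M g = repMat C.t (algebraMap O B D.hf) D.c D.r D.s C.ui g :=
  exists_matrix_rep_ring C.h2B D.cc C.ps C.tc D.r D.s _ C.mul_ui

/-- The representation. -/
noncomputable def rho : GQ →* Mt B := C.exists_rho.choose

theorem rho_eq (g : GQ) : C.rho g = repMat C.t (algebraMap O B D.hf) D.c D.r D.s C.ui g :=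
  C.exists_rho.choose_spec g

theorem trace_rho (g : GQ) : (C.rho g).trace = C.t g := by
  rw [rho_eq, trace_repMat C.h2B]

theorem det_rho (g : GQ) : (C.rho g).det = algebraMap O B (D.chi g) := by
  rw [det_of_trace C.h2B C.rho C.trace_rho, C.dt]
  linear_combination (algebraMap O B (D.chi g)) * C.h2B

theorem isUnit_det (g : GQ) : IsUnit (C.rho g).det := by
  have h1 : (C.rho g).det * (C.rho g⁻¹).det = 1 := by
    rw [← Matrix.det_mul, ← map_mul, mul_inv_cancel, map_one, Matrix.det_one]
  exact IsUnit.of_mul_eq_one _ h1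

/-- functoriality -/
theorem rho_map {B' : Type} [CommRing B'] [Algebra O B'] (C' : Comp D B') (f : B →ₐ[O] B')
    (hf : ∀ g, f (C.t g) = C'.t g) (g : GQ) : (C.rho g).map f = C'.rho g := by
  have h1 : f C.ui = C'.ui := by
    have h3 := congrArg f C.mul_ui
    have h4 : f (entX C.t (algebraMap O B D.hf) D.c D.r D.s) =
        entX C'.t (algebraMap O B' D.hf) D.c D.r D.s := by
      simp only [entX, map_mul, map_add, map_sub, hf, AlgHom.commutes]
    rw [map_mul, h4, map_one] at h3
    calc f C.ui = (entX C'.t (algebraMap O B' D.hf) D.c D.r D.s * C'.ui) * f C.ui := by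
          rw [C'.mul_ui, one_mul]
      _ = (entX C'.t (algebraMap O B' D.hf) D.c D.r D.s * f C.ui) * C'.ui := by ring
      _ = C'.ui := by rw [h3, one_mul]
  rw [rho_eq, rho_eq]
  have h5 := repMat_map (f : B →+* B') C.t (algebraMap O B D.hf) D.c D.r D.s C.ui g
  have h6 : (fun g => (f : B →+* B') (C.t g)) = C'.t := funext hf
  rw [h6] at h5
  have h7 : (f : B →+* B') (algebraMap O B D.hf) = algebraMap O B' D.hf := f.commutes _
  have h8 : (f : B →+* B') C.ui = C'.ui := h1
  rw [h7, h8] at h5
  exact h5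

/-- reduction -/
theorem rho_res (g : GQ) : (C.rho g).map C.resB = D.rbar g := by
  rw [rho_eq, D.rbar_eq, repMat_map]
  have h1 : C.resB C.ui = (entX D.tbar (D.res D.hf) D.c D.r D.s)⁻¹ := by
    have h3 := congrArg C.resB C.mul_ui
    rw [map_mul, C.res_entX, map_one] at h3
    exact eq_inv_of_mul_eq_one_right h3
  rw [h1, C.res_comp]
  congr 1
  exact funext C.res_t

/-- nondegeneracy -/
theorem eq_zero_of_trace {X : Mt B} (h : ∀ g, (X * C.rho g).trace = 0) : X = 0 :=
  eq_zero_of_trace_mul C.h2B D.cc C.ps C.tc C.mul_ui C.rho_eq h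

/-- elements acting trivially in the pseudocharacter act trivially. -/
theorem rho_eq_one_iff {σ : GQ} : C.rho σ = 1 ↔ ∀ g, C.t (σ * g) = C.t g := by
  constructor
  · intro h g
    rw [← C.trace_rho, ← C.trace_rho, map_mul, h, one_mul]
  · intro h
    rw [← sub_eq_zero]
    refine C.eq_zero_of_trace fun g => ?_
    rw [sub_mul, Matrix.trace_sub, one_mul, ← map_mul, C.trace_rho, C.trace_rho, h, sub_self]

/-- continuity of the pseudocharacter -/
def ContS (C : Comp D B) (S : Finset Nat.Primes) (I : Ideal B) : Prop :=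
  ∀ n : ℕ, ∃ U, (levS S).isOpen U ∧ ∀ u ∈ U, ∀ g, C.t (g * u) - C.t g ∈ I ^ n

theorem matCong_of_t {I : Ideal B} {u : GQ} (h : ∀ g, C.t (g * u) - C.t g ∈ I) :
    MatCong I (C.rho u) 1 := by
  have h0 : ∀ g g' : GQ, C.t (g * u * g') - C.t (g * g') ∈ I := by
    intro g g'
    rw [C.ps.comm (g * u) g', C.ps.comm g g', ← mul_assoc]
    exact h _
  have h01 : ∀ g' : GQ, C.t (u * g') - C.t g' ∈ I := by
    intro g'
    have := h0 1 g'
    rwa [one_mul, one_mul] at this
  have hu1 : C.rho 1 = 1 := map_one _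
  have key : ∀ i j, (C.rho u - C.rho 1) i j ∈ I := by
    intro i j
    rw [rho_eq, rho_eq]
    fin_cases i <;> fin_cases j
    · have e : (repMat C.t (algebraMap O B D.hf) D.c D.r D.s C.ui u -
          repMat C.t (algebraMap O B D.hf) D.c D.r D.s C.ui 1) 0 0 =
          algebraMap O B D.hf * ((C.t (1 * u) - C.t 1) + (C.t (D.c * u) - C.t D.c)) := by
        simp [repMat, entA]; ring
      change (repMat C.t (algebraMap O B D.hf) D.c D.r D.s C.ui u -
          repMat C.t (algebraMap O B D.hf) D.c D.r D.s C.ui 1) 0 0 ∈ I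
      rw [e]
      exact I.mul_mem_left _ (I.add_mem (h _) (h _))
    · have e : (repMat C.t (algebraMap O B D.hf) D.c D.r D.s C.ui u -
          repMat C.t (algebraMap O B D.hf) D.c D.r D.s C.ui 1) 0 1 =
          algebraMap O B D.hf * algebraMap O B D.hf * C.ui *
          ((C.t (u * D.s) - C.t D.s) + (C.t (D.c * u * D.s) - C.t (D.c * D.s)) -
            (C.t (u * (D.c * D.s)) - C.t (D.c * D.s)) -
            (C.t (D.c * u * (D.c * D.s)) - C.t (D.c * (D.c * D.s)))) := by
        simp [repMat, entX, mul_assoc]; ring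
      change (repMat C.t (algebraMap O B D.hf) D.c D.r D.s C.ui u -
          repMat C.t (algebraMap O B D.hf) D.c D.r D.s C.ui 1) 0 1 ∈ I
      rw [e]
      exact I.mul_mem_left _ (I.sub_mem (I.sub_mem (I.add_mem (h01 _) (h0 _ _)) (h01 _)) (h0 _ _))
    · have e : (repMat C.t (algebraMap O B D.hf) D.c D.r D.s C.ui u -
          repMat C.t (algebraMap O B D.hf) D.c D.r D.s C.ui 1) 1 0 =
          algebraMap O B D.hf * algebraMap O B D.hf *
          ((C.t (D.r * u) - C.t D.r) + (C.t (D.c * D.r * u) - C.t (D.c * D.r)) -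
            (C.t (D.r * D.c * u) - C.t (D.r * D.c)) -
            (C.t (D.c * D.r * D.c * u) - C.t (D.c * D.r * D.c))) := by
        simp [repMat, entX, mul_assoc]; ring
      change (repMat C.t (algebraMap O B D.hf) D.c D.r D.s C.ui u -
          repMat C.t (algebraMap O B D.hf) D.c D.r D.s C.ui 1) 1 0 ∈ I
      rw [e]
      exact I.mul_mem_left _ (I.sub_mem (I.sub_mem (I.add_mem (h _) (h _)) (h _)) (h _))
    · have e : (repMat C.t (algebraMap O B D.hf) D.c D.r D.s C.ui u -
          repMat C.t (algebraMap O B D.hf) D.c D.r D.s C.ui 1) 1 1 =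
          algebraMap O B D.hf * ((C.t (1 * u) - C.t 1) - (C.t (D.c * u) - C.t D.c)) := by
        simp [repMat, entD]; ring
      change (repMat C.t (algebraMap O B D.hf) D.c D.r D.s C.ui u -
          repMat C.t (algebraMap O B D.hf) D.c D.r D.s C.ui 1) 1 1 ∈ I
      rw [e]
      exact I.mul_mem_left _ (I.sub_mem (h _) (h _))
  rw [hu1] at key
  exact key

theorem ContS.matCong {S : Finset Nat.Primes} {I : Ideal B} (h : C.ContS S I) (n : ℕ) :
    ∃ U, (levS S).isOpen U ∧ ∀ u ∈ U, MatCong (I ^ n) (C.rho u) 1 := by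
  obtain ⟨U, hU, hU'⟩ := h n
  exact ⟨U, hU, fun u hu => C.matCong_of_t (hU' u hu)⟩

end Comp

end Fermat.Agent.H25.TR
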