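import Mathlib
import Fermat.Agent.H25.TraceRep

set_option autoImplicit false
set_option linter.unusedSectionVars false
set_option linter.style.haveILetI false

/-!
# The trace ring of a finite family of pseudocharacters
-/

namespace Fermat.Agent.H25.TR

open Fermat.Agent.H25 Fermat.Agent.H25.PR Fermat.Agent.CC Fermat.Agent.TW IsLocalRing Matrix

/-- the ideal `λ B` -/
abbrev lamI (O B : Type) [CommRing O] [IsLocalRing O] [CommRing B] [Algebra O B] : Ideal B :=
  (maximalIdeal O).map (algebraMap O B)

section ArtinRees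

variable {O : Type} [CommRing O] [IsLocalRing O] [IsNoetherianRing O] {κ : Type} [Finite κ]
  {B : κ → Type} [∀ i, CommRing (B i)] [∀ i, Algebra O (B i)] [∀ i, Module.Finite O (B i)]

theorem mem_smul_top_of_forall (N : ℕ) (x : ∀ i, B i) (hx : ∀ i, x i ∈ lamI O (B i) ^ N) :
    x ∈ ((maximalIdeal O) ^ N • (⊤ : Submodule O (∀ i, B i))) := by
  classical
  haveI := Fintype.ofFinite κ
  have h1 : x = ∑ i, LinearMap.single O B i (x i) := by
    funext j
    rw [Finset.sum_apply]
    simp
  rw [h1]
  refine sum_mem fun i _ => ?_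
  have h2 : x i ∈ ((maximalIdeal O) ^ N • (⊤ : Submodule O (B i))) := by
    have := hx i
    rw [lamI, ← Ideal.map_pow] at this
    rw [Ideal.smul_top_eq_map]
    exact this
  have h3 := Submodule.mem_map_of_mem (f := LinearMap.single O B i) h2
  rw [Submodule.map_smul''] at h3
  exact Submodule.smul_mono le_rfl le_top h3

/-- **Artin-Rees** for subalgebras of a finite product. -/
theorem exists_artinRees (A : Subalgebra O (∀ i, B i)) : ∃ c : ℕ, ∀ (N : ℕ) (x : A),
    (∀ i, (x : ∀ i, B i) i ∈ lamI O (B i) ^ (N + c)) → x ∈ lamI O A ^ N := by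
  haveI := Fintype.ofFinite κ
  obtain ⟨c, hc⟩ := Ideal.exists_pow_inf_eq_pow_smul (maximalIdeal O) (Subalgebra.toSubmodule A)
  refine ⟨c, fun N x hx => ?_⟩
  have h1 : (x : ∀ i, B i) ∈ ((maximalIdeal O) ^ (N + c) • (⊤ : Submodule O (∀ i, B i))) ⊓
      Subalgebra.toSubmodule A := ⟨mem_smul_top_of_forall _ _ hx, x.2⟩
  rw [hc (N + c) (by omega), Nat.add_sub_cancel] at h1
  have h2 : (x : ∀ i, B i) ∈ (maximalIdeal O) ^ N • (Subalgebra.toSubmodule A) :=
    Submodule.smul_mono le_rfl inf_le_right h1
  have h3 : ((maximalIdeal O) ^ N • (⊤ : Submodule O A)).map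
      (Subalgebra.toSubmodule A).subtype = (maximalIdeal O) ^ N • (Subalgebra.toSubmodule A) := by
    have := Submodule.map_smul'' ((maximalIdeal O) ^ N) (⊤ : Submodule O (Subalgebra.toSubmodule A))
      (Subalgebra.toSubmodule A).subtype
    rw [Submodule.map_top, Submodule.range_subtype] at this
    exact this
  rw [← h3] at h2
  obtain ⟨y, hy, hyx⟩ := h2
  have h4 : y = x := Subtype.ext hyx
  subst h4
  rw [lamI, ← Ideal.map_pow]
  have h5 : y ∈ ((maximalIdeal O) ^ N • (⊤ : Submodule O A)) := hy
  rw [Ideal.smul_top_eq_map] at h5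
  exact h5

end ArtinRees

theorem exists_pow_le_lamI {O B : Type} [CommRing O] [IsLocalRing O] [IsNoetherianRing O]
    [CommRing B] [IsLocalRing B] [Algebra O B] [Module.Finite O B]
    [IsLocalHom (algebraMap O B)] : ∃ c : ℕ, maximalIdeal B ^ c ≤ lamI O B := by
  haveI : Module.Finite (O ⧸ maximalIdeal O) (B ⧸ lamI O B) := by
    haveI : Module.Finite O (B ⧸ lamI O B) := inferInstance
    exact Module.Finite.of_restrictScalars_finite O _ _
  letI : Field (O ⧸ maximalIdeal O) := Ideal.Quotient.field _
  haveI : IsArtinianRing (B ⧸ lamI O B) := IsArtinianRing.of_finite (O ⧸ maximalIdeal O) _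
  exact IsLocalRing.exists_maximalIdeal_pow_le_of_isArtinianRing_quotient _

namespace Comp

section

variable {O k : Type} [CommRing O] [IsLocalRing O] [IsNoetherianRing O] [Field k] {D : RD O k}
  {κ : Type} [Finite κ] {B : κ → Type} [∀ i, CommRing (B i)] [∀ i, Algebra O (B i)]
  [∀ i, Module.Finite O (B i)]

/-- The trace ring of a family. -/
abbrev TrR (C : ∀ i, Comp D (B i)) : Subalgebra O (∀ i, B i) := traceRing O (fun i => (C i).t)

variable (C : ∀ i, Comp D (B i))

theorem finite_TrR : Module.Finite O (TrR C) := by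
  haveI := Fintype.ofFinite κ
  have h1 : IsNoetherian O (∀ i, B i) := inferInstance
  exact Module.IsNoetherian.finite O (Subalgebra.toSubmodule (TrR C))

theorem res_eq (x : TrR C) (i j : κ) : (C i).resB ((x : ∀ i, B i) i) =
    (C j).resB ((x : ∀ i, B i) j) := by
  obtain ⟨x, hx⟩ := x
  change (C i).resB (x i) = (C j).resB (x j)
  induction hx using Algebra.adjoin_induction with
  | mem x hx =>
    obtain ⟨g, rfl⟩ := hx
    rw [(C i).res_t, (C j).res_t]
  | algebraMap r =>
    rw [Pi.algebraMap_apply, Pi.algebraMap_apply, (C i).res_comp, (C j).res_comp]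
  | add x y _ _ hx hy => rw [Pi.add_apply, Pi.add_apply, map_add, map_add, hx, hy]
  | mul x y _ _ hx hy => rw [Pi.mul_apply, Pi.mul_apply, map_mul, map_mul, hx, hy]

/-- projection -/
def proj (i : κ) : TrR C →ₐ[O] B i := (Pi.evalAlgHom O B i).comp (TrR C).val

theorem proj_apply (i : κ) (x : TrR C) : proj C i x = (x : ∀ i, B i) i := rfl

theorem ext_proj {x y : TrR C} (h : ∀ i, proj C i x = proj C i y) : x = y :=
  Subtype.ext (funext h)

variable [Nonempty κ]

/-- **The pseudocharacter over the trace ring.** -/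
noncomputable def prod : Comp D (TrR C) where
  t := trA O (fun i => (C i).t)
  resB := (C (Classical.arbitrary κ)).resB.comp (proj C (Classical.arbitrary κ)).toRingHom
  res_comp a := by
    change (C (Classical.arbitrary κ)).resB (proj C (Classical.arbitrary κ) (algebraMap O _ a)) = _
    rw [AlgHom.commutes, (C _).res_comp]
  loc b hb := by
    haveI := finite_TrR C
    have h1 : ∀ i, IsUnit ((b : ∀ i, B i) i) := fun i => by
      rw [(C i).isUnit_iff, res_eq C b i (Classical.arbitrary κ)]
      exact hb
    have hxU : IsUnit (b : ∀ i, B i) := Pi.isUnit_iff.mpr h1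
    haveI := Fintype.ofFinite κ
    haveI : Algebra.IsIntegral O (∀ i, B i) := inferInstance
    haveI : Algebra.IsIntegral (TrR C) (∀ i, B i) := ⟨fun y =>
      (Algebra.IsIntegral.isIntegral (R := O) y).tower_top⟩
    haveI : IsLocalHom (algebraMap (TrR C) (∀ i, B i)) :=
      (algebraMap_isIntegral_iff.mpr inferInstance).isLocalHom (FaithfulSMul.algebraMap_injective _ _)
    exact isUnit_of_map_unit (algebraMap (TrR C) (∀ i, B i)) b hxU
  ps := isPseudo2_trA fun i => (C i).ps
  tc := Subtype.ext (funext fun i => (C i).tc)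
  dt g := Subtype.ext (funext fun i => (C i).dt g)
  res_t g := (C (Classical.arbitrary κ)).res_t g

theorem proj_t (i : κ) (g : GQ) : proj C i ((prod C).t g) = (C i).t g := rfl

theorem adjoin_t : Algebra.adjoin O (Set.range (prod C).t) = ⊤ := by
  rw [eq_top_iff]
  rintro ⟨x, hx⟩ -
  induction hx using Algebra.adjoin_induction with
  | mem x hx =>
    obtain ⟨g, rfl⟩ := hx
    exact Algebra.subset_adjoin ⟨g, rfl⟩
  | algebraMap r => exact Subalgebra.algebraMap_mem _ r
  | add x y hx hy hx' hy' => exact add_mem hx' hy'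
  | mul x y hx hy hx' hy' => exact mul_mem hx' hy'

theorem contS_prod {S : Finset Nat.Primes} (h : ∀ i, (C i).ContS S (lamI O (B i))) :
    (prod C).ContS S (lamI O (TrR C)) := by
  haveI := Fintype.ofFinite κ
  obtain ⟨c, hc⟩ := exists_artinRees (TrR C)
  intro N
  choose U hU hU' using fun i => h i (N + c)
  refine ⟨⨅ i, U i, ?_, fun u hu g => ?_⟩
  · have h2 : ∀ s : Finset κ, (levS S).isOpen (⨅ i ∈ s, U i) := by
      classical
      intro s
      induction s using Finset.induction_on with
      | empty => simpa using (levS S).top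
      | insert i s hi ih => rw [Finset.iInf_insert]; exact (levS S).inf _ _ (hU i) ih
    have := h2 Finset.univ
    simpa using this
  · refine hc N _ fun i => ?_
    exact hU' i u ((iInf_le U i) hu) g

end

end Comp

namespace Comp

variable {O k : Type} [CommRing O] [IsLocalRing O] [IsNoetherianRing O] [Field k] {D : RD O k}
  {B : Type} [CommRing B] [Algebra O B] (C : Comp D B)

include C in
theorem isLocalHom : IsLocalHom (algebraMap O B) := by
  haveI := C.isLocalRing
  refine ⟨fun a ha => ?_⟩
  have h1 : D.res a ≠ 0 := by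
    rw [← C.res_comp]
    exact (ha.map C.resB).ne_zero
  have h2 : (RingHom.ker D.res).IsMaximal := RingHom.ker_isMaximal_of_surjective _ D.surj
  have h3 := IsLocalRing.eq_maximalIdeal h2
  by_contra hn
  have h4 : a ∈ maximalIdeal O := hn
  rw [← h3, RingHom.mem_ker] at h4
  exact h1 h4

include C in
theorem lamI_le [IsLocalRing B] : lamI O B ≤ maximalIdeal B := by
  haveI := C.isLocalHom
  rw [lamI, Ideal.map_le_iff_le_comap]
  intro a ha
  exact (map_mem_nonunits_iff (algebraMap O B) a).mpr ha

theorem ContS.mono {S : Finset Nat.Primes} {I J : Ideal B} (h : C.ContS S I) (hIJ : I ≤ J) :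
    C.ContS S J := fun n => by
  obtain ⟨U, hU, hU'⟩ := h n
  exact ⟨U, hU, fun u hu g => Ideal.pow_right_mono hIJ n (hU' u hu g)⟩

theorem ContS.monoS {S S' : Finset Nat.Primes} {I : Ideal B} (h : C.ContS S I) (hS : S ⊆ S') :
    C.ContS S' I := fun n => by
  obtain ⟨U, hU, hU'⟩ := h n
  exact ⟨U, levS_mono hS hU, hU'⟩

theorem ContS.of_maximal [IsLocalRing B] [Module.Finite O B] {S : Finset Nat.Primes}
    (h : C.ContS S (maximalIdeal B)) : C.ContS S (lamI O B) := by
  haveI := C.isLocalHom
  obtain ⟨c, hc⟩ := exists_pow_le_lamI (O := O) (B := B)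
  intro n
  obtain ⟨U, hU, hU'⟩ := h (c * n)
  refine ⟨U, hU, fun u hu g => ?_⟩
  have := hU' u hu g
  rw [pow_mul] at this
  exact Ideal.pow_right_mono hc n this

variable [IsAdicComplete (maximalIdeal O) O] [Module.Finite O B]

include C in
theorem isAdicComplete [IsLocalRing B] : IsAdicComplete (maximalIdeal B) B := by
  haveI := C.isLocalHom
  exact IsLocalRing.isAdicComplete_of_module_finite (𝒪 := O)

include C in
theorem henselian : @HenselianLocalRing B _ := by
  haveI := C.isLocalRing
  haveI := C.isAdicComplete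
  haveI : HenselianRing B (maximalIdeal B) := inferInstance
  exact { is_henselian := fun f hf a₀ h1 h2 => HenselianRing.is_henselian f hf a₀ h1 (h2.map _) }

end Comp

end Fermat.Agent.H25.TR
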