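import Mathlib
import Fermat.Agent.H25.TraceProd

set_option autoImplicit false
set_option linter.unusedSectionVars false
set_option linter.style.haveILetI false

/-!
# Local structure of the representation attached to a pseudocharacter, away from `p`
-/

namespace Fermat.Agent.H25.TR

open Fermat.Agent.H25 Fermat.Agent.H25.PR Fermat.Agent.CC Fermat.Agent.TW IsLocalRing Matrix
open Fermat.Agent.H05
open scoped Pointwise

/-- chosen place above `q` -/
noncomputable def plv (q : ℕ) (hq : q.Prime) : ValuationSubring Qb :=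
  (exists_liesOverPrime Qb hq).choose

theorem plv_over (q : ℕ) (hq : q.Prime) : (plv q hq).LiesOverPrime q :=
  (exists_liesOverPrime Qb hq).choose_spec

/-- chosen Frobenius -/
noncomputable def frv (q : ℕ) (hq : q.Prime) : GQ :=
  (exists_isFrobeniusAt hq (plv_over q hq)).choose

theorem frv_spec (q : ℕ) (hq : q.Prime) : (plv q hq).IsFrobeniusAt (frv q hq) q :=
  (exists_isFrobeniusAt hq (plv_over q hq)).choose_spec

theorem exists_tame (p : ℕ) (hp : p.Prime) (q : ℕ) (hq : q.Prime) :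
    ∃ (π₁ : Qb) (τ : GQ), π₁ ^ p = (q : Qb) ∧ τ ∈ (plv q hq).inertiaSubgroupIn ℚ ∧ τ π₁ ≠ π₁ := by
  obtain ⟨π₁, hπ₁⟩ := IsAlgClosed.exists_pow_nat_eq (q : Qb) hp.pos
  haveI := Fermat.Agent.H51.isGalois_Qbar
  obtain ⟨τ, hτ, hτ'⟩ := Fermat.Agent.H12.exists_inertia_move hq (plv_over q hq) hp.one_lt π₁ hπ₁
  exact ⟨π₁, τ, hπ₁, hτ, hτ'⟩

/-- chosen `p`-th root of `q` -/
noncomputable def rtv (p : ℕ) (hp : p.Prime) (q : ℕ) (hq : q.Prime) : Qb :=
  (exists_tame p hp q hq).choose

/-- chosen generator of (tame `p`-part of) inertia -/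
noncomputable def tmv (p : ℕ) (hp : p.Prime) (q : ℕ) (hq : q.Prime) : GQ :=
  (exists_tame p hp q hq).choose_spec.choose

theorem tmv_spec (p : ℕ) (hp : p.Prime) (q : ℕ) (hq : q.Prime) :
    rtv p hp q hq ^ p = (q : Qb) ∧ tmv p hp q hq ∈ (plv q hq).inertiaSubgroupIn ℚ ∧
      tmv p hp q hq (rtv p hp q hq) ≠ rtv p hp q hq :=
  (exists_tame p hp q hq).choose_spec.choose_spec

theorem isOpen_of_levS {S : Finset Nat.Primes} {U : Subgroup GQ} (h : (levS S).isOpen U) :
    IsOpen (U : Set GQ) := by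
  obtain ⟨F, hF, hFU⟩ := h
  haveI := hF.1
  exact Subgroup.isOpen_mono hFU (IntermediateField.fixingSubgroup_isOpen F)

theorem inertia_le_of_levS {S : Finset Nat.Primes} {U : Subgroup GQ} (h : (levS S).isOpen U)
    {q : Nat.Primes} (hq : q ∉ S) {A : ValuationSubring Qb} (hA : A.LiesOverPrime q) :
    A.inertiaSubgroupIn ℚ ≤ U := by
  obtain ⟨F, hF, hFU⟩ := h
  exact (hF.2 q hq A hA).trans hFU

namespace Comp

variable {O k : Type} [CommRing O] [IsLocalRing O] [IsNoetherianRing O]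
  [IsAdicComplete (maximalIdeal O) O] [Field k] {D : RD O k}
  {B : Type} [CommRing B] [Algebra O B] [Module.Finite O B] (C : Comp D B)
  {S : Finset Nat.Primes}

include C in
theorem isHausdorff [IsLocalRing B] : IsHausdorff (maximalIdeal B) B := by
  haveI := C.isAdicComplete
  infer_instance

theorem adicCont [IsLocalRing B] (h : C.ContS S (lamI O B)) :
    AdicCont (maximalIdeal B) C.rho := by
  intro n
  obtain ⟨U, hU, hU'⟩ := (ContS.mono C h C.lamI_le).matCong C n
  exact ⟨U, isOpen_of_levS hU, hU'⟩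

theorem rho_inertia [IsLocalRing B] (h : C.ContS S (lamI O B)) {q : Nat.Primes} (hq : q ∉ S)
    {A : ValuationSubring Qb} (hA : A.LiesOverPrime q) {σ : GQ}
    (hσ : σ ∈ A.inertiaSubgroupIn ℚ) : C.rho σ = 1 := by
  haveI := C.isHausdorff
  refine eq_of_forall_matCong (J := maximalIdeal B) fun n => ?_
  obtain ⟨U, hU, hU'⟩ := (ContS.mono C h C.lamI_le).matCong C n
  exact hU' σ (inertia_le_of_levS hU hq hA hσ)

theorem t_inertia [IsLocalRing B] (h : C.ContS S (lamI O B)) {q : Nat.Primes} (hq : q ∉ S)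
    {A : ValuationSubring Qb} (hA : A.LiesOverPrime q) {σ : GQ}
    (hσ : σ ∈ A.inertiaSubgroupIn ℚ) (g : GQ) : C.t (σ * g) = C.t g :=
  C.rho_eq_one_iff.mp (C.rho_inertia h hq hA hσ) g

theorem matCong_maximal_iff [IsLocalRing B] {σ : GQ} :
    MatCong (maximalIdeal B) (C.rho σ) 1 ↔ D.rbar σ = 1 := by
  rw [← C.rho_res]
  constructor
  · intro h
    ext i j
    have h1 := h i j
    rw [C.mem_maximalIdeal, Matrix.sub_apply, map_sub, sub_eq_zero] at h1
    rw [Matrix.map_apply, h1, Matrix.one_apply, Matrix.one_apply]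
    split_ifs <;> simp
  · intro h i j
    rw [C.mem_maximalIdeal, Matrix.sub_apply, map_sub, sub_eq_zero]
    have h1 := congrFun (congrFun h i) j
    rw [Matrix.map_apply] at h1
    rw [h1, Matrix.one_apply, Matrix.one_apply]
    split_ifs <;> simp

variable {p : ℕ} (hp : p.Prime) (hpO : (p : O) ∈ maximalIdeal O)

include C hpO in
theorem p_mem [IsLocalRing B] : (p : B) ∈ maximalIdeal B := by
  have h1 : algebraMap O B (p : O) ∈ lamI O B := Ideal.mem_map_of_mem _ hpO
  rw [map_natCast] at h1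
  exact C.lamI_le h1

include hpO in
/-- **Local structure at a prime `q ≠ p` where the residual representation is unramified.** -/
theorem local_at [IsLocalRing B] (h : C.ContS S (lamI O B)) {q : ℕ} (hq : q.Prime)
    (hpq : p ≠ q) (hunr : ∀ σ ∈ (plv q hq).inertiaSubgroupIn ℚ, D.rbar σ = 1) (n : ℕ) :
    (∀ σ ∈ (plv q hq).inertiaSubgroupIn ℚ, ∃ b : ℕ,
      MatCong (maximalIdeal B ^ n) (C.rho σ) (C.rho (tmv p hp q hq) ^ b)) ∧
    (∀ d ∈ (plv q hq).decompositionSubgroup ℚ, ∃ a b : ℕ, MatCong (maximalIdeal B ^ n) (C.rho d)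
      (C.rho (frv q hq) ^ a * C.rho (tmv p hp q hq) ^ b)) ∧
    MatCong (maximalIdeal B ^ n) (C.rho (frv q hq) * C.rho (tmv p hp q hq))
      (C.rho (tmv p hp q hq) ^ q * C.rho (frv q hq)) := by
  haveI := Fermat.Agent.H51.isGalois_Qbar
  obtain ⟨h1, h2, h3⟩ := tmv_spec p hp q hq
  refine local_structure hq (plv_over q hq) hp hpq h1 h2 h3 (frv_spec q hq)
    (C.p_mem hpO) (C.adicCont h) (fun σ hσ => ⟨0, ?_⟩) n
  rw [pow_zero, pow_one]
  exact C.matCong_maximal_iff.mpr (hunr σ hσ)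

include hpO in
theorem rel_at [IsLocalRing B] (h : C.ContS S (lamI O B)) {q : ℕ} (hq : q.Prime)
    (hpq : p ≠ q) (hunr : ∀ σ ∈ (plv q hq).inertiaSubgroupIn ℚ, D.rbar σ = 1) :
    C.rho (frv q hq) * C.rho (tmv p hp q hq) =
      C.rho (tmv p hp q hq) ^ q * C.rho (frv q hq) := by
  haveI := C.isHausdorff
  exact eq_of_forall_matCong (J := maximalIdeal B) fun n => (C.local_at hp hpO h hq hpq hunr n).2.2

include hpO in
/-- a homomorphism kills inertia at `q` iff it kills the chosen tame generator -/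
theorem inertia_of_tame [IsLocalRing B] (h : C.ContS S (lamI O B)) {q : ℕ} (hq : q.Prime)
    (hpq : p ≠ q) (hunr : ∀ σ ∈ (plv q hq).inertiaSubgroupIn ℚ, D.rbar σ = 1)
    {B' : Type} [CommRing B'] (f : B →+* B') {I : Ideal B'} [IsHausdorff I B']
    (hI : (maximalIdeal B).map f ≤ I)
    (hτ : (C.rho (tmv p hp q hq)).map f = 1) {σ : GQ}
    (hσ : σ ∈ (plv q hq).inertiaSubgroupIn ℚ) : (C.rho σ).map f = 1 := by
  refine eq_of_forall_matCong (J := I) fun n => ?_
  obtain ⟨b, hb⟩ := (C.local_at hp hpO h hq hpq hunr n).1 σ hσ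
  intro i j
  have h1 := Ideal.mem_map_of_mem f (hb i j)
  rw [Ideal.map_pow] at h1
  have h2 := Ideal.pow_right_mono hI n h1
  rw [Matrix.sub_apply, map_sub] at h2
  have h3 : (C.rho (tmv p hp q hq) ^ b).map f = 1 := by
    have h4 : (C.rho (tmv p hp q hq) ^ b).map f = ((C.rho (tmv p hp q hq)).map f) ^ b := by
      have := map_pow (f.mapMatrix (m := Fin 2)) (C.rho (tmv p hp q hq)) b
      exact this
    rw [h4, hτ, one_pow]
  have h5 := congrFun (congrFun h3 i) j
  rw [Matrix.map_apply] at h5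
  rw [h5] at h2
  exact h2

include hpO in
/-- **The inertia character at a Taylor-Wiles prime**. -/
theorem exists_xi_comp (h : C.ContS S (lamI O B)) {q : ℕ} (hq : q.Prime)
    (hpq : p ≠ q) (hunr : ∀ σ ∈ (plv q hq).inertiaSubgroupIn ℚ, D.rbar σ = 1)
    (hchi : ∀ σ ∈ (plv q hq).inertiaSubgroupIn ℚ, D.chi σ = 1)
    {a b : k} (htr : (D.rbar (frv q hq)).trace = a + b) (hdet : (D.rbar (frv q hq)).det = a * b)
    (hab : a ≠ b) {e u : ℕ} (hqe : q - 1 = p ^ e * u) (hu : ¬ p ∣ u)
    (hq1 : ((q : ℕ) : k) = 1) :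
    ∃ x : B, C.resB x = 1 ∧ x ^ p ^ e = 1 ∧
      ∀ (B' : Type) [CommRing B'] (f : B →+* B'), f x = 1 ↔ (C.rho (tmv p hp q hq)).map f = 1 := by
  haveI := C.isLocalRing
  haveI := C.henselian
  -- residue field
  let ee : ResidueField B →+* k := by
    haveI : IsLocalHom C.resB := ⟨fun x hx => (C.isUnit_iff x).mpr hx.ne_zero⟩
    exact IsLocalRing.ResidueField.lift C.resB
  have hee : ∀ x, ee (residue B x) = C.resB x := fun x => rfl
  have heinj : Function.Injective ee := ee.injective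
  obtain ⟨a₀, ha₀⟩ := C.surj a
  obtain ⟨b₀, hb₀⟩ := C.surj b
  have h2 := (tmv_spec p hp q hq).2.1
  have htr' : residue B (C.rho (frv q hq)).trace = residue B a₀ + residue B b₀ := by
    apply heinj
    rw [map_add, hee, hee, hee, ha₀, hb₀, ← htr, ← C.rho_res]
    rw [Matrix.trace_fin_two, Matrix.trace_fin_two, map_add]
    rfl
  have hdet' : residue B (C.rho (frv q hq)).det = residue B a₀ * residue B b₀ := by
    apply heinj
    rw [map_mul, hee, hee, hee, ha₀, hb₀, ← hdet, ← C.rho_res]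
    rw [Matrix.det_fin_two, Matrix.det_fin_two, map_sub, map_mul, map_mul]
    rfl
  have hab' : residue B a₀ ≠ residue B b₀ := by
    intro h3
    have h4 := congrArg ee h3
    rw [hee, hee, ha₀, hb₀] at h4
    exact hab h4
  have hpk : ((p : ℕ) : k) = 0 := by
    have h3 := (C.mem_maximalIdeal _).mp (C.p_mem hpO)
    rwa [map_natCast] at h3
  haveI : Fact p.Prime := ⟨hp⟩
  haveI : CharP k p := by
    rw [CharP.charP_iff_prime_eq_zero hp]
    exact hpk
  have huB : IsUnit (u : B) := by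
    rw [C.isUnit_iff, map_natCast, Ne, CharP.cast_eq_zero_iff k p]
    exact hu
  obtain ⟨e', x, -, -, -, -, -, hx1, hx2, hx3⟩ := Fermat.Agent.H25.TW.exists_xi
    (P := C.rho (frv q hq)) (S := C.rho (tmv p hp q hq)) htr' hdet' hab'
    (by rw [C.det_rho, hchi _ h2, map_one])
    (C.matCong_maximal_iff.mpr (hunr _ h2)) (p := p) (q := q) (k := e) (u := u)
    (C.isUnit_det _) hq.one_le
    (by rw [C.mem_maximalIdeal, map_sub, map_natCast, map_one, hq1, sub_self]) hqe huB
    (C.rel_at hp hpO h hq hpq hunr)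
  refine ⟨x, ?_, hx2, hx3⟩
  have h3 := (C.mem_maximalIdeal _).mp hx1
  rw [map_sub, map_one, sub_eq_zero] at h3
  exact h3

end Comp

end Fermat.Agent.H25.TR
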