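import Mathlib
import Fermat.Agent.H25.LocComp
import Fermat.Agent.H25.Density

set_option autoImplicit false
set_option linter.unusedSectionVars false
set_option linter.style.haveILetI false

/-!
# Pseudocharacters valued in Hecke algebras, from the representations at characteristic zero points
-/

namespace Fermat.Agent.H25.TR

open Fermat.Agent.H25 Fermat.Agent.H25.PR Fermat.Agent.CC Fermat.Agent.TW IsLocalRing Matrix
open Fermat.Agent.H05

section Pow

variable {R G : Type*} [CommRing R] [Group G] {t : G → R}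

theorem IsPseudo2.sq_mul (ht : IsPseudo2 t) {hf : R} (h2 : hf * 2 = 1) {g : G} {d : R}
    (hd : t g * t g - t (g * g) = 2 * d) (h : G) :
    t (g * g * h) = t g * t (g * h) - d * t h := by
  have h1 := ht.tri g g h
  have h3 : t (g * h * g) = t (g * g * h) := by
    rw [ht.comm (g * h) g, ← mul_assoc]
  rw [h3] at h1
  linear_combination (-(t (g * g * h) - t g * t (g * h) + d * t h)) * h2 + hf * h1 -
    hf * t h * hd

/-- trace of powers as a polynomial in trace and determinant -/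
def pw {R : Type*} [CommRing R] (x d : R) : ℕ → R
  | 0 => 2
  | 1 => x
  | (n + 2) => x * pw x d (n + 1) - d * pw x d n

theorem t_pow (ht : IsPseudo2 t) {hf : R} (h2 : hf * 2 = 1) {g : G} {d : R}
    (hd : t g * t g - t (g * g) = 2 * d) : ∀ n : ℕ, t (g ^ n) = pw (t g) d n
  | 0 => by rw [pow_zero, ht.one]; rfl
  | 1 => by rw [pow_one]; rfl
  | (n + 2) => by
    have e : g ^ (n + 2) = g * g * g ^ n := by rw [pow_add, pow_two, mul_comm' g n]
    rw [e, IsPseudo2.sq_mul ht h2 hd, ← pow_succ', t_pow ht h2 hd (n + 1), t_pow ht h2 hd n]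
    rfl
where
  mul_comm' (g : G) (n : ℕ) : g ^ n * (g * g) = g * g * g ^ n := by
    rw [← pow_two, ← pow_add, ← pow_add, add_comm]

theorem map_pw {R' : Type*} [CommRing R'] (f : R →+* R') (x d : R) :
    ∀ n : ℕ, f (pw x d n) = pw (f x) (f d) n
  | 0 => map_ofNat f 2
  | 1 => rfl
  | (n + 2) => by
    change f (x * pw x d (n + 1) - d * pw x d n) = _
    rw [map_sub, map_mul, map_mul, map_pw f x d (n + 1), map_pw f x d n]
    rfl

end Pow

/-- approximation of Galois elements by powers of Frobenius elements, for levels. -/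
theorem exists_frobenius_lev {S : Finset Nat.Primes} {U : Subgroup GQ} (hU : (levS S).isOpen U)
    (T : Finset ℕ) (σ : GQ) :
    ∃ (ℓ : ℕ) (_ : ℓ.Prime) (_ : ℓ ∉ T) (A : ValuationSubring Qb) (_ : A.LiesOverPrime ℓ)
      (φ : GQ) (_ : A.IsFrobeniusAt φ ℓ) (n : ℕ) (u : GQ), u ∈ U ∧ σ = φ ^ n * u := by
  obtain ⟨F, hF, hFU⟩ := hU
  haveI := hF.1
  obtain ⟨ℓ, h1, h2, A, h3, φ, h4, m, n, h5, h6⟩ := exists_frobenius F T σ
  refine ⟨ℓ, h1, h2, A, h3, φ, h4, n, (φ ^ n)⁻¹ * σ, hFU ?_, by group⟩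
  rw [IntermediateField.mem_fixingSubgroup_iff]
  intro x hx
  rw [AlgEquiv.mul_apply, h6 x hx, ← AlgEquiv.mul_apply, inv_mul_cancel, AlgEquiv.one_apply]

section Main

variable {O k : Type} [CommRing O] [IsLocalRing O] [IsNoetherianRing O]
  [IsAdicComplete (maximalIdeal O) O] [Field k] (D : RD O k)
  {B : Type} [CommRing B] [Algebra O B]
  {ι : Type} [Finite ι] {P : ι → Type} [∀ i, CommRing (P i)] [∀ i, Algebra O (P i)]
  [∀ i, Module.Finite O (P i)]

/-- finite modules over complete noetherian local rings: submodules are closed. -/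
theorem mem_of_forall_mem_sup {M : Type*} [AddCommGroup M] [Module O M] [Module.Finite O M]
    (N : Submodule O M) (y : M)
    (h : ∀ n : ℕ, y ∈ N ⊔ (maximalIdeal O ^ n • (⊤ : Submodule O M))) : y ∈ N := by
  haveI : IsHausdorff (maximalIdeal O) (M ⧸ N) :=
    IsHausdorff.of_le_jacobson (maximalIdeal O) (M ⧸ N) (IsLocalRing.maximalIdeal_le_jacobson _)
  rw [← Submodule.Quotient.mk_eq_zero]
  refine IsHausdorff.haus (I := maximalIdeal O) inferInstance _ fun n => ?_
  rw [SModEq.zero]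
  obtain ⟨a, ha, b, hb, hab⟩ := Submodule.mem_sup.mp (h n)
  have h1 : (Submodule.Quotient.mk y : M ⧸ N) = N.mkQ b := by
    rw [← hab, Submodule.mkQ_apply, Submodule.Quotient.eq]
    simpa using ha
  rw [h1]
  have h2 := Submodule.mem_map_of_mem (f := N.mkQ) hb
  rw [Submodule.map_smul''] at h2
  exact Submodule.smul_mono le_rfl le_top h2

/-- **From points to pseudocharacters.** -/
theorem exists_comp (f : B →ₐ[O] (∀ i, P i)) (hf : Function.Injective f)
    (t : ∀ i, GQ → P i) (ht : ∀ i, IsPseudo2 (t i)) (htc : ∀ i, t i D.c = 0)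
    (hdt : ∀ i g, t i g * t i g - t i (g * g) = 2 * algebraMap O (P i) (D.chi g))
    {S : Finset Nat.Primes}
    (hcont : ∀ i, ∀ n : ℕ, ∃ U, (levS S).isOpen U ∧ ∀ u ∈ U, ∀ g,
      t i (g * u) - t i g ∈ lamI O (P i) ^ n)
    (bad : Finset ℕ) (T : ℕ → B)
    (hT : ∀ ℓ : ℕ, ℓ.Prime → ℓ ∉ bad → ∀ A : ValuationSubring Qb, A.LiesOverPrime ℓ →
      ∀ φ : GQ, A.IsFrobeniusAt φ ℓ → ∀ i, t i φ = f (T ℓ) i)
    (resB : B →+* k) (res_comp : ∀ a : O, resB (algebraMap O B a) = D.res a)
    (loc : ∀ b : B, resB b ≠ 0 → IsUnit b)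
    (hTres : ∀ ℓ : ℕ, ℓ.Prime → ℓ ∉ bad → ∀ A : ValuationSubring Qb, A.LiesOverPrime ℓ →
      ∀ φ : GQ, A.IsFrobeniusAt φ ℓ → D.tbar φ = resB (T ℓ))
    (hbar : ∃ U, (levS S).isOpen U ∧ ∀ u ∈ U, ∀ g, D.tbar (g * u) = D.tbar g) :
    ∃ C : Comp D B, C.resB = resB ∧ (∀ g i, f (C.t g) i = t i g) ∧
      (∀ ℓ : ℕ, ℓ.Prime → ℓ ∉ bad → ∀ A : ValuationSubring Qb, A.LiesOverPrime ℓ →
        ∀ φ : GQ, A.IsFrobeniusAt φ ℓ → C.t φ = T ℓ) ∧ C.ContS S (lamI O B) := by
  classical
  haveI := Fintype.ofFinite ι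
  haveI hfinP : Module.Finite O (∀ i, P i) := inferInstance
  haveI hfinB : Module.Finite O B := Module.Finite.of_injective f.toLinearMap hf
  have h2P : ∀ i, algebraMap O (P i) D.hf * 2 = 1 := fun i => by
    rw [← map_ofNat (algebraMap O (P i)) 2, ← map_mul, D.h2, map_one]
  have h2B : algebraMap O B D.hf * 2 = 1 := by
    rw [← map_ofNat (algebraMap O B) 2, ← map_mul, D.h2, map_one]
  -- common open subgroups
  have hcont' : ∀ n : ℕ, ∃ U, (levS S).isOpen U ∧ ∀ u ∈ U, ∀ i g,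
      t i (g * u) - t i g ∈ lamI O (P i) ^ n := by
    intro n
    choose U hU hU' using fun i => hcont i n
    refine ⟨⨅ i, U i, ?_, fun u hu i g => hU' i u ((iInf_le U i) hu) g⟩
    have h2 : ∀ s : Finset ι, (levS S).isOpen (⨅ i ∈ s, U i) := by
      intro s
      induction s using Finset.induction_on with
      | empty => simpa using (levS S).top
      | insert i s hi ih => rw [Finset.iInf_insert]; exact (levS S).inf _ _ (hU i) ih
    have := h2 Finset.univ
    simpa using this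
  -- powers of Frobenius
  have hpow : ∀ ℓ : ℕ, ℓ.Prime → ℓ ∉ bad → ∀ A : ValuationSubring Qb, A.LiesOverPrime ℓ →
      ∀ φ : GQ, A.IsFrobeniusAt φ ℓ → ∀ (n : ℕ) (i : ι),
      t i (φ ^ n) = f (pw (T ℓ) (algebraMap O B (D.chi φ)) n) i := by
    intro ℓ hℓ hb A hA φ hφ n i
    rw [t_pow (ht i) (h2P i) (hdt i φ)]
    have := map_pw ((Pi.evalRingHom P i).comp (f : B →+* ∀ i, P i)) (T ℓ)
      (algebraMap O B (D.chi φ)) n
    have e1 : ((Pi.evalRingHom P i).comp (f : B →+* ∀ i, P i)) (T ℓ) = t i φ :=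
      (hT ℓ hℓ hb A hA φ hφ i).symm
    have e2 : ((Pi.evalRingHom P i).comp (f : B →+* ∀ i, P i)) (algebraMap O B (D.chi φ)) =
        algebraMap O (P i) (D.chi φ) := by
      change f (algebraMap O B (D.chi φ)) i = _
      rw [AlgHom.commutes]
      rfl
    rw [e1, e2] at this
    exact this.symm
  -- closedness
  have hmem : ∀ g, (fun i => t i g) ∈ LinearMap.range f.toLinearMap := by
    intro g
    refine mem_of_forall_mem_sup _ _ fun n => ?_
    obtain ⟨U, hU, hU'⟩ := hcont' n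
    obtain ⟨ℓ, hℓ, hb, A, hA, φ, hφ, m, u, hu, rfl⟩ := exists_frobenius_lev hU bad g
    have h3 : (fun i => t i (φ ^ m * u)) = f (pw (T ℓ) (algebraMap O B (D.chi φ)) m) +
        (fun i => t i (φ ^ m * u) - t i (φ ^ m)) := by
      funext i
      rw [Pi.add_apply, ← hpow ℓ hℓ hb A hA φ hφ m i, add_sub_cancel]
    rw [h3]
    exact Submodule.add_mem_sup ⟨_, rfl⟩ (mem_smul_top_of_forall n _ fun i => hU' u hu i _)
  choose tB htB using hmem
  have htB' : ∀ g i, f (tB g) i = t i g := fun g i => congrFun (htB g) i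
  have hext : ∀ {x y : B}, (∀ i, f x i = f y i) → x = y := fun h => hf (funext h)
  have hps : IsPseudo2 tB := by
    refine ⟨hext fun i => ?_, fun g h => hext fun i => ?_, fun g h k => hext fun i => ?_⟩
    · rw [htB', (ht i).one, map_ofNat]; rfl
    · rw [htB', htB', (ht i).comm]
    · have := (ht i).tri g h k
      simp only [map_add, map_sub, map_mul, map_zero, Pi.add_apply, Pi.sub_apply, Pi.mul_apply,
        Pi.zero_apply, htB']
      exact this
  have hdtB : ∀ g, tB g * tB g - tB (g * g) = 2 * algebraMap O B (D.chi g) := by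
    intro g
    refine hext fun i => ?_
    have := hdt i g
    simp only [map_sub, map_mul, Pi.sub_apply, Pi.mul_apply, htB', AlgHom.commutes, map_ofNat]
    rw [this]
    rfl
  have hFrob : ∀ ℓ : ℕ, ℓ.Prime → ℓ ∉ bad → ∀ A : ValuationSubring Qb, A.LiesOverPrime ℓ →
        ∀ φ : GQ, A.IsFrobeniusAt φ ℓ → tB φ = T ℓ := by
    intro ℓ hℓ hb A hA φ hφ
    refine hext fun i => ?_
    rw [htB', hT ℓ hℓ hb A hA φ hφ i]
  -- continuity
  have hcontB : ∀ n : ℕ, ∃ U, (levS S).isOpen U ∧ ∀ u ∈ U, ∀ g,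
      tB (g * u) - tB g ∈ lamI O B ^ n := by
    obtain ⟨c, hc⟩ := exists_artinRees f.range
    intro n
    obtain ⟨U, hU, hU'⟩ := hcont' (n + c)
    refine ⟨U, hU, fun u hu g => ?_⟩
    let e : B ≃ₐ[O] f.range := AlgEquiv.ofInjective f hf
    have h3 : e (tB (g * u) - tB g) ∈ lamI O f.range ^ n := by
      refine hc n _ fun i => ?_
      have : ((e (tB (g * u) - tB g) : f.range) : ∀ i, P i) i = t i (g * u) - t i g := by
        change f (tB (g * u) - tB g) i = _
        rw [map_sub, Pi.sub_apply, htB', htB']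
      rw [this]
      exact hU' u hu i g
    let es : f.range →+* B := (e.symm : f.range →ₐ[O] B).toRingHom
    have h4 : (lamI O f.range ^ n).map es = lamI O B ^ n := by
      rw [Ideal.map_pow, lamI, Ideal.map_map, lamI]
      congr 2
      ext a
      exact e.symm.commutes a
    have h5 := Ideal.mem_map_of_mem es h3
    rw [h4] at h5
    have h6 : es (e (tB (g * u) - tB g)) = tB (g * u) - tB g :=
      e.symm_apply_apply _
    rw [h6] at h5
    exact h5
  -- reduction
  have hres : ∀ g, resB (tB g) = D.tbar g := by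
    intro g
    obtain ⟨U₁, hU₁, hU₁'⟩ := hcontB 1
    obtain ⟨U₂, hU₂, hU₂'⟩ := hbar
    obtain ⟨ℓ, hℓ, hb, A, hA, φ, hφ, m, u, hu, rfl⟩ :=
      exists_frobenius_lev ((levS S).inf _ _ hU₁ hU₂) bad g
    have h3 := hU₁' u hu.1 (φ ^ m)
    rw [pow_one] at h3
    have h4 : resB (tB (φ ^ m * u) - tB (φ ^ m)) = 0 := by
      have h5 : lamI O B ≤ RingHom.ker resB := by
        rw [lamI, Ideal.map_le_iff_le_comap]
        intro a ha
        rw [Ideal.mem_comap, RingHom.mem_ker, res_comp]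
        have h6 : (RingHom.ker D.res).IsMaximal := RingHom.ker_isMaximal_of_surjective _ D.surj
        have h7 := IsLocalRing.eq_maximalIdeal h6
        rw [← h7, RingHom.mem_ker] at ha
        exact ha
      exact h5 h3
    rw [map_sub, sub_eq_zero] at h4
    rw [h4, hU₂' u hu.2, t_pow hps h2B (hdtB φ), t_pow D.ps D.h2k (D.dt φ), map_pw,
      hFrob ℓ hℓ hb A hA φ hφ, res_comp, hTres ℓ hℓ hb A hA φ hφ]
  refine ⟨⟨tB, resB, res_comp, loc, hps, hext fun i => ?_, hdtB, hres⟩, rfl, htB', hFrob, hcontB⟩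
  rw [htB', htc, map_zero]
  rfl

end Main

end Fermat.Agent.H25.TR
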