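import Mathlib

set_option autoImplicit false
set_option linter.unusedSectionVars false
set_option linter.style.haveILetI false

/-!
# Reduced finite algebras: comparing zero loci
-/

namespace Fermat.Agent.H25

/-- in a reduced artinian ring every element divides its square and conversely -/
theorem exists_mul_sq {L : Type*} [CommRing L] [IsArtinianRing L] [IsReduced L] (b : L) :
    ∃ y, b = b ^ 2 * y := by
  obtain ⟨n, hn⟩ := IsArtinian.monotone_stabilizes (R := L) (M := L)
    ⟨fun n => OrderDual.toDual (Ideal.span {b ^ n}), fun m n h => by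
      change Ideal.span {b ^ n} ≤ Ideal.span {b ^ m}
      rw [Ideal.span_singleton_le_span_singleton]
      exact pow_dvd_pow b h⟩
  have h1 : Ideal.span {b ^ n} = Ideal.span {b ^ (n + 1)} := hn (n + 1) (Nat.le_succ n)
  have h2 : b ^ n ∈ Ideal.span {b ^ (n + 1)} := h1 ▸ Ideal.mem_span_singleton_self _
  obtain ⟨y, hy⟩ := Ideal.mem_span_singleton.mp h2
  refine ⟨y, ?_⟩
  have h3 : (b * (1 - b * y)) ^ (n + 1) = 0 := by
    have h4 : b ^ n * (1 - b * y) = 0 := by
      have : b ^ n * (1 - b * y) = b ^ n - b ^ (n + 1) * y := by ring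
      rw [this, ← hy, sub_self]
    calc (b * (1 - b * y)) ^ (n + 1) = b * (1 - b * y) ^ n * (b ^ n * (1 - b * y)) := by
          rw [mul_pow]; ring
      _ = 0 := by rw [h4, mul_zero]
  have h5 := pow_eq_zero_iff (Nat.succ_ne_zero n) |>.mp h3
  linear_combination h5

variable {O T : Type*} [CommRing O] [IsDomain O] [CommRing T] [IsReduced T] [Algebra O T]
  [Module.Finite O T]

/-- (R1) if `b` vanishes at every characteristic zero point where `a` vanishes then a nonzero
multiple of `b` is divisible by `a`. -/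
theorem exists_smul_eq_mul (a b : T)
    (h : ∀ P : Ideal T, P.IsPrime → P.comap (algebraMap O T) = ⊥ → a ∈ P → b ∈ P) :
    ∃ c : O, c ≠ 0 ∧ ∃ u : T, c • b = u * a := by
  classical
  let S := Algebra.algebraMapSubmonoid T (nonZeroDivisors O)
  let L := Localization S
  let K := Localization (nonZeroDivisors O)
  haveI : IsArtinianRing K := inferInstanceAs (IsArtinianRing (FractionRing O))
  haveI : Module.Finite K L := Module.Finite.of_isLocalization O T (nonZeroDivisors O)
  haveI : IsArtinianRing L := IsArtinianRing.of_finite K L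
  haveI : IsReduced L := isReduced_localizationPreserves S L inferInstance
  have hrad : algebraMap T L b ∈ (Ideal.span {algebraMap T L a}).radical := by
    rw [Ideal.radical_eq_sInf, Ideal.mem_sInf]
    rintro P ⟨hPa, hP⟩
    have h1 := h (P.comap (algebraMap T L)) (Ideal.comap_isPrime _ _) (by
      rw [eq_bot_iff]
      intro c hc
      by_contra hc0
      have hc1 : c ≠ 0 := hc0
      have h2 : IsUnit (algebraMap T L (algebraMap O T c)) :=
        IsLocalization.map_units L (⟨algebraMap O T c, ⟨c, mem_nonZeroDivisors_of_ne_zero hc1, rfl⟩⟩ : S)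
      exact hP.ne_top (Ideal.eq_top_of_isUnit_mem _ hc h2))
      (hPa (Ideal.mem_span_singleton_self _))
    exact h1
  obtain ⟨n, hn⟩ := hrad
  obtain ⟨y, hy⟩ := exists_mul_sq (algebraMap T L b)
  have h2 : ∀ m : ℕ, algebraMap T L b ∈ Ideal.span {(algebraMap T L b) ^ (m + 1)} := by
    intro m
    induction m with
    | zero => rw [zero_add, pow_one]; exact Ideal.mem_span_singleton_self _
    | succ m ih =>
      obtain ⟨z, hz⟩ := Ideal.mem_span_singleton.mp ih
      refine Ideal.mem_span_singleton.mpr ⟨z * y, ?_⟩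
      calc algebraMap T L b = algebraMap T L b ^ 2 * y := hy
        _ = algebraMap T L b * algebraMap T L b * y := by ring
        _ = (algebraMap T L b ^ (m + 1) * z) * algebraMap T L b * y := by rw [← hz]
        _ = _ := by ring
  have h3 : algebraMap T L b ∈ Ideal.span {algebraMap T L a} := by
    have h4 : Ideal.span {(algebraMap T L b) ^ (n + 1)} ≤ Ideal.span {algebraMap T L a} := by
      rw [Ideal.span_le, Set.singleton_subset_iff, SetLike.mem_coe, pow_succ]
      exact Ideal.mul_mem_right _ _ hn
    exact h4 (h2 n)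
  obtain ⟨z, hz⟩ := Ideal.mem_span_singleton.mp h3
  obtain ⟨⟨u, s⟩, hus⟩ := IsLocalization.surj S z
  -- b * s = a * u in the localization
  have h4 : algebraMap T L (b * s) = algebraMap T L (a * u) := by
    rw [map_mul, map_mul, hz, mul_assoc, ← hus]
  obtain ⟨s', hs'⟩ := (IsLocalization.eq_iff_exists S L).mp h4
  obtain ⟨c, hc, hcs⟩ := s.2
  obtain ⟨c', hc', hcs'⟩ := s'.2
  refine ⟨c' * c, mul_ne_zero (nonZeroDivisors.ne_zero hc') (nonZeroDivisors.ne_zero hc),
    s' * u, ?_⟩
  rw [Algebra.smul_def, map_mul]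
  have e1 : algebraMap O T c = (s : T) := hcs
  have e2 : algebraMap O T c' = (s' : T) := hcs'
  rw [e1, e2]
  calc (s' : T) * s * b = s' * (b * s) := by ring
    _ = s' * (a * u) := hs'
    _ = _ := by ring

variable {M : Type*} [AddCommGroup M] [Module T M] [Module O M] [IsScalarTower O T M]

/-- (R2) kernels -/
theorem ker_le_of_points [Module.IsTorsionFree O M] (a b : T)
    (h : ∀ P : Ideal T, P.IsPrime → P.comap (algebraMap O T) = ⊥ → a ∈ P → b ∈ P) {m : M}
    (hm : a • m = 0) : b • m = 0 := by
  obtain ⟨c, hc, u, hu⟩ := exists_smul_eq_mul (O := O) a b h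
  have h1 : c • (b • m) = 0 := by
    rw [← smul_assoc, hu, mul_smul, hm, smul_zero]
  exact (smul_eq_zero.mp h1).resolve_left hc

/-- (R3) ranges -/
theorem smul_mem_of_points (a b : T)
    (h : ∀ P : Ideal T, P.IsPrime → P.comap (algebraMap O T) = ⊥ → a ∈ P → b ∈ P)
    (N : Submodule T M) (hN : ∀ (c : O) (m : M), c ≠ 0 → c • m ∈ N → m ∈ N)
    (ha : ∀ m : M, a • m ∈ N) (m : M) : b • m ∈ N := by
  obtain ⟨c, hc, u, hu⟩ := exists_smul_eq_mul (O := O) a b h
  refine hN c _ hc ?_
  rw [← smul_assoc, hu, mul_smul]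
  exact N.smul_mem _ (ha m)

end Fermat.Agent.H25
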