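import Mathlib

set_option autoImplicit false
set_option linter.style.haveILetI false
set_option linter.unusedSectionVars false

/-!
# Comparing diamond operators with the Galois action of inertia at Taylor-Wiles primes
-/

namespace Fermat.Agent.H25.TWM

open scoped TensorProduct

section Roots

variable {F : Type*} [Field F] [CharZero F]

/-- for a nontrivial `p`-power root of unity `ξ` and a primitive `p`-th root of unity `ζ`,
`ξ - 1` divides `ζ - 1` in every ring containing them. -/
theorem exists_mul_eq {p : ℕ} (hp : p.Prime) {ξ ζ : F} {N : ℕ} (hξ : ξ ^ p ^ N = 1) (hξ1 : ξ ≠ 1)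
    (hζ : ζ ^ p = 1) : ∃ c d : ℕ, (1 - ξ) * -((∑ i ∈ Finset.range c, ξ ^ i) *
      ∑ i ∈ Finset.range d, (ξ ^ c) ^ i) = ζ - 1 := by
  classical
  haveI : Fact p.Prime := ⟨hp⟩
  have hex : ∃ a, ξ ^ p ^ a = 1 := ⟨N, hξ⟩
  obtain ⟨a, ha, hmin⟩ : ∃ a, ξ ^ p ^ a = 1 ∧ ∀ b < a, ξ ^ p ^ b ≠ 1 :=
    ⟨Nat.find hex, Nat.find_spec hex, fun b hb => Nat.find_min hex hb⟩
  obtain ⟨a', rfl⟩ : ∃ a', a = a' + 1 := by
    rcases a with _ | a'
    · exact absurd (by simpa using ha) hξ1
    · exact ⟨a', rfl⟩
  set η := ξ ^ p ^ a' with hη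
  have hη1 : η ≠ 1 := hmin a' (Nat.lt_succ_self _)
  have hηp : η ^ p = 1 := by rw [hη, ← pow_mul, ← pow_succ]; exact ha
  have hprim : IsPrimitiveRoot η p := by
    rw [IsPrimitiveRoot.iff_orderOf]
    exact orderOf_eq_prime hηp hη1
  haveI : NeZero p := ⟨hp.ne_zero⟩
  obtain ⟨d, -, hd⟩ := hprim.eq_pow_of_pow_eq_one hζ
  refine ⟨p ^ a', d, ?_⟩
  rw [← hη, ← hd]
  have h1 := geom_sum_mul η d
  have h2 := geom_sum_mul ξ (p ^ a')
  rw [← hη] at h2
  rw [← h1, ← h2]
  ring

end Roots

section Main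

variable {O : Type*} [CommRing O] [IsDomain O] [IsLocalRing O]
  {Δ : Type*} [CommGroup Δ] [Finite Δ] {p : ℕ}

/-- augmentation -/
noncomputable def aug (O : Type*) [CommRing O] (Δ : Type*) [CommGroup Δ] :
    MonoidAlgebra O Δ →ₐ[O] O :=
  MonoidAlgebra.lift O O Δ 1

theorem aug_of (g : Δ) : aug O Δ (MonoidAlgebra.of O Δ g) = 1 := by
  simp [aug]

theorem sub_aug_mem (hp : p.Prime) (hΔ : IsPGroup p Δ) (hpO : (p : O) ∈ IsLocalRing.maximalIdeal O)
    {R : Type*} [CommRing R] [Algebra O R] [Algebra.IsIntegral O R]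
    (θ : MonoidAlgebra O Δ →ₐ[O] R) (P : Ideal R) [hP : P.IsMaximal] (y : MonoidAlgebra O Δ) :
    θ y - algebraMap O R (aug O Δ y) ∈ P := by
  have hcomap : P.comap (algebraMap O R) = IsLocalRing.maximalIdeal O := by
    haveI := Ideal.isMaximal_comap_of_isIntegral_of_isMaximal (R := O) P
    exact IsLocalRing.eq_maximalIdeal inferInstance
  have hpP : (p : R) ∈ P := by
    have : (p : O) ∈ P.comap (algebraMap O R) := by rw [hcomap]; exact hpO
    rw [Ideal.mem_comap, map_natCast] at this
    exact this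
  letI : Field (R ⧸ P) := Ideal.Quotient.field P
  haveI : Fact p.Prime := ⟨hp⟩
  haveI : CharP (R ⧸ P) p := by
    rw [CharP.charP_iff_prime_eq_zero hp]
    rw [← map_natCast (Ideal.Quotient.mk P)]
    exact Ideal.Quotient.eq_zero_iff_mem.mpr hpP
  induction y using MonoidAlgebra.induction_on with
  | of g =>
    rw [aug_of, map_one, ← Ideal.Quotient.eq_zero_iff_mem, map_sub, map_one, sub_eq_zero]
    obtain ⟨k, hk⟩ := hΔ g
    have h1 : (Ideal.Quotient.mk P (θ (MonoidAlgebra.of O Δ g))) ^ p ^ k = 1 := by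
      rw [← map_pow, ← map_pow, ← map_pow, hk, map_one, map_one, map_one]
    have h2 : (Ideal.Quotient.mk P (θ (MonoidAlgebra.of O Δ g)) - 1) ^ p ^ k = 0 := by
      rw [sub_pow_char_pow, h1, one_pow, sub_self]
    exact sub_eq_zero.mp (eq_zero_of_pow_eq_zero h2)
  | add x y hx hy =>
    have : θ (x + y) - algebraMap O R (aug O Δ (x + y)) =
      (θ x - algebraMap O R (aug O Δ x)) + (θ y - algebraMap O R (aug O Δ y)) := by
      rw [map_add, map_add, map_add]; ring
    rw [this]
    exact P.add_mem hx hy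
  | smul r x hx =>
    have : θ (r • x) - algebraMap O R (aug O Δ (r • x)) =
      algebraMap O R r * (θ x - algebraMap O R (aug O Δ x)) := by
      rw [map_smul, map_smul, Algebra.smul_def, smul_eq_mul, map_mul]; ring
    rw [this]
    exact P.mul_mem_left _ hx

instance : Algebra.IsIntegral O (MonoidAlgebra O Δ) := by
  classical
  haveI := Fintype.ofFinite Δ
  haveI : Module.Finite O (MonoidAlgebra O Δ) := inferInstance
  infer_instance

/-- An element of the group ring of a finite `p`-group is a unit if its augmentation is. -/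
theorem isUnit_of_aug (hp : p.Prime) (hΔ : IsPGroup p Δ)
    (hpO : (p : O) ∈ IsLocalRing.maximalIdeal O) {y : MonoidAlgebra O Δ}
    (hy : IsUnit (aug O Δ y)) : IsUnit y := by
  by_contra hn
  obtain ⟨P, hP, hyP⟩ := exists_max_ideal_of_mem_nonunits hn
  haveI := hP
  have h1 := sub_aug_mem hp hΔ hpO (AlgHom.id O (MonoidAlgebra O Δ)) P y
  rw [AlgHom.id_apply] at h1
  have h2 : algebraMap O (MonoidAlgebra O Δ) (aug O Δ y) ∈ P := by
    have := P.sub_mem hyP h1
    rwa [sub_sub_cancel] at this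
  exact hP.ne_top (Ideal.eq_top_of_isUnit_mem _ h2 (hy.map _))

variable {F : Type*} [Field F] [CharZero F] [IsAlgClosed F] [Algebra O F]

/-- Key lemma: if the image of `y` under a character has an integral inverse then `y` is a unit. -/
theorem isUnit_of_theta (hp : p.Prime) (hΔ : IsPGroup p Δ)
    (hpO : (p : O) ∈ IsLocalRing.maximalIdeal O) (θ : MonoidAlgebra O Δ →ₐ[O] F)
    {y : MonoidAlgebra O Δ} {w : F} (hw : IsIntegral O w) (hyw : θ y * w = 1) : IsUnit y := by
  by_contra hn
  have haug : aug O Δ y ∈ IsLocalRing.maximalIdeal O := by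
    by_contra h
    exact hn (isUnit_of_aug hp hΔ hpO (by simpa using h))
  let R := integralClosure O F
  have hθ : ∀ z, θ z ∈ R := fun z =>
    (Algebra.IsIntegral.isIntegral (R := O) z).map θ
  let θ' : MonoidAlgebra O Δ →ₐ[O] R := θ.codRestrict R hθ
  -- a maximal ideal of `R`
  haveI : Algebra.IsIntegral O R := inferInstance
  obtain ⟨n, hn'⟩ := Ideal.exists_maximal R
  haveI := hn'
  have h1 := sub_aug_mem hp hΔ hpO θ' n y
  have hcomap : n.comap (algebraMap O R) = IsLocalRing.maximalIdeal O := by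
    haveI := Ideal.isMaximal_comap_of_isIntegral_of_isMaximal (R := O) n
    exact IsLocalRing.eq_maximalIdeal inferInstance
  have h2 : algebraMap O R (aug O Δ y) ∈ n := by
    rw [← Ideal.mem_comap, hcomap]; exact haug
  have h3 : θ' y ∈ n := by
    have := n.add_mem h1 h2
    rwa [sub_add_cancel] at this
  have h4 : θ' y * (⟨w, hw⟩ : R) = 1 := Subtype.ext hyw
  apply hn'.ne_top
  rw [Ideal.eq_top_iff_one, ← h4]
  exact n.mul_mem_right _ h3

/-- A character of `Δ` with value a primitive `p`-th root of unity at `δ ≠ 1`. -/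
theorem exists_theta (hΔ : IsPGroup p Δ) {δ : Δ} (hδ : δ ≠ 1) :
    ∃ (θ : MonoidAlgebra O Δ →ₐ[O] F) (ζ : F), θ (MonoidAlgebra.of O Δ δ) = ζ ∧ ζ ≠ 1 ∧
      ζ ^ p = 1 := by
  classical
  have hex : ∃ a, δ ^ p ^ a = 1 := hΔ δ
  obtain ⟨a, ha, hmin⟩ : ∃ a, δ ^ p ^ a = 1 ∧ ∀ b < a, δ ^ p ^ b ≠ 1 :=
    ⟨Nat.find hex, Nat.find_spec hex, fun b hb => Nat.find_min hex hb⟩
  obtain ⟨a', rfl⟩ : ∃ a', a = a' + 1 := by
    rcases a with _ | a'
    · exact absurd (by simpa using ha) hδ
    · exact ⟨a', rfl⟩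
  haveI : NeZero ((Monoid.exponent Δ : ℕ) : F) :=
    ⟨Nat.cast_ne_zero.mpr (Monoid.exponent_ne_zero_of_finite)⟩
  haveI : HasEnoughRootsOfUnity F (Monoid.exponent Δ) := inferInstance
  obtain ⟨χ, hχ⟩ := CommGroup.exists_apply_ne_one_of_hasEnoughRootsOfUnity Δ F
    (hmin a' (Nat.lt_succ_self _))
  let ψ : Δ →* F := (Units.coeHom F).comp (χ ^ p ^ a')
  refine ⟨MonoidAlgebra.lift O F Δ ψ, ψ δ, by simp, ?_, ?_⟩
  · intro h
    apply hχ
    apply Units.ext
    rw [map_pow]
    exact h
  · change (((χ ^ p ^ a') δ : Fˣ) : F) ^ p = 1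
    rw [← Units.val_pow_eq_pow_val, MonoidHom.pow_apply, ← pow_mul, ← pow_succ, ← map_pow, ha,
      map_one, Units.val_one]

end Main

section Det

variable {F : Type*} [Field F] [CharZero F] [IsAlgClosed F] {O : Type*} [CommRing O] [Algebra O F]
  {V : Type*} [AddCommGroup V] [Module F V] [FiniteDimensional F V]

/-- `det (X - 1)` divides `(ζ - 1) ^ dim` if `∑ X ^ i = 0`. -/
theorem exists_integral_det {p : ℕ} (hp : p.Prime) {N : ℕ} (X : Module.End F V)
    (hX : ∑ i ∈ Finset.range (p ^ N), X ^ i = 0) {ζ : F} (hζ : ζ ^ p = 1) :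
    ∃ w : F, IsIntegral O w ∧ LinearMap.det (1 - X) * w = (ζ - 1) ^ Module.finrank F V := by
  classical
  -- each root of the characteristic polynomial
  have hroot : ∀ ξ ∈ X.charpoly.roots, ∃ w : F, IsIntegral O w ∧ (1 - ξ) * w = ζ - 1 := by
    intro ξ hξ
    have h1 : Module.End.HasEigenvalue X ξ := by
      rw [Module.End.hasEigenvalue_iff_isRoot_charpoly]
      exact Polynomial.isRoot_of_mem_roots hξ
    obtain ⟨v, hv⟩ := h1.exists_hasEigenvector
    have h2 : ∀ i : ℕ, (X ^ i) v = ξ ^ i • v := fun i => hv.pow_apply i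
    have h3 : (∑ i ∈ Finset.range (p ^ N), ξ ^ i) • v = 0 := by
      have := LinearMap.congr_fun hX v
      rw [LinearMap.sum_apply] at this
      rw [Finset.sum_smul, ← LinearMap.zero_apply (σ₁₂ := RingHom.id F) (M₂ := V) v, ← this]
      exact Finset.sum_congr rfl fun i _ => (h2 i).symm
    have h4 : ∑ i ∈ Finset.range (p ^ N), ξ ^ i = 0 := (smul_eq_zero.mp h3).resolve_right hv.2
    have h5 : ξ ^ p ^ N = 1 := by
      have := geom_sum_mul ξ (p ^ N)
      rw [h4, zero_mul] at this
      exact (sub_eq_zero.mp this.symm)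
    have h6 : ξ ≠ 1 := by
      rintro rfl
      simp only [one_pow, Finset.sum_const, Finset.card_range, nsmul_eq_mul, mul_one] at h4
      exact (Nat.cast_ne_zero.mpr (pow_ne_zero N hp.ne_zero)) h4
    obtain ⟨c, d, hcd⟩ := exists_mul_eq hp h5 h6 hζ
    refine ⟨_, ?_, hcd⟩
    have hξi : IsIntegral O ξ := by
      refine IsIntegral.of_pow (n := p ^ N) (Nat.pos_of_ne_zero (pow_ne_zero N hp.ne_zero)) ?_
      rw [h5]
      exact isIntegral_one
    refine IsIntegral.neg (IsIntegral.mul ?_ ?_)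
    · exact IsIntegral.sum _ fun i _ => hξi.pow i
    · exact IsIntegral.sum _ fun i _ => (hξi.pow c).pow i
  have hdet : LinearMap.det (1 - X) = (X.charpoly.roots.map fun ξ => 1 - ξ).prod := by
    have h1 : LinearMap.det (1 - X) = X.charpoly.eval 1 := by
      rw [LinearMap.eval_charpoly, map_one]
    rw [h1]
    have h2 := (IsAlgClosed.splits X.charpoly).eval_eq_prod_roots_of_monic
      (LinearMap.charpoly_monic X) 1
    exact h2
  have hcard : X.charpoly.roots.card = Module.finrank F V := by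
    rw [← LinearMap.charpoly_natDegree X]
    exact (IsAlgClosed.splits X.charpoly).natDegree_eq_card_roots.symm
  rw [hdet, ← hcard]
  clear hdet hcard
  revert hroot
  generalize X.charpoly.roots = s
  intro hroot
  induction s using Multiset.induction_on with
  | empty => exact ⟨1, isIntegral_one, by simp⟩
  | cons ξ s ih =>
    obtain ⟨w, hw, hw'⟩ := ih fun x hx => hroot x (Multiset.mem_cons_of_mem hx)
    obtain ⟨u, hu, hu'⟩ := hroot ξ (Multiset.mem_cons_self _ _)
    refine ⟨u * w, hu.mul hw, ?_⟩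
    rw [Multiset.map_cons, Multiset.prod_cons, Multiset.card_cons, pow_succ, ← hw', ← hu']
    ring

end Det

section ME

variable {O : Type*} [CommRing O] [IsDomain O] [IsLocalRing O]
  {Δ : Type*} [CommGroup Δ] [Finite Δ] {p : ℕ}
  {M : Type*} [AddCommGroup M] [Module (MonoidAlgebra O Δ) M]
  [Module.Free (MonoidAlgebra O Δ) M] [Module.Finite (MonoidAlgebra O Δ) M]

/-- **Diamond versus Galois** for one Taylor-Wiles prime. -/
theorem range_eq (hp : p.Prime) (hΔ : IsPGroup p Δ)
    (hpO : (p : O) ∈ IsLocalRing.maximalIdeal O) [CharZero O] (δ : Δ)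
    (x : Module.End (MonoidAlgebra O Δ) M) {N : ℕ} (hx : x ^ p ^ N = 1)
    (hrange : ∀ v : M, ∃ w : M, x v - v = (MonoidAlgebra.of O Δ δ - 1) • w)
    (hker : ∀ v : M, x v = v → MonoidAlgebra.of O Δ δ • v = v) :
    ∀ v : M, ∃ w : M, (MonoidAlgebra.of O Δ δ - 1) • v = x w - w := by
  classical
  rcases eq_or_ne δ 1 with rfl | hδ
  · intro v
    refine ⟨0, ?_⟩
    rw [map_one, sub_self, zero_smul, map_zero, sub_zero]
  let Λ := MonoidAlgebra O Δ
  haveI : Nontrivial Λ := inferInstance
  let d : Λ := MonoidAlgebra.of O Δ δ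
  let b := Module.Free.chooseBasis Λ M
  choose f hf using hrange
  let U : Module.End Λ M := b.constr Λ fun i => f (b i)
  have hU : x - 1 = (d - 1) • U := by
    refine b.ext fun i => ?_
    rw [LinearMap.sub_apply, Module.End.one_apply, LinearMap.smul_apply, Module.Basis.constr_basis]
    exact hf (b i)
  let F := AlgebraicClosure (FractionRing O)
  haveI : CharZero (FractionRing O) := inferInstance
  haveI : CharZero F := inferInstance
  obtain ⟨θ, ζ, hθ, hζ1, hζp⟩ := exists_theta (O := O) (F := F) hΔ hδ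
  letI : Algebra Λ F := θ.toRingHom.toAlgebra
  have hθalg : ∀ y : Λ, algebraMap Λ F y = θ y := fun y => rfl
  let V := F ⊗[Λ] M
  let X : Module.End F V := LinearMap.baseChange F x
  have hX : ∑ i ∈ Finset.range (p ^ N), X ^ i = 0 := by
    have h1 : (d - 1) • (∑ i ∈ Finset.range (p ^ N), x ^ i) = 0 := by
      ext v
      rw [LinearMap.smul_apply, LinearMap.zero_apply, sub_smul, one_smul, sub_eq_zero]
      apply hker
      have h2 : x * (∑ i ∈ Finset.range (p ^ N), x ^ i) = ∑ i ∈ Finset.range (p ^ N), x ^ i := by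
        have := mul_geom_sum x (p ^ N)
        rw [hx, sub_self, sub_mul, one_mul, sub_eq_zero] at this
        exact this
      exact LinearMap.congr_fun h2 v
    have h3 := congrArg (LinearMap.baseChange F) h1
    rw [LinearMap.baseChange_smul, LinearMap.baseChange_zero] at h3
    have h4 : LinearMap.baseChange F (∑ i ∈ Finset.range (p ^ N), x ^ i) =
        ∑ i ∈ Finset.range (p ^ N), X ^ i := by
      have : ∀ s : Finset ℕ, LinearMap.baseChange F (∑ i ∈ s, x ^ i) = ∑ i ∈ s, X ^ i := by
        intro s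
        induction s using Finset.induction_on with
        | empty => simp
        | insert a s ha ih =>
          rw [Finset.sum_insert ha, Finset.sum_insert ha, LinearMap.baseChange_add, ih,
            LinearMap.baseChange_pow]
      exact this _
    rw [h4] at h3
    have h5 : (ζ - 1) • (∑ i ∈ Finset.range (p ^ N), X ^ i) = 0 := by
      rw [← h3, ← hθ, ← map_one θ, ← map_sub, ← hθalg, algebraMap_smul]
    exact (smul_eq_zero.mp h5).resolve_left (sub_ne_zero.mpr hζ1)
  obtain ⟨w, hw, hdet⟩ := exists_integral_det (O := O) hp X hX hζp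
  have hrank : Module.finrank F V = Module.finrank Λ M := Module.finrank_baseChange
  -- determinant of `U`
  have hdetU : LinearMap.det (1 - X) = (1 - ζ) ^ Module.finrank F V * θ (LinearMap.det U) := by
    have h1 : (1 : Module.End F V) - X = LinearMap.baseChange F ((1 - d) • U) := by
      have : (1 : Module.End Λ M) - x = (1 - d) • U := by
        rw [← neg_sub x 1, hU, ← neg_smul, neg_sub]
      rw [← this, LinearMap.baseChange_sub, LinearMap.baseChange_one]
    rw [h1, LinearMap.det_baseChange, LinearMap.det_smul, hθalg, map_mul, map_pow, hrank, map_sub,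
      map_one, hθ]
  have hunit : IsUnit (LinearMap.det U) := by
    refine isUnit_of_theta hp hΔ hpO θ
      (w := (-1) ^ Module.finrank F V * w) (((isIntegral_one.neg).pow _).mul hw) ?_
    have hne : (ζ - 1) ^ Module.finrank F V ≠ 0 := pow_ne_zero _ (sub_ne_zero.mpr hζ1)
    rw [hdetU, ← neg_sub ζ 1, neg_pow, mul_assoc, mul_assoc] at hdet
    have h2 : (ζ - 1) ^ Module.finrank F V *
        (θ (LinearMap.det U) * ((-1) ^ Module.finrank F V * w)) =
        (ζ - 1) ^ Module.finrank F V := by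
      linear_combination hdet
    exact (mul_eq_left₀ hne).mp h2
  have hUsurj : Function.Surjective U := by
    have : IsUnit U := (LinearMap.isUnit_iff_isUnit_det U).mpr hunit
    exact ((Module.End.isUnit_iff U).mp this).2
  intro v
  obtain ⟨w, rfl⟩ := hUsurj v
  refine ⟨w, ?_⟩
  have := LinearMap.congr_fun hU w
  rw [LinearMap.sub_apply, Module.End.one_apply, LinearMap.smul_apply] at this
  exact this.symm

end ME

end Fermat.Agent.H25.TWM
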