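import Mathlib
import Fermat.Agent.H25.TWModule

set_option autoImplicit false
set_option linter.style.haveILetI false
set_option linter.unusedSectionVars false

/-!
# Freeness over the group ring through the Galois action
-/

namespace Fermat.Agent.H25.TWM

variable {O : Type*} [CommRing O] [IsDomain O] [IsLocalRing O]
  {Δ : Type*} [CommGroup Δ] [Finite Δ] {p : ℕ}
  {M : Type*} [AddCommGroup M] [Module O M]

/-- `M` with `Δ` acting through `x`. -/
def Tw (_x : Δ →* Module.End O M) : Type _ := M

section

variable (x : Δ →* Module.End O M)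

noncomputable instance : AddCommGroup (Tw x) := inferInstanceAs (AddCommGroup M)

noncomputable instance : Module O (Tw x) := inferInstanceAs (Module O M)

/-- The identity. -/
def toTw : M ≃ₗ[O] Tw x := LinearEquiv.refl O M

/-- The algebra map to the endomorphism ring. -/
noncomputable def liftEnd : MonoidAlgebra O Δ →ₐ[O] Module.End O M :=
  MonoidAlgebra.lift O (Module.End O M) Δ x

noncomputable instance : Module (MonoidAlgebra O Δ) (Tw x) :=
  Module.compHom M (liftEnd x).toRingHom

theorem tw_smul_def (y : MonoidAlgebra O Δ) (v : M) :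
    y • toTw x v = toTw x ((liftEnd x y : Module.End O M) v) :=
  rfl

instance : IsScalarTower O (MonoidAlgebra O Δ) (Tw x) where
  smul_assoc a y v := by
    obtain ⟨v, rfl⟩ := (toTw x).surjective v
    rw [tw_smul_def, tw_smul_def, map_smul]
    rfl

theorem of_smul (g : Δ) (v : M) :
    (MonoidAlgebra.of O Δ g) • toTw x v = toTw x ((x g : Module.End O M) v) := by
  rw [tw_smul_def, liftEnd]
  simp

theorem algebraMap_smul_tw (a : O) (v : M) :
    (algebraMap O (MonoidAlgebra O Δ) a) • toTw x v = toTw x (a • v) := by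
  rw [algebraMap_smul, map_smul]

end

/-- the augmentation ideal is in the Jacobson radical -/
theorem sub_one_mem_jacobson (hp : p.Prime) (hΔ : IsPGroup p Δ)
    (hpO : (p : O) ∈ IsLocalRing.maximalIdeal O) (g : Δ) :
    MonoidAlgebra.of O Δ g - 1 ∈ Ideal.jacobson (⊥ : Ideal (MonoidAlgebra O Δ)) := by
  rw [Ideal.jacobson, Ideal.mem_sInf]
  rintro P ⟨-, hP⟩
  haveI := hP
  have := sub_aug_mem hp hΔ hpO (AlgHom.id O (MonoidAlgebra O Δ)) P (MonoidAlgebra.of O Δ g)
  rwa [AlgHom.id_apply, aug_of, map_one] at this

variable [Module (MonoidAlgebra O Δ) M] [IsScalarTower O (MonoidAlgebra O Δ) M]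

/-- `(y - aug y) M ⊆ Jac M`, where the right-hand side is computed through `x`. -/
theorem sub_aug_smul_mem (hp : p.Prime) (hΔ : IsPGroup p Δ)
    (hpO : (p : O) ∈ IsLocalRing.maximalIdeal O) (x : Δ →* Module.End O M) (S : Set Δ)
    (hS : Subgroup.closure S = ⊤)
    (h : ∀ g ∈ S, ∀ v : M, ∃ w : M, MonoidAlgebra.of O Δ g • v - v = x g w - w)
    (y : MonoidAlgebra O Δ) (v : M) :
    toTw x (y • v - (aug O Δ y) • v) ∈
      ((Ideal.jacobson (⊥ : Ideal (MonoidAlgebra O Δ))) •
        (⊤ : Submodule (MonoidAlgebra O Δ) (Tw x))) := by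
  have hJ : ∀ (a : Δ), ∀ v : M, toTw x (MonoidAlgebra.of O Δ a • v - v : M) ∈
      ((Ideal.jacobson (⊥ : Ideal (MonoidAlgebra O Δ))) •
        (⊤ : Submodule (MonoidAlgebra O Δ) (Tw x))) := by
    intro a
    have ha : a ∈ Subgroup.closure S := by rw [hS]; trivial
    induction ha using Subgroup.closure_induction with
    | mem a ha =>
      intro v
      obtain ⟨w, hw⟩ := h a ha v
      rw [hw]
      have h1 : toTw x (x a w - w : M) = (MonoidAlgebra.of O Δ a - 1) • toTw x w := by
        rw [sub_smul, one_smul, of_smul, map_sub]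
      rw [h1]
      exact Submodule.smul_mem_smul (sub_one_mem_jacobson hp hΔ hpO a) trivial
    | one => intro v; rw [map_one, one_smul, sub_self, map_zero]; exact zero_mem _
    | mul a a' _ _ iha iha' =>
      intro v
      have : (MonoidAlgebra.of O Δ (a * a') • v - v : M) =
        (MonoidAlgebra.of O Δ a • (MonoidAlgebra.of O Δ a' • v) -
          MonoidAlgebra.of O Δ a' • v) + (MonoidAlgebra.of O Δ a' • v - v) := by
        rw [map_mul, mul_smul]; abel
      rw [this, map_add]
      exact add_mem (iha _) (iha' _)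
    | inv a _ iha =>
      intro v
      have : (MonoidAlgebra.of O Δ a⁻¹ • v - v : M) =
        -(MonoidAlgebra.of O Δ a • (MonoidAlgebra.of O Δ a⁻¹ • v) -
          MonoidAlgebra.of O Δ a⁻¹ • v) := by
        rw [← mul_smul, ← map_mul, mul_inv_cancel, map_one, one_smul]; abel
      rw [this, map_neg]
      exact neg_mem (iha _)
  induction y using MonoidAlgebra.induction_on with
  | of a => rw [aug_of, one_smul]; exact hJ a v
  | add y z hy hz =>
    have : ((y + z) • v - (aug O Δ (y + z)) • v : M) =
      (y • v - (aug O Δ y) • v) + (z • v - (aug O Δ z) • v) := by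
      rw [map_add, add_smul, add_smul]; abel
    rw [this, map_add]; exact add_mem hy hz
  | smul r y hy =>
    have : ((r • y) • v - (aug O Δ (r • y)) • v : M) = r • (y • v - (aug O Δ y) • v) := by
      rw [map_smul, smul_assoc, smul_eq_mul, mul_smul, smul_sub]
    rw [this, ← algebraMap_smul_tw]
    exact Submodule.smul_mem _ _ hy

/-- **Freeness through the Galois action.** If `M` is free over `O[Δ]` (diamonds) with basis `b`
and `x : Δ → End M` satisfies `(g - 1) M ⊆ (x g - 1) M` for `g` in a generating set then `M` is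
also free over `O[Δ]` through `x`, with the same basis. -/
theorem bijective_twisted [CharZero O] (hp : p.Prime) (hΔ : IsPGroup p Δ)
    (hpO : (p : O) ∈ IsLocalRing.maximalIdeal O) {ι : Type*} [Fintype ι]
    (b : Module.Basis ι (MonoidAlgebra O Δ) M) (x : Δ →* Module.End O M) (S : Set Δ)
    (hS : Subgroup.closure S = ⊤)
    (h : ∀ g ∈ S, ∀ v : M, ∃ w : M, MonoidAlgebra.of O Δ g • v - v = x g w - w) :
    Function.Bijective (fun c : ι → MonoidAlgebra O Δ => ∑ i, liftEnd x (c i) (b i)) := by
  classical
  -- O-linear version of the map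
  let g : (ι → MonoidAlgebra O Δ) →ₗ[O] M :=
    { toFun := fun c => ∑ i, liftEnd x (c i) (b i)
      map_add' := fun c c' => by
        simp only [Pi.add_apply, map_add, LinearMap.add_apply, Finset.sum_add_distrib]
      map_smul' := fun a c => by
        simp only [Pi.smul_apply, map_smul, LinearMap.smul_apply, Finset.smul_sum,
          RingHom.id_apply] }
  haveI hΛ : Module.Finite O (MonoidAlgebra O Δ) := inferInstance
  haveI hfin : Module.Finite (MonoidAlgebra O Δ) M := Module.Finite.of_basis b
  haveI hfinO : Module.Finite O M := Module.Finite.trans (MonoidAlgebra O Δ) M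
  haveI : Module.Finite O (Tw x) := Module.Finite.equiv (toTw x)
  haveI : Module.Finite (MonoidAlgebra O Δ) (Tw x) :=
    Module.Finite.of_restrictScalars_finite O (MonoidAlgebra O Δ) (Tw x)
  have htop : (⊤ : Submodule (MonoidAlgebra O Δ) (Tw x)) ≤
      Submodule.span (MonoidAlgebra O Δ) (Set.range fun i => toTw x (b i)) := by
    refine Submodule.le_of_le_smul_of_le_jacobson_bot
      (I := Ideal.jacobson (⊥ : Ideal (MonoidAlgebra O Δ))) Module.Finite.fg_top le_rfl ?_
    intro v _
    obtain ⟨v, rfl⟩ := (toTw x).surjective v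
    have h2 : v = (∑ i, aug O Δ (b.repr v i) • b i : M) +
        ∑ i, (b.repr v i • b i - aug O Δ (b.repr v i) • b i : M) := by
      rw [← Finset.sum_add_distrib]
      conv_lhs => rw [← b.sum_repr v]
      exact Finset.sum_congr rfl fun i _ => by abel
    rw [h2, map_add, map_sum, map_sum]
    refine Submodule.add_mem_sup ?_ ?_
    · refine sum_mem fun i _ => ?_
      rw [← algebraMap_smul_tw]
      exact Submodule.smul_mem _ _ (Submodule.subset_span ⟨i, rfl⟩)
    · exact sum_mem fun i _ => sub_aug_smul_mem hp hΔ hpO x S hS h _ _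
  have hsurj : Function.Surjective g := by
    intro v
    have hv : toTw x v ∈ Submodule.span (MonoidAlgebra O Δ) (Set.range fun i => toTw x (b i)) :=
      htop trivial
    obtain ⟨c, hc⟩ := (Submodule.mem_span_range_iff_exists_fun _).mp hv
    refine ⟨c, (toTw x).injective ?_⟩
    rw [← hc]
    change toTw x (∑ i, liftEnd x (c i) (b i)) = _
    rw [map_sum]
    rfl
  -- injectivity
  let e : M ≃ₗ[O] (ι → MonoidAlgebra O Δ) := (b.equivFun.restrictScalars O)
  have hinj : Function.Injective (e.toLinearMap ∘ₗ g) := by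
    haveI : Module.Finite O (ι → MonoidAlgebra O Δ) := inferInstance
    exact OrzechProperty.injective_of_surjective_endomorphism _ (e.surjective.comp hsurj)
  refine ⟨?_, hsurj⟩
  intro c c' hcc
  exact hinj (congrArg e hcc)

end Fermat.Agent.H25.TWM
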