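import Mathlib
import Fermat.Agent.H25.TWFree
import Fermat.Agent.H25.RedRing
import Fermat.Agent.H25.PowC
import Fermat.Agent.TAlg.Frame
import Fermat.Prelude.Thm_IsLocalRing_isAdicComplete_of_module_finite

set_option autoImplicit false
set_option linter.unusedSectionVars false
set_option linter.style.haveILetI false

/-!
# The rings `O⟦S₁..S_r⟧ → O[Δ]` and patching systems from Taylor-Wiles modules
-/

namespace Fermat.Agent.H25.TWM

open IsLocalRing

section GroupRing

variable {O : Type} [CommRing O] [IsDomain O] [IsLocalRing O]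
  {Δ : Type} [CommGroup Δ] [Finite Δ] {p : ℕ}

theorem isLocalRing_groupRing (hp : p.Prime) (hΔ : IsPGroup p Δ)
    (hpO : (p : O) ∈ maximalIdeal O) : IsLocalRing (MonoidAlgebra O Δ) := by
  haveI : Nontrivial (MonoidAlgebra O Δ) := inferInstance
  refine IsLocalRing.of_nonunits_add fun x y hx hy hxy => ?_
  have h1 : ∀ z : MonoidAlgebra O Δ, z ∈ nonunits _ → aug O Δ z ∈ maximalIdeal O := by
    intro z hz
    by_contra h
    exact hz (isUnit_of_aug hp hΔ hpO (by simpa using h))
  have h2 := Ideal.add_mem _ (h1 x hx) (h1 y hy)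
  rw [← map_add] at h2
  exact h2 (hxy.map (aug O Δ))

theorem mem_maximalIdeal_groupRing (hp : p.Prime) (hΔ : IsPGroup p Δ)
    (hpO : (p : O) ∈ maximalIdeal O) [IsLocalRing (MonoidAlgebra O Δ)] (z : MonoidAlgebra O Δ) :
    z ∈ maximalIdeal (MonoidAlgebra O Δ) ↔ aug O Δ z ∈ maximalIdeal O := by
  constructor
  · intro hz
    by_contra h
    exact hz (isUnit_of_aug hp hΔ hpO (by simpa using h))
  · intro h hz
    exact h (hz.map (aug O Δ))

theorem isLocalHom_groupRing :
    IsLocalHom (algebraMap O (MonoidAlgebra O Δ)) := by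
  refine ⟨fun a ha => ?_⟩
  have := ha.map (aug O Δ)
  rwa [AlgHom.commutes] at this

theorem isAdicComplete_groupRing [IsNoetherianRing O] [IsAdicComplete (maximalIdeal O) O]
    [IsLocalRing (MonoidAlgebra O Δ)] :
    IsAdicComplete (maximalIdeal (MonoidAlgebra O Δ)) (MonoidAlgebra O Δ) := by
  haveI := isLocalHom_groupRing (O := O) (Δ := Δ)
  exact IsLocalRing.isAdicComplete_of_module_finite (𝒪 := O)

variable [IsNoetherianRing O] [IsAdicComplete (maximalIdeal O) O]

theorem exists_thetaL (hp : p.Prime) (hΔ : IsPGroup p Δ) (hpO : (p : O) ∈ maximalIdeal O)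
    {r : ℕ} (δ : Fin r → Δ) (hδ : Subgroup.closure (Set.range δ) = ⊤) :
    ∃ θ : MvPowerSeries (Fin r) O →ₐ[O] MonoidAlgebra O Δ, Function.Surjective θ ∧
      ∀ i, θ (MvPowerSeries.X i) = MonoidAlgebra.of O Δ (δ i) - 1 := by
  haveI := isLocalRing_groupRing (Δ := Δ) hp hΔ hpO
  haveI := isAdicComplete_groupRing (O := O) (Δ := Δ)
  obtain ⟨θ, hθ⟩ := PS.exists_algHom (O := O) (maximalIdeal (MonoidAlgebra O Δ))
    (fun i : Fin r => MonoidAlgebra.of O Δ (δ i) - 1) (fun i => by
      rw [mem_maximalIdeal_groupRing hp hΔ hpO, map_sub, aug_of, map_one, sub_self]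
      exact zero_mem _)
  refine ⟨θ, ?_, hθ⟩
  have h1 : ∀ g : Δ, MonoidAlgebra.of O Δ g ∈ θ.range := by
    intro g
    have hg : g ∈ Subgroup.closure (Set.range δ) := by rw [hδ]; trivial
    have hsub : Subgroup.closure (Set.range δ) =
        (Subgroup.closure (Set.range δ)) := rfl
    rw [← Subgroup.mem_toSubmonoid, Subgroup.closure_toSubmonoid_of_finite] at hg
    induction hg using Submonoid.closure_induction with
    | mem g hg =>
      obtain ⟨i, rfl⟩ := hg
      refine ⟨MvPowerSeries.X i + 1, ?_⟩
      change θ (MvPowerSeries.X i + 1) = _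
      rw [map_add, hθ, map_one, sub_add_cancel]
    | one => rw [map_one]; exact one_mem _
    | mul g g' _ _ hg hg' => rw [map_mul]; exact mul_mem hg hg'
  intro y
  change y ∈ θ.range
  induction y using MonoidAlgebra.induction_on with
  | of a => exact h1 a
  | add y z hy hz => exact add_mem hy hz
  | smul r y hy => exact Subalgebra.smul_mem _ hy r

end GroupRing

section Norm

variable {O : Type} [CommRing O] {Δ : Type} [CommGroup Δ] [Finite Δ]

/-- the norm element of a cyclic subgroup -/
noncomputable def normEl (O : Type) [CommRing O] {Δ : Type} [CommGroup Δ] (δ : Δ) :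
    MonoidAlgebra O Δ :=
  ∑ i ∈ Finset.range (orderOf δ), MonoidAlgebra.of O Δ (δ ^ i)

theorem normEl_mul_sub_one (δ : Δ) : normEl O δ * (MonoidAlgebra.of O Δ δ - 1) = 0 := by
  rw [normEl]
  simp only [map_pow]
  rw [geom_sum_mul, ← map_pow, pow_orderOf_eq_one, map_one, sub_self]

/-- if the norm kills `y` then `y ∈ (δ - 1)`. -/
theorem mem_of_normEl_mul (δ : Δ) (y : MonoidAlgebra O Δ) (h : normEl O δ * y = 0) :
    y ∈ Ideal.span {MonoidAlgebra.of O Δ δ - 1} := by
  classical
  haveI := Fintype.ofFinite Δ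
  -- section of the quotient
  let H := Subgroup.zpowers δ
  let s : Δ → Δ := fun g => (QuotientGroup.mk (s := H) g).out
  have hs : ∀ g, ∃ n < orderOf δ, g = s g * δ ^ n := by
    intro g
    have h1 : (QuotientGroup.mk (s := H) (s g)) = QuotientGroup.mk g := Quotient.out_eq' _
    rw [QuotientGroup.eq] at h1
    obtain ⟨z, hz⟩ := Subgroup.mem_zpowers_iff.mp h1
    have hpos : 0 < orderOf δ := orderOf_pos δ
    refine ⟨(z % orderOf δ).toNat, ?_, ?_⟩
    · have := Int.emod_lt_of_pos z (Int.natCast_pos.mpr hpos)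
      have h0 := Int.emod_nonneg z (Int.natCast_ne_zero.mpr hpos.ne')
      omega
    · have h2 : δ ^ (z % orderOf δ).toNat = δ ^ z := by
        rw [← zpow_natCast, Int.toNat_of_nonneg (Int.emod_nonneg _ (by positivity)),
          zpow_mod_orderOf]
      rw [h2, hz, mul_inv_cancel_left]
  choose n hn hgn using hs
  have hdiv : ∀ m : ℕ, MonoidAlgebra.of O Δ (δ ^ m) - 1 ∈
      Ideal.span {MonoidAlgebra.of O Δ δ - 1} := by
    intro m
    rw [map_pow, ← geom_sum_mul]
    exact Ideal.mul_mem_left _ _ (Ideal.mem_span_singleton_self _)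
  -- y = ∑ y_g g
  have hy : y = ∑ g : Δ, MonoidAlgebra.single g (y.coeff g) := by
    conv_lhs => rw [← MonoidAlgebra.sum_coeff_single y]
    rw [Finsupp.sum_fintype]
    intro g; exact MonoidAlgebra.single_zero g
  -- modulo the ideal: y ≡ ∑ y_g (s g)
  have h1 : y - ∑ g : Δ, MonoidAlgebra.single (s g) (y.coeff g) ∈
      Ideal.span {MonoidAlgebra.of O Δ δ - 1} := by
    have e1 : y - ∑ g : Δ, MonoidAlgebra.single (s g) (y.coeff g) =
        ∑ g : Δ, MonoidAlgebra.single g (y.coeff g) -
          ∑ g : Δ, MonoidAlgebra.single (s g) (y.coeff g) := by rw [← hy]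
    rw [e1, ← Finset.sum_sub_distrib]
    refine Ideal.sum_mem _ fun g _ => ?_
    have : MonoidAlgebra.single g (y.coeff g) - MonoidAlgebra.single (s g) (y.coeff g) =
        MonoidAlgebra.single (s g) (y.coeff g) * (MonoidAlgebra.of O Δ (δ ^ n g) - 1) := by
      rw [mul_sub, mul_one, MonoidAlgebra.of_apply, MonoidAlgebra.single_mul_single, mul_one,
        ← hgn]
    rw [this]
    exact Ideal.mul_mem_left _ _ (hdiv _)
  -- the second sum vanishes
  have h2 : ∑ g : Δ, MonoidAlgebra.single (s g) (y.coeff g) = 0 := by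
    have hcoef : ∀ g : Δ, ∑ i ∈ Finset.range (orderOf δ), y.coeff ((δ ^ i)⁻¹ * g) = 0 := by
      intro g
      have h3 : (normEl O δ * y).coeff g = 0 := by rw [h]; rfl
      simp only [normEl, Finset.sum_mul, MonoidAlgebra.coeff_sum, Finsupp.finsetSum_apply] at h3
      rw [← h3]
      refine Finset.sum_congr rfl fun i _ => ?_
      rw [MonoidAlgebra.of_apply, MonoidAlgebra.coeff_single_mul_eq_mul_coeff ((δ ^ i)⁻¹ * g),
        one_mul]
      intro m' _
      exact eq_inv_mul_iff_mul_eq.symm
    refine MonoidAlgebra.coeff_injective (Finsupp.ext fun g => ?_)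
    simp only [MonoidAlgebra.coeff_sum, Finsupp.finsetSum_apply, MonoidAlgebra.coeff_single,
      Finsupp.single_apply, MonoidAlgebra.coeff_zero, Finsupp.coe_zero, Pi.zero_apply]
    rw [← Finset.sum_filter]
    by_cases hg : s g = g
    · -- the set is the coset of g
      have h7 := hcoef g
      have h8 : (Finset.univ.filter fun g' => s g' = g) =
          (Finset.range (orderOf δ)).image (fun i => (δ ^ i)⁻¹ * g) := by
        ext g'
        simp only [Finset.mem_filter, Finset.mem_univ, true_and, Finset.mem_image,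
          Finset.mem_range]
        constructor
        · intro h9
          -- g' = g δ^n
          have h10 := hgn g'
          rw [h9] at h10
          have hpos : 0 < orderOf δ := orderOf_pos δ
          refine ⟨(orderOf δ - n g') % orderOf δ, Nat.mod_lt _ hpos, ?_⟩
          have h11 : (δ ^ (orderOf δ - n g'))⁻¹ = δ ^ n g' := by
            rw [inv_eq_iff_mul_eq_one, ← pow_add, Nat.sub_add_cancel (hn g').le,
              pow_orderOf_eq_one]
          rw [pow_mod_orderOf, h11, mul_comm]
          exact h10.symm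
        · rintro ⟨i, -, rfl⟩
          have h9 : (QuotientGroup.mk (s := H) ((δ ^ i)⁻¹ * g)) = QuotientGroup.mk g := by
            rw [QuotientGroup.eq]
            refine Subgroup.mem_zpowers_iff.mpr ⟨i, ?_⟩
            rw [zpow_natCast, _root_.mul_inv_rev, inv_inv, mul_comm g⁻¹, inv_mul_cancel_right]
          change (QuotientGroup.mk (s := H) ((δ ^ i)⁻¹ * g)).out = g
          rw [h9]
          exact hg
      rw [h8, Finset.sum_image]
      · exact h7
      · intro i hi j hj hij
        have h9 : δ ^ i = δ ^ j := by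
          have := mul_right_cancel hij
          exact inv_injective this
        exact pow_injOn_Iio_orderOf (by simpa using hi) (by simpa using hj) h9
    · refine Finset.sum_eq_zero fun g' hg' => ?_
      exfalso
      rw [Finset.mem_filter] at hg'
      apply hg
      rw [← hg'.2]
      change (QuotientGroup.mk (s := H) (s g')).out = s g'
      have : (QuotientGroup.mk (s := H) (s g')) = QuotientGroup.mk g' := Quotient.out_eq' _
      rw [this]
  rw [h2, sub_zero] at h1
  exact h1

end Norm

end Fermat.Agent.H25.TWM
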