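import Mathlib
import Fermat.Agent.H25.TWSys

set_option autoImplicit false
set_option linter.unusedSectionVars false
set_option linter.style.haveILetI false

/-!
# Taylor-Wiles modules are free over `O⟦S⟧ / J` through the Galois action
-/

namespace Fermat.Agent.H25.TWM

open IsLocalRing

section Aux

variable {O : Type} [CommRing O] [IsDomain O] {Δ : Type} [CommGroup Δ] [Finite Δ]
  {M : Type} [AddCommGroup M] [Module O M] [Module (MonoidAlgebra O Δ) M]
  [IsScalarTower O (MonoidAlgebra O Δ) M] {d : ℕ}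
  (b : Module.Basis (Fin d) (MonoidAlgebra O Δ) M)

include b in
theorem torsionFree_of_basis : Module.IsTorsionFree O M := by
  haveI : Module.IsTorsionFree O (Fin d → MonoidAlgebra O Δ) := inferInstance
  let e : M ≃ₗ[O] (Fin d → MonoidAlgebra O Δ) := (b.equivFun.restrictScalars O)
  exact Function.Injective.moduleIsTorsionFree e e.injective (fun c x => by rw [map_smul])

include b in
theorem range_iff_norm (δ : Δ) (v : M) :
    (∃ w : M, v = (MonoidAlgebra.of O Δ δ - 1) • w) ↔ normEl O δ • v = 0 := by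
  constructor
  · rintro ⟨w, rfl⟩
    rw [← mul_smul, normEl_mul_sub_one, zero_smul]
  · intro h
    have h1 : ∀ i, b.repr v i ∈ Ideal.span {MonoidAlgebra.of O Δ δ - 1} := by
      intro i
      apply mem_of_normEl_mul
      have := congrArg (fun v => b.repr v i) h
      simpa using this
    choose w hw using fun i => Ideal.mem_span_singleton'.mp (h1 i)
    refine ⟨∑ i, w i • b i, ?_⟩
    conv_lhs => rw [← b.sum_repr v]
    rw [Finset.smul_sum]
    refine Finset.sum_congr rfl fun i _ => ?_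
    rw [← hw i, mul_comm, mul_smul]

end Aux

section Main

variable {O : Type} [CommRing O] [IsDomain O] [IsLocalRing O] [CharZero O]
  {Δ : Type} [CommGroup Δ] [Finite Δ] {p : ℕ}
  {T : Type} [CommRing T] [IsReduced T] [Algebra O T] [Module.Finite O T]
  {M : Type} [AddCommGroup M] [Module O M] [Module (MonoidAlgebra O Δ) M]
  [IsScalarTower O (MonoidAlgebra O Δ) M] [Module T M] [IsScalarTower O T M] {d : ℕ}

/-- multiplication as a monoid hom to endomorphisms -/
noncomputable def xEnd (O M : Type) [CommRing O] [AddCommGroup M] [Module O M] {T : Type}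
    [CommRing T] [Algebra O T] [Module T M] [IsScalarTower O T M] {Δ : Type} [CommGroup Δ]
    (x : Δ →* T) : Δ →* Module.End O M :=
  ((Algebra.lsmul O O M).toMonoidHom.comp x : Δ →* Module.End O M)

theorem xEnd_apply (x : Δ →* T) (g : Δ) (v : M) : xEnd O M x g v = x g • v := rfl

/-- **Comparison of ranges**. -/
theorem range_iff (hp : p.Prime) (hΔ : IsPGroup p Δ) (hpO : (p : O) ∈ maximalIdeal O)
    (b : Module.Basis (Fin d) (MonoidAlgebra O Δ) M) (dia : MonoidAlgebra O Δ →ₐ[O] T)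
    (hdia : ∀ (y : MonoidAlgebra O Δ) (m : M), y • m = dia y • m) (x : Δ →* T) (δ : Δ)
    (hpts : ∀ P : Ideal T, P.IsPrime → P.comap (algebraMap O T) = ⊥ →
      (x δ - 1 ∈ P ↔ dia (MonoidAlgebra.of O Δ δ) - 1 ∈ P)) (v : M) :
    (∃ w : M, v = (MonoidAlgebra.of O Δ δ - 1) • w) ↔ ∃ w : M, v = x δ • w - w := by
  classical
  haveI := torsionFree_of_basis b
  haveI : Module.Finite (MonoidAlgebra O Δ) M := Module.Finite.of_basis b
  haveI : Module.Free (MonoidAlgebra O Δ) M := Module.Free.of_basis b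
  -- first inclusion
  have h1 : ∀ m : M, ∃ w : M, x δ • m - m = (MonoidAlgebra.of O Δ δ - 1) • w := by
    intro m
    let N : Submodule T M := LinearMap.ker (LinearMap.lsmul T M (dia (normEl O δ)))
    have hN : ∀ m : M, m ∈ N ↔ normEl O δ • m = 0 := by
      intro m
      rw [LinearMap.mem_ker, LinearMap.lsmul_apply, hdia]
    have key := smul_mem_of_points (O := O) (dia (MonoidAlgebra.of O Δ δ) - 1) (x δ - 1)
      (fun P hP hPO h => (hpts P hP hPO).mpr h) N (fun c m hc hcm => ?_) (fun m => ?_) m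
    · rw [hN, ← range_iff_norm b] at key
      obtain ⟨w, hw⟩ := key
      refine ⟨w, ?_⟩
      rw [← hw, sub_smul, one_smul]
    · rw [hN] at hcm ⊢
      rw [smul_comm] at hcm
      exact (smul_eq_zero.mp hcm).resolve_left hc
    · rw [hN, ← range_iff_norm b]
      refine ⟨m, ?_⟩
      rw [hdia, map_sub, map_one]
  -- the endomorphism
  let X : Module.End (MonoidAlgebra O Δ) M :=
    { toFun := fun m => x δ • m
      map_add' := fun a b => smul_add _ _ _
      map_smul' := fun y m => by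
        rw [hdia, hdia, RingHom.id_apply, smul_comm] }
  obtain ⟨N, hN⟩ : ∃ N, δ ^ p ^ N = 1 := hΔ δ
  have hX : X ^ p ^ N = 1 := by
    have h2 : ∀ (j : ℕ) (m : M), (X ^ j) m = (x δ) ^ j • m := by
      intro j
      induction j with
      | zero => intro m; simp
      | succ j ih =>
        intro m
        rw [pow_succ, Module.End.mul_apply, ih, pow_succ, mul_smul]
        rfl
    ext m
    rw [h2, ← map_pow, hN, map_one, one_smul, Module.End.one_apply]
  have h3 := range_eq hp hΔ hpO δ X hX (fun v => h1 v) (fun v hv => by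
    have h4 : (x δ - 1) • v = 0 := by
      rw [sub_smul, one_smul, sub_eq_zero]
      exact hv
    have h5 := ker_le_of_points (O := O) (x δ - 1) (dia (MonoidAlgebra.of O Δ δ) - 1)
      (fun P hP hPO h => (hpts P hP hPO).mp h) h4
    rw [sub_smul, one_smul, sub_eq_zero, ← hdia] at h5
    exact h5)
  constructor
  · rintro ⟨w, rfl⟩
    obtain ⟨w', hw'⟩ := h3 w
    exact ⟨w', hw'⟩
  · rintro ⟨w, rfl⟩
    exact h1 w

/-- **Freeness through the Galois action.** -/
theorem bijective_of_points (hp : p.Prime) (hΔ : IsPGroup p Δ) (hpO : (p : O) ∈ maximalIdeal O)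
    (b : Module.Basis (Fin d) (MonoidAlgebra O Δ) M) (dia : MonoidAlgebra O Δ →ₐ[O] T)
    (hdia : ∀ (y : MonoidAlgebra O Δ) (m : M), y • m = dia y • m) (x : Δ →* T) {r : ℕ}
    (δ : Fin r → Δ) (hδ : Subgroup.closure (Set.range δ) = ⊤)
    (hpts : ∀ P : Ideal T, P.IsPrime → P.comap (algebraMap O T) = ⊥ → ∀ i,
      (x (δ i) - 1 ∈ P ↔ dia (MonoidAlgebra.of O Δ (δ i)) - 1 ∈ P)) :
    Function.Bijective (fun c : Fin d → MonoidAlgebra O Δ =>
      ∑ i, (MonoidAlgebra.lift O T Δ x (c i)) • (b i)) := by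
  have h := bijective_twisted hp hΔ hpO b (xEnd O M x) (Set.range δ) hδ (by
    rintro _ ⟨i, rfl⟩ v
    obtain ⟨w, hw⟩ := (range_iff hp hΔ hpO b dia hdia x (δ i)
      (fun P hP hPO => hpts P hP hPO i) ((MonoidAlgebra.of O Δ (δ i) - 1) • v)).mp ⟨v, rfl⟩
    refine ⟨w, ?_⟩
    rw [xEnd_apply, ← hw, sub_smul, one_smul])
  have h2 : ∀ (y : MonoidAlgebra O Δ) (v : M), liftEnd (xEnd O M x) y v =
      (MonoidAlgebra.lift O T Δ x y) • v := by
    intro y v
    induction y using MonoidAlgebra.induction_on with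
    | of a =>
      rw [liftEnd, MonoidAlgebra.lift_of, MonoidAlgebra.lift_of, xEnd_apply]
    | add y z hy hz => rw [map_add, map_add, LinearMap.add_apply, hy, hz, add_smul]
    | smul r y hy => rw [map_smul, map_smul, LinearMap.smul_apply, hy, smul_assoc]
  simp only [h2] at h
  exact h

variable [IsNoetherianRing O] [IsAdicComplete (maximalIdeal O) O]

/-- **The Taylor-Wiles module is free over `O⟦S⟧ / J`.** -/
theorem exists_equiv (hp : p.Prime) (hΔ : IsPGroup p Δ) (hpO : (p : O) ∈ maximalIdeal O)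
    (b : Module.Basis (Fin d) (MonoidAlgebra O Δ) M) (dia : MonoidAlgebra O Δ →ₐ[O] T)
    (hdia : ∀ (y : MonoidAlgebra O Δ) (m : M), y • m = dia y • m) (x : Δ →* T) {r : ℕ}
    (δ : Fin r → Δ) (hδ : Subgroup.closure (Set.range δ) = ⊤)
    (hpts : ∀ P : Ideal T, P.IsPrime → P.comap (algebraMap O T) = ⊥ → ∀ i,
      (x (δ i) - 1 ∈ P ↔ dia (MonoidAlgebra.of O Δ (δ i)) - 1 ∈ P))
    (J : Ideal T) [IsHausdorff J T] (hxJ : ∀ i, x (δ i) - 1 ∈ J)
    (θL : MvPowerSeries (Fin r) O →ₐ[O] MonoidAlgebra O Δ) (hθL : Function.Surjective θL)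
    (hθLX : ∀ i, θL (MvPowerSeries.X i) = MonoidAlgebra.of O Δ (δ i) - 1)
    (θ : MvPowerSeries (Fin r) O →ₐ[O] T)
    (hθX : ∀ i, θ (MvPowerSeries.X i) = x (δ i) - 1) :
    ∃ e : M ≃+ (Fin d → MvPowerSeries (Fin r) O ⧸ RingHom.ker θL),
      ∀ (s : MvPowerSeries (Fin r) O) (m : M), e (θ s • m) = s • e m := by
  have hcomp : (MonoidAlgebra.lift O T Δ x).comp θL = θ := by
    refine PS.algHom_ext J (fun i => ?_) (fun i => ?_)
    · rw [AlgHom.comp_apply, hθLX, map_sub, map_one, MonoidAlgebra.lift_of]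
      exact hxJ i
    · rw [AlgHom.comp_apply, hθLX, map_sub, map_one, MonoidAlgebra.lift_of, hθX]
  have hbij := bijective_of_points hp hΔ hpO b dia hdia x δ hδ hpts
  let f : (Fin d → MonoidAlgebra O Δ) →+ M :=
    { toFun := fun c => ∑ i, (MonoidAlgebra.lift O T Δ x (c i)) • (b i)
      map_zero' := by simp
      map_add' := fun c c' => by
        simp only [Pi.add_apply, map_add, add_smul, Finset.sum_add_distrib] }
  let e₁ : (Fin d → MonoidAlgebra O Δ) ≃+ M := AddEquiv.ofBijective f hbij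
  let e₂ : (MvPowerSeries (Fin r) O ⧸ RingHom.ker θL) ≃+* MonoidAlgebra O Δ :=
    (Ideal.quotientKerAlgEquivOfSurjective hθL).toRingEquiv
  have he₂ : ∀ (s : MvPowerSeries (Fin r) O) (y : MvPowerSeries (Fin r) O ⧸ RingHom.ker θL),
      e₂ (s • y) = θL s * e₂ y := by
    intro s y
    have : s • y = Ideal.Quotient.mk _ s * y := by
      rw [Algebra.smul_def]; rfl
    rw [this, map_mul]
    rfl
  let e₃ : (Fin d → MvPowerSeries (Fin r) O ⧸ RingHom.ker θL) ≃+ (Fin d → MonoidAlgebra O Δ) :=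
    AddEquiv.piCongrRight fun _ => e₂.toAddEquiv
  obtain ⟨e₄, he₄⟩ : ∃ e₄ : (Fin d → MvPowerSeries (Fin r) O ⧸ RingHom.ker θL) ≃+ M,
      ∀ y, e₄ y = ∑ i, (MonoidAlgebra.lift O T Δ x (e₂ (y i))) • (b i) :=
    ⟨e₃.trans e₁, fun y => rfl⟩
  refine ⟨e₄.symm, fun s m => ?_⟩
  rw [AddEquiv.symm_apply_eq]
  obtain ⟨y, rfl⟩ := e₄.surjective m
  rw [AddEquiv.symm_apply_apply, he₄, he₄, Finset.smul_sum]
  refine Finset.sum_congr rfl fun i _ => ?_
  rw [Pi.smul_apply, he₂, map_mul, mul_smul]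
  have h9 : MonoidAlgebra.lift O T Δ x (θL s) = θ s := by
    rw [← hcomp, AlgHom.comp_apply]
  rw [h9]

end Main

end Fermat.Agent.H25.TWM
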