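import Mathlib
import Fermat.Agent.H25.TWSys2

set_option autoImplicit false
set_option linter.unusedSectionVars false
set_option linter.style.haveILetI false

/-!
# The groups `Δ = ∏ ℤ/p^{e_i}` and smallness of the ideals `J`
-/

namespace Fermat.Agent.H25.TWM

open IsLocalRing

/-- `∏ ℤ/p^{e_i}`, multiplicatively. -/
abbrev Dl (p : ℕ) {r : ℕ} (e : Fin r → ℕ) : Type :=
  ∀ i : Fin r, Multiplicative (ZMod (p ^ e i))

section Dl

variable {p : ℕ} {r : ℕ} {e : Fin r → ℕ}

/-- the generators -/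
def dl (p : ℕ) {r : ℕ} (e : Fin r → ℕ) (i : Fin r) : Dl p e :=
  Pi.mulSingle i (Multiplicative.ofAdd (1 : ZMod (p ^ e i)))

instance [Fact p.Prime] : Finite (Dl p e) := by
  haveI : ∀ i, NeZero (p ^ e i) := fun i => ⟨pow_ne_zero _ (Fact.out : p.Prime).ne_zero⟩
  infer_instance

theorem isPGroup_Dl [Fact p.Prime] : IsPGroup p (Dl p e) := by
  intro g
  refine ⟨∑ i, e i, funext fun i => ?_⟩
  rw [Pi.pow_apply, Pi.one_apply]
  have h1 : (g i) ^ p ^ e i = 1 := by
    have : Multiplicative.toAdd ((g i) ^ p ^ e i) = 0 := by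
      rw [toAdd_pow, nsmul_eq_mul, ZMod.natCast_self, zero_mul]
    exact this
  have h2 : e i ≤ ∑ i, e i := Finset.single_le_sum (fun _ _ => Nat.zero_le _) (Finset.mem_univ i)
  obtain ⟨c, hc⟩ := Nat.exists_eq_add_of_le h2
  rw [hc, pow_add, pow_mul, h1, one_pow]

theorem dl_pow (i : Fin r) : dl p e i ^ p ^ e i = 1 := by
  rw [dl, ← Pi.mulSingle_pow]
  have : (Multiplicative.ofAdd (1 : ZMod (p ^ e i))) ^ p ^ e i = 1 := by
    have : Multiplicative.toAdd ((Multiplicative.ofAdd (1 : ZMod (p ^ e i))) ^ p ^ e i) = 0 := by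
      rw [toAdd_pow, nsmul_eq_mul, ZMod.natCast_self, zero_mul]
    exact this
  rw [this, Pi.mulSingle_one]

theorem closure_dl [Fact p.Prime] : Subgroup.closure (Set.range (dl p e)) = ⊤ := by
  rw [eq_top_iff]
  intro g _
  rw [← Finset.univ_prod_mulSingle g]
  refine Subgroup.prod_mem _ fun i _ => ?_
  haveI : NeZero (p ^ e i) := ⟨pow_ne_zero _ (Fact.out : p.Prime).ne_zero⟩
  have h1 : Pi.mulSingle i (g i) = dl p e i ^ (Multiplicative.toAdd (g i)).val := by
    rw [dl, ← Pi.mulSingle_pow]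
    congr 1
    have : Multiplicative.toAdd (g i) = Multiplicative.toAdd
        ((Multiplicative.ofAdd (1 : ZMod (p ^ e i))) ^ (Multiplicative.toAdd (g i)).val) := by
      rw [toAdd_pow, toAdd_ofAdd, nsmul_eq_mul, mul_one, ZMod.natCast_val, ZMod.cast_id]
    exact this
  rw [h1]
  exact Subgroup.pow_mem _ (Subgroup.subset_closure (Set.mem_range_self i)) _

variable {B : Type*} [CommMonoid B]

theorem pow_val_add {n : ℕ} [NeZero n] {y : B} (hy : y ^ n = 1) (a b : ZMod n) :
    y ^ (a + b).val = y ^ a.val * y ^ b.val := by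
  rw [ZMod.val_add, ← pow_add]
  conv_rhs => rw [← Nat.mod_add_div (a.val + b.val) n]
  rw [pow_add y ((a.val + b.val) % n), pow_mul, hy, one_pow, mul_one]

/-- the universal property of `Dl` -/
def dlLift [Fact p.Prime] (y : Fin r → B) (hy : ∀ i, y i ^ p ^ e i = 1) : Dl p e →* B where
  toFun g := ∏ i, y i ^ (Multiplicative.toAdd (g i)).val
  map_one' := by
    refine Finset.prod_eq_one fun i _ => ?_
    rw [Pi.one_apply, toAdd_one, ZMod.val_zero, pow_zero]
  map_mul' g h := by
    rw [← Finset.prod_mul_distrib]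
    refine Finset.prod_congr rfl fun i _ => ?_
    haveI : NeZero (p ^ e i) := ⟨pow_ne_zero _ (Fact.out : p.Prime).ne_zero⟩
    rw [Pi.mul_apply, toAdd_mul, pow_val_add (hy i)]

theorem dlLift_dl [Fact p.Prime] (y : Fin r → B) (hy : ∀ i, y i ^ p ^ e i = 1) (i : Fin r) :
    dlLift y hy (dl p e i) = y i := by
  haveI : ∀ i, NeZero (p ^ e i) := fun i => ⟨pow_ne_zero _ (Fact.out : p.Prime).ne_zero⟩
  change ∏ j, y j ^ (Multiplicative.toAdd (dl p e i j)).val = y i
  rw [Finset.prod_eq_single i]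
  · rw [dl, Pi.mulSingle_eq_same, toAdd_ofAdd]
    rcases Nat.eq_zero_or_pos (e i) with h0 | h0
    · have h1 := hy i
      rw [h0, pow_zero, pow_one] at h1
      rw [h1, one_pow]
    · haveI : Fact (1 < p ^ e i) := ⟨Nat.one_lt_pow h0.ne' (Fact.out : p.Prime).one_lt⟩
      rw [ZMod.val_one, pow_one]
  · intro j _ hj
    rw [dl, Pi.mulSingle_eq_of_ne hj, toAdd_one, ZMod.val_zero, pow_zero]
  · intro h
    exact absurd (Finset.mem_univ i) h

end Dl

section Small

variable {O : Type} [CommRing O] [IsLocalRing O] {p : ℕ} [Fact p.Prime] {r : ℕ} {e : Fin r → ℕ}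

theorem pow_prime_mem {B : Type*} [CommRing B] {J : Ideal B} (hp : (p : B) ∈ J) {k : ℕ}
    (hk : 1 ≤ k) {x : B} (h : x - 1 ∈ J ^ k) : x ^ p - 1 ∈ J ^ (k + 1) := by
  have h1 : x ^ p - 1 = (∑ i ∈ Finset.range p, x ^ i) * (x - 1) := (geom_sum_mul x p).symm
  have hx : x - 1 ∈ J := by
    have := Ideal.pow_le_pow_right hk h
    rwa [pow_one] at this
  have h2 : (∑ i ∈ Finset.range p, x ^ i) ∈ J := by
    rw [← Ideal.Quotient.eq_zero_iff_mem, map_sum]
    have h3 : Ideal.Quotient.mk J x = 1 := by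
      rw [← map_one (Ideal.Quotient.mk J), Ideal.Quotient.eq]
      exact hx
    simp only [map_pow, h3, one_pow, Finset.sum_const, Finset.card_range, nsmul_eq_mul, mul_one]
    rw [← map_natCast (Ideal.Quotient.mk J), Ideal.Quotient.eq_zero_iff_mem]
    exact hp
  rw [h1, pow_succ']
  exact Ideal.mul_mem_mul h2 h

theorem pow_prime_pow_mem {B : Type*} [CommRing B] {J : Ideal B} (hp : (p : B) ∈ J) {x : B}
    (h : x - 1 ∈ J) (k : ℕ) : x ^ p ^ k - 1 ∈ J ^ (k + 1) := by
  induction k with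
  | zero => simpa using h
  | succ k ih =>
    rw [pow_succ p k, pow_mul]
    exact pow_prime_mem hp (by omega) ih

/-- **smallness** -/
theorem ker_le_pow (hpO : (p : O) ∈ maximalIdeal O) (k : ℕ) (he : ∀ i, k ≤ e i)
    (θL : MvPowerSeries (Fin r) O →ₐ[O] MonoidAlgebra O (Dl p e))
    (hθLX : ∀ i, θL (MvPowerSeries.X i) = MonoidAlgebra.of O (Dl p e) (dl p e i) - 1) :
    RingHom.ker θL ≤ maximalIdeal (MvPowerSeries (Fin r) O) ^ k := by
  set S := MvPowerSeries (Fin r) O
  set m := maximalIdeal S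
  let Q := S ⧸ m ^ k
  have hpS : (p : S) ∈ m := by
    rw [PS.mem_maximalIdeal_iff, map_natCast]
    exact hpO
  let y : Fin r → Q := fun i => Ideal.Quotient.mk (m ^ k) (1 + MvPowerSeries.X i)
  have hy : ∀ i, y i ^ p ^ e i = 1 := by
    intro i
    have h1 : (1 + MvPowerSeries.X i : S) ^ p ^ k - 1 ∈ m ^ k := by
      refine Ideal.pow_le_pow_right (Nat.le_succ k) (pow_prime_pow_mem hpS ?_ k)
      rw [add_sub_cancel_left]
      exact PS.X_mem i
    have h2 : y i ^ p ^ k = 1 := by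
      rw [← map_pow, ← map_one (Ideal.Quotient.mk (m ^ k)), Ideal.Quotient.eq]
      exact h1
    obtain ⟨c, hc⟩ := Nat.exists_eq_add_of_le (he i)
    rw [hc, pow_add, pow_mul, h2, one_pow]
  let ψ : MonoidAlgebra O (Dl p e) →ₐ[O] Q := MonoidAlgebra.lift O Q (Dl p e) (dlLift y hy)
  have h1 : ψ.comp θL = Ideal.Quotient.mkₐ O (m ^ k) := by
    refine Fermat.Agent.H04.algHom_unique _ _ (m.map (Ideal.Quotient.mk (m ^ k))) (n := k) ?_ ?_ ?_
    · intro i
      rw [AlgHom.comp_apply, hθLX, map_sub, map_one, MonoidAlgebra.lift_of, dlLift_dl]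
      have : y i - 1 = Ideal.Quotient.mk (m ^ k) (MvPowerSeries.X i) := by
        simp only [y]
        rw [map_add, map_one, add_sub_cancel_left]
      rw [this]
      exact Ideal.mem_map_of_mem _ (PS.X_mem i)
    · intro i
      rw [AlgHom.comp_apply, hθLX, map_sub, map_one, MonoidAlgebra.lift_of, dlLift_dl]
      simp only [y]
      rw [map_add, map_one, add_sub_cancel_left]
      rfl
    · rw [← Ideal.map_pow, Ideal.map_quotient_self]
  intro f hf
  rw [← Ideal.Quotient.eq_zero_iff_mem]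
  have h2 := congrArg (fun F => F f) h1
  rw [RingHom.mem_ker] at hf
  have h3 : (ψ.comp θL) f = 0 := by
    rw [AlgHom.comp_apply]
    have : θL f = 0 := hf
    rw [this, map_zero]
  exact h2.symm.trans h3

end Small

section SmulTop

variable {R M : Type*} [CommRing R] [AddCommGroup M] [Module R M]

theorem mem_span_range_smul_top {ι : Type*} [Fintype ι] (a : ι → R) (v : M) :
    v ∈ (Ideal.span (Set.range a) • (⊤ : Submodule R M)) ↔ ∃ w : ι → M, v = ∑ i, a i • w i := by
  classical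
  constructor
  · intro h
    refine Submodule.smul_induction_on h ?_ ?_
    · intro c hc m _
      obtain ⟨f, hf⟩ := Ideal.mem_span_range_iff_exists_fun.mp hc
      refine ⟨fun i => f i • m, ?_⟩
      rw [← hf, Finset.sum_smul]
      refine Finset.sum_congr rfl fun i _ => ?_
      rw [mul_comm, mul_smul]
    · rintro x y ⟨w, rfl⟩ ⟨w', rfl⟩
      refine ⟨fun i => w i + w' i, ?_⟩
      rw [← Finset.sum_add_distrib]
      exact Finset.sum_congr rfl fun i _ => (smul_add _ _ _).symm
  · rintro ⟨w, rfl⟩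
    exact sum_mem fun i _ => Submodule.smul_mem_smul (Ideal.subset_span ⟨i, rfl⟩) trivial

end SmulTop

end Fermat.Agent.H25.TWM
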