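import Mathlib
import Fermat.Agent.H25.HeckeComp
import Fermat.Agent.H25.TWSys3
import Fermat.Agent.TAlg.FrameThm

set_option autoImplicit false
set_option linter.unusedSectionVars false
set_option linter.style.haveILetI false

/-!
# Components of Hecke type with their characteristic zero points
-/

namespace Fermat.Agent.H25.GE

open Fermat.Agent.H25 Fermat.Agent.H25.PR Fermat.Agent.CC Fermat.Agent.TW IsLocalRing Matrix
open Fermat.Agent.H05 Fermat.Agent.H25.TR Fermat.Agent.H25.TWM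

/-- A commutative `O`-algebra with elements `T ℓ` and characteristic zero points to which
pseudocharacters are attached. -/
structure CData {O k : Type} [CommRing O] [IsLocalRing O] [Field k] (D : RD O k)
    (S : Finset Nat.Primes) (bad : Finset ℕ) where
  B : Type
  [ringB : CommRing B]
  [algB : Algebra O B]
  T : ℕ → B
  X : Type
  [finX : Finite X]
  P : X → Type
  [ringP : ∀ x, CommRing (P x)]
  [domP : ∀ x, IsDomain (P x)]
  [algP : ∀ x, Algebra O (P x)]
  [finP : ∀ x, Module.Finite O (P x)]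
  [faithP : ∀ x, FaithfulSMul O (P x)]
  f : B →ₐ[O] ∀ x, P x
  f_inj : Function.Injective f
  t : ∀ x, GQ → P x
  ps : ∀ x, IsPseudo2 (t x)
  tc : ∀ x, t x D.c = 0
  dt : ∀ x g, t x g * t x g - t x (g * g) = 2 * algebraMap O (P x) (D.chi g)
  cont : ∀ x, ∀ n : ℕ, ∃ U, (levS S).isOpen U ∧ ∀ u ∈ U, ∀ g,
    t x (g * u) - t x g ∈ lamI O (P x) ^ n
  frob : ∀ ℓ : ℕ, ℓ.Prime → ℓ ∉ bad → ∀ A : ValuationSubring Qb, A.LiesOverPrime ℓ →
    ∀ φ : GQ, A.IsFrobeniusAt φ ℓ → ∀ x, t x φ = f (T ℓ) x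
  res : B →+* k
  res_comp : ∀ a : O, res (algebraMap O B a) = D.res a
  loc : ∀ b : B, res b ≠ 0 → IsUnit b
  res_T : ∀ ℓ : ℕ, ℓ.Prime → ℓ ∉ bad → ∀ A : ValuationSubring Qb, A.LiesOverPrime ℓ →
    ∀ φ : GQ, A.IsFrobeniusAt φ ℓ → D.tbar φ = res (T ℓ)

attribute [instance] CData.ringB CData.algB CData.finX CData.ringP CData.domP CData.algP
  CData.finP CData.faithP

/-- continuity of the residual pseudocharacter -/
def HBar {O k : Type} [CommRing O] [Field k] (D : RD O k) (S : Finset Nat.Primes) : Prop :=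
  ∃ U, (levS S).isOpen U ∧ ∀ u ∈ U, ∀ g, D.tbar (g * u) = D.tbar g

namespace CData

section Basic

variable {O k : Type} [CommRing O] [IsLocalRing O] [Field k] {D : RD O k}
    {S : Finset Nat.Primes} {bad : Finset ℕ} (H : CData D S bad)

instance [IsNoetherianRing O] : Module.Finite O H.B := by
  haveI := Fintype.ofFinite H.X
  exact Module.Finite.of_injective H.f.toLinearMap H.f_inj

/-- evaluation at a point -/
noncomputable def ev (x : H.X) : H.B →ₐ[O] H.P x := (Pi.evalAlgHom O H.P x).comp H.f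

theorem ev_apply (x : H.X) (b : H.B) : H.ev x b = H.f b x := rfl

theorem ext_ev {a b : H.B} (h : ∀ x, H.ev x a = H.ev x b) : a = b := H.f_inj (funext h)

instance : IsReduced H.B := isReduced_of_injective H.f H.f_inj

theorem ker_ev_comap (x : H.X) : (RingHom.ker (H.ev x)).comap (algebraMap O H.B) = ⊥ := by
  rw [eq_bot_iff]
  intro a ha
  rw [Ideal.mem_comap, RingHom.mem_ker, AlgHom.commutes] at ha
  exact (FaithfulSMul.algebraMap_injective O (H.P x)) (by rw [ha, map_zero])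

instance (x : H.X) : (RingHom.ker (H.ev x)).IsPrime := RingHom.ker_isPrime _

/-- the primes over `0` are the kernels of the evaluations. -/
theorem exists_eq_ker [IsNoetherianRing O] (P : Ideal H.B) [hP : P.IsPrime]
    (h0 : P.comap (algebraMap O H.B) = ⊥) : ∃ x, P = RingHom.ker (H.ev x) := by
  classical
  haveI := Fintype.ofFinite H.X
  have h1 : ∏ x : H.X, RingHom.ker (H.ev x) ≤ P := by
    intro b hb
    have h2 : b = 0 := by
      refine H.ext_ev fun x => ?_
      rw [map_zero]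
      have := Ideal.prod_le_inf hb
      rw [Submodule.mem_finsetInf] at this
      exact this x (Finset.mem_univ x)
    rw [h2]
    exact zero_mem _
  obtain ⟨x, -, hx⟩ := (Ideal.IsPrime.prod_le hP).1 h1
  refine ⟨x, ?_⟩
  by_contra hne
  have hlt : RingHom.ker (H.ev x) < P := lt_of_le_of_ne hx (Ne.symm hne)
  haveI : Algebra.IsIntegral O H.B := inferInstance
  have h3 := Ideal.IsIntegral.comap_lt_comap (R := O) hlt
  rw [h0] at h3
  exact not_lt_bot h3

end Basic

section C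

variable {O k : Type} [CommRing O] [IsLocalRing O] [IsNoetherianRing O]
    [IsAdicComplete (maximalIdeal O) O] [Field k] {D : RD O k}
    {S : Finset Nat.Primes} {bad : Finset ℕ} (H : CData D S bad)

theorem exists_C (hbar : HBar D S) :
    ∃ C : Comp D H.B, C.resB = H.res ∧ (∀ g i, H.f (C.t g) i = H.t i g) ∧
      (∀ ℓ : ℕ, ℓ.Prime → ℓ ∉ bad → ∀ A : ValuationSubring Qb, A.LiesOverPrime ℓ →
        ∀ φ : GQ, A.IsFrobeniusAt φ ℓ → C.t φ = H.T ℓ) ∧ C.ContS S (lamI O H.B) :=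
  exists_comp D H.f H.f_inj H.t H.ps H.tc H.dt H.cont bad H.T H.frob H.res H.res_comp H.loc
    H.res_T hbar

variable (hbar : HBar D S)

/-- the pseudocharacter with values in the algebra -/
noncomputable def C : Comp D H.B := (H.exists_C hbar).choose

theorem C_resB : (H.C hbar).resB = H.res := (H.exists_C hbar).choose_spec.1

theorem ev_C (g : GQ) (x : H.X) : H.ev x ((H.C hbar).t g) = H.t x g :=
  (H.exists_C hbar).choose_spec.2.1 g x

theorem C_frob : ∀ ℓ : ℕ, ℓ.Prime → ℓ ∉ bad → ∀ A : ValuationSubring Qb, A.LiesOverPrime ℓ →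
        ∀ φ : GQ, A.IsFrobeniusAt φ ℓ → (H.C hbar).t φ = H.T ℓ :=
  (H.exists_C hbar).choose_spec.2.2.1

theorem C_contS : (H.C hbar).ContS S (lamI O H.B) := (H.exists_C hbar).choose_spec.2.2.2

end C

end CData

section Density

variable {O k : Type} [CommRing O] [IsLocalRing O] [IsNoetherianRing O]
    [IsAdicComplete (maximalIdeal O) O] [Field k] {D : RD O k}
    {B₁ B₂ : Type} [CommRing B₁] [CommRing B₂] [Algebra O B₁] [Algebra O B₂]
    [Module.Finite O B₁] [Module.Finite O B₂] (C₁ : Comp D B₁) (C₂ : Comp D B₂)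
    {S₁ S₂ : Finset Nat.Primes}

/-- **Density**: a relation between two pseudocharacters which holds at Frobenius elements holds
everywhere. -/
theorem mem_of_frob (h₁ : C₁.ContS S₁ (lamI O B₁)) (h₂ : C₂.ContS S₂ (lamI O B₂))
    (W : Subalgebra O (B₁ × B₂)) (bad : Finset ℕ)
    (hW : ∀ ℓ : ℕ, ℓ.Prime → ℓ ∉ bad → ∀ A : ValuationSubring Qb, A.LiesOverPrime ℓ →
        ∀ φ : GQ, A.IsFrobeniusAt φ ℓ → (C₁.t φ, C₂.t φ) ∈ W) (g : GQ) :
    (C₁.t g, C₂.t g) ∈ W := by
  classical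
  have h3 : ∀ n : ℕ, (C₁.t g, C₂.t g) ∈ (Subalgebra.toSubmodule W) ⊔
      (maximalIdeal O ^ n • (⊤ : Submodule O (B₁ × B₂))) := by
    intro n
    obtain ⟨U₁, hU₁, hU₁'⟩ := Comp.ContS.monoS C₁ h₁ (Finset.subset_union_left (s₂ := S₂)) n
    obtain ⟨U₂, hU₂, hU₂'⟩ := Comp.ContS.monoS C₂ h₂ (Finset.subset_union_right (s₁ := S₁)) n
    obtain ⟨ℓ, hℓ, hb, A, hA, φ, hφ, m, u, hu, rfl⟩ :=
      exists_frobenius_lev ((levS (S₁ ∪ S₂)).inf _ _ hU₁ hU₂) bad g
    have e1 : (C₁.t (φ ^ m * u), C₂.t (φ ^ m * u)) = (C₁.t (φ ^ m), C₂.t (φ ^ m)) +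
        (C₁.t (φ ^ m * u) - C₁.t (φ ^ m), C₂.t (φ ^ m * u) - C₂.t (φ ^ m)) := by
      rw [Prod.mk_add_mk, add_sub_cancel, add_sub_cancel]
    rw [e1]
    refine Submodule.add_mem_sup ?_ ?_
    · rw [t_pow C₁.ps C₁.h2B (C₁.dt φ), t_pow C₂.ps C₂.h2B (C₂.dt φ)]
      have key : ∀ n : ℕ, (pw (C₁.t φ) (algebraMap O B₁ (D.chi φ)) n,
          pw (C₂.t φ) (algebraMap O B₂ (D.chi φ)) n) =
          pw (C₁.t φ, C₂.t φ) (algebraMap O (B₁ × B₂) (D.chi φ)) n := by
        intro n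
        refine Prod.ext ?_ ?_
        · have := map_pw (RingHom.fst B₁ B₂) (C₁.t φ, C₂.t φ)
            (algebraMap O (B₁ × B₂) (D.chi φ)) n
          exact this.symm
        · have := map_pw (RingHom.snd B₁ B₂) (C₁.t φ, C₂.t φ)
            (algebraMap O (B₁ × B₂) (D.chi φ)) n
          exact this.symm
      rw [key]
      have h5 : ∀ n : ℕ, pw (C₁.t φ, C₂.t φ) (algebraMap O (B₁ × B₂) (D.chi φ)) n ∈ W ∧
          pw (C₁.t φ, C₂.t φ) (algebraMap O (B₁ × B₂) (D.chi φ)) (n + 1) ∈ W := by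
        intro n
        induction n with
        | zero => exact ⟨by
            change (2 : B₁ × B₂) ∈ W
            exact ofNat_mem W 2, hW ℓ hℓ hb A hA φ hφ⟩
        | succ n ih =>
          refine ⟨ih.2, ?_⟩
          change (C₁.t φ, C₂.t φ) * pw (C₁.t φ, C₂.t φ) (algebraMap O (B₁ × B₂) (D.chi φ)) (n + 1) -
            (algebraMap O (B₁ × B₂) (D.chi φ)) *
              pw (C₁.t φ, C₂.t φ) (algebraMap O (B₁ × B₂) (D.chi φ)) n ∈ W
          exact sub_mem (mul_mem (hW ℓ hℓ hb A hA φ hφ) ih.2)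
            (mul_mem (Subalgebra.algebraMap_mem _ _) ih.1)
      exact (h5 m).1
    · have e2 : ∀ (b₁ : B₁) (b₂ : B₂), b₁ ∈ lamI O B₁ ^ n → b₂ ∈ lamI O B₂ ^ n →
          (b₁, b₂) ∈ (maximalIdeal O ^ n • (⊤ : Submodule O (B₁ × B₂))) := by
        intro b₁ b₂ hb₁ hb₂
        have f1 : b₁ ∈ (maximalIdeal O ^ n • (⊤ : Submodule O B₁)) := by
          rw [lamI, ← Ideal.map_pow] at hb₁
          rw [Ideal.smul_top_eq_map]
          exact hb₁
        have f2 : b₂ ∈ (maximalIdeal O ^ n • (⊤ : Submodule O B₂)) := by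
          rw [lamI, ← Ideal.map_pow] at hb₂
          rw [Ideal.smul_top_eq_map]
          exact hb₂
        have g1 := Submodule.mem_map_of_mem (f := LinearMap.inl O B₁ B₂) f1
        have g2 := Submodule.mem_map_of_mem (f := LinearMap.inr O B₁ B₂) f2
        rw [Submodule.map_smul''] at g1 g2
        have g3 := add_mem (Submodule.smul_mono le_rfl le_top g1)
          (Submodule.smul_mono le_rfl le_top g2)
        simpa using g3
      exact e2 _ _ (hU₁' u hu.1 _) (hU₂' u hu.2 _)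
  exact mem_of_forall_mem_sup (Subalgebra.toSubmodule W) _ h3

/-- compatible algebra homomorphisms respect the pseudocharacters. -/
theorem map_t_of_frob (h₁ : C₁.ContS S₁ (lamI O B₁)) (h₂ : C₂.ContS S₂ (lamI O B₂))
    (π : B₁ →ₐ[O] B₂) (bad : Finset ℕ)
    (hπ : ∀ ℓ : ℕ, ℓ.Prime → ℓ ∉ bad → ∀ A : ValuationSubring Qb, A.LiesOverPrime ℓ →
        ∀ φ : GQ, A.IsFrobeniusAt φ ℓ → π (C₁.t φ) = C₂.t φ) (g : GQ) :
    π (C₁.t g) = C₂.t g := by
  have := mem_of_frob C₁ C₂ h₁ h₂ (AlgHom.equalizer (π.comp (AlgHom.fst O B₁ B₂))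
    (AlgHom.snd O B₁ B₂)) bad (fun ℓ hℓ hb A hA φ hφ => hπ ℓ hℓ hb A hA φ hφ) g
  exact this

end Density

end Fermat.Agent.H25.GE
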