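import Mathlib
import Fermat.Agent.H25.Asm1
import Fermat.Agent.H25.LatticeRep

set_option autoImplicit false
set_option linter.unusedSectionVars false
set_option linter.style.haveILetI false

/-!
# The trace ring of a family of Hecke components; Taylor-Wiles elements
-/

namespace Fermat.Agent.H25.TR.Comp

open Fermat.Agent.H25 Fermat.Agent.H25.PR Fermat.Agent.CC Fermat.Agent.TW IsLocalRing Matrix
open Fermat.Agent.H05 Fermat.Agent.H25.TR

section Map

variable {O k : Type} [CommRing O] [Field k] {D : RD O k} {B : Type} [CommRing B] [Algebra O B]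
  (C : Comp D B) {P : Type} [CommRing P] (f : B →+* P)

/-- elements acting trivially after a base change -/
theorem rho_map_one_iff {σ : GQ} : (C.rho σ).map f = 1 ↔ ∀ g, f (C.t (σ * g)) = f (C.t g) := by
  let M : GQ →* Mt P := (f.mapMatrix : Mt B →+* Mt P).toMonoidHom.comp C.rho
  have hM : ∀ g, M g = repMat (fun g => f (C.t g)) (f (algebraMap O B D.hf)) D.c D.r D.s
      (f C.ui) g := by
    intro g
    change (C.rho g).map f = _
    rw [C.rho_eq, repMat_map]
  have h2 : f (algebraMap O B D.hf) * 2 = 1 := by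
    rw [← map_ofNat f 2, ← map_mul, C.h2B, map_one]
  have ht : IsPseudo2 (fun g => f (C.t g)) := C.ps.map f
  have htr : ∀ g, (M g).trace = f (C.t g) := by
    intro g
    rw [hM, trace_repMat h2]
  constructor
  · intro h g
    rw [← htr, ← htr, map_mul]
    have h3 : M σ = 1 := h
    rw [h3, one_mul]
  · intro h
    have h3 : M σ - 1 = 0 := by
      refine eq_zero_of_trace_mul (t := fun g => f (C.t g)) (hf := f (algebraMap O B D.hf))
        (c := D.c) (r := D.r) (s := D.s) (u := f C.ui) h2 D.cc ht ?_ ?_ hM fun g => ?_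
      · rw [C.tc, map_zero]
      · have h4 : entX (fun g => f (C.t g)) (f (algebraMap O B D.hf)) D.c D.r D.s =
            f (entX C.t (algebraMap O B D.hf) D.c D.r D.s) := by
          simp only [entX, map_mul, map_add, map_sub]
        rw [h4, ← map_mul, C.mul_ui, map_one]
      · rw [sub_mul, Matrix.trace_sub, one_mul, ← map_mul, htr, htr, h, sub_self]
    exact sub_eq_zero.mp h3

end Map

section Haus

variable {O k : Type} [CommRing O] [IsLocalRing O] [IsNoetherianRing O]
  [Field k] {D : RD O k}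
  {B : Type} [CommRing B] [Algebra O B] [Module.Finite O B] (C : Comp D B)
  {P : Type} [CommRing P] [Algebra O P] [Module.Finite O P] (f : B →ₐ[O] P)

theorem isHausdorff_lamI : IsHausdorff (lamI O P) P := by
  haveI : IsHausdorff (maximalIdeal O) P :=
    IsHausdorff.of_le_jacobson (maximalIdeal O) P (IsLocalRing.maximalIdeal_le_jacobson _)
  refine ⟨fun x hx => ?_⟩
  refine IsHausdorff.haus (I := maximalIdeal O) inferInstance x fun n => ?_
  have h1 := hx n
  rw [SModEq.zero] at h1 ⊢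
  rw [smul_eq_mul, Ideal.mul_top, lamI, ← Ideal.map_pow] at h1
  rw [Ideal.smul_top_eq_map]
  exact h1

include C in
theorem isHausdorff_map [IsLocalRing B] :
    IsHausdorff ((maximalIdeal B).map (f : B →+* P)) P := by
  haveI := C.isLocalHom
  obtain ⟨c, hc⟩ := exists_pow_le_lamI (O := O) (B := B)
  haveI := isHausdorff_lamI (O := O) (P := P)
  have h1 : ((maximalIdeal B).map (f : B →+* P)) ^ c ≤ lamI O P := by
    rw [← Ideal.map_pow]
    refine (Ideal.map_mono hc).trans ?_
    rw [lamI, Ideal.map_map, lamI]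
    refine le_of_eq ?_
    congr 1
    ext a
    exact f.commutes a
  refine ⟨fun x hx => ?_⟩
  refine IsHausdorff.haus (I := lamI O P) inferInstance x fun n => ?_
  have h2 := hx (c * n)
  rw [SModEq.zero] at h2 ⊢
  rw [smul_eq_mul, Ideal.mul_top] at h2 ⊢
  rw [pow_mul] at h2
  exact Ideal.pow_right_mono h1 n h2

end Haus

end Fermat.Agent.H25.TR.Comp

namespace Fermat.Agent.H25.GE

open Fermat.Agent.H25 Fermat.Agent.H25.PR Fermat.Agent.CC Fermat.Agent.TW IsLocalRing Matrix
open Fermat.Agent.H05 Fermat.Agent.H25.TR Fermat.Agent.H25.TWM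

section Family

variable {O k : Type} [CommRing O] [IsLocalRing O] [IsNoetherianRing O]
    [IsAdicComplete (maximalIdeal O) O] [Field k] {D : RD O k}
    {S : Finset Nat.Primes} {bad : Finset ℕ} {κ : Type} [Finite κ] [Nonempty κ]
    (H : κ → CData D S bad) (hbar : HBar D S)

/-- the trace ring of a family -/
noncomputable abbrev AR : Subalgebra O (∀ i, (H i).B) := Comp.TrR (fun i => (H i).C hbar)

instance finite_AR : Module.Finite O (AR H hbar) := Comp.finite_TrR _

/-- the pseudocharacter over the trace ring -/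
noncomputable def CA : Comp D (AR H hbar) := Comp.prod (fun i => (H i).C hbar)

theorem CA_contS : (CA H hbar).ContS S (lamI O (AR H hbar)) :=
  Comp.contS_prod _ fun i => (H i).C_contS hbar

instance isLocalRing_AR : IsLocalRing (AR H hbar) := (CA H hbar).isLocalRing

instance isNoetherianRing_AR : IsNoetherianRing (AR H hbar) :=
  IsNoetherianRing.of_finite O _

instance isAdicComplete_AR : IsAdicComplete (maximalIdeal (AR H hbar)) (AR H hbar) :=
  (CA H hbar).isAdicComplete

/-- projection of the trace ring to a component -/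
noncomputable def pr (i : κ) : AR H hbar →ₐ[O] (H i).B := Comp.proj _ i

theorem pr_t (i : κ) (g : GQ) : pr H hbar i ((CA H hbar).t g) = ((H i).C hbar).t g := rfl

/-- the points of the trace ring -/
noncomputable def pt (i : κ) (x : (H i).X) : AR H hbar →ₐ[O] (H i).P x :=
  ((H i).ev x).comp (pr H hbar i)

theorem pt_t (i : κ) (x : (H i).X) (g : GQ) : pt H hbar i x ((CA H hbar).t g) = (H i).t x g := by
  rw [pt, AlgHom.comp_apply, pr_t, CData.ev_C]

theorem pt_rho_iff (i : κ) (x : (H i).X) (σ : GQ) :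
    ((CA H hbar).rho σ).map (pt H hbar i x) = 1 ↔ ∀ g, (H i).t x (σ * g) = (H i).t x g := by
  have h := (CA H hbar).rho_map_one_iff (pt H hbar i x : AR H hbar →+* (H i).P x) (σ := σ)
  have e : ∀ g, (pt H hbar i x : AR H hbar →+* (H i).P x) ((CA H hbar).t g) = (H i).t x g :=
    fun g => pt_t H hbar i x g
  simp only [e] at h
  exact h

section MapLevel

variable {S' : Finset Nat.Primes} {bad' : Finset ℕ} (H' : κ → CData D S' bad')
    (hbar' : HBar D S') (πB : ∀ i, (H i).B →ₐ[O] (H' i).B) (badπ : Finset ℕ)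
    (hπB : ∀ i, ∀ ℓ : ℕ, ℓ.Prime → ℓ ∉ badπ → πB i ((H i).T ℓ) = (H' i).T ℓ)

include hπB in
theorem πB_t (i : κ) (g : GQ) : πB i (((H i).C hbar).t g) = ((H' i).C hbar').t g := by
  refine map_t_of_frob ((H i).C hbar) ((H' i).C hbar') ((H i).C_contS hbar)
    ((H' i).C_contS hbar') (πB i) (badπ ∪ bad ∪ bad') (fun ℓ hℓ hb A hA φ hφ => ?_) g
  rw [Finset.notMem_union, Finset.notMem_union] at hb
  rw [(H i).C_frob hbar ℓ hℓ hb.1.2 A hA φ hφ, (H' i).C_frob hbar' ℓ hℓ hb.2 A hA φ hφ,
    hπB i ℓ hℓ hb.1.1]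

/-- the map between trace rings -/
noncomputable def mapA (h : ∀ i g, πB i (((H i).C hbar).t g) = ((H' i).C hbar').t g) :
    AR H hbar →ₐ[O] AR H' hbar' :=
  AlgHom.codRestrict (AlgHom.pi (fun i => (πB i).comp (pr H hbar i))) (AR H' hbar') (by
    intro x
    have hx : x ∈ (⊤ : Subalgebra O (AR H hbar)) := trivial
    rw [← Comp.adjoin_t] at hx
    induction hx using Algebra.adjoin_induction with
    | mem x hx =>
      obtain ⟨g, rfl⟩ := hx
      have : (AlgHom.pi (fun i => (πB i).comp (pr H hbar i)))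
          ((Comp.prod (fun i => (H i).C hbar)).t g) =
          ((Comp.prod (fun i => (H' i).C hbar')).t g : ∀ i, (H' i).B) := by
        funext i
        exact h i g
      rw [this]
      exact Subtype.coe_prop _
    | algebraMap r => rw [AlgHom.commutes]; exact Subalgebra.algebraMap_mem _ r
    | add x y _ _ hx' hy' => rw [map_add]; exact add_mem hx' hy'
    | mul x y _ _ hx' hy' => rw [map_mul]; exact mul_mem hx' hy')

variable (h : ∀ i g, πB i (((H i).C hbar).t g) = ((H' i).C hbar').t g)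

theorem pr_mapA (i : κ) (x : AR H hbar) :
    pr H' hbar' i (mapA H hbar H' hbar' πB h x) = πB i (pr H hbar i x) := rfl

theorem mapA_t (g : GQ) : mapA H hbar H' hbar' πB h ((CA H hbar).t g) = (CA H' hbar').t g :=
  Subtype.ext (funext fun i => h i g)

theorem mapA_surjective : Function.Surjective (mapA H hbar H' hbar' πB h) := by
  intro y
  have hy : y ∈ (⊤ : Subalgebra O (AR H' hbar')) := trivial
  rw [← Comp.adjoin_t] at hy
  have h1 : Algebra.adjoin O (Set.range (Comp.prod (fun i => (H' i).C hbar')).t) ≤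
      (mapA H hbar H' hbar' πB h).range := by
    rw [Algebra.adjoin_le_iff]
    rintro _ ⟨g, rfl⟩
    exact ⟨(CA H hbar).t g, mapA_t H hbar H' hbar' πB h g⟩
  exact h1 hy

theorem mapA_rho (g : GQ) : ((CA H hbar).rho g).map (mapA H hbar H' hbar' πB h) =
    (CA H' hbar').rho g :=
  (CA H hbar).rho_map (CA H' hbar') _ (mapA_t H hbar H' hbar' πB h) g

end MapLevel

end Family

/-- Numerical conditions on Taylor-Wiles primes. -/
structure TWD {O k : Type} [CommRing O] [Field k] (D : RD O k) (p : ℕ) {r : ℕ}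
    (qv : Fin r → Nat.Primes) (e : Fin r → ℕ) : Prop where
  ne : ∀ j, p ≠ qv j
  unr : ∀ j, ∀ σ ∈ (plv (qv j) (qv j).2).inertiaSubgroupIn ℚ, D.rbar σ = 1
  chi : ∀ j, ∀ σ ∈ (plv (qv j) (qv j).2).inertiaSubgroupIn ℚ, D.chi σ = 1
  eig : ∀ j, ∃ a b : k, (D.rbar (frv (qv j) (qv j).2)).trace = a + b ∧
    (D.rbar (frv (qv j) (qv j).2)).det = a * b ∧ a ≠ b
  hqe : ∀ j, ∃ u : ℕ, ((qv j : ℕ) - 1 = p ^ e j * u) ∧ ¬ p ∣ u
  one : ∀ j, (((qv j : ℕ) : ℕ) : k) = 1

section X

variable {O k : Type} [CommRing O] [IsLocalRing O] [IsNoetherianRing O]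
    [IsAdicComplete (maximalIdeal O) O] [Field k] {D : RD O k}
    {S : Finset Nat.Primes} {B : Type} [CommRing B] [Algebra O B] [Module.Finite O B]
    (C : Comp D B) {p : ℕ} (hp : p.Prime) (hpO : (p : O) ∈ maximalIdeal O)
    {r : ℕ} {qv : Fin r → Nat.Primes} {e : Fin r → ℕ}

include hpO in
theorem exists_xv (hC : C.ContS S (lamI O B)) (hQ : TWD D p qv e) :
    ∃ x : Fin r → B, ∀ j, C.resB (x j) = 1 ∧ x j ^ p ^ e j = 1 ∧
      ∀ (B' : Type) [CommRing B'] (f : B →+* B'),
        f (x j) = 1 ↔ (C.rho (tmv p hp (qv j) (qv j).2)).map f = 1 := by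
  have h : ∀ j, ∃ x : B, C.resB x = 1 ∧ x ^ p ^ e j = 1 ∧
      ∀ (B' : Type) [CommRing B'] (f : B →+* B'),
        f x = 1 ↔ (C.rho (tmv p hp (qv j) (qv j).2)).map f = 1 := by
    intro j
    obtain ⟨a, b, htr, hdet, hab⟩ := hQ.eig j
    obtain ⟨u, hqe, hu⟩ := hQ.hqe j
    exact C.exists_xi_comp hp hpO hC (qv j).2 (hQ.ne j) (hQ.unr j) (hQ.chi j) htr hdet hab hqe hu
      (hQ.one j)
  choose x hx using h
  exact ⟨x, hx⟩

variable {P : Type} [CommRing P] [Algebra O P] [Module.Finite O P] (f : B →ₐ[O] P)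

include hpO in
theorem map_x_iff (hC : C.ContS S (lamI O B)) (hQ : TWD D p qv e) {x : Fin r → B}
    (hx : ∀ j, C.resB (x j) = 1 ∧ x j ^ p ^ e j = 1 ∧
      ∀ (B' : Type) [CommRing B'] (f : B →+* B'),
        f (x j) = 1 ↔ (C.rho (tmv p hp (qv j) (qv j).2)).map f = 1) (j : Fin r) :
    f (x j) = 1 ↔ ∀ σ ∈ (plv (qv j) (qv j).2).inertiaSubgroupIn ℚ, ∀ g,
      f (C.t (σ * g)) = f (C.t g) := by
  haveI := C.isLocalRing
  have h1 : f (x j) = 1 ↔ _ := (hx j).2.2 P (f : B →+* P)
  rw [h1]
  constructor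
  · intro h σ hσ g
    haveI := C.isHausdorff_map f
    have := C.inertia_of_tame hp hpO hC (qv j).2 (hQ.ne j) (hQ.unr j) (f : B →+* P)
      (I := (maximalIdeal B).map (f : B →+* P)) le_rfl h hσ
    exact (C.rho_map_one_iff (f : B →+* P)).mp this g
  · intro h
    exact (C.rho_map_one_iff (f : B →+* P)).mpr fun g =>
      h _ (tmv_spec p hp (qv j) (qv j).2).2.1 g

end X

end Fermat.Agent.H25.GE
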