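import Mathlib
import Fermat.Agent.H25.Asm2

set_option autoImplicit false
set_option linter.unusedSectionVars false
set_option linter.style.haveILetI false

/-!
# Taylor-Wiles modules and the patching data
-/

namespace Fermat.Agent.H25.GE

open Fermat.Agent.H25 Fermat.Agent.H25.PR Fermat.Agent.CC Fermat.Agent.TW IsLocalRing Matrix
open Fermat.Agent.H05 Fermat.Agent.H25.TR Fermat.Agent.H25.TWM Fermat.Agent.TAlg

section GroupRingBasis

variable {O Δ M : Type} [CommRing O] [CommGroup Δ] [Finite Δ] [AddCommGroup M] [Module O M]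
  [Module (MonoidAlgebra O Δ) M] [IsScalarTower O (MonoidAlgebra O Δ) M] {d : ℕ}

theorem smul_eq_sum (y : MonoidAlgebra O Δ) (m : M) [Fintype Δ] :
    y • m = ∑ g : Δ, y.coeff g • (MonoidAlgebra.of O Δ g • m) := by
  have hy : y = ∑ g : Δ, (y.coeff g) • MonoidAlgebra.of O Δ g := by
    conv_lhs => rw [← MonoidAlgebra.sum_coeff_single y]
    rw [Finsupp.sum_fintype]
    · refine Finset.sum_congr rfl fun g _ => ?_
      rw [MonoidAlgebra.of_apply, MonoidAlgebra.smul_single, smul_eq_mul, mul_one]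
    · intro g; exact MonoidAlgebra.single_zero g
  conv_lhs => rw [hy]
  rw [Finset.sum_smul]
  exact Finset.sum_congr rfl fun g _ => smul_assoc _ _ _

theorem exists_basis_groupRing (bas : Module.Basis (Fin d × Δ) O M) (v : Fin d → M)
    (h : ∀ i g, bas (i, g) = MonoidAlgebra.of O Δ g • v i) :
    ∃ b : Module.Basis (Fin d) (MonoidAlgebra O Δ) M, ∀ i, b i = v i := by
  classical
  haveI := Fintype.ofFinite Δ
  have hli : LinearIndependent (MonoidAlgebra O Δ) v := by
    rw [Fintype.linearIndependent_iff]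
    intro c hc i
    have h1 : ∑ x : Fin d × Δ, ((c x.1).coeff x.2) • bas x = 0 := by
      rw [Fintype.sum_prod_type, ← hc]
      refine Finset.sum_congr rfl fun i _ => ?_
      rw [smul_eq_sum]
      exact Finset.sum_congr rfl fun g _ => by rw [h]
    have h2 := Fintype.linearIndependent_iff.mp bas.linearIndependent _ h1
    refine MonoidAlgebra.coeff_injective (Finsupp.ext fun g => ?_)
    exact h2 (i, g)
  have hsp : ⊤ ≤ Submodule.span (MonoidAlgebra O Δ) (Set.range v) := by
    intro m _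
    rw [← bas.sum_repr m]
    refine Submodule.sum_mem _ fun x _ => ?_
    have h3 : (bas.repr m x) • bas x =
        ((bas.repr m x) • MonoidAlgebra.of O Δ x.2) • v x.1 := by
      rw [smul_assoc, ← h]
    rw [h3]
    exact Submodule.smul_mem _ _ (Submodule.subset_span ⟨x.1, rfl⟩)
  exact ⟨Module.Basis.mk hli hsp, fun i => Module.Basis.mk_apply hli hsp i⟩

end GroupRingBasis

/-- Modules over a component with an action of the Taylor-Wiles diamonds. -/
structure MData {O k : Type} [CommRing O] [IsLocalRing O] [Field k] {D : RD O k}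
    {S : Finset Nat.Primes} {bad : Finset ℕ} (C : CData D S bad) (p : ℕ) {r : ℕ}
    (qv : Fin r → Nat.Primes) (e : Fin r → ℕ) (d : ℕ) where
  M : Type
  [grp : AddCommGroup M]
  [modO : Module O M]
  [modB : Module C.B M]
  [tow : IsScalarTower O C.B M]
  dia : Dl p e →* C.B
  bas : Module.Basis (Fin d × Dl p e) O M
  v : Fin d → M
  hbas : ∀ i g, bas (i, g) = dia g • v i
  dia_iff : ∀ x j, C.ev x (dia (dl p e j)) = 1 ↔
    ∀ σ ∈ (plv (qv j) (qv j).2).inertiaSubgroupIn ℚ, ∀ g, C.t x (σ * g) = C.t x g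

attribute [instance] MData.grp MData.modO MData.modB MData.tow

section Th

variable (O : Type) [CommRing O] [IsDomain O] [IsLocalRing O] [IsNoetherianRing O]
    [IsAdicComplete (maximalIdeal O) O] {p : ℕ} [Fact p.Prime] (hpO : (p : O) ∈ maximalIdeal O)
    {r : ℕ} (e : Fin r → ℕ)

/-- `O⟦S₁..S_r⟧ → O[Δ]`. -/
noncomputable def thL : MvPowerSeries (Fin r) O →ₐ[O] MonoidAlgebra O (Dl p e) :=
  (exists_thetaL (O := O) (Fact.out : p.Prime) (isPGroup_Dl (e := e)) hpO (dl p e)
    closure_dl).choose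

theorem thL_surj : Function.Surjective (thL O hpO e) :=
  (exists_thetaL (O := O) (Fact.out : p.Prime) (isPGroup_Dl (e := e)) hpO (dl p e)
    closure_dl).choose_spec.1

theorem thL_X (j : Fin r) : thL O hpO e (MvPowerSeries.X j) =
    MonoidAlgebra.of O (Dl p e) (dl p e j) - 1 :=
  (exists_thetaL (O := O) (Fact.out : p.Prime) (isPGroup_Dl (e := e)) hpO (dl p e)
    closure_dl).choose_spec.2 j

/-- the ideals `J_n` -/
noncomputable def JJ : Ideal (MvPowerSeries (Fin r) O) := RingHom.ker (thL O hpO e)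

theorem small_JJ {F : Ultrafilter ℕ} (hF : (F : Filter ℕ) ≤ Filter.atTop)
    {e : ℕ → Fin r → ℕ} (he : ∀ n j, n ≤ e n j) : Small F fun n => JJ O hpO (e n) := by
  intro k
  refine hF ?_
  filter_upwards [Filter.eventually_ge_atTop k] with n hn
  exact ker_le_pow hpO k (fun j => hn.trans (he n j)) _ (thL_X O hpO (e n))

end Th

section MD

variable {O k : Type} [CommRing O] [IsDomain O] [CharZero O] [IsLocalRing O]
    [IsNoetherianRing O] [IsAdicComplete (maximalIdeal O) O] [Field k] {D : RD O k}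
    {S : Finset Nat.Primes} {bad : Finset ℕ} {C : CData D S bad} {p : ℕ} [Fact p.Prime]
    (hpO : (p : O) ∈ maximalIdeal O)
    {r : ℕ} {qv : Fin r → Nat.Primes} {e : Fin r → ℕ} {d : ℕ} (N : MData C p qv e d)
    (J : Ideal C.B) [IsHausdorff J C.B] {x : Fin r → C.B} (hxJ : ∀ j, x j - 1 ∈ J)
    (hxp : ∀ j, x j ^ p ^ e j = 1)
    (hx : ∀ j pt, C.ev pt (x j) = 1 ↔ C.ev pt (N.dia (dl p e j)) = 1)

namespace MData

/-- diamonds on the group ring -/
noncomputable def diaL : MonoidAlgebra O (Dl p e) →ₐ[O] C.B :=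
  MonoidAlgebra.lift O C.B (Dl p e) N.dia

/-- the module structure over the group ring -/
noncomputable abbrev grMod : Module (MonoidAlgebra O (Dl p e)) N.M :=
  Module.compHom N.M (N.diaL : MonoidAlgebra O (Dl p e) →+* C.B)

include hpO hxJ hxp hx in
/-- freeness over `O⟦S⟧/J` -/
theorem exists_equivJ (θ : MvPowerSeries (Fin r) O →ₐ[O] C.B)
    (hθX : ∀ j, θ (MvPowerSeries.X j) = x j - 1) :
    ∃ ee : N.M ≃+ (Fin d → MvPowerSeries (Fin r) O ⧸ JJ O hpO e),
      ∀ (s : MvPowerSeries (Fin r) O) (m : N.M), ee (θ s • m) = s • ee m := by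
  letI := N.grMod
  haveI : IsScalarTower O (MonoidAlgebra O (Dl p e)) N.M := ⟨fun a y m => by
    change N.diaL (a • y) • m = a • (N.diaL y • m)
    rw [map_smul, smul_assoc]⟩
  obtain ⟨b, hb⟩ := exists_basis_groupRing N.bas N.v fun i g => by
    change _ = N.diaL (MonoidAlgebra.of O _ g) • N.v i
    rw [N.hbas, diaL, MonoidAlgebra.lift_of]
  refine exists_equiv (Fact.out : p.Prime) isPGroup_Dl hpO b N.diaL (fun y m => rfl)
    (dlLift x hxp) (dl p e) closure_dl (fun P hP h0 j => ?_) J (fun j => ?_)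
    (thL O hpO e) (thL_surj O hpO e) (thL_X O hpO e) θ fun j => ?_
  · obtain ⟨y, rfl⟩ := C.exists_eq_ker P h0
    rw [RingHom.mem_ker, RingHom.mem_ker, dlLift_dl, map_sub, map_sub, map_one, sub_eq_zero,
      sub_eq_zero, diaL, MonoidAlgebra.lift_of]
    exact hx j y
  · rw [dlLift_dl]
    exact hxJ j
  · rw [dlLift_dl]
    exact hθX j

include hpO hxp hx in
/-- the augmentation submodules agree -/
theorem range_iff_x (j : Fin r) (v : N.M) :
    (∃ w : N.M, v = N.dia (dl p e j) • w - w) ↔ ∃ w : N.M, v = x j • w - w := by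
  letI := N.grMod
  haveI : IsScalarTower O (MonoidAlgebra O (Dl p e)) N.M := ⟨fun a y m => by
    change N.diaL (a • y) • m = a • (N.diaL y • m)
    rw [map_smul, smul_assoc]⟩
  obtain ⟨b, hb⟩ := exists_basis_groupRing N.bas N.v fun i g => by
    change _ = N.diaL (MonoidAlgebra.of O _ g) • N.v i
    rw [N.hbas, diaL, MonoidAlgebra.lift_of]
  have key := range_iff (Fact.out : p.Prime) isPGroup_Dl hpO b N.diaL (fun y m => rfl)
    (dlLift x hxp) (dl p e j) (fun P hP h0 => ?_) v
  · rw [dlLift_dl] at key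
    rw [← key]
    have h1 : ∀ w : N.M, (MonoidAlgebra.of O (Dl p e) (dl p e j) - 1) • w =
        N.dia (dl p e j) • w - w := by
      intro w
      rw [sub_smul, one_smul]
      congr 1
      change N.diaL (MonoidAlgebra.of O _ _) • w = _
      rw [diaL, MonoidAlgebra.lift_of]
    simp only [h1]
  · obtain ⟨y, rfl⟩ := C.exists_eq_ker P h0
    rw [RingHom.mem_ker, RingHom.mem_ker, dlLift_dl, map_sub, map_sub, map_one, sub_eq_zero,
      sub_eq_zero, diaL, MonoidAlgebra.lift_of]
    exact hx j y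

end MData

end MD

end Fermat.Agent.H25.GE
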