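import Mathlib
import Fermat.Agent.H25.Asm3

set_option autoImplicit false
set_option linter.unusedSectionVars false
set_option linter.style.haveILetI false

/-!
# Patching data from a system of Hecke components and modules
-/

namespace Fermat.Agent.H25.GE

open Fermat.Agent.H25 Fermat.Agent.H25.PR Fermat.Agent.CC Fermat.Agent.TW IsLocalRing Matrix
open Fermat.Agent.H05 Fermat.Agent.H25.TR Fermat.Agent.H25.TWM Fermat.Agent.TAlg

/-- A system of components at Taylor-Wiles levels. -/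
structure Sys {O k : Type} [CommRing O] [IsLocalRing O] [Field k] (D : RD O k) (p r : ℕ)
    (κ : Type) where
  S : ℕ → Finset Nat.Primes
  bad : ℕ → Finset ℕ
  hbar : ∀ n : ℕ, HBar D (S n)
  qv : ∀ _ : ℕ, Fin r → Nat.Primes
  e : ∀ _ : ℕ, Fin r → ℕ
  hQ : ∀ n : ℕ, TWD D p (qv n) (e n)
  H : ∀ n : ℕ, κ → CData D (S n) (bad n)
  S₀ : Finset Nat.Primes
  bad₀ : Finset ℕ
  hbar₀ : HBar D S₀
  H₀ : κ → CData D S₀ bad₀
  πB : ∀ (n : ℕ) (i : κ), (H n i).B →ₐ[O] (H₀ i).B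
  badπ : ℕ → Finset ℕ
  hπB : ∀ (n : ℕ) (i : κ), ∀ ℓ : ℕ, ℓ.Prime → ℓ ∉ badπ n → πB n i ((H n i).T ℓ) = (H₀ i).T ℓ
  unr₀ : ∀ (n : ℕ) (j : Fin r), qv n j ∉ S₀

namespace Sys

variable {O k : Type} [CommRing O] [IsDomain O] [CharZero O] [IsLocalRing O]
    [IsNoetherianRing O] [IsAdicComplete (maximalIdeal O) O] [Field k] {D : RD O k}
    {p : ℕ} [Fact p.Prime] (hpO : (p : O) ∈ maximalIdeal O)
    {r : ℕ} {κ : Type} [Finite κ] [Nonempty κ] (Y : Sys D p r κ)

/-- the trace rings -/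
noncomputable abbrev A (n : ℕ) : Type := AR (Y.H n) (Y.hbar n)

/-- bottom trace ring -/
noncomputable abbrev A₀ : Type := AR Y.H₀ Y.hbar₀

include hpO in
theorem exists_x (n : ℕ) : ∃ x : Fin r → Y.A n, ∀ j,
    (CA (Y.H n) (Y.hbar n)).resB (x j) = 1 ∧ x j ^ p ^ Y.e n j = 1 ∧
      ∀ (B' : Type) [CommRing B'] (f : Y.A n →+* B'), f (x j) = 1 ↔
        ((CA (Y.H n) (Y.hbar n)).rho (tmv p (Fact.out : p.Prime) (Y.qv n j)
          (Y.qv n j).2)).map f = 1 :=
  exists_xv (CA (Y.H n) (Y.hbar n)) (Fact.out : p.Prime) hpO (CA_contS _ _) (Y.hQ n)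

/-- Taylor-Wiles elements -/
noncomputable def x (n : ℕ) : Fin r → Y.A n := (Y.exists_x hpO n).choose

theorem x_spec (n : ℕ) : ∀ j,
    (CA (Y.H n) (Y.hbar n)).resB (Y.x hpO n j) = 1 ∧ Y.x hpO n j ^ p ^ Y.e n j = 1 ∧
      ∀ (B' : Type) [CommRing B'] (f : Y.A n →+* B'), f (Y.x hpO n j) = 1 ↔
        ((CA (Y.H n) (Y.hbar n)).rho (tmv p (Fact.out : p.Prime) (Y.qv n j)
          (Y.qv n j).2)).map f = 1 := (Y.exists_x hpO n).choose_spec

theorem x_sub_one_mem (n : ℕ) (j : Fin r) : Y.x hpO n j - 1 ∈ maximalIdeal (Y.A n) := by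
  rw [(CA (Y.H n) (Y.hbar n)).mem_maximalIdeal, map_sub, map_one, (Y.x_spec hpO n j).1, sub_self]

theorem pt_x_iff (n : ℕ) (i : κ) (y : (Y.H n i).X) (j : Fin r) :
    pt (Y.H n) (Y.hbar n) i y (Y.x hpO n j) = 1 ↔
      ∀ σ ∈ (plv (Y.qv n j) (Y.qv n j).2).inertiaSubgroupIn ℚ, ∀ g,
        (Y.H n i).t y (σ * g) = (Y.H n i).t y g := by
  rw [map_x_iff (CA (Y.H n) (Y.hbar n)) (Fact.out : p.Prime) hpO (pt (Y.H n) (Y.hbar n) i y)
    (CA_contS _ _) (Y.hQ n) (Y.x_spec hpO n) j]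
  simp only [pt_t]

include hpO in
theorem exists_thA (n : ℕ) : ∃ θ : MvPowerSeries (Fin r) O →ₐ[O] Y.A n,
    ∀ j, θ (MvPowerSeries.X j) = Y.x hpO n j - 1 :=
  PS.exists_algHom (maximalIdeal (Y.A n)) (fun j => Y.x hpO n j - 1) (Y.x_sub_one_mem hpO n)

/-- `O⟦S₁..S_r⟧ → A_n`. -/
noncomputable def thA (n : ℕ) : MvPowerSeries (Fin r) O →ₐ[O] Y.A n :=
  (Y.exists_thA hpO n).choose

theorem thA_X (n : ℕ) (j : Fin r) : Y.thA hpO n (MvPowerSeries.X j) = Y.x hpO n j - 1 :=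
  (Y.exists_thA hpO n).choose_spec j

/-- the reduction to the bottom level -/
noncomputable def π (n : ℕ) : Y.A n →ₐ[O] Y.A₀ :=
  mapA (Y.H n) (Y.hbar n) Y.H₀ Y.hbar₀ (Y.πB n)
    (fun i g => πB_t (Y.H n) (Y.hbar n) Y.H₀ Y.hbar₀ (Y.πB n) (Y.badπ n) (Y.hπB n) i g)

theorem π_surjective (n : ℕ) : Function.Surjective (Y.π n) := mapA_surjective _ _ _ _ _ _

theorem pr_π (n : ℕ) (i : κ) (a : Y.A n) :
    pr Y.H₀ Y.hbar₀ i (Y.π n a) = Y.πB n i (pr (Y.H n) (Y.hbar n) i a) := rfl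

theorem π_rho (n : ℕ) (g : GQ) : ((CA (Y.H n) (Y.hbar n)).rho g).map (Y.π n) =
    (CA Y.H₀ Y.hbar₀).rho g := mapA_rho _ _ _ _ _ _ g

theorem π_x (n : ℕ) (j : Fin r) : Y.π n (Y.x hpO n j) = 1 := by
  have h1 := (Y.x_spec hpO n j).2.2 _ (Y.π n : Y.A n →+* Y.A₀)
  refine h1.mpr ?_
  have h2 : ((CA (Y.H n) (Y.hbar n)).rho (tmv p (Fact.out : p.Prime) (Y.qv n j)
          (Y.qv n j).2)).map (Y.π n : Y.A n →+* Y.A₀) = (CA Y.H₀ Y.hbar₀).rho _ :=
    Y.π_rho n _
  rw [h2]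
  exact (CA Y.H₀ Y.hbar₀).rho_inertia (CA_contS _ _) (Y.unr₀ n j)
    (plv_over (Y.qv n j) (Y.qv n j).2) (tmv_spec p (Fact.out : p.Prime) (Y.qv n j)
      (Y.qv n j).2).2.1

theorem π_thA (n : ℕ) (s : MvPowerSeries (Fin r) O) :
    Y.π n (Y.thA hpO n s) = algebraMap O Y.A₀ (MvPowerSeries.constantCoeff s) := by
  let cc : MvPowerSeries (Fin r) O →ₐ[O] O :=
    { MvPowerSeries.constantCoeff (σ := Fin r) (R := O) with
      commutes' := fun a => MvPowerSeries.constantCoeff_C a }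
  have h1 : (Y.π n).comp (Y.thA hpO n) = (Algebra.ofId O Y.A₀).comp cc := by
    haveI : IsHausdorff (maximalIdeal Y.A₀) Y.A₀ := inferInstance
    refine PS.algHom_ext (maximalIdeal Y.A₀) (fun j => ?_) (fun j => ?_)
    · rw [AlgHom.comp_apply, thA_X, map_sub, π_x, map_one, sub_self]
      exact zero_mem _
    · rw [AlgHom.comp_apply, thA_X, map_sub, π_x, map_one, sub_self, AlgHom.comp_apply]
      have h2 : cc (MvPowerSeries.X j) = 0 := MvPowerSeries.constantCoeff_X j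
      rw [h2, map_zero]
  exact DFunLike.congr_fun h1 s

section UD

variable (i : κ) {d : ℕ} (Mo : ∀ n, MData (Y.H n i) p (Y.qv n) (Y.e n) d)

/-- the map from power series to a component -/
noncomputable def thB (n : ℕ) : MvPowerSeries (Fin r) O →ₐ[O] (Y.H n i).B :=
  (pr (Y.H n) (Y.hbar n) i).comp (Y.thA hpO n)

theorem thB_X (n : ℕ) (j : Fin r) : Y.thB hpO i n (MvPowerSeries.X j) =
    pr (Y.H n) (Y.hbar n) i (Y.x hpO n j) - 1 := by
  rw [thB, AlgHom.comp_apply, thA_X, map_sub, map_one]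

theorem prx_pow (n : ℕ) (j : Fin r) : pr (Y.H n) (Y.hbar n) i (Y.x hpO n j) ^ p ^ Y.e n j = 1 := by
  rw [← map_pow, (Y.x_spec hpO n j).2.1, map_one]

include Mo in
theorem ev_prx (n : ℕ) (j : Fin r) (y : (Y.H n i).X) :
    (Y.H n i).ev y (pr (Y.H n) (Y.hbar n) i (Y.x hpO n j)) = 1 ↔
      (Y.H n i).ev y ((Mo n).dia (dl p (Y.e n) j)) = 1 := by
  rw [(Mo n).dia_iff]
  exact Y.pt_x_iff hpO n i y j

include hpO in
theorem exists_eN (n : ℕ) :
    ∃ ee : (Mo n).M ≃+ (Fin d → MvPowerSeries (Fin r) O ⧸ JJ O hpO (Y.e n)),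
      ∀ (s : MvPowerSeries (Fin r) O) (m : (Mo n).M), ee (Y.thB hpO i n s • m) = s • ee m := by
  haveI := ((Y.H n i).C (Y.hbar n)).isLocalRing
  haveI := ((Y.H n i).C (Y.hbar n)).isHausdorff
  refine (Mo n).exists_equivJ hpO (maximalIdeal (Y.H n i).B) (fun j => ?_)
    (Y.prx_pow hpO i n) (fun j y => Y.ev_prx hpO i Mo n j y) (Y.thB hpO i n) (Y.thB_X hpO i n)
  have h1 : ((Y.H n i).C (Y.hbar n)).resB (pr (Y.H n) (Y.hbar n) i (Y.x hpO n j)) = 1 := by
    have h2 := (Y.x_spec hpO n j).1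
    have h3 := Comp.res_eq (fun i => (Y.H n i).C (Y.hbar n)) (Y.x hpO n j) i
      (Classical.arbitrary κ)
    exact h3.trans h2
  rw [((Y.H n i).C (Y.hbar n)).mem_maximalIdeal, map_sub, map_one, h1, sub_self]

/-- the module structure over the power series ring -/
noncomputable abbrev modS (n : ℕ) : Module (MvPowerSeries (Fin r) O) (Mo n).M :=
  Module.compHom (Mo n).M (Y.thB hpO i n : MvPowerSeries (Fin r) O →+* (Y.H n i).B)

/-- the linear equivalence -/
noncomputable def eN (n : ℕ) :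
    letI := Y.modS hpO i Mo n
    (Mo n).M ≃ₗ[MvPowerSeries (Fin r) O] (Fin d → MvPowerSeries (Fin r) O ⧸ JJ O hpO (Y.e n)) :=
  letI := Y.modS hpO i Mo n
  { (Y.exists_eN hpO i Mo n).choose with
    map_smul' := fun s m => (Y.exists_eN hpO i Mo n).choose_spec s m }

/-- the action of the trace ring -/
noncomputable def rN (n : ℕ) :
    letI := Y.modS hpO i Mo n
    Y.A n →+* Module.End (MvPowerSeries (Fin r) O) (Mo n).M :=
  letI := Y.modS hpO i Mo n
  { toFun := fun a =>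
      { toFun := fun m => pr (Y.H n) (Y.hbar n) i a • m
        map_add' := fun x y => smul_add _ x y
        map_smul' := fun s m => by
          change pr (Y.H n) (Y.hbar n) i a • (Y.thB hpO i n s • m) =
            Y.thB hpO i n s • (pr (Y.H n) (Y.hbar n) i a • m)
          rw [smul_smul, smul_smul, mul_comm] }
    map_one' := by
      ext m
      change pr (Y.H n) (Y.hbar n) i 1 • m = m
      rw [map_one, one_smul]
    map_mul' := fun a b => by
      ext m
      change pr (Y.H n) (Y.hbar n) i (a * b) • m = pr (Y.H n) (Y.hbar n) i a •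
        (pr (Y.H n) (Y.hbar n) i b • m)
      rw [map_mul, mul_smul]
    map_zero' := by
      ext m
      change pr (Y.H n) (Y.hbar n) i 0 • m = 0
      rw [map_zero, zero_smul]
    map_add' := fun a b => by
      ext m
      change pr (Y.H n) (Y.hbar n) i (a + b) • m = pr (Y.H n) (Y.hbar n) i a • m +
        pr (Y.H n) (Y.hbar n) i b • m
      rw [map_add, add_smul] }

/-- **The patching data attached to a family of modules.** -/
noncomputable def UD : UData (MvPowerSeries (Fin r) O) (fun n => JJ O hpO (Y.e n)) Y.A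
    (fun n => (Y.thA hpO n : MvPowerSeries (Fin r) O →+* Y.A n)) where
  M n := (Mo n).M
  mod n := Y.modS hpO i Mo n
  d := d
  e n := Y.eN hpO i Mo n
  ρ n := Y.rN hpO i Mo n
  hθ _ _ := rfl

theorem UD_ρ (n : ℕ) (a : Y.A n) (m : (Mo n).M) :
    (Y.UD hpO i Mo).ρ n a m = pr (Y.H n) (Y.hbar n) i a • m := rfl

/-- Modules at the bottom level. -/
structure BData where
  N : Type
  [grp : AddCommGroup N]
  [modB : Module (Y.H₀ i).B N]
  f : ∀ n : ℕ, (Mo n).M →+ N
  f_surj : ∀ n : ℕ, Function.Surjective (f n)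
  f_smul : ∀ (n : ℕ) (b : (Y.H n i).B) (m : (Mo n).M), f n (b • m) = Y.πB n i b • f n m
  ker_f : ∀ (n : ℕ) (m : (Mo n).M), f n m = 0 ↔
    ∃ w : Fin r → (Mo n).M, m = ∑ j, ((Mo n).dia (dl p (Y.e n) j) • w j - w j)

attribute [instance] BData.grp BData.modB

variable {i Mo} (Z : Y.BData i Mo)

/-- the augmentation ideal -/
noncomputable def aug (O : Type) [CommRing O] (r : ℕ) : Ideal (MvPowerSeries (Fin r) O) :=
  Ideal.span (Set.range fun j : Fin r => (MvPowerSeries.X j : MvPowerSeries (Fin r) O))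

/-- module structure at the bottom level -/
noncomputable abbrev modN : Module (MvPowerSeries (Fin r) O) Z.N :=
  Module.compHom Z.N ((algebraMap O (Y.H₀ i).B).comp MvPowerSeries.constantCoeff)

/-- the action of the bottom trace ring -/
noncomputable def rN₀ :
    letI := Y.modN Z
    Y.A₀ →+* Module.End (MvPowerSeries (Fin r) O) Z.N :=
  letI := Y.modN Z
  { toFun := fun a =>
      { toFun := fun m => pr Y.H₀ Y.hbar₀ i a • m
        map_add' := fun x y => smul_add _ x y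
        map_smul' := fun s m => by
          change pr Y.H₀ Y.hbar₀ i a •
            (algebraMap O (Y.H₀ i).B (MvPowerSeries.constantCoeff s) • m) =
            algebraMap O (Y.H₀ i).B (MvPowerSeries.constantCoeff s) •
              (pr Y.H₀ Y.hbar₀ i a • m)
          rw [smul_smul, smul_smul, mul_comm] }
    map_one' := by
      ext m
      change pr Y.H₀ Y.hbar₀ i 1 • m = m
      rw [map_one, one_smul]
    map_mul' := fun a b => by
      ext m
      change pr Y.H₀ Y.hbar₀ i (a * b) • m = pr Y.H₀ Y.hbar₀ i a •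
        (pr Y.H₀ Y.hbar₀ i b • m)
      rw [map_mul, mul_smul]
    map_zero' := by
      ext m
      change pr Y.H₀ Y.hbar₀ i 0 • m = 0
      rw [map_zero, zero_smul]
    map_add' := fun a b => by
      ext m
      change pr Y.H₀ Y.hbar₀ i (a + b) • m = pr Y.H₀ Y.hbar₀ i a • m +
        pr Y.H₀ Y.hbar₀ i b • m
      rw [map_add, add_smul] }

include hpO in
theorem f_thB (n : ℕ) (s : MvPowerSeries (Fin r) O) (m : (Mo n).M) :
    Z.f n (Y.thB hpO i n s • m) =
      algebraMap O (Y.H₀ i).B (MvPowerSeries.constantCoeff s) • Z.f n m := by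
  rw [Z.f_smul]
  congr 1
  have h1 := congrArg (pr Y.H₀ Y.hbar₀ i) (Y.π_thA hpO n s)
  rw [AlgHom.commutes] at h1
  exact h1

/-- the specialisation map -/
noncomputable def fN (n : ℕ) :
    letI := Y.modS hpO i Mo n
    letI := Y.modN Z
    (Mo n).M →ₗ[MvPowerSeries (Fin r) O] Z.N :=
  letI := Y.modS hpO i Mo n
  letI := Y.modN Z
  { toFun := Z.f n
    map_add' := map_add _
    map_smul' := fun s m => Y.f_thB hpO Z n s m }

include hpO in
theorem ker_iff (n : ℕ) (m : (Mo n).M) : Z.f n m = 0 ↔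
    letI := Y.modS hpO i Mo n
    m ∈ (aug O r • (⊤ : Submodule (MvPowerSeries (Fin r) O) (Mo n).M)) := by
  letI := Y.modS hpO i Mo n
  refine Iff.trans ?_ (mem_span_range_smul_top _ m).symm
  rw [Z.ker_f]
  haveI := ((Y.H n i).C (Y.hbar n)).isLocalRing
  have h2 : ∀ (j : Fin r) (w : (Mo n).M),
      (MvPowerSeries.X j : MvPowerSeries (Fin r) O) • w =
        pr (Y.H n) (Y.hbar n) i (Y.x hpO n j) • w - w := by
    intro j w
    change Y.thB hpO i n (MvPowerSeries.X j) • w = _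
    rw [thB_X, sub_smul, one_smul]
  have h3 : ∀ (j : Fin r) (v : (Mo n).M),
      (∃ w : (Mo n).M, v = (Mo n).dia (dl p (Y.e n) j) • w - w) ↔
        ∃ w : (Mo n).M, v = pr (Y.H n) (Y.hbar n) i (Y.x hpO n j) • w - w := fun j v =>
    (Mo n).range_iff_x hpO (Y.prx_pow hpO i n) (fun j y => Y.ev_prx hpO i Mo n j y) j v
  constructor
  · rintro ⟨w, rfl⟩
    choose w' hw' using fun j => (h3 j _).mp ⟨w j, rfl⟩
    refine ⟨w', Finset.sum_congr rfl fun j _ => ?_⟩
    rw [h2, hw']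
  · rintro ⟨w, rfl⟩
    choose w' hw' using fun j => (h3 j _).mpr ⟨w j, rfl⟩
    refine ⟨w', Finset.sum_congr rfl fun j _ => ?_⟩
    rw [h2, hw']

theorem πθ (n : ℕ) {s : MvPowerSeries (Fin r) O} (hs : s ∈ aug O r) :
    Y.π n (Y.thA hpO n s) = 0 := by
  rw [π_thA]
  have h1 : aug O r ≤ RingHom.ker (MvPowerSeries.constantCoeff (σ := Fin r) (R := O)) := by
    rw [aug, Ideal.span_le]
    rintro _ ⟨j, rfl⟩
    exact MvPowerSeries.constantCoeff_X j
  have h2 : MvPowerSeries.constantCoeff s = 0 := h1 hs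
  rw [h2, map_zero]

/-- **The bottom level of the patching data.** -/
noncomputable def UB : UBase (Y.UD hpO i Mo) (aug O r) Y.A₀ where
  π n := (Y.π n : Y.A n →+* Y.A₀)
  surj n := Y.π_surjective n
  πθ n _ hs := Y.πθ hpO n hs
  N := Z.N
  mod := Y.modN Z
  ρ₀ := Y.rN₀ Z
  f n := Y.fN hpO Z n
  f_surj n := Z.f_surj n
  ker_f n := Submodule.ext fun m => Y.ker_iff hpO Z n m
  equiv n _ m := Z.f_smul n _ m


end UD

end Sys

end Fermat.Agent.H25.GE
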