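import Mathlib
import Fermat.Agent.H25.TWLocal

set_option autoImplicit false
set_option linter.unusedSectionVars false
set_option linter.style.haveILetI false

/-!
# The possible inertial types at `q ≡ 1 mod p`, residually trivial
-/

namespace Fermat.Agent.H25.CT

open Matrix

section Field

variable {Ω : Type*} [Field Ω] {S : Matrix (Fin 2) (Fin 2) Ω} {z z' c : Ω}

theorem trace_pow_eq (hS : S.det = 1) (hc : S.trace = c) (hz : z + z' = c) (hz' : z * z' = 1) :
    ∀ n : ℕ, (S ^ n).trace = z ^ n + z' ^ n ∧ (S ^ (n + 1)).trace = z ^ (n + 1) + z' ^ (n + 1)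
  | 0 => by
    refine ⟨?_, ?_⟩
    · rw [pow_zero, pow_zero, pow_zero, Matrix.trace_one, Fintype.card_fin]
      norm_num
    · rw [zero_add, pow_one, pow_one, pow_one, hc, hz]
  | (n + 1) => by
    obtain ⟨h1, h2⟩ := trace_pow_eq hS hc hz hz' n
    refine ⟨h2, ?_⟩
    have e : S ^ (n + 1 + 1) = c • S ^ (n + 1) - S ^ n := by
      rw [pow_add S n 1, pow_one, pow_succ (S) (n + 1), pow_succ S n, mul_assoc,
        Fermat.Agent.H25.TW.cayley, hc, hS, one_smul, mul_sub, mul_smul_comm, mul_one]
    rw [e, Matrix.trace_sub, Matrix.trace_smul, h1, h2, smul_eq_mul, ← hz]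
    ring_nf
    have : z * z' = 1 := hz'
    have e1 : z * z' * z ^ n = z ^ n := by rw [this, one_mul]
    have e2 : z * z' * z' ^ n = z' ^ n := by rw [this, one_mul]
    linear_combination e1 + e2

theorem smul_pow_eq (hS : S.det = 1) (hc : S.trace = c) (hz : z + z' = c) (hz' : z * z' = 1) :
    ∀ n : ℕ, (z - z') • S ^ (n + 1) = (z ^ (n + 1) - z' ^ (n + 1)) • S -
      (z ^ n - z' ^ n) • (1 : Matrix (Fin 2) (Fin 2) Ω)
  | 0 => by simp
  | (n + 1) => by
    have ih := smul_pow_eq hS hc hz hz' n
    rw [pow_succ S (n + 1), ← smul_mul_assoc, ih, sub_mul, smul_mul_assoc, smul_mul_assoc,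
      one_mul, Fermat.Agent.H25.TW.cayley, hc, hS, one_smul]
    ext i j
    simp only [Matrix.sub_apply, Matrix.smul_apply, smul_eq_mul]
    rw [← hz]
    have e1 : z * z' = 1 := hz'
    linear_combination ((z ^ n - z' ^ n) * S i j) * e1

end Field

/-- **Inertial types.** -/
theorem exists_type {O P k' : Type*} [CommRing O] [CommRing P] [IsDomain P] [Algebra O P]
    [FaithfulSMul O P] [Field k'] {p : ℕ} [Fact p.Prime] [CharP k' p] (hp2 : p ≠ 2)
    (ε : P →+* k') {Φ S : Matrix (Fin 2) (Fin 2) P} (hΦ : IsUnit Φ.det) (hS : S.det = 1)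
    (hc : ε S.trace = 2) (hne : S.trace ≠ 2) {q a u : ℕ} (hrel : Φ * S = S ^ q * Φ)
    (hq : q = 1 + p ^ a * u) (ha : 1 ≤ a) (hu : ¬ p ∣ u) {ω : O} (hω : IsPrimitiveRoot ω (p ^ a)) :
    ∃ i : ℕ, S.trace = algebraMap O P (ω ^ i + ω ^ ((p ^ a - 1) * i)) ∧ ¬ (p ^ a ∣ i) ∧
      S ^ q = S := by
  classical
  have hp : p.Prime := Fact.out
  let Ω := AlgebraicClosure (FractionRing P)
  let j : P →+* Ω := algebraMap P Ω
  have hj : Function.Injective j := by
    have h1 : Function.Injective (algebraMap P (FractionRing P)) :=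
      IsFractionRing.injective P (FractionRing P)
    have h2 : Function.Injective (algebraMap (FractionRing P) Ω) :=
      (algebraMap (FractionRing P) Ω).injective
    have h3 : (j : P → Ω) = (algebraMap (FractionRing P) Ω) ∘ (algebraMap P (FractionRing P)) := by
      funext x
      exact (IsScalarTower.algebraMap_apply P (FractionRing P) Ω x)
    rw [h3]
    exact h2.comp h1
  -- eigenvalue
  obtain ⟨z, hz⟩ : ∃ z : Ω, z ^ 2 - j S.trace * z + 1 = 0 := by
    have hdeg : (Polynomial.X ^ 2 - Polynomial.C (j S.trace) * Polynomial.X + 1 :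
        Polynomial Ω).degree ≠ 0 := by
      have : (Polynomial.X ^ 2 - Polynomial.C (j S.trace) * Polynomial.X + 1 :
        Polynomial Ω).degree = 2 := by compute_degree!
      rw [this]; decide
    obtain ⟨z, hz⟩ := IsAlgClosed.exists_root _ hdeg
    refine ⟨z, ?_⟩
    simpa [Polynomial.IsRoot] using hz
  have hz0 : z ≠ 0 := by
    rintro rfl
    simp at hz
  have hzz : z * z⁻¹ = 1 := mul_inv_cancel₀ hz0
  have hsum : z + z⁻¹ = j S.trace := by
    have h1 : z * (z + z⁻¹ - j S.trace) = 0 := by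
      linear_combination hz + hzz
    rcases mul_eq_zero.mp h1 with h2 | h2
    · exact absurd h2 hz0
    · exact sub_eq_zero.mp h2
  -- the mapped matrices
  let S' := S.map j
  let Φ' := Φ.map j
  have hS' : S'.det = 1 := by
    have := RingHom.map_det j S
    rw [hS, map_one] at this
    exact this.symm
  have hc' : S'.trace = j S.trace := (AddMonoidHom.map_trace j.toAddMonoidHom S).symm
  have hrel' : Φ' * S' = S' ^ q * Φ' := by
    have h1 := congrArg (fun M => (j.mapMatrix M : Matrix (Fin 2) (Fin 2) Ω)) hrel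
    simp only [map_mul, map_pow] at h1
    exact h1
  have hΦ' : IsUnit Φ'.det := by
    have := RingHom.map_det j Φ
    rw [show Φ'.det = j Φ.det from this.symm]
    exact hΦ.map j
  have htr : (S' ^ q).trace = S'.trace := by
    have h1 : S' ^ q = Φ' * S' * Φ'⁻¹ := by
      rw [hrel', Matrix.mul_nonsing_inv_cancel_right _ _ hΦ']
    rw [h1, Matrix.trace_mul_comm, ← mul_assoc, Matrix.nonsing_inv_mul _ hΦ', one_mul]
  have hzq : z ^ q + z⁻¹ ^ q = z + z⁻¹ := by
    rw [← (trace_pow_eq hS' hc' hsum hzz q).1, htr, hc', hsum]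
  have hcases : z ^ (q - 1) = 1 ∨ z ^ (q + 1) = 1 := by
    have hq1 : 1 ≤ q := by omega
    have h1 : (z ^ q - z) * (1 - z⁻¹ ^ (q + 1)) = 0 := by
      have e1 : z ^ q * z⁻¹ ^ (q + 1) = z⁻¹ := by
        rw [pow_succ, ← mul_assoc, ← mul_pow, hzz, one_pow, one_mul]
      have e2 : z * z⁻¹ ^ (q + 1) = z⁻¹ ^ q := by
        rw [pow_succ', ← mul_assoc, hzz, one_mul]
      linear_combination hzq - e1 + e2
    rcases mul_eq_zero.mp h1 with h2 | h2
    · left
      have h3 : z * (z ^ (q - 1) - 1) = 0 := by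
        rw [mul_sub, ← pow_succ', Nat.sub_add_cancel hq1, mul_one]
        exact h2
      rcases mul_eq_zero.mp h3 with h4 | h4
      · exact absurd h4 hz0
      · exact sub_eq_zero.mp h4
    · right
      rw [inv_pow, sub_eq_zero, eq_comm, inv_eq_one] at h2
      exact h2
  -- integrality and reduction
  let P' := integralClosure P Ω
  have hzint : IsIntegral P z := by
    refine ⟨Polynomial.X ^ 2 - Polynomial.C S.trace * Polynomial.X + 1, by monicity!, ?_⟩
    simp only [Polynomial.eval₂_add, Polynomial.eval₂_sub, Polynomial.eval₂_pow,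
      Polynomial.eval₂_X, Polynomial.eval₂_mul, Polynomial.eval₂_C, Polynomial.eval₂_one]
    exact hz
  let zz : P' := ⟨z, hzint⟩
  haveI : (RingHom.ker ε).IsPrime := RingHom.ker_isPrime ε
  obtain ⟨M, hM, hMc⟩ := Ideal.exists_ideal_over_prime_of_isIntegral (S := P')
    (RingHom.ker ε) (⊥ : Ideal P') (by
      intro x hx
      rw [Ideal.mem_comap, Ideal.mem_bot] at hx
      have h1 : x = 0 := by
        apply hj
        have h2 := congrArg (Subtype.val : P' → Ω) hx
        rw [map_zero]
        exact h2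
      rw [h1]; exact zero_mem _)
  obtain ⟨hM1, hM2⟩ := hMc
  have hmemM : ∀ x : P, ε x = 0 → algebraMap P P' x ∈ M := by
    intro x hx
    have : x ∈ M.comap (algebraMap P P') := by
      rw [hM2]; exact hx
    exact this
  have hnat : ∀ n : ℕ, ¬ p ∣ n → ((n : ℕ) : P') ∉ M := by
    intro n hn h
    apply hn
    rw [← CharP.cast_eq_zero_iff k' p]
    have h1 : (n : P) ∈ M.comap (algebraMap P P') := by
      rw [Ideal.mem_comap, map_natCast]; exact h
    rw [hM2, RingHom.mem_ker, map_natCast] at h1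
    exact h1
  have hz1 : zz - 1 ∈ M := by
    have h1 : (zz - 1) ^ 2 ∈ M := by
      have h2 : (zz - 1) ^ 2 = algebraMap P P' (S.trace - 2) * zz := by
        apply Subtype.ext
        have h3 : ((zz - 1) ^ 2 : P').1 = (z - 1) ^ 2 := rfl
        have h4 : (algebraMap P P' (S.trace - 2) * zz : P').1 = j (S.trace - 2) * z := rfl
        rw [h3, h4, map_sub, map_ofNat]
        linear_combination hz
      rw [h2]
      refine Ideal.mul_mem_right _ _ (hmemM _ ?_)
      rw [map_sub, hc, map_ofNat, sub_self]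
    exact hM1.mem_of_pow_mem 2 h1
  have hgeom : ∀ (y : P') (n : ℕ), y - 1 ∈ M → ¬ p ∣ n → y ^ n = 1 → y = 1 := by
    intro y n hy hn hyn
    have h1 : (∑ i ∈ Finset.range n, y ^ i) * (y - 1) = 0 := by
      rw [geom_sum_mul, hyn, sub_self]
    rcases mul_eq_zero.mp h1 with h2 | h2
    · exfalso
      apply hnat n hn
      have h3 : (n : P') - ∑ i ∈ Finset.range n, y ^ i ∈ M := by
        rw [← Ideal.Quotient.eq_zero_iff_mem, map_sub, map_sum]
        have h4 : Ideal.Quotient.mk M y = 1 := by
          rw [← map_one (Ideal.Quotient.mk M), Ideal.Quotient.eq]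
          exact hy
        simp only [map_pow, h4, one_pow, Finset.sum_const, Finset.card_range, nsmul_eq_mul,
          mul_one, map_natCast, sub_self]
      rw [h2, sub_zero] at h3
      exact h3
    · exact sub_eq_zero.mp h2
  have hz1ne : z ≠ 1 := by
    rintro rfl
    apply hne
    apply hj
    rw [← hsum, inv_one, map_ofNat]
    norm_num
  have hzp : z ^ p ^ a = 1 := by
    rcases hcases with h1 | h1
    · have h2 : (zz ^ p ^ a) ^ u = 1 := by
        apply Subtype.ext
        have : ((zz ^ p ^ a) ^ u : P').1 = (z ^ p ^ a) ^ u := rfl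
        rw [this, ← pow_mul, show p ^ a * u = q - 1 by omega, h1]
        rfl
      have h3 := hgeom _ u (by
        have h5 : zz ^ p ^ a - 1 = (∑ i ∈ Finset.range (p ^ a), zz ^ i) * (zz - 1) :=
          (geom_sum_mul zz (p ^ a)).symm
        rw [h5]
        exact Ideal.mul_mem_left _ _ hz1) hu h2
      exact congrArg Subtype.val h3
    · exfalso
      apply hz1ne
      have h2 : zz ^ (q + 1) = 1 := Subtype.ext h1
      have h3 := hgeom zz (q + 1) hz1 (by
        intro h
        have h4 : p ∣ p ^ a * u := Dvd.dvd.mul_right (dvd_pow_self p (by omega)) u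
        have h5 : p ∣ 2 := by
          have h6 : q + 1 = p ^ a * u + 2 := by omega
          rw [h6] at h
          exact (Nat.dvd_add_right h4).mp h
        exact hp2 ((Nat.prime_dvd_prime_iff_eq hp Nat.prime_two).mp h5)) h2
      exact congrArg Subtype.val h3
  -- root of unity in `O`
  have hinj : Function.Injective (j.comp (algebraMap O P)) :=
    hj.comp (FaithfulSMul.algebraMap_injective O P)
  have hω' : IsPrimitiveRoot ((j.comp (algebraMap O P)) ω) (p ^ a) := hω.map_of_injective hinj
  haveI : NeZero (p ^ a) := ⟨pow_ne_zero _ hp.ne_zero⟩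
  obtain ⟨i, hi, hiz⟩ := hω'.eq_pow_of_pow_eq_one hzp
  have hpa : 1 ≤ p ^ a := Nat.one_le_pow _ _ hp.pos
  have hinv : z⁻¹ = (j.comp (algebraMap O P)) ω ^ ((p ^ a - 1) * i) := by
    have h1 : (j.comp (algebraMap O P)) ω ^ ((p ^ a - 1) * i) * z = 1 := by
      rw [← hiz, ← pow_add]
      have : (p ^ a - 1) * i + i = p ^ a * i := by
        obtain ⟨c, hc⟩ := Nat.exists_eq_add_of_le hpa
        rw [hc, Nat.add_sub_cancel_left]; ring
      rw [this, pow_mul, hω'.pow_eq_one, one_pow]
    exact (eq_inv_of_mul_eq_one_left h1).symm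
  refine ⟨i, ?_, ?_, ?_⟩
  · apply hj
    rw [← hsum, hinv, ← hiz, map_add, map_pow, map_pow, map_add, map_pow, map_pow]
    rfl
  · intro hdiv
    apply hz1ne
    rw [← hiz, ← hω'.pow_eq_one]
    obtain ⟨c, rfl⟩ := hdiv
    rw [pow_mul, hω'.pow_eq_one, one_pow]
  · -- `S ^ q = S`
    have hzne : z - z⁻¹ ≠ 0 := by
      intro h
      have h1 : z ^ 2 = 1 := by
        have : z * (z - z⁻¹) = 0 := by rw [h, mul_zero]
        linear_combination this + hzz
      have hodd : Odd (p ^ a) := (hp.odd_of_ne_two hp2).pow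
      obtain ⟨c, hc⟩ := hodd
      apply hz1ne
      have h2 := hzp
      rw [hc, pow_add, pow_mul, h1, one_pow, one_mul, pow_one] at h2
      exact h2
    have hzq1 : z ^ (q - 1) = 1 := by
      rw [show q - 1 = p ^ a * u by omega, pow_mul, hzp, one_pow]
    have h1 := smul_pow_eq hS' hc' hsum hzz (q - 1)
    have hq1 : q - 1 + 1 = q := by omega
    rw [hq1, inv_pow, inv_pow, hzq1, inv_one, sub_self, zero_smul, sub_zero] at h1
    have h2 : z ^ q = z := by
      rw [← hq1, pow_succ, hzq1, one_mul]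
    rw [h2] at h1
    have h3 : S' ^ q = S' := smul_right_injective _ hzne h1
    have h4 : (j.mapMatrix (S ^ q) : Matrix (Fin 2) (Fin 2) Ω) = j.mapMatrix S := by
      rw [map_pow]; exact h3
    ext b c
    apply hj
    exact congrFun (congrFun h4 b) c

end Fermat.Agent.H25.CT
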