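import Mathlib
import Fermat.Agent.H25.DefCoc
import Fermat.Agent.TAlg.LL

set_option autoImplicit false
set_option linter.unusedSectionVars false
set_option linter.style.haveILetI false

/-!
# The tangent space of the framed problem and Selmer classes
-/

namespace Fermat.Agent.H25.GD

open IsLocalRing Fermat.Agent.CC Fermat.Agent.TW Matrix Fermat.Agent.TAlg

variable {O A k 𝒯 : Type} [CommRing O] [CommRing A] [Field k] [Finite k] [Algebra O A]
  [Finite 𝒯] {S : Finset Nat.Primes}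

theorem isDer_of_mem {res : A →+* k} {d : A → k} (h : d ∈ DerSpace (algebraMap O A) res) :
    IsDer O res d := ⟨h.1, h.2.1, h.2.2⟩

/-- **Counting framed first order deformations**, in terms of `TanSpace`. -/
theorem card_TanSpace_le (res : A →+* k) (ρ : GQ →* Mt A) (rbar : GQ →* Mt k)
    (hbar : ∀ g, (ρ g).map res = rbar g)
    (hdet : ∀ g, ∃ a : O, (ρ g).det = algebraMap O A a)
    (hcont : ∃ U, (levS S).isOpen U ∧ ∀ s ∈ U, MatCong (RingHom.ker res ^ 2) (ρ s) 1)
    (hgen : Algebra.adjoin O (Set.range fun g => (ρ g).trace) = ⊤)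
    (D : 𝒯 → Subgroup GQ) (φ τ : 𝒯 → GQ) (hτ1 : ∀ q, rbar (τ q) = 1)
    (hD : ∀ q, ∀ g ∈ D q, ∃ a b : ℕ,
      MatCong (RingHom.ker res ^ 2) (ρ g) (ρ (φ q) ^ a * ρ (τ q) ^ b))
    (Sel : AddSubgroup (H1 (levS S) (Ad0 rbar (1 : GQ →* k)))) [Finite Sel]
    (hSel : ∀ (d : A → k) (hd : IsDer O res d),
      (∀ q, ∃ a : Ad0 rbar (1 : GQ →* k), ∀ g ∈ D q,
        (coc hd hbar hdet hcont).1 g = g • a - a) →
      H1.mk _ _ (coc hd hbar hdet hcont) ∈ Sel) :
    Finite (TanSpace (algebraMap O A) res (fun q => ρ (φ q)) (fun q => ρ (τ q))) ∧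
    Nat.card (TanSpace (algebraMap O A) res (fun q => ρ (φ q)) (fun q => ρ (τ q))) ≤
      Nat.card Sel * Nat.card (∀ q, H0 (D q) (Ad0 rbar (1 : GQ →* k))) := by
  classical
  set 𝒟 := TanSpace (algebraMap O A) res (fun q => ρ (φ q)) (fun q => ρ (τ q)) with h𝒟
  -- restriction to A
  have hdA : ∀ d : 𝒟, IsDer O res d.1.1 := fun d => isDer_of_mem d.2.1
  let y : ∀ (_ : 𝒟) (_ : 𝒯), Ad0 rbar (1 : GQ →* k) := fun d q => Ad0.mk (d.1.2 q) (d.2.2.1 q)
  have hyval : ∀ (d : 𝒟) (q : 𝒯), (y d q).val = d.1.2 q := fun d q => rfl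
  have hφ : ∀ (d : 𝒟) (q : 𝒯), (coc (hdA d) hbar hdet hcont).1 (φ q) =
      φ q • y d q - y d q := by
    intro d q
    apply Ad0.ext
    rw [coc_val, Ad0.val_sub, Ad0.val_gsmul, MonoidHom.one_apply, one_smul, hyval, cocVal]
    have h1 : (ρ (φ q)).map d.1.1 = rbar (φ q) * d.1.2 q - d.1.2 q * rbar (φ q) := by
      ext i j
      have h2 := d.2.2.2.1 q i j
      have h3 : (ρ (φ q)).map res = rbar (φ q) := hbar (φ q)
      beta_reduce at h2
      rw [h3] at h2
      rw [Matrix.map_apply, Matrix.sub_apply]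
      rw [Matrix.sub_apply] at h2
      linear_combination h2
    rw [h1, sub_mul, mul_assoc (d.1.2 q), r_mul_inv, mul_one]
  have hτ : ∀ (d : 𝒟) (q : 𝒯), (coc (hdA d) hbar hdet hcont).1 (τ q) =
      τ q • y d q - y d q := by
    intro d q
    apply Ad0.ext
    rw [coc_val, Ad0.val_sub, Ad0.val_gsmul, MonoidHom.one_apply, one_smul, hyval, cocVal]
    have h1 : (ρ (τ q)).map d.1.1 = 0 := by
      ext i j
      exact d.2.2.2.2 q i j
    have h2 : rbar (τ q)⁻¹ = 1 := by
      have := r_mul_inv rbar (τ q)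
      rwa [hτ1, one_mul] at this
    rw [h1, zero_mul, hτ1, h2, one_mul, mul_one, sub_self]
  have hmul : ∀ (d : 𝒟) (q : 𝒯) (g h : GQ),
      (coc (hdA d) hbar hdet hcont).1 g = g • y d q - y d q →
      (coc (hdA d) hbar hdet hcont).1 h = h • y d q - y d q →
      (coc (hdA d) hbar hdet hcont).1 (g * h) = (g * h) • y d q - y d q := by
    intro d q g h hg hh
    rw [(coc (hdA d) hbar hdet hcont).2.2, hg, hh, smul_sub, mul_smul]
    abel
  have hpow : ∀ (d : 𝒟) (q : 𝒯) (g : GQ),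
      (coc (hdA d) hbar hdet hcont).1 g = g • y d q - y d q → ∀ n : ℕ,
      (coc (hdA d) hbar hdet hcont).1 (g ^ n) = (g ^ n) • y d q - y d q := by
    intro d q g hg n
    induction n with
    | zero =>
      have h1 := (coc (hdA d) hbar hdet hcont).2.2 1 1
      rw [one_mul, one_smul] at h1
      rw [pow_zero, one_smul, sub_self]
      exact left_eq_add.mp h1
    | succ n ih =>
      rw [pow_succ]
      exact hmul d q _ _ ih hg
  have hDq : ∀ (d : 𝒟) (q : 𝒯), ∀ g ∈ D q,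
      (coc (hdA d) hbar hdet hcont).1 g = g • y d q - y d q := by
    intro d q g hg
    obtain ⟨a, b, hab⟩ := hD q g hg
    have h1 := hmul d q _ _ (hpow d q _ (hφ d q) a) (hpow d q _ (hτ d q) b)
    have h2 : MatCong (RingHom.ker res ^ 2) (ρ g) (ρ (φ q ^ a * τ q ^ b)) := by
      rwa [map_mul, map_pow, map_pow]
    have h3 : rbar g = rbar (φ q ^ a * τ q ^ b) := by
      rw [← hbar, ← hbar, map_res_cong h2]
    have h4 : rbar g⁻¹ = rbar (φ q ^ a * τ q ^ b)⁻¹ := by
      have e1 := r_mul_inv rbar (φ q ^ a * τ q ^ b)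
      rw [← h3] at e1
      calc rbar g⁻¹ = rbar g⁻¹ * (rbar g * rbar (φ q ^ a * τ q ^ b)⁻¹) := by rw [e1, mul_one]
        _ = _ := by rw [← mul_assoc, r_inv_mul, one_mul]
    apply Ad0.ext
    have h5 := congrArg Ad0.val h1
    rw [coc_val, cocVal, Ad0.val_sub, Ad0.val_gsmul, MonoidHom.one_apply, one_smul] at h5 ⊢
    rw [(hdA d).mat_cong h2, h4, h3, h5]
  -- determination
  have hdet' : ∀ d d' : 𝒟, H1.mk _ _ (coc (hdA d) hbar hdet hcont) =
      H1.mk _ _ (coc (hdA d') hbar hdet hcont) → d.1.1 = d'.1.1 := by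
    intro d d' h
    exact eq_of_mk_eq (hdA d) (hdA d') hbar hdet hcont hgen h
  have hall : ∀ d d' : 𝒟, d.1.1 = d'.1.1 → (∀ q, y d q = y d' q) → d = d' := by
    intro d d' h1 h2
    refine Subtype.ext (Prod.ext h1 (funext fun q => ?_))
    have h3 := congrArg Ad0.val (h2 q)
    rwa [hyval, hyval] at h3
  have hmemSel : ∀ d : 𝒟, H1.mk _ _ (coc (hdA d) hbar hdet hcont) ∈ Sel := fun d =>
    hSel _ (hdA d) fun q => ⟨y d q, hDq d q⟩
  -- representatives
  let cl : 𝒟 → Sel := fun d => ⟨H1.mk _ _ (coc (hdA d) hbar hdet hcont), hmemSel d⟩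
  let rep : Sel → Option 𝒟 := fun x => if h : ∃ d, cl d = x then some h.choose else none
  have hrep : ∀ d : 𝒟, ∃ d₀, rep (cl d) = some d₀ ∧ cl d₀ = cl d := by
    intro d
    have h : ∃ d', cl d' = cl d := ⟨d, rfl⟩
    exact ⟨h.choose, by simp only [rep]; rw [dif_pos h], h.choose_spec⟩
  choose d₀ hd₀ hd₀' using hrep
  have hd₀A : ∀ d : 𝒟, (d₀ d).1.1 = d.1.1 := fun d =>
    hdet' _ _ (congrArg Subtype.val (hd₀' d))
  have hH0 : ∀ (d : 𝒟) (q : 𝒯), y d q - y (d₀ d) q ∈ H0 (D q) (Ad0 rbar (1 : GQ →* k)) := by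
    intro d q g
    have h1 := hDq d q g g.2
    have h2 := hDq (d₀ d) q g g.2
    have h3 : (coc (hdA (d₀ d)) hbar hdet hcont).1 (g : GQ) =
        (coc (hdA d) hbar hdet hcont).1 (g : GQ) := by
      apply Ad0.ext
      rw [coc_val, coc_val, cocVal, cocVal, hd₀A d]
    rw [h3, h1] at h2
    rw [Ad0.smul_eq_of_mem, smul_sub]
    rw [sub_eq_sub_iff_add_eq_add] at h2 ⊢
    rw [add_comm (y d q), ← h2]
  let F : 𝒟 → Sel × (∀ q, H0 (D q) (Ad0 rbar (1 : GQ →* k))) := fun d =>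
    (cl d, fun q => ⟨y d q - y (d₀ d) q, hH0 d q⟩)
  have hF : Function.Injective F := by
    intro d d' h
    have h1 : cl d = cl d' := congrArg Prod.fst h
    have h2 : d₀ d = d₀ d' := by
      have e1 := hd₀ d
      rw [h1, hd₀ d'] at e1
      exact (Option.some_inj.mp e1).symm
    have h3 : ∀ q, y d q - y (d₀ d) q = y d' q - y (d₀ d') q := fun q =>
      congrArg Subtype.val (congrFun (congrArg Prod.snd h) q)
    refine hall d d' (hdet' _ _ (congrArg Subtype.val h1)) fun q => ?_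
    have := h3 q
    rw [h2] at this
    exact sub_left_injective this
  have hfinT : Finite (Sel × (∀ q, H0 (D q) (Ad0 rbar (1 : GQ →* k)))) := inferInstance
  haveI hfin : Finite 𝒟 := Finite.of_injective F hF
  refine ⟨hfin, ?_⟩
  rw [← Nat.card_prod]
  exact Nat.card_le_card_of_injective F hF

theorem finrank_le_of_card {V : Type} [AddCommGroup V] [Module k V] [Finite V] {r : ℕ}
    (h : Nat.card V ≤ Nat.card k ^ r) : Module.finrank k V ≤ r := by
  haveI : Fintype k := Fintype.ofFinite k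
  have h1 : Nat.card V = Nat.card k ^ Module.finrank k V := Module.natCard_eq_pow_finrank
  rw [h1] at h
  exact (Nat.pow_le_pow_iff_right (Finite.one_lt_card)).mp h

end Fermat.Agent.H25.GD
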