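import Mathlib
import Fermat.Agent.H25.Asm4
import Fermat.Agent.H25.TanCount
import Fermat.Agent.H25.ChiType

set_option autoImplicit false
set_option linter.unusedSectionVars false
set_option linter.style.haveILetI false

/-!
# Level lowering from a system: tangent spaces, types, congruences
-/

namespace Fermat.Agent.H25.GE

open Fermat.Agent.H25 Fermat.Agent.H25.PR Fermat.Agent.CC Fermat.Agent.TW IsLocalRing Matrix
open Fermat.Agent.H05 Fermat.Agent.H25.TR Fermat.Agent.H25.TWM Fermat.Agent.TAlg Fermat.Agent.H25.GD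

/-- Conditions on the framed primes. -/
structure FrD {O k : Type} [CommRing O] [Field k] (D : RD O k) (p : ℕ) {𝒯 : Type}
    (tv : 𝒯 → Nat.Primes) : Prop where
  ne : ∀ t, p ≠ tv t
  unr : ∀ t, ∀ σ ∈ (plv (tv t) (tv t).2).inertiaSubgroupIn ℚ, D.rbar σ = 1
  chi : ∀ t, ∀ σ ∈ (plv (tv t) (tv t).2).inertiaSubgroupIn ℚ, D.chi σ = 1
  chiF : ∀ t, D.chi (frv (tv t) (tv t).2) = ((tv t : ℕ) : O)

section Tan

variable {O k : Type} [CommRing O] [IsLocalRing O] [IsNoetherianRing O]
    [IsAdicComplete (maximalIdeal O) O] [Field k] [Finite k] {D : RD O k}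
    {S : Finset Nat.Primes} {bad : Finset ℕ} {κ : Type} [Finite κ] [Nonempty κ]
    (H : κ → CData D S bad) (hbar : HBar D S) {p : ℕ} (hp : p.Prime)
    (hpO : (p : O) ∈ maximalIdeal O) {𝒯 : Type} [Finite 𝒯] {tv : 𝒯 → Nat.Primes}

theorem CA_det (g : GQ) : ∃ a : O, ((CA H hbar).rho g).det = algebraMap O (AR H hbar) a :=
  ⟨D.chi g, (CA H hbar).det_rho g⟩

theorem CA_cont2 : ∃ U, (levS S).isOpen U ∧ ∀ s ∈ U,
    MatCong (RingHom.ker (CA H hbar).resB ^ 2) ((CA H hbar).rho s) 1 := by
  rw [(CA H hbar).ker_resB]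
  exact (Comp.ContS.mono _ (CA_contS H hbar) (CA H hbar).lamI_le).matCong _ 2

theorem CA_gen : Algebra.adjoin O (Set.range fun g => ((CA H hbar).rho g).trace) =
    (⊤ : Subalgebra O (AR H hbar)) := by
  have h1 : (fun g => ((CA H hbar).rho g).trace) = (CA H hbar).t := by
    funext g
    exact (CA H hbar).trace_rho g
  rw [h1]
  exact Comp.adjoin_t _

/-- the Selmer bound at one level -/
def SelB (r : ℕ) (tv : 𝒯 → Nat.Primes) : Prop :=
  ∃ (Sel : AddSubgroup (H1 (levS S) (Ad0 D.rbar (1 : GQ →* k)))) (_ : Finite Sel),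
    (∀ (d : AR H hbar → k) (hd : IsDer O (CA H hbar).resB d),
      (∀ q : 𝒯, ∃ a : Ad0 D.rbar (1 : GQ →* k),
        ∀ g ∈ (plv (tv q) (tv q).2).decompositionSubgroup ℚ,
        (coc hd (CA H hbar).rho_res (CA_det H hbar) (CA_cont2 H hbar)).1 g = g • a - a) →
      H1.mk _ _ (coc hd (CA H hbar).rho_res (CA_det H hbar) (CA_cont2 H hbar)) ∈ Sel) ∧
    Nat.card Sel * Nat.card (∀ q : 𝒯,
      H0 ((plv (tv q) (tv q).2).decompositionSubgroup ℚ) (Ad0 D.rbar (1 : GQ →* k))) ≤
        Nat.card k ^ r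

include hpO in
theorem finrank_tan {r : ℕ} (hT : FrD D p tv) (hSel : SelB H hbar r tv) :
    Module.finrank k (TanSpace (algebraMap O (AR H hbar)) (CA H hbar).resB
      (fun q => (CA H hbar).rho (frv (tv q) (tv q).2))
      (fun q => (CA H hbar).rho (tmv p hp (tv q) (tv q).2))) ≤ r := by
  obtain ⟨Sel, hfin, h1, h2⟩ := hSel
  obtain ⟨h3, h4⟩ := card_TanSpace_le (CA H hbar).resB (CA H hbar).rho D.rbar
    (CA H hbar).rho_res (CA_det H hbar) (CA_cont2 H hbar) (CA_gen H hbar)
    (fun q => (plv (tv q) (tv q).2).decompositionSubgroup ℚ)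
    (fun q => frv (tv q) (tv q).2) (fun q => tmv p hp (tv q) (tv q).2)
    (fun q => hT.unr q _ (tmv_spec p hp (tv q) (tv q).2).2.1)
    (fun q g hg => by
      rw [(CA H hbar).ker_resB]
      exact ((CA H hbar).local_at hp hpO (CA_contS H hbar) (tv q).2 (hT.ne q) (hT.unr q) 2).2.1
        g hg) Sel h1
  haveI := h3
  exact finrank_le_of_card (h4.trans h2)

end Tan

section Local

variable {O k : Type} [CommRing O] [IsLocalRing O] [IsNoetherianRing O]
    [IsAdicComplete (maximalIdeal O) O] [Field k] {D : RD O k}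
    {S : Finset Nat.Primes} {B : Type} [CommRing B] [Algebra O B] [Module.Finite O B]
    (C : Comp D B) {p : ℕ} (hp : p.Prime) (hpO : (p : O) ∈ maximalIdeal O)
    {𝒯 : Type} {tv : 𝒯 → Nat.Primes} (hT : FrD D p tv)

include hpO hT in
/-- unipotent type -/
theorem J1_le (hC : C.ContS S (lamI O B)) (t : 𝒯) {B' : Type} [CommRing B'] (f : B →+* B')
    (h2 : f (C.t (tmv p hp (tv t) (tv t).2)) = 2) :
    J1 (algebraMap O B ((tv t : ℕ) : O)) (C.rho (frv (tv t) (tv t).2))
      (C.rho (tmv p hp (tv t) (tv t).2)) ≤ RingHom.ker f := by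
  haveI := C.isLocalRing
  set Φ := C.rho (frv (tv t) (tv t).2)
  set T := C.rho (tmv p hp (tv t) (tv t).2)
  have hrel := C.rel_at hp hpO hC (tv t).2 (hT.ne t) (hT.unr t)
  have hdet : T.det = 1 := by
    rw [C.det_rho, hT.chi t _ (tmv_spec p hp (tv t) (tv t).2).2.1, map_one]
  have htr : f T.trace = 2 := by rw [C.trace_rho]; exact h2
  refine sup_le ?_ ?_
  · rw [ent_le_ker_iff]
    set Φ' := Φ.map f with hΦ'
    set T' := T.map f with hT'
    have hdet' : T'.det = 1 := by
      have := RingHom.map_det f T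
      rw [hdet, map_one] at this
      exact this.symm
    have htr' : T'.trace = 2 := by
      rw [← htr]
      exact (AddMonoidHom.map_trace f.toAddMonoidHom T).symm
    have hsq : (T' - 1) * (T' - 1) = 0 := by
      rw [sub_mul, mul_sub, mul_sub, Fermat.Agent.H25.TW.cayley, hdet', htr', one_mul, mul_one,
        one_mul, one_smul, two_smul]
      abel
    have hpow : ∀ n : ℕ, T' ^ n = 1 + (n : B') • (T' - 1) := by
      intro n
      induction n with
      | zero => simp
      | succ n ih =>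
        have e : T' ^ (n + 1) = T' ^ n * (T' - 1) + T' ^ n := by
          rw [pow_succ, mul_sub, mul_one, sub_add_cancel]
        rw [e, ih, add_mul, smul_mul_assoc, hsq, smul_zero, add_zero, one_mul]
        push_cast
        rw [add_smul, one_smul]
        abel
    have hrel' : Φ' * T' = T' ^ ((tv t : ℕ)) * Φ' := by
      have h1 := congrArg (fun M => (f.mapMatrix M : Matrix (Fin 2) (Fin 2) B')) hrel
      simp only [map_mul, map_pow] at h1
      exact h1
    have hgoal : Φ' * (T' - 1) - ((tv t : ℕ) : B') • ((T' - 1) * Φ') = 0 := by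
      rw [mul_sub, mul_one, hrel', hpow, add_mul, one_mul, smul_mul_assoc]
      abel
    have e1 : (Φ * (T - 1) - (algebraMap O B ((tv t : ℕ) : O)) • ((T - 1) * Φ)).map f =
        Φ' * (T' - 1) - ((tv t : ℕ) : B') • ((T' - 1) * Φ') := by
      have h2 : ∀ X : Matrix (Fin 2) (Fin 2) B, X.map f = f.mapMatrix X := fun X => rfl
      have h3 : f (algebraMap O B ((tv t : ℕ) : O)) = ((tv t : ℕ) : B') := by
        rw [map_natCast, map_natCast]
      have h4 : ∀ (a : B) (X : Matrix (Fin 2) (Fin 2) B),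
          f.mapMatrix (a • X) = f a • f.mapMatrix X := by
        intro a X
        ext i j
        simp
      rw [h2, map_sub, h4, map_mul, map_mul, map_sub, map_one, h3]
      rfl
    rw [e1, hgoal]
  · rw [Ideal.span_singleton_le_iff_mem, RingHom.mem_ker, map_sub, htr, map_ofNat, sub_self]

variable {P : Type} [CommRing P] [IsDomain P] [Algebra O P] [Module.Finite O P]
  [FaithfulSMul O P] [Fact p.Prime]

include hpO hT in
/-- ramified principal series types -/
theorem exists_Jchi_le (hp2 : p ≠ 2) (hC : C.ContS S (lamI O B)) (t : 𝒯) (f : B →ₐ[O] P)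
    (h2 : f (C.t (tmv p hp (tv t) (tv t).2)) ≠ 2) {a u : ℕ}
    (hq : ((tv t : ℕ)) = 1 + p ^ a * u) (ha : 1 ≤ a) (hu : ¬ p ∣ u) {ω : O}
    (hω : IsPrimitiveRoot ω (p ^ a)) :
    ∃ i : ℕ, ¬ (p ^ a ∣ i) ∧
      Jchi (algebraMap O B (ω ^ i + ω ^ ((p ^ a - 1) * i))) (C.rho (frv (tv t) (tv t).2))
      (C.rho (tmv p hp (tv t) (tv t).2)) ≤ RingHom.ker f := by
  haveI := C.isLocalRing
  haveI := C.isLocalHom
  set Φ := C.rho (frv (tv t) (tv t).2)
  set T := C.rho (tmv p hp (tv t) (tv t).2)
  have hrel := C.rel_at hp hpO hC (tv t).2 (hT.ne t) (hT.unr t)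
  have hdet : T.det = 1 := by
    rw [C.det_rho, hT.chi t _ (tmv_spec p hp (tv t) (tv t).2).2.1, map_one]
  set Φ' := Φ.map (f : B →+* P) with hΦ'
  set T' := T.map (f : B →+* P) with hT'
  have hdet' : T'.det = 1 := by
    have := RingHom.map_det (f : B →+* P) T
    rw [hdet, map_one] at this
    exact this.symm
  have htr' : T'.trace = f T.trace := (AddMonoidHom.map_trace (f : B →+* P).toAddMonoidHom T).symm
  have hrel' : Φ' * T' = T' ^ ((tv t : ℕ)) * Φ' := by
    have h1 := congrArg (fun M => ((f : B →+* P).mapMatrix M : Matrix (Fin 2) (Fin 2) P)) hrel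
    simp only [map_mul, map_pow] at h1
    exact h1
  have hΦu : IsUnit Φ'.det := by
    have := RingHom.map_det (f : B →+* P) Φ
    rw [show Φ'.det = (f : B →+* P) Φ.det from this.symm]
    exact (C.isUnit_det _).map _
  -- a residue field of `P`
  obtain ⟨M, hM⟩ := Ideal.exists_maximal P
  letI : Field (P ⧸ M) := Ideal.Quotient.field M
  letI algBP : Algebra B P := (f : B →+* P).toAlgebra
  haveI : IsScalarTower O B P := IsScalarTower.of_algebraMap_eq fun a => (f.commutes a).symm
  haveI : Algebra.IsIntegral O P := inferInstance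
  haveI : Algebra.IsIntegral B P := ⟨fun y => (Algebra.IsIntegral.isIntegral (R := O) y).tower_top⟩
  have hMB : (M.comap (algebraMap B P)).IsMaximal := Ideal.isMaximal_comap_of_isIntegral_of_isMaximal M
  have hMB' := IsLocalRing.eq_maximalIdeal hMB
  have hmem : ∀ b ∈ maximalIdeal B, f b ∈ M := by
    intro b hb
    rw [← hMB'] at hb
    exact hb
  have hpM : ((p : ℕ) : P ⧸ M) = 0 := by
    have h3 := hmem _ (C.p_mem hpO)
    rw [map_natCast] at h3
    rw [← map_natCast (Ideal.Quotient.mk M), Ideal.Quotient.eq_zero_iff_mem]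
    exact h3
  haveI : CharP (P ⧸ M) p := (CharP.charP_iff_prime_eq_zero hp).mpr hpM
  obtain ⟨i, h3, h4, h5⟩ := Fermat.Agent.H25.CT.exists_type (O := O) (k' := P ⧸ M) hp2
    (Ideal.Quotient.mk M) hΦu hdet' (by
      rw [← sub_eq_zero, ← map_ofNat (Ideal.Quotient.mk M) 2, ← map_sub,
        Ideal.Quotient.eq_zero_iff_mem, htr']
      have e : f T.trace - 2 = f (T.trace - 2) := by rw [map_sub, map_ofNat]
      rw [e]
      apply hmem
      rw [C.trace_rho, C.mem_maximalIdeal, map_sub, C.res_t, map_ofNat, ← D.trace_rbar,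
        hT.unr t _ (tmv_spec p hp (tv t) (tv t).2).2.1, Matrix.trace_one, Fintype.card_fin]
      norm_num) (by rw [htr', C.trace_rho]; exact h2) hrel' hq ha hu hω
  refine ⟨i, h4, sup_le ?_ ?_⟩
  · change _ ≤ RingHom.ker (f : B →+* P)
    rw [ent_le_ker_iff]
    have e1 : (Φ * T - T * Φ).map (f : B →+* P) = Φ' * T' - T' * Φ' := by
      have h2 : ∀ X : Matrix (Fin 2) (Fin 2) B,
        X.map (f : B →+* P) = (f : B →+* P).mapMatrix X := fun X => rfl
      rw [h2, map_sub, map_mul, map_mul]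
      rfl
    rw [e1, hrel', h5, sub_self]
  · rw [Ideal.span_singleton_le_iff_mem, RingHom.mem_ker, map_sub, ← htr', h3, AlgHom.commutes,
      sub_self]

end Local

end Fermat.Agent.H25.GE
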