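import Mathlib
import Fermat.Agent.H25.Asm5

set_option autoImplicit false
set_option linter.unusedSectionVars false
set_option linter.style.haveILetI false

/-!
# Level lowering from a system
-/

namespace Fermat.Agent.H25.GE

open Fermat.Agent.H25 Fermat.Agent.H25.PR Fermat.Agent.CC Fermat.Agent.TW IsLocalRing Matrix
open Fermat.Agent.H05 Fermat.Agent.H25.TR Fermat.Agent.H25.TWM Fermat.Agent.TAlg Fermat.Agent.H25.GD

section Lift

variable {S M₁ M₂ : Type} [CommRing S] [IsLocalRing S] [AddCommGroup M₁] [Module S M₁]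
  [AddCommGroup M₂] [Module S M₂] {J : Ideal S} {d₁ d₂ : ℕ}

/-- lifting a map which is linear modulo an ideal. -/
theorem exists_lift (e₁ : M₁ ≃ₗ[S] (Fin d₁ → S ⧸ J)) (e₂ : M₂ ≃ₗ[S] (Fin d₂ → S ⧸ J))
    (I : Ideal S) (hI : I ≤ maximalIdeal S) (g' : M₁ →+ M₂)
    (hlin : ∀ (s : S) (m : M₁), g' (s • m) - s • g' m ∈ I • (⊤ : Submodule S M₂))
    (hsurj : ∀ m₂ : M₂, ∃ m₁ : M₁, m₂ - g' m₁ ∈ I • (⊤ : Submodule S M₂)) :
    ∃ g : M₁ →ₗ[S] M₂, Function.Surjective g ∧
      ∀ m, g m - g' m ∈ I • (⊤ : Submodule S M₂) := by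
  classical
  have hJ : ∀ s ∈ J, ∀ m : M₂, s • m = 0 := by
    intro s hs m
    apply e₂.injective
    rw [map_smul, map_zero]
    funext i
    obtain ⟨y, hy⟩ := Ideal.Quotient.mk_surjective (e₂ m i)
    rw [Pi.smul_apply, Pi.zero_apply, ← hy]
    change Ideal.Quotient.mk J (s * y) = 0
    rw [Ideal.Quotient.eq_zero_iff_mem]
    exact Ideal.mul_mem_right _ _ hs
  let u : Fin d₁ → M₁ := fun i => e₁.symm (Pi.single i 1)
  let w : Fin d₁ → M₂ := fun i => g' (u i)
  let fi : Fin d₁ → (S ⧸ J) →ₗ[S] M₂ := fun i =>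
    Submodule.liftQ J (LinearMap.toSpanSingleton S M₂ (w i)) fun s hs => by
      rw [LinearMap.mem_ker, LinearMap.toSpanSingleton_apply]
      exact hJ s hs _
  let g : M₁ →ₗ[S] M₂ := (∑ i, (fi i).comp (LinearMap.proj i)).comp e₁.toLinearMap
  have hg : ∀ (s : Fin d₁ → S), g (∑ i, s i • u i) = ∑ i, s i • w i := by
    intro s
    have h1 : e₁ (∑ i, s i • u i) = fun i => Ideal.Quotient.mk J (s i) := by
      rw [map_sum]
      funext j
      rw [Finset.sum_apply, Finset.sum_eq_single j]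
      · rw [map_smul, LinearEquiv.apply_symm_apply, Pi.smul_apply, Pi.single_eq_same]
        change Ideal.Quotient.mk J (s j * 1) = _
        rw [mul_one]
      · intro i _ hij
        rw [map_smul, LinearEquiv.apply_symm_apply, Pi.smul_apply, Pi.single_eq_of_ne hij.symm,
          smul_zero]
      · intro h; exact absurd (Finset.mem_univ j) h
    have h2 : g (∑ i, s i • u i) = ∑ i, fi i (e₁ (∑ i, s i • u i) i) := by
      simp only [g, LinearMap.comp_apply, LinearEquiv.coe_coe, LinearMap.sum_apply,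
        LinearMap.proj_apply]
    rw [h2, h1]
    refine Finset.sum_congr rfl fun i _ => ?_
    change Submodule.liftQ J (LinearMap.toSpanSingleton S M₂ (w i)) _ (Submodule.Quotient.mk (s i)) = _
    rw [Submodule.liftQ_apply, LinearMap.toSpanSingleton_apply]
  have hdec : ∀ m : M₁, ∃ s : Fin d₁ → S, m = ∑ i, s i • u i := by
    intro m
    choose s hs using fun i => Ideal.Quotient.mk_surjective (e₁ m i)
    refine ⟨s, ?_⟩
    apply e₁.injective
    rw [map_sum]
    funext j
    rw [Finset.sum_apply, Finset.sum_eq_single j]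
    · rw [map_smul, LinearEquiv.apply_symm_apply, Pi.smul_apply, Pi.single_eq_same, ← hs]
      change _ = Ideal.Quotient.mk J (s j * 1)
      rw [mul_one]
    · intro i _ hij
      rw [map_smul, LinearEquiv.apply_symm_apply, Pi.smul_apply, Pi.single_eq_of_ne hij.symm,
        smul_zero]
    · intro h; exact absurd (Finset.mem_univ j) h
  have hcong : ∀ m, g m - g' m ∈ I • (⊤ : Submodule S M₂) := by
    intro m
    obtain ⟨s, rfl⟩ := hdec m
    rw [hg, map_sum, ← Finset.sum_sub_distrib]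
    refine Submodule.sum_mem _ fun i _ => ?_
    have := hlin (s i) (u i)
    rw [← neg_mem_iff, neg_sub]
    exact this
  refine ⟨g, ?_, hcong⟩
  haveI : Module.Finite S M₂ := Module.Finite.equiv e₂.symm
  rw [← LinearMap.range_eq_top]
  have h3 : (⊤ : Submodule S M₂) ≤ LinearMap.range g ⊔ I • ⊤ := by
    intro m₂ _
    obtain ⟨m₁, hm₁⟩ := hsurj m₂
    have h4 : m₂ = g m₁ + (m₂ - g' m₁ - (g m₁ - g' m₁)) := by abel
    rw [h4]
    exact Submodule.add_mem_sup ⟨m₁, rfl⟩ (Submodule.sub_mem _ hm₁ (hcong m₁))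
  have h5 := Submodule.le_of_le_smul_of_le_jacobson_bot (I := I) (N := LinearMap.range g)
    (N' := (⊤ : Submodule S M₂)) Module.Finite.fg_top
    (hI.trans (IsLocalRing.maximalIdeal_le_jacobson _)) h3
  exact top_le_iff.mp h5

end Lift

end Fermat.Agent.H25.GE
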