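import Mathlib
import Fermat.Agent.H25.Asm6

set_option autoImplicit false
set_option linter.unusedSectionVars false
set_option linter.style.haveILetI false

/-!
# Level lowering from a system
-/

namespace Fermat.Agent.H25.GE

open Fermat.Agent.H25 Fermat.Agent.H25.PR Fermat.Agent.CC Fermat.Agent.TW IsLocalRing Matrix
open Fermat.Agent.H05 Fermat.Agent.H25.TR Fermat.Agent.H25.TWM Fermat.Agent.TAlg Fermat.Agent.H25.GD

namespace Sys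

variable {O k : Type} [CommRing O] [IsDomain O] [CharZero O] [IsLocalRing O]
    [IsNoetherianRing O] [IsAdicComplete (maximalIdeal O) O] [Finite (ResidueField O)]
    [Field k] [Finite k] {D : RD O k}
    {p : ℕ} [Fact p.Prime] (hpO : (p : O) ∈ maximalIdeal O)
    {r : ℕ} {κ : Type} [Finite κ] [Nonempty κ] (Y : Sys D p r κ)

/-- Congruences between the modules of two components. -/
structure Cong {i₁ i₂ : κ} {d₁ d₂ : ℕ} (Mo₁ : ∀ n, MData (Y.H n i₁) p (Y.qv n) (Y.e n) d₁)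
    (Mo₂ : ∀ n, MData (Y.H n i₂) p (Y.qv n) (Y.e n) d₂) (ϖ : O) where
  g : ∀ n : ℕ, (Mo₁ n).M →ₗ[O] (Mo₂ n).M
  badg : ℕ → Finset ℕ
  g_T : ∀ (n ℓ : ℕ), ℓ.Prime → ℓ ∉ badg n → ∀ m, ∃ w,
    g n ((Y.H n i₁).T ℓ • m) - (Y.H n i₂).T ℓ • g n m = ϖ • w
  g_surj : ∀ (n : ℕ) m₂, ∃ m₁ w, m₂ - g n m₁ = ϖ • w

variable {Y} {i₁ i₂ : κ} {d₁ d₂ : ℕ} {Mo₁ : ∀ n, MData (Y.H n i₁) p (Y.qv n) (Y.e n) d₁}
    {Mo₂ : ∀ n, MData (Y.H n i₂) p (Y.qv n) (Y.e n) d₂} {ϖ : O} (G : Y.Cong Mo₁ Mo₂ ϖ)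

/-- the pairs acting compatibly modulo `ϖ` -/
def Cong.W (n : ℕ) : Subalgebra O ((Y.H n i₁).B × (Y.H n i₂).B) where
  carrier := {b | ∀ m, ∃ w, G.g n (b.1 • m) - b.2 • G.g n m = ϖ • w}
  mul_mem' := by
    intro b c hb hc m
    obtain ⟨w, hw⟩ := hb (c.1 • m)
    obtain ⟨w', hw'⟩ := hc m
    refine ⟨w + b.2 • w', ?_⟩
    rw [Prod.fst_mul, Prod.snd_mul, mul_smul, mul_smul, smul_add, ← hw, smul_comm ϖ b.2, ← hw',
      smul_sub]
    abel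
  add_mem' := by
    intro b c hb hc m
    obtain ⟨w, hw⟩ := hb m
    obtain ⟨w', hw'⟩ := hc m
    refine ⟨w + w', ?_⟩
    rw [Prod.fst_add, Prod.snd_add, add_smul, add_smul, smul_add, ← hw, ← hw', map_add]
    abel
  algebraMap_mem' := by
    intro a m
    refine ⟨0, ?_⟩
    have h1 : (algebraMap O ((Y.H n i₁).B × (Y.H n i₂).B) a).1 • m = a • m := by
      change algebraMap O (Y.H n i₁).B a • m = _
      rw [algebraMap_smul]
    have h2 : (algebraMap O ((Y.H n i₁).B × (Y.H n i₂).B) a).2 • G.g n m = a • G.g n m := by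
      change algebraMap O (Y.H n i₂).B a • G.g n m = _
      rw [algebraMap_smul]
    rw [h1, h2, map_smul, sub_self, smul_zero]

theorem Cong.pr_mem (n : ℕ) (a : Y.A n) :
    (pr (Y.H n) (Y.hbar n) i₁ a, pr (Y.H n) (Y.hbar n) i₂ a) ∈ G.W n := by
  have hx : a ∈ (⊤ : Subalgebra O (AR (Y.H n) (Y.hbar n))) := trivial
  rw [← Comp.adjoin_t] at hx
  induction hx using Algebra.adjoin_induction with
  | mem x hx =>
    obtain ⟨g, rfl⟩ := hx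
    refine mem_of_frob ((Y.H n i₁).C (Y.hbar n)) ((Y.H n i₂).C (Y.hbar n))
      ((Y.H n i₁).C_contS (Y.hbar n)) ((Y.H n i₂).C_contS (Y.hbar n)) (G.W n)
      (G.badg n ∪ Y.bad n) (fun ℓ hℓ hb A hA φ hφ => ?_) g
    rw [Finset.notMem_union] at hb
    rw [(Y.H n i₁).C_frob (Y.hbar n) ℓ hℓ hb.2 A hA φ hφ,
      (Y.H n i₂).C_frob (Y.hbar n) ℓ hℓ hb.2 A hA φ hφ]
    exact G.g_T n ℓ hℓ hb.1
  | algebraMap c =>
    rw [AlgHom.commutes, AlgHom.commutes]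
    exact Subalgebra.algebraMap_mem (G.W n) c
  | add x y _ _ hx' hy' => rw [map_add, map_add]; exact add_mem hx' hy'
  | mul x y _ _ hx' hy' => rw [map_mul, map_mul]; exact mul_mem hx' hy'

theorem mem_span_smul_top_iff (n : ℕ) {i : κ} {d : ℕ}
    (Mo : ∀ n, MData (Y.H n i) p (Y.qv n) (Y.e n) d) (ϖ : O) (m : (Mo n).M) :
    letI := Y.modS hpO i Mo n
    m ∈ (Ideal.span {(MvPowerSeries.C ϖ : MvPowerSeries (Fin r) O)} •
      (⊤ : Submodule (MvPowerSeries (Fin r) O) (Mo n).M)) ↔ ∃ w, m = ϖ • w := by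
  letI := Y.modS hpO i Mo n
  have h1 : ∀ w : (Mo n).M, (MvPowerSeries.C ϖ : MvPowerSeries (Fin r) O) • w = ϖ • w := by
    intro w
    change Y.thB hpO i n (MvPowerSeries.C ϖ) • w = _
    have h2 : (MvPowerSeries.C ϖ : MvPowerSeries (Fin r) O) =
      algebraMap O (MvPowerSeries (Fin r) O) ϖ := rfl
    rw [h2, AlgHom.commutes, algebraMap_smul]
  rw [Submodule.ideal_span_singleton_smul, Submodule.mem_smul_pointwise_iff_exists]
  constructor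
  · rintro ⟨w, -, rfl⟩
    exact ⟨w, h1 w⟩
  · rintro ⟨w, rfl⟩
    exact ⟨w, trivial, h1 w⟩

include G in
/-- the `O⟦S⟧`-linear lift of the congruence -/
theorem Cong.exists_lin' (hϖ : ϖ ∈ maximalIdeal O) (n : ℕ) :
    letI := Y.modS hpO i₁ Mo₁ n
    letI := Y.modS hpO i₂ Mo₂ n
    ∃ g : (Mo₁ n).M →ₗ[MvPowerSeries (Fin r) O] (Mo₂ n).M,
      Function.Surjective g ∧ ∀ (a : Y.A n) (x : (Mo₁ n).M),
        g (pr (Y.H n) (Y.hbar n) i₁ a • x) - pr (Y.H n) (Y.hbar n) i₂ a • g x ∈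
          Ideal.span {(MvPowerSeries.C ϖ : MvPowerSeries (Fin r) O)} •
            (⊤ : Submodule (MvPowerSeries (Fin r) O) (Mo₂ n).M) := by
  letI := Y.modS hpO i₁ Mo₁ n
  letI := Y.modS hpO i₂ Mo₂ n
  obtain ⟨g, hg1, hg2⟩ := exists_lift (Y.eN hpO i₁ Mo₁ n) (Y.eN hpO i₂ Mo₂ n)
    (Ideal.span {(MvPowerSeries.C ϖ : MvPowerSeries (Fin r) O)})
    (by
      rw [Ideal.span_singleton_le_iff_mem, PS.mem_maximalIdeal_iff,
        MvPowerSeries.constantCoeff_C]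
      exact hϖ)
    (G.g n).toAddMonoidHom
    (fun s m => (mem_span_smul_top_iff hpO n Mo₂ ϖ _).mpr (G.pr_mem n (Y.thA hpO n s) m))
    (fun m₂ => by
      obtain ⟨m₁, w, hw⟩ := G.g_surj n m₂
      exact ⟨m₁, (mem_span_smul_top_iff hpO n Mo₂ ϖ _).mpr ⟨w, hw⟩⟩)
  refine ⟨g, hg1, fun a x => ?_⟩
  obtain ⟨w₁, hw₁⟩ := (mem_span_smul_top_iff hpO n Mo₂ ϖ _).mp
    (hg2 (pr (Y.H n) (Y.hbar n) i₁ a • x))
  obtain ⟨w₂, hw₂⟩ := (mem_span_smul_top_iff hpO n Mo₂ ϖ _).mp (hg2 x)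
  obtain ⟨w₃, hw₃⟩ := G.pr_mem n a x
  refine (mem_span_smul_top_iff hpO n Mo₂ ϖ _).mpr
    ⟨w₁ + w₃ - pr (Y.H n) (Y.hbar n) i₂ a • w₂, ?_⟩
  rw [smul_sub, smul_add, ← hw₁, ← hw₃, smul_comm ϖ, ← hw₂, smul_sub]
  change _ = (g _ - G.g n (pr (Y.H n) (Y.hbar n) i₁ a • x)) +
    (G.g n (pr (Y.H n) (Y.hbar n) i₁ a • x) - pr (Y.H n) (Y.hbar n) i₂ a • G.g n x) -
    (pr (Y.H n) (Y.hbar n) i₂ a • g x - pr (Y.H n) (Y.hbar n) i₂ a • G.g n x)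
  abel

include G in
/-- the `O⟦S⟧`-linear lift of the congruence -/
theorem Cong.exists_lin (hϖ : ϖ ∈ maximalIdeal O) (n : ℕ) :
    ∃ g : (Y.UD hpO i₁ Mo₁).M n →ₗ[MvPowerSeries (Fin r) O] (Y.UD hpO i₂ Mo₂).M n,
      Function.Surjective g ∧ ∀ (a : Y.A n) (x : (Y.UD hpO i₁ Mo₁).M n),
        g ((Y.UD hpO i₁ Mo₁).ρ n a x) - (Y.UD hpO i₂ Mo₂).ρ n a (g x) ∈
          Ideal.span {(MvPowerSeries.C ϖ : MvPowerSeries (Fin r) O)} •
            (⊤ : Submodule (MvPowerSeries (Fin r) O) ((Y.UD hpO i₂ Mo₂).M n)) :=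
  G.exists_lin' hpO hϖ n

end Sys

end Fermat.Agent.H25.GE
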