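import Mathlib
import Fermat.Agent.H25.Asm7

set_option autoImplicit false
set_option linter.unusedSectionVars false
set_option linter.style.haveILetI false

/-!
# Level lowering from a system: the main theorem
-/

namespace Fermat.Agent.H25.GE

open Fermat.Agent.H25 Fermat.Agent.H25.PR Fermat.Agent.CC Fermat.Agent.TW IsLocalRing Matrix
open Fermat.Agent.H05 Fermat.Agent.H25.TR Fermat.Agent.H25.TWM Fermat.Agent.TAlg Fermat.Agent.H25.GD

namespace Sys

variable {O k : Type} [CommRing O] [IsDomain O] [CharZero O] [IsLocalRing O]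
    [IsNoetherianRing O] [IsAdicComplete (maximalIdeal O) O] [Finite (ResidueField O)]
    [Field k] [Finite k] {D : RD O k}
    {p : ℕ} [Fact p.Prime] (hpO : (p : O) ∈ maximalIdeal O)
    {r : ℕ} {κ : Type} [Finite κ] [Nonempty κ] (Y : Sys D p r κ)

/-- The numerical condition `q ≡ 1 mod p` at the framed primes, with enough roots of unity. -/
structure FrT (O : Type) [CommRing O] (p : ℕ) {𝒯 : Type} (tv : 𝒯 → Nat.Primes) where
  a : 𝒯 → ℕ
  u : 𝒯 → ℕ
  ω : 𝒯 → O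
  hq : ∀ t, ((tv t : ℕ)) = 1 + p ^ a t * u t
  ha : ∀ t, 1 ≤ a t
  hu : ∀ t, ¬ p ∣ u t
  hω : ∀ t, IsPrimitiveRoot (ω t) (p ^ a t)

theorem rdres_mem (a : O) : D.res a = 0 ↔ a ∈ maximalIdeal O := by
  have h2 : (RingHom.ker D.res).IsMaximal := RingHom.ker_isMaximal_of_surjective _ D.surj
  have h3 := IsLocalRing.eq_maximalIdeal h2
  rw [← h3, RingHom.mem_ker]

include hpO in
theorem FrT.omega_sub_one {𝒯 : Type} {tv : 𝒯 → Nat.Primes} (Q : FrT O p tv) (D : RD O k) (t : 𝒯) :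
    D.res (Q.ω t) = 1 := by
  have hpk : ((p : ℕ) : k) = 0 := by
    have := (rdres_mem (D := D) (p : O)).mpr hpO
    rwa [map_natCast] at this
  haveI : CharP k p := (CharP.charP_iff_prime_eq_zero (Fact.out : p.Prime)).mpr hpk
  have h1 : (D.res (Q.ω t)) ^ p ^ Q.a t = 1 := by
    rw [← map_pow, (Q.hω t).pow_eq_one, map_one]
  have h2 : (D.res (Q.ω t) - 1) ^ p ^ Q.a t = 0 := by
    rw [sub_pow_char_pow, h1, one_pow, sub_self]
  exact sub_eq_zero.mp (pow_eq_zero_iff (pow_ne_zero _ (Fact.out : p.Prime).ne_zero) |>.mp h2)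

theorem FrT.sq_ne {𝒯 : Type} {tv : 𝒯 → Nat.Primes} (Q : FrT O p tv) (hp2 : p ≠ 2) (t : 𝒯) {i : ℕ}
    (hi : ¬ p ^ Q.a t ∣ i) :
    (Q.ω t ^ i + Q.ω t ^ ((p ^ Q.a t - 1) * i)) ^ 2 ≠ 4 := by
  intro h
  have hpa : 1 ≤ p ^ Q.a t := Nat.one_le_pow _ _ (Fact.out : p.Prime).pos
  set z := Q.ω t ^ i
  set z' := Q.ω t ^ ((p ^ Q.a t - 1) * i)
  have hzz : z * z' = 1 := by
    rw [← pow_add]
    have : i + (p ^ Q.a t - 1) * i = p ^ Q.a t * i := by
      obtain ⟨c, hc⟩ := Nat.exists_eq_add_of_le hpa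
      rw [hc, Nat.add_sub_cancel_left]; ring
    rw [this, pow_mul, (Q.hω t).pow_eq_one, one_pow]
  have h1 : (z - z') ^ 2 = 0 := by linear_combination h - 4 * hzz
  have h2 : z = z' := sub_eq_zero.mp (pow_eq_zero_iff two_ne_zero |>.mp h1)
  have h3 : z ^ 2 = 1 := by
    rw [pow_two]
    nth_rewrite 2 [h2]
    exact hzz
  have h4 : Q.ω t ^ (i * 2) = 1 := by rw [pow_mul]; exact h3
  rw [(Q.hω t).pow_eq_one_iff_dvd] at h4
  apply hi
  have hcop : Nat.Coprime (p ^ Q.a t) 2 := by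
    apply Nat.Coprime.pow_left
    exact (Nat.coprime_primes (Fact.out : p.Prime) Nat.prime_two).mpr hp2
  exact hcop.dvd_of_dvd_mul_right h4

end Sys

/-- package a ring as a `CLR`. -/
abbrev toCLR (O : Type) [CommRing O] [IsLocalRing O] [IsNoetherianRing O]
    [IsAdicComplete (maximalIdeal O) O] [Finite (ResidueField O)] : CLR := ⟨O⟩

namespace Sys

variable {O k : Type} [CommRing O] [IsDomain O] [CharZero O] [IsLocalRing O]
    [IsNoetherianRing O] [IsAdicComplete (maximalIdeal O) O] [Finite (ResidueField O)]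
    [Field k] [Finite k] {D : RD O k}
    {p : ℕ} [Fact p.Prime] (hpO : (p : O) ∈ maximalIdeal O)
    {r : ℕ} {κ : Type} [Finite κ] [Nonempty κ] {Y : Sys D p r κ}
    {i₁ i₂ : κ} {d₁ d₂ : ℕ} {Mo₁ : ∀ n, MData (Y.H n i₁) p (Y.qv n) (Y.e n) d₁}
    {Mo₂ : ∀ n, MData (Y.H n i₂) p (Y.qv n) (Y.e n) d₂} {ϖ : O}

theorem UD_ρ_eq_zero {i : κ} {d : ℕ} (Mo : ∀ n, MData (Y.H n i) p (Y.qv n) (Y.e n) d) (n : ℕ)
    {x : Y.A n} (h : pr (Y.H n) (Y.hbar n) i x = 0) : (Y.UD hpO i Mo).ρ n x = 0 :=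
  LinearMap.ext fun m : (Mo n).M => (congrArg (· • m) h).trans (zero_smul _ m)

include hpO in
/-- **LEVEL LOWERING.** -/
theorem levelLowering {𝒯 : Type} [Finite 𝒯] {tv : 𝒯 → Nat.Primes} (hp2 : p ≠ 2)
    (hϖ : maximalIdeal O = Ideal.span {ϖ}) (hϖ0 : ϖ ≠ 0) (hT : FrD D p tv) (Q : FrT O p tv)
    (htr : ∀ t, (D.rbar (frv (tv t) (tv t).2)).trace ^ 2 = 4)
    (he : ∀ n j, n ≤ Y.e n j) (hSel : ∀ n, SelB (Y.H n) (Y.hbar n) r tv)
    (h1 : ∀ n x t, (Y.H n i₁).t x (tmv p (Fact.out : p.Prime) (tv t) (tv t).2) = 2)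
    (h2 : ∀ n x t, (Y.H n i₂).t x (tmv p (Fact.out : p.Prime) (tv t) (tv t).2) ≠ 2)
    (G : Y.Cong Mo₁ Mo₂ ϖ) (hd : d₂ ≠ 0) :
    ∃ (n : ℕ) (x : (Y.H n i₁).X), ∀ t,
      ((Y.H n i₁).t x (frv (tv t) (tv t).2)) ^ 2 ≠ (((tv t : ℕ) : (Y.H n i₁).P x) + 1) ^ 2 := by
  classical
  haveI := Fintype.ofFinite 𝒯
  have hp : p.Prime := Fact.out
  have hϖm : ϖ ∈ maximalIdeal O := by rw [hϖ]; exact Ideal.mem_span_singleton_self ϖ
  have hpk : ((p : ℕ) : k) = 0 := by
    have := (rdres_mem (D := D) (p : O)).mpr hpO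
    rwa [map_natCast] at this
  have hq1 : ∀ t, D.res ((tv t : ℕ) : O) = 1 := by
    intro t
    rw [map_natCast, Q.hq t]
    push_cast
    obtain ⟨c, hc⟩ := Nat.exists_eq_add_of_le (Q.ha t)
    rw [hc, pow_add, pow_one, hpk, zero_mul, zero_mul, add_zero]
  -- lifts of Frobenius
  have hlift : ∀ t, ∃ M : Mt O, M.map D.res = D.rbar (frv (tv t) (tv t).2) := by
    intro t
    choose f hf using fun (ij : Fin 2 × Fin 2) => D.surj (D.rbar (frv (tv t) (tv t).2) ij.1 ij.2)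
    refine ⟨Matrix.of fun i j => f (i, j), ?_⟩
    ext i j
    exact hf (i, j)
  choose Φ₀ hΦ₀ using hlift
  let A := fun n => Y.A n
  let F : Ultrafilter ℕ := Filter.hyperfilter ℕ
  have hF : (F : Filter ℕ) ≤ Filter.atTop := Nat.hyperfilter_le_atTop
  haveI : ∀ n, IsLocalHom (algebraMap O (Y.A n)) := fun n => (CA (Y.H n) (Y.hbar n)).isLocalHom
  have hmem : ∀ (n : ℕ) (b : Y.A n), (CA (Y.H n) (Y.hbar n)).resB b = 0 ↔
      b ∈ maximalIdeal (Y.A n) := fun n b => ((CA (Y.H n) (Y.hbar n)).mem_maximalIdeal b).symm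
  -- types
  let κ' := ∀ t : 𝒯, {i : Fin (p ^ Q.a t) // ¬ p ^ Q.a t ∣ (i : ℕ)}
  haveI : ∀ t, NeZero (p ^ Q.a t) := fun t => ⟨pow_ne_zero _ hp.ne_zero⟩
  haveI : Finite κ' := inferInstance
  haveI : Fintype κ' := Fintype.ofFinite κ'
  let ζ : κ' → 𝒯 → O := fun j t => Q.ω t ^ ((j t).1 : ℕ) + Q.ω t ^ ((p ^ Q.a t - 1) * ((j t).1 : ℕ))
  have hζm : ∀ j t, ζ j t - 2 ∈ maximalIdeal O := by
    intro j t
    rw [← rdres_mem (D := D), map_sub, map_add, map_pow, map_pow, Q.omega_sub_one hpO D t,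
      one_pow, one_pow, map_ofNat]
    norm_num
  choose g hg1 hg2 using fun n => G.exists_lin hpO hϖm n
  have key := Fermat.Agent.TAlg.levelLowering (O := toCLR O) (IsUnit.of_mul_eq_one_right _ D.h2) ϖ hϖ hϖ0
    (T := 𝒯) (fun t => ((tv t : ℕ) : O)) (fun t => by
      rw [← rdres_mem (D := D), map_sub, hq1, map_one, sub_self]) Φ₀ (fun t => by
      rw [← rdres_mem (D := D), map_sub, RingHom.map_det, map_one]
      have : D.res.mapMatrix (Φ₀ t) = D.rbar (frv (tv t) (tv t).2) := hΦ₀ t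
      rw [this, D.det_rbar, hT.chiF, hq1, sub_self]) (fun t => by
      rw [← rdres_mem (D := D), map_sub, map_pow]
      have : D.res (Φ₀ t).trace = (D.rbar (frv (tv t) (tv t).2)).trace := by
        rw [← hΦ₀ t]
        exact AddMonoidHom.map_trace D.res.toAddMonoidHom (Φ₀ t)
      rw [this, htr, map_ofNat, sub_self])
    r (F := F) (small_JJ O hpO hF he) (A := fun n => Y.A n)
    (fun n => algebraMap O (Y.A n))
    (fun n b => by
      obtain ⟨o, ho⟩ := D.surj ((CA (Y.H n) (Y.hbar n)).resB b)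
      refine ⟨o, ?_⟩
      rw [← hmem, map_sub, Comp.res_comp, ho, sub_self])
    (fun n => (CA (Y.H n) (Y.hbar n)).resB) (fun n => (CA (Y.H n) (Y.hbar n)).surj)
    (θA := fun n => (Y.thA hpO n : MvPowerSeries (Fin r) O →+* Y.A n))
    (fun n o => (Y.thA hpO n).commutes o)
    (fun n i => by
      change Y.thA hpO n _ ∈ _
      rw [Y.thA_X]
      exact Y.x_sub_one_mem hpO n i)
    (fun n t => (CA (Y.H n) (Y.hbar n)).rho (frv (tv t) (tv t).2))
    (fun n t => (CA (Y.H n) (Y.hbar n)).rho (tmv p hp (tv t) (tv t).2))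
    (fun n t => by rw [Comp.det_rho, hT.chiF])
    (fun n t => by
      rw [Comp.det_rho, hT.chi t _ (tmv_spec p hp (tv t) (tv t).2).2.1, map_one])
    (fun n t i j => by
      rw [← hmem, map_sub, Comp.res_comp, sub_eq_zero]
      have e1 := congrFun (congrFun ((CA (Y.H n) (Y.hbar n)).rho_res (frv (tv t) (tv t).2)) i) j
      have e2 := congrFun (congrFun (hΦ₀ t) i) j
      exact e1.trans e2.symm)
    (fun n t i j => by
      rw [← hmem, map_sub, sub_eq_zero]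
      have e1 := congrFun (congrFun ((CA (Y.H n) (Y.hbar n)).rho_res
        (tmv p hp (tv t) (tv t).2)) i) j
      rw [hT.unr t _ (tmv_spec p hp (tv t) (tv t).2).2.1] at e1
      refine e1.trans ?_
      rw [Matrix.one_apply, Matrix.one_apply]
      split_ifs <;> simp)
    (fun n => finrank_tan (Y.H n) (Y.hbar n) hp hpO hT (hSel n))
    (Y.UD hpO i₁ Mo₁) (Y.UD hpO i₂ Mo₂)
    (fun n t x hx => by
      have h3 : x ∈ RingHom.ker (pr (Y.H n) (Y.hbar n) i₁ : Y.A n →+* (Y.H n i₁).B) := by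
        refine J1_le (CA (Y.H n) (Y.hbar n)) hp hpO hT (CA_contS _ _) t _ ?_ hx
        change pr (Y.H n) (Y.hbar n) i₁ ((CA (Y.H n) (Y.hbar n)).t _) = 2
        rw [pr_t]
        refine (Y.H n i₁).ext_ev fun y => ?_
        rw [CData.ev_C, h1, map_ofNat]
      have h4 : pr (Y.H n) (Y.hbar n) i₁ x = 0 := h3
      exact UD_ρ_eq_zero hpO Mo₁ n h4)
    ζ hζm (fun j t => Q.sq_ne hp2 t (j t).2)
    (fun n x hx => by
      have h4 : pr (Y.H n) (Y.hbar n) i₂ x = 0 := by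
        refine (Y.H n i₂).ext_ev fun y => ?_
        rw [map_zero]
        change pt (Y.H n) (Y.hbar n) i₂ y x = 0
        have h5 : ∀ t, ∃ i : ℕ, ¬ (p ^ Q.a t ∣ i) ∧
            Jchi (algebraMap O (Y.A n) (Q.ω t ^ i + Q.ω t ^ ((p ^ Q.a t - 1) * i)))
              ((CA (Y.H n) (Y.hbar n)).rho (frv (tv t) (tv t).2))
              ((CA (Y.H n) (Y.hbar n)).rho (tmv p hp (tv t) (tv t).2)) ≤
              RingHom.ker (pt (Y.H n) (Y.hbar n) i₂ y) := fun t =>
          exists_Jchi_le (CA (Y.H n) (Y.hbar n)) hp hpO hT hp2 (CA_contS _ _) t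
            (pt (Y.H n) (Y.hbar n) i₂ y) (by rw [pt_t]; exact h2 n y t) (Q.hq t) (Q.ha t)
            (Q.hu t) (Q.hω t)
        choose i hi hi' using h5
        let j : κ' := fun t => ⟨⟨i t % p ^ Q.a t, Nat.mod_lt _ (NeZero.pos _)⟩, by
          intro h
          exact hi t ((Nat.dvd_mod_iff (dvd_refl _)).mp h)⟩
        have h6 : (⨆ t, Jchi (algebraMap O (Y.A n) (ζ j t))
              ((CA (Y.H n) (Y.hbar n)).rho (frv (tv t) (tv t).2))
              ((CA (Y.H n) (Y.hbar n)).rho (tmv p hp (tv t) (tv t).2))) ≤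
              RingHom.ker (pt (Y.H n) (Y.hbar n) i₂ y) := by
          refine iSup_le fun t => ?_
          have h7 : ζ j t = Q.ω t ^ i t + Q.ω t ^ ((p ^ Q.a t - 1) * i t) := by
            have e1 : Q.ω t ^ (i t % p ^ Q.a t) = Q.ω t ^ i t := by
              conv_rhs => rw [← Nat.div_add_mod (i t) (p ^ Q.a t), pow_add, pow_mul,
                (Q.hω t).pow_eq_one, one_pow, one_mul]
            have e2 : Q.ω t ^ ((p ^ Q.a t - 1) * (i t % p ^ Q.a t)) =
                Q.ω t ^ ((p ^ Q.a t - 1) * i t) := by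
              rw [mul_comm, pow_mul, e1, ← pow_mul, mul_comm]
            change Q.ω t ^ (i t % p ^ Q.a t) + Q.ω t ^ ((p ^ Q.a t - 1) * (i t % p ^ Q.a t)) = _
            rw [e1, e2]
          rw [h7]
          exact hi' t
        have h8 : (∏ j : κ', ⨆ t, Jchi (algebraMap O (Y.A n) (ζ j t))
              ((CA (Y.H n) (Y.hbar n)).rho (frv (tv t) (tv t).2))
              ((CA (Y.H n) (Y.hbar n)).rho (tmv p hp (tv t) (tv t).2))) ≤
              RingHom.ker (pt (Y.H n) (Y.hbar n) i₂ y) :=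
          (Ideal.prod_le_inf.trans (Finset.inf_le (Finset.mem_univ j))).trans h6
        exact h8 hx
      exact UD_ρ_eq_zero hpO Mo₂ n h4)
    g hg1 hg2 hd
  obtain ⟨n, hn⟩ := key.exists
  refine ⟨n, ?_⟩
  by_contra hcon
  push Not at hcon
  apply hn
  have h4 : pr (Y.H n) (Y.hbar n) i₁ (∏ t, (((CA (Y.H n) (Y.hbar n)).rho
      (frv (tv t) (tv t).2)).trace ^ 2 - (algebraMap O (Y.A n) ((tv t : ℕ) : O) + 1) ^ 2)) = 0 := by
    refine (Y.H n i₁).ext_ev fun y => ?_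
    rw [map_zero, map_prod, map_prod]
    obtain ⟨t, ht⟩ := hcon y
    refine Finset.prod_eq_zero (Finset.mem_univ t) ?_
    rw [map_sub, map_sub, map_pow, map_pow, map_pow, map_pow, Comp.trace_rho, pr_t, CData.ev_C,
      ht, map_add, map_add, AlgHom.commutes, AlgHom.commutes, map_natCast, map_one,
      map_one, sub_self]
  exact UD_ρ_eq_zero hpO Mo₁ n h4

end Sys

end Fermat.Agent.H25.GE
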