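import Mathlib
import Fermat.Prelude.Thm_IsAdicComplete_of_module_finite
import Fermat.Prelude.Thm_IsLocalRing_isAdicComplete_of_module_finite
import Fermat.Agent.TC.Loc

set_option autoImplicit false
set_option linter.unusedSectionVars false
set_option linter.style.haveILetI false

/-!
# Finite extensions of complete discrete valuation rings
-/

namespace Fermat.Agent.H25.XD

open IsLocalRing

/-- a domain finite over a complete noetherian local ring is local. -/
theorem isLocalRing_of_finite {O R : Type} [CommRing O] [IsLocalRing O] [IsNoetherianRing O]
    [IsAdicComplete (maximalIdeal O) O] [CommRing R] [IsDomain R]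
    [Algebra O R] [Module.Finite O R] : IsLocalRing R := by
  classical
  obtain ⟨P, hP⟩ := Ideal.exists_maximal R
  haveI := hP
  haveI : Algebra.IsIntegral O R := inferInstance
  have hPI : (maximalIdeal O).map (algebraMap O R) ≤ P := by
    haveI := Ideal.isMaximal_comap_of_isIntegral_of_isMaximal (R := O) P
    rw [Ideal.map_le_iff_le_comap, IsLocalRing.eq_maximalIdeal this]
  obtain ⟨e, he, heP, hs⟩ := Fermat.Agent.TC.exists_idem_local (O := O) P hPI
  have he1 : e = 1 := by
    have h : e * (e - 1) = 0 := by
      have : e * e = e := he
      linear_combination this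
    rcases mul_eq_zero.mp h with h | h
    · exact absurd (h ▸ P.zero_mem) heP
    · exact sub_eq_zero.mp h
  refine IsLocalRing.of_unique_max_ideal ⟨P, hP, fun M hM => ?_⟩
  have hM' : M ≤ P := by
    intro s hsM
    by_contra hsP
    obtain ⟨t, ht⟩ := hs s hsP
    rw [he1] at ht
    exact hM.ne_top (Ideal.eq_top_of_isUnit_mem _ hsM (IsUnit.of_mul_eq_one _ ht))
  exact hM.eq_of_le hP.ne_top hM'

theorem isLocalHom_of_finite {O R : Type} [CommRing O] [IsLocalRing O] [CommRing R]
    [IsLocalRing R] [Algebra O R] [Module.Finite O R] (hinj : Function.Injective (algebraMap O R)) :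
    IsLocalHom (algebraMap O R) := by
  haveI : Algebra.IsIntegral O R := inferInstance
  haveI : FaithfulSMul O R := (faithfulSMul_iff_algebraMap_injective O R).mpr hinj
  exact Algebra.IsIntegral.isLocalHom O R

theorem finite_residueField {O R : Type} [CommRing O] [IsLocalRing O] [Finite (ResidueField O)]
    [CommRing R] [IsLocalRing R] [Algebra O R] [IsLocalHom (algebraMap O R)] [Module.Finite O R] :
    Finite (ResidueField R) := by
  haveI : Module.Finite O (ResidueField R) :=
    Module.Finite.of_surjective (Algebra.linearMap R (ResidueField R) |>.restrictScalars O)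
      IsLocalRing.residue_surjective
  haveI : Module.Finite (ResidueField O) (ResidueField R) :=
    Module.Finite.of_restrictScalars_finite O _ _
  exact Module.finite_of_finite (ResidueField O)

/-- finite extension of the fraction field of a complete dvr: the integral closure. -/
theorem exists_dvr_of_field {O : Type} [CommRing O] [IsDomain O] [IsDiscreteValuationRing O]
    [IsAdicComplete (maximalIdeal O) O] [Finite (ResidueField O)] [CharZero O]
    (F : Type) [Field F] [Algebra O F] [Algebra (FractionRing O) F]
    [IsScalarTower O (FractionRing O) F] [FiniteDimensional (FractionRing O) F] :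
    ∃ (_ : IsDiscreteValuationRing (integralClosure O F))
      (_ : IsAdicComplete (maximalIdeal (integralClosure O F)) (integralClosure O F)),
      Finite (ResidueField (integralClosure O F)) ∧ CharZero (integralClosure O F) ∧
      Module.Finite O (integralClosure O F) ∧
      IsLocalHom (algebraMap O (integralClosure O F)) ∧
      Function.Injective (algebraMap O (integralClosure O F)) := by
  haveI : CharZero (FractionRing O) := inferInstance
  haveI : Algebra.IsSeparable (FractionRing O) F := inferInstance
  haveI hfin : Module.Finite O (integralClosure O F) :=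
    IsIntegralClosure.finite O (FractionRing O) F (integralClosure O F)
  haveI hdd : IsDedekindDomain (integralClosure O F) :=
    integralClosure.isDedekindDomain O (FractionRing O) F
  haveI : IsDomain (integralClosure O F) := inferInstance
  haveI hloc : IsLocalRing (integralClosure O F) := isLocalRing_of_finite (O := O)
  have hinjF : Function.Injective (algebraMap O F) := by
    rw [IsScalarTower.algebraMap_eq O (FractionRing O) F]
    exact (algebraMap (FractionRing O) F).injective.comp (IsFractionRing.injective O _)
  have hinj : Function.Injective (algebraMap O (integralClosure O F)) := by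
    intro a b hab
    apply hinjF
    exact congrArg Subtype.val hab
  haveI hlh : IsLocalHom (algebraMap O (integralClosure O F)) := isLocalHom_of_finite hinj
  haveI : CharZero (integralClosure O F) := charZero_of_injective_algebraMap hinj
  have hnf : ¬ IsField (integralClosure O F) := by
    intro h
    haveI : Algebra.IsIntegral O (integralClosure O F) := inferInstance
    exact IsDiscreteValuationRing.not_isField O
      (isField_of_isIntegral_of_isField hinj h)
  have hdvr : IsDiscreteValuationRing (integralClosure O F) :=
    ((IsDiscreteValuationRing.TFAE (integralClosure O F) hnf).out 0 2).mpr hdd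
  haveI := hdvr
  haveI hc : IsAdicComplete (maximalIdeal (integralClosure O F)) (integralClosure O F) :=
    IsLocalRing.isAdicComplete_of_module_finite (𝒪 := O)
  exact ⟨hdvr, hc, finite_residueField (O := O), inferInstance, hfin, hlh, hinj⟩

/-- a domain finite over a complete dvr embeds into a complete dvr finite over it. -/
theorem exists_dvr_of_domain {O : Type} [CommRing O] [IsDomain O] [IsDiscreteValuationRing O]
    [IsAdicComplete (maximalIdeal O) O] [Finite (ResidueField O)] [CharZero O]
    (P : Type) [CommRing P] [IsDomain P] [Algebra O P] [Module.Finite O P] [FaithfulSMul O P] :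
    ∃ (Q : Type) (_ : CommRing Q) (_ : IsDomain Q) (_ : IsDiscreteValuationRing Q)
      (_ : IsAdicComplete (maximalIdeal Q) Q) (_ : Algebra O Q) (j : P →ₐ[O] Q),
      Finite (ResidueField Q) ∧ CharZero Q ∧ Module.Finite O Q ∧
      IsLocalHom (algebraMap O Q) ∧ Function.Injective (algebraMap O Q) ∧ Function.Injective j := by
  let F := FractionRing P
  letI : Algebra (FractionRing O) F := FractionRing.liftAlgebra O F
  haveI : IsScalarTower O (FractionRing O) F := FractionRing.isScalarTower_liftAlgebra O F
  haveI : FiniteDimensional (FractionRing O) F := by
    haveI : Module.Finite (FractionRing O) F := Module.Finite.of_isLocalization O P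
      (nonZeroDivisors O)
    exact this
  obtain ⟨h1, h2, h3, h4, h5, h6, h7⟩ := exists_dvr_of_field (O := O) F
  have hint : ∀ x : P, algebraMap P F x ∈ integralClosure O F := fun x =>
    (Algebra.IsIntegral.isIntegral (R := O) x).map (IsScalarTower.toAlgHom O P F)
  let j : P →ₐ[O] integralClosure O F :=
    AlgHom.codRestrict (IsScalarTower.toAlgHom O P F) (integralClosure O F) hint
  refine ⟨integralClosure O F, inferInstance, inferInstance, h1, h2, inferInstance, j, h3, h4, h5,
    h6, h7, ?_⟩
  intro a b hab
  apply IsFractionRing.injective P F
  exact congrArg Subtype.val hab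

/-- finitely many integral elements of a field are contained in a complete dvr finite over `O`. -/
theorem exists_dvr_of_set {O : Type} [CommRing O] [IsDomain O] [IsDiscreteValuationRing O]
    [IsAdicComplete (maximalIdeal O) O] [Finite (ResidueField O)] [CharZero O]
    {K : Type} [Field K] [Algebra O K] [FaithfulSMul O K] (s : Set K) (hs : s.Finite)
    (hint : ∀ x ∈ s, IsIntegral O x) :
    ∃ (Q : Type) (_ : CommRing Q) (_ : IsDomain Q) (_ : IsDiscreteValuationRing Q)
      (_ : IsAdicComplete (maximalIdeal Q) Q) (_ : Algebra O Q) (e : Q →ₐ[O] K),
      Finite (ResidueField Q) ∧ CharZero Q ∧ Module.Finite O Q ∧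
      IsLocalHom (algebraMap O Q) ∧ Function.Injective (algebraMap O Q) ∧ Function.Injective e ∧
      Algebra.adjoin O s ≤ e.range := by
  letI : Algebra (FractionRing O) K := FractionRing.liftAlgebra O K
  haveI : IsScalarTower O (FractionRing O) K := FractionRing.isScalarTower_liftAlgebra O K
  let F := IntermediateField.adjoin (FractionRing O) s
  haveI : Finite s := hs
  haveI : FiniteDimensional (FractionRing O) F :=
    IntermediateField.finiteDimensional_adjoin fun x hx => (hint x hx).tower_top
  obtain ⟨h1, h2, h3, h4, h5, h6, h7⟩ := exists_dvr_of_field (O := O) F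
  haveI : IsScalarTower O F K := IsScalarTower.of_algebraMap_eq fun x => by
    rw [IsScalarTower.algebraMap_apply O (FractionRing O) F,
      ← IsScalarTower.algebraMap_apply (FractionRing O) F K,
      ← IsScalarTower.algebraMap_apply O (FractionRing O) K]
  let e : integralClosure O F →ₐ[O] K :=
    (IsScalarTower.toAlgHom O F K).comp (integralClosure O F).val
  refine ⟨integralClosure O F, inferInstance, inferInstance, h1, h2, inferInstance, e, h3, h4, h5,
    h6, h7, ?_, ?_⟩
  · intro a b hab
    apply Subtype.ext
    exact (algebraMap F K).injective hab
  · rw [Algebra.adjoin_le_iff]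
    intro x hx
    have hxF : x ∈ F := IntermediateField.subset_adjoin _ _ hx
    have hi : IsIntegral O (⟨x, hxF⟩ : F) := by
      have h8 : Function.Injective (IsScalarTower.toAlgHom O F K) := (algebraMap F K).injective
      exact (isIntegral_algHom_iff (IsScalarTower.toAlgHom O F K) h8).mp (hint x hx)
    exact ⟨⟨⟨x, hxF⟩, hi⟩, rfl⟩

end Fermat.Agent.H25.XD
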