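import Mathlib
import Fermat.Agent.H25.Asm1
import Fermat.Agent.TW.Tan
import Fermat.Agent.H05.Local
import Fermat.Agent.H25.Density
import Fermat.Prelude.Def_GaloisRep_LocalConditions

set_option autoImplicit false
set_option linter.unusedSectionVars false
set_option linter.style.haveILetI false

/-!
# Pseudocharacters attached to `p`-adic Galois representations
-/

namespace Fermat.Agent.H25.PT

open Fermat.Agent.H25 Fermat.Agent.H25.PR Fermat.Agent.CC Fermat.Agent.TW IsLocalRing Matrix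
open Fermat.Agent.H05 Fermat.Agent.H25.TR Fermat.Agent.H25.TWM

section Mat

variable {G R : Type*} [Group G] [CommRing R] (M : G →* Matrix (Fin 2) (Fin 2) R)

theorem isPseudo2_matTrace : IsPseudo2 (fun g => (M g).trace) where
  one := by simp
  comm g h := by
    rw [map_mul, map_mul, Matrix.trace_mul_comm]
  tri g h k := by
    simp only [map_mul, Matrix.trace_fin_two, Matrix.mul_apply, Fin.sum_univ_two]
    ring

theorem matTrace_det (g : G) : (M g).trace * (M g).trace - (M (g * g)).trace = 2 * (M g).det := by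
  simp only [map_mul, Matrix.trace_fin_two, Matrix.mul_apply, Fin.sum_univ_two,
    Matrix.det_fin_two]
  ring

end Mat

section Rep

variable {A : Type} [CommRing A] [IsLocalRing A] (ρ : GaloisRepAdic A)

/-- a basis of the representation -/
noncomputable def bs : Module.Basis (Fin 2) A ρ.V :=
  Module.finBasisOfFinrankEq A ρ.V ρ.finrank_eq

/-- matrices -/
noncomputable def mat : GQ →* Mt A :=
  (LinearMap.toMatrixAlgEquiv (bs ρ)).toAlgHom.toRingHom.toMonoidHom.comp ρ.ρ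

theorem mat_apply (g : GQ) : mat ρ g = LinearMap.toMatrixAlgEquiv (bs ρ) (ρ.ρ g) := rfl

theorem trace_mat (g : GQ) : (mat ρ g).trace = ρ.trace g := by
  rw [mat_apply, GaloisRepAdic.trace, LinearMap.trace_eq_matrix_trace A (bs ρ)]
  rfl

theorem det_mat (g : GQ) : (mat ρ g).det = LinearMap.det (ρ.ρ g) := by
  rw [mat_apply]
  exact LinearMap.det_toMatrix (bs ρ) (ρ.ρ g)

theorem isPseudo2_trace : IsPseudo2 ρ.trace := by
  have h := isPseudo2_matTrace (mat ρ)
  have e : (fun g => (mat ρ g).trace) = ρ.trace := funext (trace_mat ρ)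
  rwa [e] at h

theorem trace_det (g : GQ) :
    ρ.trace g * ρ.trace g - ρ.trace (g * g) = 2 * LinearMap.det (ρ.ρ g) := by
  rw [← trace_mat, ← trace_mat, ← det_mat]
  exact matTrace_det (mat ρ) g

theorem trace_eq_of_charpoly {t d : A} {g : GQ}
    (h : LinearMap.charpoly (ρ.ρ g) = Polynomial.X ^ 2 - Polynomial.C t * Polynomial.X +
      Polynomial.C d) : ρ.trace g = t := by
  have h1 := charpoly_eq_trace_det ρ.finrank_eq (ρ.ρ g)
  rw [h] at h1
  have h2 := congrArg (fun P : Polynomial A => P.coeff 1) h1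
  simp [Polynomial.coeff_X, Polynomial.coeff_C] at h2
  exact h2.symm

/-- congruence subgroup -/
def congSub (n : ℕ) : Subgroup GQ where
  carrier := {u | ∀ v : ρ.V, ρ.ρ u v - v ∈ (maximalIdeal A ^ n) • (⊤ : Submodule A ρ.V)}
  one_mem' := by
    intro v
    rw [map_one, Module.End.one_apply, sub_self]
    exact zero_mem _
  mul_mem' := by
    intro a b ha hb v
    rw [map_mul, Module.End.mul_apply]
    have : ρ.ρ a (ρ.ρ b v) - v = (ρ.ρ a (ρ.ρ b v) - ρ.ρ b v) + (ρ.ρ b v - v) := by abel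
    rw [this]
    exact add_mem (ha _) (hb _)
  inv_mem' := by
    intro a ha v
    have h1 : ρ.ρ a (ρ.ρ a⁻¹ v) = v := by
      rw [← Module.End.mul_apply, ← map_mul, mul_inv_cancel, map_one, Module.End.one_apply]
    have h2 := ha (ρ.ρ a⁻¹ v)
    rw [h1] at h2
    have h3 := neg_mem h2
    rwa [neg_sub] at h3

theorem congSub_open {S : Finset Nat.Primes}
    (hS : ∀ q : Nat.Primes, q ∉ S → ρ.IsUnramifiedAt q) (n : ℕ) :
    (levS S).isOpen (congSub ρ n) := by
  apply levS_isOpen_of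
  · obtain ⟨L, hL, hL'⟩ := ρ.isAdicContinuous n
    exact ⟨L, hL, fun σ hσ v => hL' σ (fun x hx =>
      (IntermediateField.mem_fixingSubgroup_iff _ _).mp hσ x hx) v⟩
  · intro q hq P hP σ hσ v
    rw [hS q hq P hP σ hσ, Module.End.one_apply, sub_self]
    exact zero_mem _

theorem trace_cont {n : ℕ} {u : GQ} (hu : u ∈ congSub ρ n) (g : GQ) :
    ρ.trace (g * u) - ρ.trace g ∈ maximalIdeal A ^ n := by
  have h : ρ.trace (g * u) - ρ.trace g = LinearMap.trace A ρ.V (ρ.ρ (g * u) - ρ.ρ g) := by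
    rw [map_sub]; rfl
  rw [h]
  apply trace_mem_of_forall_mem
  intro v
  have h4 : (ρ.ρ (g * u) - ρ.ρ g) v = ρ.ρ g (ρ.ρ u v - v) := by
    rw [LinearMap.sub_apply, map_mul, map_sub, Module.End.mul_apply]
  rw [h4]
  exact Submodule.smul_top_le_comap_smul_top _ (ρ.ρ g) (hu v)

end Rep

section Cyc

/-- `chi` is the `p`-adic cyclotomic character. -/
def IsCyc {O : Type} [CommRing O] (p : ℕ) (chi : GQ → O) : Prop :=
  ∀ (n : ℕ) (σ : GQ) (a : ℕ), (∀ μ : Qb, μ ^ p ^ n = 1 → σ μ = μ ^ a) →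
    chi σ - (a : O) ∈ Ideal.span {((p ^ n : ℕ) : O)}

theorem exists_level (p : ℕ) [NeZero p] (n : ℕ) (σ : GQ) :
    ∃ a : ℕ, ∀ μ : Qb, μ ^ p ^ n = 1 → σ μ = μ ^ a := exists_pow_action (p ^ n) σ

variable {O : Type} [CommRing O] {p : ℕ}

theorem eq_of_forall_pow [IsLocalRing O] [IsHausdorff (maximalIdeal O) O]
    (hpO : (p : O) ∈ maximalIdeal O) {x y : O}
    (h : ∀ n : ℕ, x - y ∈ Ideal.span {((p ^ n : ℕ) : O)}) : x = y := by
  rw [← sub_eq_zero]
  apply IsHausdorff.haus (inferInstance : IsHausdorff (maximalIdeal O) O)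
  intro n
  rw [SModEq.zero, smul_eq_mul, Ideal.mul_top]
  refine (?_ : Ideal.span {((p ^ n : ℕ) : O)} ≤ maximalIdeal O ^ n) (h n)
  rw [Ideal.span_singleton_le_iff_mem, Nat.cast_pow]
  exact Ideal.pow_mem_pow hpO n

theorem IsCyc.mul [NeZero p] [IsLocalRing O] [IsHausdorff (maximalIdeal O) O]
    (hpO : (p : O) ∈ maximalIdeal O) {chi : GQ → O} (h : IsCyc p chi) (g g' : GQ) :
    chi (g * g') = chi g * chi g' := by
  apply eq_of_forall_pow hpO
  intro n
  obtain ⟨a, ha⟩ := exists_level p n g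
  obtain ⟨b, hb⟩ := exists_level p n g'
  have hab : ∀ μ : Qb, μ ^ p ^ n = 1 → (g * g') μ = μ ^ (a * b) := by
    intro μ hμ
    have h1 : (g * g') μ = g (g' μ) := rfl
    rw [h1, hb μ hμ, map_pow, ha μ hμ, ← pow_mul]
  have e1 := h n _ _ hab
  have e2 := h n _ _ ha
  have e3 := h n _ _ hb
  have : chi (g * g') - chi g * chi g' = (chi (g * g') - ((a * b : ℕ) : O)) -
      (chi g - a) * chi g' - (a : O) * (chi g' - b) := by push_cast; ring
  rw [this]
  exact sub_mem (sub_mem e1 (Ideal.mul_mem_right _ _ e2)) (Ideal.mul_mem_left _ _ e3)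

theorem IsCyc.frob [Fact p.Prime] [IsLocalRing O] [IsHausdorff (maximalIdeal O) O]
    (hpO : (p : O) ∈ maximalIdeal O) {chi : GQ → O} (h : IsCyc p chi) {ℓ : ℕ} (hℓ : ℓ.Prime)
    (hℓp : ℓ ≠ p) {A : ValuationSubring Qb} (hA : A.LiesOverPrime ℓ) {φ : GQ}
    (hφ : A.IsFrobeniusAt φ ℓ) : chi φ = ℓ := by
  apply eq_of_forall_pow hpO
  intro n
  refine h n φ ℓ fun μ hμ => ?_
  refine IsFrobeniusAt.apply_rootOfUnity hℓ hA ?_ hφ hμ
  intro hd
  exact hℓp ((Nat.prime_dvd_prime_iff_eq hℓ (Fact.out : p.Prime)).mp (hℓ.dvd_of_dvd_pow hd))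

theorem IsCyc.inertia [Fact p.Prime] [IsLocalRing O] [IsHausdorff (maximalIdeal O) O]
    (hpO : (p : O) ∈ maximalIdeal O) {chi : GQ → O} (h : IsCyc p chi) {ℓ : ℕ} (hℓ : ℓ.Prime)
    (hℓp : ℓ ≠ p) {A : ValuationSubring Qb} (hA : A.LiesOverPrime ℓ) {σ : GQ}
    (hσ : σ ∈ A.inertiaSubgroupIn ℚ) : chi σ = 1 := by
  apply eq_of_forall_pow hpO
  intro n
  have := h n σ 1 fun μ hμ => ?_
  · rwa [Nat.cast_one] at this
  · rw [pow_one]
    refine inertia_apply_rootOfUnity hℓ hA ?_ hσ hμ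
    intro hd
    exact hℓp ((Nat.prime_dvd_prime_iff_eq hℓ (Fact.out : p.Prime)).mp (hℓ.dvd_of_dvd_pow hd))

theorem IsCyc.map {O' : Type} [CommRing O'] {chi : GQ → O} (h : IsCyc p chi) (f : O →+* O') :
    IsCyc p (fun g => f (chi g)) := by
  intro n σ a ha
  have h1 := Ideal.mem_map_of_mem f (h n σ a ha)
  rw [Ideal.map_span, Set.image_singleton, map_natCast, map_sub, map_natCast] at h1
  exact h1

theorem IsCyc.unique [NeZero p] [IsLocalRing O] [IsHausdorff (maximalIdeal O) O]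
    (hpO : (p : O) ∈ maximalIdeal O) {chi chi' : GQ → O} (h : IsCyc p chi) (h' : IsCyc p chi')
    (g : GQ) : chi g = chi' g := by
  apply eq_of_forall_pow hpO
  intro n
  obtain ⟨a, ha⟩ := exists_level p n g
  have : chi g - chi' g = (chi g - a) - (chi' g - a) := by ring
  rw [this]
  exact sub_mem (h n g a ha) (h' n g a ha)

theorem isCyc_det {A : Type} [CommRing A] [IsLocalRing A] {ρ : GaloisRepAdic A}
    (h : ρ.DetIsCyclotomic p) : IsCyc p (fun g => LinearMap.det (ρ.ρ g)) :=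
  fun n σ a ha => h.2 n σ a ha

end Cyc

section Hecke

/-- The determinant of a representation attached to a Hecke eigensystem is cyclotomic. -/
theorem detIsCyclotomic_of_frob {p N : ℕ} [NeZero N] (hp : p.Prime)
    {S : Finset ℕ} (hpS : p ∈ S) (hNS : ∀ q : ℕ, q.Prime → q ∣ N → q ∈ S)
    {T : Type} [CommRing T] [IsLocalRing T] [IsHausdorff (maximalIdeal T) T]
    (hpT : (p : T) ∈ maximalIdeal T) (ρ : GaloisRepAdic T)
    (π : CuspForm.heckeAlgebra N 2 (↑S : Set ℕ) →+* T)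
    (hfrob : ∀ (ℓ : ℕ) (hℓ : ℓ.Prime) (hℓN : ¬ ℓ ∣ N) (hℓS : ℓ ∉ (↑S : Set ℕ)),
      ∀ A : ValuationSubring (AlgebraicClosure ℚ), A.LiesOverPrime ℓ →
        ∀ σ : GQ, A.IsFrobeniusAt σ ℓ → LinearMap.charpoly (ρ.ρ σ) =
          Polynomial.X ^ 2 - Polynomial.C (π (CuspForm.heckeAlgebra.T hℓ hℓN hℓS)) * Polynomial.X
            + Polynomial.C ((ℓ : T)))
    {O : Type} [CommRing O] (f : O →+* T) {chi : GQ → O} (hchi : IsCyc p chi) (g : GQ) :
    LinearMap.det (ρ.ρ g) = f (chi g) := by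
  rw [← sub_eq_zero]
  apply IsHausdorff.haus (inferInstance : IsHausdorff (maximalIdeal T) T)
  intro n
  rw [SModEq.zero, smul_eq_mul, Ideal.mul_top]
  obtain ⟨ζ, hζ⟩ : ∃ ζ : Qb, IsPrimitiveRoot ζ (p ^ n) := by
    haveI : NeZero ((p ^ n : ℕ) : Qb) := ⟨by exact_mod_cast (pow_pos hp.pos n).ne'⟩
    exact HasEnoughRootsOfUnity.exists_primitiveRoot Qb (p ^ n)
  haveI : Subsingleton (Module.End ℤ PUnit) := ⟨fun a b => LinearMap.ext fun _ => rfl⟩
  obtain ⟨s, c, -, hs2, -, hs4⟩ := exists_hecke_trace_det weakChebotarev hp hpS hNS ρ π hfrob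
    (W := PUnit)
    { toFun := fun _ => 0
      map_one' := Subsingleton.elim _ _
      map_mul' := fun _ _ => Subsingleton.elim _ _
      map_zero' := Subsingleton.elim _ _
      map_add' := fun _ _ => Subsingleton.elim _ _ } 1
    ⟨⊥, inferInstance, fun _ _ => rfl⟩ (fun _ _ _ _ _ _ _ _ _ _ => rfl) n n ζ hζ.pow_eq_one g
  have h1 : ∀ μ : Qb, μ ^ p ^ n = 1 → g μ = μ ^ c := by
    intro μ hμ
    haveI : NeZero (p ^ n) := ⟨(pow_pos hp.pos n).ne'⟩
    obtain ⟨i, -, rfl⟩ := hζ.eq_pow_of_pow_eq_one hμ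
    rw [map_pow, hs4, ← pow_mul, ← pow_mul, mul_comm]
  have h2 := (hchi.map f) n g c h1
  have h3 : f (chi g) - (c : T) ∈ maximalIdeal T ^ n := by
    refine (?_ : Ideal.span {((p ^ n : ℕ) : T)} ≤ maximalIdeal T ^ n) h2
    rw [Ideal.span_singleton_le_iff_mem, Nat.cast_pow]
    exact Ideal.pow_mem_pow hpT n
  have h4 : LinearMap.det (ρ.ρ g) - f (chi g) =
      (LinearMap.det (ρ.ρ g) - (c : T)) - (f (chi g) - (c : T)) := by ring
  rw [h4]
  exact sub_mem hs2 h3

end Hecke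

end Fermat.Agent.H25.PT
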