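import Mathlib
import Fermat.Agent.H25.PtA
import Fermat.Agent.H19.HopfH

set_option autoImplicit false
set_option linter.unusedSectionVars false
set_option linter.style.haveILetI false

/-!
# Flatness at `p` at the level of pseudocharacters
-/

namespace Fermat.Agent.H25.PT

open Fermat.Agent.H25 Fermat.Agent.H25.PR Fermat.Agent.CC Fermat.Agent.TW IsLocalRing Matrix
open Fermat.Agent.H05 Fermat.Agent.H25.TR Fermat.Agent.H25.TWM Fermat.Agent.H19

/-- linear extension of a function on the group -/
noncomputable def ext {P : Type} [CommRing P] (t : GQ → P) (c : GQ →₀ ℤ) (h : GQ) : P :=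
  c.sum fun g a => a • t (g * h)

/-- `t` is flat at `p`: modulo every power of the maximal ideal of `O` it is killed by the
annihilator of a finite Galois module having a Hopf order at `p`. -/
def FlT (p : ℕ) (O : Type) [CommRing O] [IsLocalRing O] {P : Type} [CommRing P] [Algebra O P]
    (t : GQ → P) : Prop :=
  ∀ n : ℕ, ∃ (X : Type) (_ : AddCommGroup X) (_ : Finite X) (act : GQ →* AddMonoid.End X),
    HasHopf p act ∧ ∀ c : GQ →₀ ℤ, (∀ x, gr act x c = 0) → ∀ h, ext t c h ∈ lamI O P ^ n

theorem map_ext {P P' : Type} [CommRing P] [CommRing P'] (f : P →+* P') (t : GQ → P)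
    (c : GQ →₀ ℤ) (h : GQ) : f (ext t c h) = ext (fun g => f (t g)) c h := by
  rw [ext, ext, Finsupp.sum, Finsupp.sum, map_sum]
  refine Finset.sum_congr rfl fun g _ => ?_
  rw [map_zsmul]

section prod

variable {p : ℕ} {X : Type} {ι : Type} [Finite ι] {M : ι → Type} [∀ i, AddCommGroup (M i)]

/-- the action on a product -/
noncomputable def piAct (act : ∀ i, GQ →* AddMonoid.End (M i)) : GQ →* AddMonoid.End (∀ i, M i) where
  toFun σ := { toFun := fun x i => act i σ (x i)
               map_zero' := funext fun i => map_zero _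
               map_add' := fun x y => funext fun i => map_add _ _ _ }
  map_one' := by
    ext x i
    change act i 1 (x i) = x i
    rw [map_one]; rfl
  map_mul' σ τ := by
    ext x i
    change act i (σ * τ) (x i) = act i σ (act i τ (x i))
    rw [map_mul]; rfl

theorem piAct_apply (act : ∀ i, GQ →* AddMonoid.End (M i)) (σ : GQ) (x : ∀ i, M i) (i : ι) :
    piAct act σ x i = act i σ (x i) := rfl

theorem hasHopf_pi (act : ∀ i, GQ →* AddMonoid.End (M i)) (h : ∀ i, HasHopf p (act i)) :
    HasHopf p (piAct act) := by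
  refine HasHopf.of_family (ι := ι) (N := M) h (fun i => Pi.evalAddMonoidHom M i) ?_ ?_
  · intro i σ m
    rfl
  · intro m hm
    exact funext hm

theorem gr_piAct [DecidableEq ι] (act : ∀ i, GQ →* AddMonoid.End (M i)) (c : GQ →₀ ℤ)
    (h : ∀ x, gr (piAct act) x c = 0) (i : ι) (x : M i) : gr (act i) x c = 0 := by
  have h1 := congrFun (h (Pi.single i x)) i
  rw [gr, Finsupp.linearCombination_apply, Finsupp.sum] at h1 ⊢
  rw [Finset.sum_apply] at h1
  refine Eq.trans ?_ h1
  refine Finset.sum_congr rfl fun g _ => ?_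
  rw [Pi.smul_apply, piAct_apply, Pi.single_eq_same]

end prod

section trR

variable {O k : Type} [CommRing O] [IsLocalRing O] [IsNoetherianRing O]
  {κ : Type} [Finite κ] {B : κ → Type} [∀ i, CommRing (B i)] [∀ i, Algebra O (B i)]
  [∀ i, Module.Finite O (B i)]

/-- flatness of a pseudocharacter with values in a subalgebra of a product. -/
theorem FlT.of_pi {p : ℕ} {A : Type} [CommRing A] [Algebra O A] (f : A →ₐ[O] ∀ i, B i)
    (hf : Function.Injective f) {t : GQ → A} (h : ∀ i, FlT p O (fun g => f (t g) i)) :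
    FlT p O t := by
  classical
  intro n
  obtain ⟨c₀, hc₀⟩ := exists_artinRees (O := O) (B := B) f.range
  choose X i1 i2 act h1 h2 using fun i => h i (n + c₀)
  haveI := Fintype.ofFinite κ
  refine ⟨∀ i, X i, inferInstance, inferInstance, piAct act, hasHopf_pi act h1, fun c hc h => ?_⟩
  have h3 : ∀ i, f (ext t c h) i ∈ lamI O (B i) ^ (n + c₀) := by
    intro i
    have h4 := h2 i c (fun x => gr_piAct act c hc i x) h
    have h5 : f (ext t c h) i = ext (fun g => f (t g) i) c h :=
      map_ext ((Pi.evalRingHom B i).comp (f : A →+* ∀ i, B i)) t c h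
    rwa [h5]
  have h6 := hc₀ n ⟨f (ext t c h), ⟨_, rfl⟩⟩ h3
  let e : A ≃ₐ[O] f.range := AlgEquiv.ofInjective f hf
  have h7 := Ideal.mem_map_of_mem (e.symm : f.range →+* A) h6
  have h8 : (e.symm : f.range →+* A) ⟨f (ext t c h), ⟨_, rfl⟩⟩ = ext t c h := e.symm_apply_apply _
  rw [h8] at h7
  rw [Ideal.map_pow, lamI, Ideal.map_map] at h7
  have h9 : (e.symm : f.range →+* A).comp (algebraMap O f.range) = algebraMap O A :=
    RingHom.ext fun x => e.symm.commutes x
  rwa [h9] at h7

/-- functoriality -/
theorem FlT.map {p : ℕ} {A A' : Type} [CommRing A] [Algebra O A] [CommRing A'] [Algebra O A']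
    (f : A →ₐ[O] A') {t : GQ → A} (h : FlT p O t) : FlT p O (fun g => f (t g)) := by
  intro n
  obtain ⟨X, i1, i2, act, h1, h2⟩ := h n
  refine ⟨X, i1, i2, act, h1, fun c hc h => ?_⟩
  have h3 := Ideal.mem_map_of_mem (f : A →+* A') (h2 c hc h)
  rw [Ideal.map_pow, lamI, Ideal.map_map] at h3
  have h9 : (f : A →+* A').comp (algebraMap O A) = algebraMap O A' :=
    RingHom.ext fun x => f.commutes x
  rw [h9] at h3
  have h4 : (f : A →+* A') (ext t c h) = ext (fun g => f (t g)) c h := map_ext _ _ _ _
  rwa [h4] at h3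

end trR

end Fermat.Agent.H25.PT
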