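import Mathlib
import Fermat.Agent.H25.FlT
import Fermat.Agent.H25.ExtDVR
import Fermat.Agent.H23.EigenChar
import Fermat.Prelude.Def_CuspForm_Newforms
import Fermat.Prelude.Def_GaloisRep_Flat
import Fermat.Prelude.Def_GaloisRep_LocalConditions

set_option autoImplicit false
set_option linter.unusedSectionVars false
set_option linter.style.haveILetI false

/-!
# Representations attached to newforms, inside a fixed field
-/

namespace Fermat.Agent.H25.PT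

open Fermat.Agent.H25 Fermat.Agent.H25.PR Fermat.Agent.CC Fermat.Agent.TW IsLocalRing Matrix
open Fermat.Agent.H05 Fermat.Agent.H25.TR Fermat.Agent.H25.TWM Fermat.Agent.H19
open CongruenceSubgroup Polynomial
open ModularFormClass (qCoeff)

/-- Frobenius compatibility of a representation with a character of the Hecke algebra. -/
def HFrob {N : ℕ} [NeZero N] {S : Finset ℕ} {T : Type} [CommRing T] [IsLocalRing T] (ρ : GaloisRepAdic T)
    (π : CuspForm.heckeAlgebra N 2 (↑S : Set ℕ) →+* T) : Prop :=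
  ∀ (ℓ : ℕ) (hℓ : ℓ.Prime) (hℓN : ¬ ℓ ∣ N) (hℓS : ℓ ∉ (↑S : Set ℕ)),
      ∀ A : ValuationSubring (AlgebraicClosure ℚ), A.LiesOverPrime ℓ →
        ∀ σ : GQ, A.IsFrobeniusAt σ ℓ → LinearMap.charpoly (ρ.ρ σ) =
          X ^ 2 - C (π (CuspForm.heckeAlgebra.T hℓ hℓN hℓS)) * X + C ((ℓ : T))

/-- **Traces agree** if the traces and determinants of Frobenius elements agree. -/
theorem trace_eq_of_frob {A A' : Type} [CommRing A] [IsLocalRing A] [CommRing A'] [IsLocalRing A']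
    [IsHausdorff (maximalIdeal A') A'] (f : A →+* A') [IsLocalHom f]
    (ρ : GaloisRepAdic A) (ρ' : GaloisRepAdic A') (bad : Finset ℕ)
    (h : ∀ ℓ : ℕ, ℓ.Prime → ℓ ∉ bad → ∀ P : ValuationSubring Qb, P.LiesOverPrime ℓ →
      ∀ φ : GQ, P.IsFrobeniusAt φ ℓ → ∃ t : A, LinearMap.charpoly (ρ.ρ φ) =
        X ^ 2 - C t * X + C ((ℓ : A)) ∧ LinearMap.charpoly (ρ'.ρ φ) =
        X ^ 2 - C (f t) * X + C ((ℓ : A'))) (g : GQ) :
    f (ρ.trace g) = ρ'.trace g := by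
  rw [← sub_eq_zero]
  apply IsHausdorff.haus (inferInstance : IsHausdorff (maximalIdeal A') A')
  intro n
  rw [SModEq.zero, smul_eq_mul, Ideal.mul_top]
  obtain ⟨L₁, hL₁, h1⟩ := ρ.isAdicContinuous n
  obtain ⟨L₂, hL₂, h2⟩ := ρ'.isAdicContinuous n
  haveI : FiniteDimensional ℚ (L₁ ⊔ L₂ : IntermediateField ℚ (AlgebraicClosure ℚ)) :=
    IntermediateField.finiteDimensional_sup L₁ L₂
  obtain ⟨ℓ, hℓ, hℓS, P, hP, φ, hφ, j, hj⟩ := weakChebotarev (L₁ ⊔ L₂) inferInstance bad g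
  let u : GQ := (φ ^ j)⁻¹ * g
  have hu : ∀ x ∈ (L₁ ⊔ L₂ : IntermediateField ℚ (AlgebraicClosure ℚ)), u x = x := by
    intro x hx
    change (φ ^ j)⁻¹ (g x) = x
    rw [hj x hx]
    change ((φ ^ j)⁻¹ * (φ ^ j)) x = x
    rw [inv_mul_cancel]
    rfl
  have hg : g = φ ^ j * u := by
    change g = φ ^ j * ((φ ^ j)⁻¹ * g)
    rw [mul_inv_cancel_left]
  obtain ⟨t, ht, ht'⟩ := h ℓ hℓ hℓS P hP φ hφ
  have e1 : ρ.trace (φ ^ j) = lucas t (ℓ : A) j := by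
    have := trace_pow_eq_lucas ρ.finrank_eq (ρ.ρ φ) t (ℓ : A) ht j
    rw [← map_pow] at this
    exact this
  have e2 : ρ'.trace (φ ^ j) = lucas (f t) (ℓ : A') j := by
    have := trace_pow_eq_lucas ρ'.finrank_eq (ρ'.ρ φ) (f t) (ℓ : A') ht' j
    rw [← map_pow] at this
    exact this
  have e3 : f (lucas t (ℓ : A) j) = lucas (f t) (ℓ : A') j := by
    rw [map_lucas, map_natCast]
  have k1 : ρ.trace g - ρ.trace (φ ^ j) ∈ maximalIdeal A ^ n := by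
    have := trace_cont ρ (n := n) (u := u) (fun v => h1 u (fun x hx =>
      hu x (le_sup_left (a := L₁) hx)) v) (φ ^ j)
    rwa [← hg] at this
  have k2 : ρ'.trace g - ρ'.trace (φ ^ j) ∈ maximalIdeal A' ^ n := by
    have := trace_cont ρ' (n := n) (u := u) (fun v => h2 u (fun x hx =>
      hu x (le_sup_right (a := L₁) hx)) v) (φ ^ j)
    rwa [← hg] at this
  have k3 : f (ρ.trace g - ρ.trace (φ ^ j)) ∈ maximalIdeal A' ^ n := by
    have h4 := Ideal.mem_map_of_mem f k1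
    rw [Ideal.map_pow] at h4
    refine Ideal.pow_right_mono ?_ n h4
    rw [Ideal.map_le_iff_le_comap]
    intro a ha
    exact Ideal.mem_comap.mpr (map_nonunit f a ha)
  have : f (ρ.trace g) - ρ'.trace g = f (ρ.trace g - ρ.trace (φ ^ j)) -
      (ρ'.trace g - ρ'.trace (φ ^ j)) := by
    rw [map_sub, e1, e2, e3]; ring
  rw [this]
  exact sub_mem k3 k2

/-- The geometric inputs at `p`. -/
structure Geo (p : ℕ) : Prop where
  s30 : ∀ (N : ℕ) [NeZero N] (S : Finset ℕ) (_hpS : p ∈ S)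
      (_hNS : ∀ q : ℕ, q.Prime → q ∣ N → q ∈ S)
      (𝒪' : Type) [CommRing 𝒪'] [IsDomain 𝒪'] [IsDiscreteValuationRing 𝒪']
      [IsAdicComplete (IsLocalRing.maximalIdeal 𝒪') 𝒪'] [Finite (IsLocalRing.ResidueField 𝒪')]
      [CharZero 𝒪'] (_hp𝒪' : (p : 𝒪') ∈ IsLocalRing.maximalIdeal 𝒪')
      (χ : CuspForm.heckeAlgebra N 2 (↑S : Set ℕ) →+* 𝒪'),
      ∃ (𝒪'' : Type) (_ : CommRing 𝒪'') (_ : IsDomain 𝒪'') (_ : IsDiscreteValuationRing 𝒪'')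
        (_ : IsAdicComplete (IsLocalRing.maximalIdeal 𝒪'') 𝒪'')
        (_ : Finite (IsLocalRing.ResidueField 𝒪'')) (_ : CharZero 𝒪'')
        (_ : Algebra 𝒪' 𝒪'') (_ : Module.Finite 𝒪' 𝒪'') (_ : IsLocalHom (algebraMap 𝒪' 𝒪'')),
      Function.Injective (algebraMap 𝒪' 𝒪'') ∧
      ∃ ρ : GaloisRepAdic 𝒪'',
        (∀ (ℓ : ℕ) (hℓ : ℓ.Prime) (hℓN : ¬ ℓ ∣ N) (hℓS : ℓ ∉ (↑S : Set ℕ)),
          ∀ A : ValuationSubring (AlgebraicClosure ℚ), A.LiesOverPrime ℓ →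
            ∀ σ : AlgebraicClosure ℚ ≃ₐ[ℚ] AlgebraicClosure ℚ, A.IsFrobeniusAt σ ℓ →
              LinearMap.charpoly (ρ.ρ σ) =
                X ^ 2 - C (algebraMap 𝒪' 𝒪'' (χ (CuspForm.heckeAlgebra.T hℓ hℓN hℓS))) * X
                  + C ((ℓ : 𝒪''))) ∧
        (∀ q : ℕ, q.Prime → ¬ q ∣ N → q ≠ p → ρ.IsUnramifiedAt q)
  uni : ∀ (N : ℕ) [NeZero N] (S : Finset ℕ), p ∈ S → (∀ q : ℕ, q.Prime → q ∣ N → q ∈ S) →
    ∀ q : ℕ, q.Prime → q ≠ p → q ∣ N → ¬ q ^ 2 ∣ N → UnipotentInput p N (↑S : Set ℕ) q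
  fro : ∀ {M : ℕ} [NeZero M] {g : CuspForm (CongruenceSubgroup.Gamma0 M) 2} (_hg : g.IsNewform)
    (S : Finset ℕ) (_hpS : p ∈ S) (_hMS : ∀ q : ℕ, q.Prime → q ∣ M → q ∈ S)
    (O : Type) [CommRing O] [IsDomain O] [IsDiscreteValuationRing O]
    [IsAdicComplete (IsLocalRing.maximalIdeal O) O] [CharZero O]
    (_hpO : (p : O) ∈ IsLocalRing.maximalIdeal O)
    (π : CuspForm.heckeAlgebra M 2 (↑S : Set ℕ) →+* O)
    (_hπ : ∀ x, H23.eigenCharC _hg.1 (↑S : Set ℕ) x = 0 → π x = 0) (ρ : GaloisRepAdic O)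
    (_hfrob : HFrob ρ π) (q : ℕ), q.Prime → q ≠ p → q ∣ M → ¬ q ^ 2 ∣ M →
    ∀ A : ValuationSubring (AlgebraicClosure ℚ), A.LiesOverPrime q →
      ∀ σ : GQ, A.IsFrobeniusAt σ q →
        LinearMap.charpoly (ρ.ρ σ) = X ^ 2 - C ((q : O) + 1) * X + C ((q : O)) ∨
        LinearMap.charpoly (ρ.ρ σ) = X ^ 2 + C ((q : O) + 1) * X + C ((q : O))
  ram : ∀ {M : ℕ} [NeZero M] {g : CuspForm (CongruenceSubgroup.Gamma0 M) 2} (_hg : g.IsNewform)
    (S : Finset ℕ) (_hpS : p ∈ S) (_hMS : ∀ q : ℕ, q.Prime → q ∣ M → q ∈ S)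
    (O : Type) [CommRing O] [IsDomain O] [IsDiscreteValuationRing O] [CharZero O]
    (_hpO : (p : O) ∈ IsLocalRing.maximalIdeal O)
    (π : CuspForm.heckeAlgebra M 2 (↑S : Set ℕ) →+* O)
    (_hπ : ∀ x, H23.eigenCharC _hg.1 (↑S : Set ℕ) x = 0 → π x = 0) (ρ : GaloisRepAdic O)
    (_hfrob : HFrob ρ π) (q : ℕ), q.Prime → q ≠ p → M.factorization q = 2 →
    ¬ ρ.IsUnipotentOnInertiaAt q
  fl : ∀ (N : ℕ) [NeZero N] (S : Finset ℕ), p ∈ S → (∀ q : ℕ, q.Prime → q ∣ N → q ∈ S) →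
    ¬ p ∣ N → ∀ (T : Type) [CommRing T] [IsLocalRing T], (p : T) ∈ maximalIdeal T →
    ∀ (ρ : GaloisRepAdic T) (π : CuspForm.heckeAlgebra N 2 (↑S : Set ℕ) →+* T), HFrob ρ π →
    ∀ n : ℕ, ∃ (X : Type) (_ : AddCommGroup X) (_ : Finite X) (act : GQ →* AddMonoid.End X),
      HasHopf p act ∧ ∀ c : GQ →₀ ℤ, (∀ x, gr act x c = 0) → ∀ h,
        ext ρ.trace c h ∈ maximalIdeal T ^ n

end Fermat.Agent.H25.PT
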