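import Mathlib
import Fermat.Agent.H25.PtB

set_option autoImplicit false
set_option linter.unusedSectionVars false
set_option linter.style.haveILetI false

/-!
# Representations attached to newforms, inside a fixed field: the package
-/

namespace Fermat.Agent.H25.PT

open Fermat.Agent.H25 Fermat.Agent.H25.PR Fermat.Agent.CC Fermat.Agent.TW IsLocalRing Matrix
open Fermat.Agent.H05 Fermat.Agent.H25.TR Fermat.Agent.H25.TWM Fermat.Agent.H19
open CongruenceSubgroup Polynomial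
open ModularFormClass (qCoeff)

/-- **Unipotence of inertia** from the geometric input, trace form. -/
theorem trace_eq_two_of_input {p N : ℕ} [NeZero N]
    {S : Finset ℕ} {T : Type} [CommRing T] [IsLocalRing T] [IsHausdorff (maximalIdeal T) T]
    (hp : p.Prime) (hpT : (p : T) ∈ IsLocalRing.maximalIdeal T) (hpS : p ∈ S)
    (hNS : ∀ q : ℕ, q.Prime → q ∣ N → q ∈ S) {ρ : GaloisRepAdic T}
    {π : CuspForm.heckeAlgebra N 2 (↑S : Set ℕ) →+* T} (hfrob : HFrob ρ π)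
    (q : ℕ) (hq : q.Prime) (hqp : q ≠ p)
    (hinput : UnipotentInput p N (↑S : Set ℕ) q) {A : ValuationSubring Qb}
    (hA : A.LiesOverPrime q) {τ : GQ} (hτ : τ ∈ A.inertiaSubgroupIn ℚ) :
    ρ.trace τ = 2 := by
  have key : ∀ n : ℕ, ρ.trace τ - 2 ∈ IsLocalRing.maximalIdeal T ^ n := by
    intro n
    obtain ⟨W, instW, act, r, m, hW, hr, hES, huni⟩ := hinput n
    have hprim : ∃ ζ : AlgebraicClosure ℚ, IsPrimitiveRoot ζ (p ^ (m + n)) := by
      haveI : NeZero ((p ^ (m + n) : ℕ) : AlgebraicClosure ℚ) :=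
        ⟨by exact_mod_cast (pow_pos hp.pos (m + n)).ne'⟩
      exact HasEnoughRootsOfUnity.exists_primitiveRoot (AlgebraicClosure ℚ) (p ^ (m + n))
    obtain ⟨ζ, hζ⟩ := hprim
    obtain ⟨s, c, hs1, hs2, hs3, hs4⟩ := exists_hecke_trace_det weakChebotarev hp hpS hNS ρ π
      hfrob act r hr hES n (m + n) ζ hζ.pow_eq_one τ
    have hτζ : τ ζ = ζ := inertia_apply_rootOfUnity hq hA
      (fun h => hqp ((Nat.prime_dvd_prime_iff_eq hq hp).mp (hq.dvd_of_dvd_pow h))) hτ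
      hζ.pow_eq_one
    have hcc : ((p ^ (m + n) : ℕ) : ℤ) ∣ (c : ℤ) - 1 := by
      have h1 : ζ ^ c = ζ := by rw [← hs4, hτζ]
      have hζ0 : ζ ≠ 0 := hζ.ne_zero (pow_pos hp.pos _).ne'
      rw [← hζ.zpow_eq_one_iff_dvd, zpow_sub₀ hζ0, zpow_natCast, zpow_one, h1, div_self hζ0]
    obtain ⟨d, hd⟩ := hcc
    have hs3' : ∀ w, act s w = r τ w + r τ⁻¹ w := by
      intro w
      rw [hs3]
      congr 1
      have : (c : ℤ) • r τ⁻¹ w = r τ⁻¹ w := by
        have h2 : (c : ℤ) = 1 + (p ^ (m + n) : ℕ) * d := by omega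
        rw [h2, add_smul, one_smul, mul_comm, mul_smul, natCast_zsmul, pow_add, mul_comm (p ^ m),
          mul_smul, hW, smul_zero, smul_zero, add_zero]
      rwa [natCast_zsmul] at this
    obtain ⟨t, ht⟩ := huni A hA τ hτ s hs3'
    have h2 : π s - 2 ∈ IsLocalRing.maximalIdeal T ^ n := by
      have h3 : π s - 2 = π (s - 2) := by rw [map_sub, map_ofNat]
      rw [h3, ht, nsmul_eq_mul, map_mul, Nat.cast_pow, map_pow, map_natCast]
      exact Ideal.mul_mem_right _ _ (Ideal.pow_mem_pow hpT n)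
    have h4 : ρ.trace τ - 2 =
        (LinearMap.trace T ρ.V (ρ.ρ τ) - π s) + (π s - 2) := by
      rw [GaloisRepAdic.trace]; ring
    rw [h4]
    exact add_mem hs1 h2
  rw [← sub_eq_zero]
  apply IsHausdorff.haus (inferInstance : IsHausdorff (IsLocalRing.maximalIdeal T) T)
  intro n
  rw [SModEq.zero, smul_eq_mul, Ideal.mul_top]
  exact key n

/-- the primes dividing `N * p` -/
def bd (N p : ℕ) : Finset ℕ := (N * p).primeFactors

theorem mem_bd_self {N p : ℕ} [NeZero N] (hp : p.Prime) : p ∈ bd N p :=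
  Nat.mem_primeFactors.mpr ⟨hp, dvd_mul_left _ _, mul_ne_zero (NeZero.ne N) hp.ne_zero⟩

theorem mem_bd_of_dvd {N p : ℕ} [NeZero N] (hp : p.Prime) (q : ℕ) (hq : q.Prime) (h : q ∣ N) :
    q ∈ bd N p :=
  Nat.mem_primeFactors.mpr ⟨hq, h.mul_right _, mul_ne_zero (NeZero.ne N) hp.ne_zero⟩

theorem not_mem_bd {N p : ℕ} (hp : p.Prime) {ℓ : ℕ} (hℓ : ℓ.Prime) (h : ¬ ℓ ∣ N) (h' : ℓ ≠ p) :
    ℓ ∉ (↑(bd N p) : Set ℕ) := by
  intro hm
  have h1 := (Nat.mem_primeFactors.mp (Finset.mem_coe.mp hm)).2.1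
  rcases (Nat.Prime.dvd_mul hℓ).mp h1 with h2 | h2
  · exact h h2
  · exact h' ((Nat.prime_dvd_prime_iff_eq hℓ hp).mp h2)

/-- A representation attached to a newform, with coefficients in a complete dvr inside `K`. -/
structure NRep (O : Type) [CommRing O] [IsLocalRing O] {K : Type} [Field K] [Algebra O K] (p : ℕ)
    {N0 : ℕ} [NeZero N0] {g : CuspForm (Gamma0 N0) 2} (hg : g.IsNewform)
    (τ : integralClosure ℤ ℂ →+* K) where
  Q : Type
  [ringQ : CommRing Q]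
  [domQ : IsDomain Q]
  [dvrQ : IsDiscreteValuationRing Q]
  [compQ : IsAdicComplete (maximalIdeal Q) Q]
  [algQ : Algebra O Q]
  [finResQ : Finite (ResidueField Q)]
  [charQ : CharZero Q]
  [finQ : Module.Finite O Q]
  [locQ : IsLocalHom (algebraMap O Q)]
  injQ : Function.Injective (algebraMap O Q)
  e : Q →ₐ[O] K
  e_inj : Function.Injective e
  π : CuspForm.heckeAlgebra N0 2 (↑(bd N0 p) : Set ℕ) →+* Q
  hπ : ∀ t, e (π t) = τ (H23.eigenChar hg.1 _ t)
  ρ : GaloisRepAdic Q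
  hfrob : HFrob ρ π
  unr : ∀ q : ℕ, q.Prime → ¬ q ∣ N0 → q ≠ p → ρ.IsUnramifiedAt q

attribute [instance] NRep.ringQ NRep.domQ NRep.dvrQ NRep.compQ NRep.algQ NRep.finResQ NRep.charQ
  NRep.finQ NRep.locQ

section Exists

variable {O : Type} [CommRing O] [IsDomain O] [IsDiscreteValuationRing O]
  [IsAdicComplete (maximalIdeal O) O] [Finite (ResidueField O)] [CharZero O]
  {K : Type} [Field K] [IsAlgClosed K] [Algebra O K] [FaithfulSMul O K]
  {p : ℕ} [Fact p.Prime] (hpO : (p : O) ∈ maximalIdeal O) (G : Geo p)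

include hpO G in
/-- **Existence** of the representation attached to a newform. -/
theorem exists_NRep {N0 : ℕ} [NeZero N0] {g : CuspForm (Gamma0 N0) 2} (hg : g.IsNewform)
    (τ : integralClosure ℤ ℂ →+* K) (s : Set K) (hs : s.Finite) (hint : ∀ x ∈ s, IsIntegral O x) :
    ∃ R : NRep O p hg τ, Algebra.adjoin O s ≤ R.e.range := by
  classical
  have hp : p.Prime := Fact.out
  let 𝕋 := CuspForm.heckeAlgebra N0 2 (↑(bd N0 p) : Set ℕ)
  haveI : Module.Finite ℤ 𝕋 := S22.result N0 2 _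
  let θ : 𝕋 →+* K := τ.comp (H23.eigenChar hg.1 _)
  obtain ⟨s2, hs2⟩ := (Module.Finite.fg_top : (⊤ : Submodule ℤ 𝕋).FG)
  let s' : Set K := s ∪ θ '' (s2 : Set 𝕋)
  have hs' : s'.Finite := hs.union (s2.finite_toSet.image _)
  have hint' : ∀ x ∈ s', IsIntegral O x := by
    rintro x (hx | ⟨y, hy, rfl⟩)
    · exact hint x hx
    · have h1 : IsIntegral ℤ y := Algebra.IsIntegral.isIntegral y
      have h2 : IsIntegral ℤ (θ y) := h1.map θ.toIntAlgHom
      exact h2.tower_top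
  obtain ⟨Q', i1, i2, i3, i4, i5, e', h1, h2, h3, h4, h5, h6, h7⟩ := XD.exists_dvr_of_set s' hs' hint'
  have hmem : ∀ t : 𝕋, θ t ∈ e'.range := by
    intro t
    have ht : t ∈ Submodule.span ℤ (s2 : Set 𝕋) := by rw [hs2]; trivial
    induction ht using Submodule.span_induction with
    | mem y hy => exact h7 (Algebra.subset_adjoin (Or.inr ⟨y, hy, rfl⟩))
    | zero => rw [map_zero]; exact zero_mem _
    | add y z _ _ hy hz => rw [map_add]; exact add_mem hy hz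
    | smul a y _ hy => rw [map_zsmul]; exact zsmul_mem hy a
  let E : Q' ≃ₐ[O] e'.range := AlgEquiv.ofInjective e' h6
  let χ : 𝕋 →+* Q' := (E.symm : e'.range →+* Q').comp (θ.codRestrict e'.range hmem)
  have hχ : ∀ t, e' (χ t) = θ t := by
    intro t
    have : E (χ t) = ⟨θ t, hmem t⟩ := E.apply_symm_apply _
    exact congrArg Subtype.val this
  have hpQ' : (p : Q') ∈ maximalIdeal Q' := by
    have h8 : algebraMap O Q' (p : O) ∈ maximalIdeal Q' := map_nonunit _ _ hpO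
    rwa [map_natCast] at h8
  obtain ⟨Q, j1, j2, j3, j4, j5, j6, j7, j8, j9, hinj, ρ, hρ, hunr⟩ := G.s30 N0 (bd N0 p)
    (mem_bd_self hp) (mem_bd_of_dvd hp) Q' hpQ' χ
  letI : Algebra O Q := ((algebraMap Q' Q).comp (algebraMap O Q')).toAlgebra
  haveI : IsScalarTower O Q' Q := IsScalarTower.of_algebraMap_eq fun _ => rfl
  haveI : Module.Finite O Q := Module.Finite.trans Q' Q
  haveI : IsLocalHom (algebraMap O Q) := by
    constructor
    intro a ha
    exact isUnit_of_map_unit _ _ (isUnit_of_map_unit (algebraMap Q' Q) _ ha)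
  letI : Algebra Q' K := (e' : Q' →+* K).toAlgebra
  haveI : FaithfulSMul Q' K := (faithfulSMul_iff_algebraMap_injective _ _).mpr h6
  haveI : FaithfulSMul Q' Q := (faithfulSMul_iff_algebraMap_injective _ _).mpr hinj
  haveI : IsScalarTower O Q' K := IsScalarTower.of_algebraMap_eq fun x => (e'.commutes x).symm
  haveI : Algebra.IsAlgebraic Q' Q := by
    haveI : Algebra.IsIntegral Q' Q := inferInstance
    infer_instance
  let e : Q →ₐ[Q'] K := IsAlgClosed.lift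
  have he : Function.Injective e := by
    rw [injective_iff_map_eq_zero]
    intro a ha
    by_contra ha0
    have h9 : Ideal.comap (algebraMap Q' Q) (RingHom.ker (e : Q →+* K)) ≠ ⊥ :=
      Ideal.comap_ne_bot_of_integral_mem ha0 (RingHom.mem_ker.mpr ha)
        (Algebra.IsIntegral.isIntegral a)
    apply h9
    rw [eq_bot_iff]
    intro x hx
    rw [Ideal.mem_comap, RingHom.mem_ker] at hx
    have h10 : e (algebraMap Q' Q x) = e' x := e.commutes x
    exact h6 ((h10.symm.trans hx).trans (map_zero e').symm)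
  refine ⟨{ Q := Q, injQ := hinj.comp h5, e := e.restrictScalars O, e_inj := he,
            π := (algebraMap Q' Q).comp χ, hπ := fun t => ?_, ρ := ρ, hfrob := hρ,
            unr := hunr }, ?_⟩
  · have h10 : e (algebraMap Q' Q (χ t)) = e' (χ t) := e.commutes _
    exact h10.trans (hχ t)
  · intro x hx
    obtain ⟨y, hy⟩ := h7 (Algebra.adjoin_mono (Set.subset_union_left) hx)
    exact ⟨algebraMap Q' Q y, (e.commutes y).trans hy⟩

end Exists

namespace NRep

variable {O k : Type} [CommRing O] [IsLocalRing O] [IsNoetherianRing O]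
  [IsHausdorff (maximalIdeal O) O]
  {K : Type} [Field K] [Algebra O K] [Field k] (D : RD O k)
  {p : ℕ} [hp : Fact p.Prime] (hpO : (p : O) ∈ maximalIdeal O) (G : Geo p)
  {N0 : ℕ} [NeZero N0] {g : CuspForm (Gamma0 N0) 2} {hg : g.IsNewform}
  {τ : integralClosure ℤ ℂ →+* K} (R : NRep O p hg τ)

include hpO in
theorem hpQ : (p : R.Q) ∈ maximalIdeal R.Q := by
  have h8 : algebraMap O R.Q (p : O) ∈ maximalIdeal R.Q := map_nonunit _ _ hpO
  rwa [map_natCast] at h8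

include hpO in
theorem det_eq {chi : GQ → O} (hchi : IsCyc p chi) (σ : GQ) :
    LinearMap.det (R.ρ.ρ σ) = algebraMap O R.Q (chi σ) :=
  detIsCyclotomic_of_frob hp.out (mem_bd_self hp.out) (mem_bd_of_dvd hp.out) (R.hpQ hpO) R.ρ R.π
    R.hfrob (algebraMap O R.Q) hchi σ

theorem ps : IsPseudo2 R.ρ.trace := isPseudo2_trace R.ρ

include hpO in
theorem dt {chi : GQ → O} (hchi : IsCyc p chi) (σ : GQ) :
    R.ρ.trace σ * R.ρ.trace σ - R.ρ.trace (σ * σ) = 2 * algebraMap O R.Q (chi σ) := by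
  rw [trace_det, R.det_eq hpO hchi]

include hpO in
theorem tc {chi : GQ → O} (hchi : IsCyc p chi) {c : GQ} (hc : c * c = 1) (hc1 : chi c = -1) :
    R.ρ.trace c = 0 := by
  have h1 := R.dt hpO hchi c
  rw [hc, R.ps.one, hc1, map_neg, map_one] at h1
  have h2 : R.ρ.trace c * R.ρ.trace c = 0 := by linear_combination h1
  exact mul_self_eq_zero.mp h2

theorem cont {S : Finset Nat.Primes} (hS : ∀ q : Nat.Primes, (q : ℕ) ∣ N0 * p → q ∈ S) (n : ℕ) :
    ∃ U, (levS S).isOpen U ∧ ∀ u ∈ U, ∀ σ, R.ρ.trace (σ * u) - R.ρ.trace σ ∈ lamI O R.Q ^ n := by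
  obtain ⟨c, hc⟩ := exists_pow_le_lamI (O := O) (B := R.Q)
  refine ⟨congSub R.ρ (c * n), congSub_open R.ρ (fun q hq => ?_) _, fun u hu σ => ?_⟩
  · refine R.unr q q.2 (fun h => hq (hS q (h.mul_right p))) (fun h => hq (hS q ?_))
    rw [h]
    exact dvd_mul_left _ _
  · have h1 := trace_cont R.ρ hu σ
    rw [pow_mul] at h1
    exact Ideal.pow_right_mono hc n h1

/-- trace of Frobenius -/
theorem trace_frob {ℓ : ℕ} (hℓ : ℓ.Prime) (hℓN : ¬ ℓ ∣ N0) (hℓp : ℓ ≠ p)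
    {A : ValuationSubring Qb} (hA : A.LiesOverPrime ℓ) {φ : GQ} (hφ : A.IsFrobeniusAt φ ℓ)
    {y : integralClosure ℤ ℂ} (hy : (y : ℂ) = qCoeff g ℓ) : R.e (R.ρ.trace φ) = τ y := by
  have h1 := trace_eq_of_charpoly R.ρ (R.hfrob ℓ hℓ hℓN (not_mem_bd hp.out hℓ hℓN hℓp) A hA φ hφ)
  rw [h1, R.hπ]
  congr 1
  apply Subtype.ext
  rw [H23.coe_eigenChar_T, hy]

include hpO G in
theorem trace_inertia {q : ℕ} (hq : q.Prime) (hqp : q ≠ p) (hq2 : ¬ q ^ 2 ∣ N0)
    {A : ValuationSubring Qb} (hA : A.LiesOverPrime q) {σ : GQ}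
    (hσ : σ ∈ A.inertiaSubgroupIn ℚ) : R.ρ.trace σ = 2 := by
  by_cases hqN : q ∣ N0
  · exact trace_eq_two_of_input hp.out (R.hpQ hpO) (mem_bd_self hp.out) (mem_bd_of_dvd hp.out)
      R.hfrob q hq hqp (G.uni N0 (bd N0 p) (mem_bd_self hp.out) (mem_bd_of_dvd hp.out) q hq hqp hqN
        hq2) hA hσ
  · have h1 := R.unr q hq hqN hqp A hA σ hσ
    have h2 := R.ps.one
    rw [GaloisRepAdic.trace] at h2 ⊢
    rw [h1, ← map_one R.ρ.ρ, h2]

theorem π_eq_zero {x : CuspForm.heckeAlgebra N0 2 (↑(bd N0 p) : Set ℕ)}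
    (hx : H23.eigenCharC hg.1 _ x = 0) : R.π x = 0 := by
  apply R.e_inj
  rw [R.hπ, map_zero]
  have : H23.eigenChar hg.1 _ x = 0 := Subtype.ext hx
  rw [this, map_zero]

include hpO G in
theorem trace_sq {q : ℕ} (hq : q.Prime) (hqp : q ≠ p) (hqN : q ∣ N0) (hq2 : ¬ q ^ 2 ∣ N0)
    {A : ValuationSubring Qb} (hA : A.LiesOverPrime q) {φ : GQ} (hφ : A.IsFrobeniusAt φ q) :
    R.ρ.trace φ ^ 2 = ((q : R.Q) + 1) ^ 2 := by
  rcases G.fro hg (bd N0 p) (mem_bd_self hp.out) (mem_bd_of_dvd hp.out) R.Q (R.hpQ hpO) R.π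
    (fun x hx => R.π_eq_zero hx) R.ρ R.hfrob q hq hqp hqN hq2 A hA φ hφ with h | h
  · rw [trace_eq_of_charpoly R.ρ h]
  · have h2 : LinearMap.charpoly (R.ρ.ρ φ) =
        X ^ 2 - C (-((q : R.Q) + 1)) * X + C ((q : R.Q)) := by
      rw [h, map_neg]; ring
    rw [trace_eq_of_charpoly R.ρ h2, neg_sq]

include hpO G in
theorem exists_ramified {chi : GQ → O} (hchi : IsCyc p chi) {q : ℕ} (hq : q.Prime) (hqp : q ≠ p)
    (hq2 : N0.factorization q = 2) : ∃ (A : ValuationSubring Qb) (_ : A.LiesOverPrime q),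
      ∃ σ ∈ A.inertiaSubgroupIn ℚ, R.ρ.trace σ ≠ 2 := by
  by_contra hcon
  push Not at hcon
  apply G.ram hg (bd N0 p) (mem_bd_self hp.out) (mem_bd_of_dvd hp.out) R.Q (R.hpQ hpO) R.π
    (fun x hx => R.π_eq_zero hx) R.ρ R.hfrob q hq hqp hq2
  intro A hA σ hσ
  have h1 := hcon A hA σ hσ
  rw [charpoly_eq_trace_det R.ρ.finrank_eq]
  have h3 : LinearMap.det (R.ρ.ρ σ) = 1 := by
    rw [R.det_eq hpO hchi, hchi.inertia hpO hq hqp hA hσ, map_one]
  have h4 : LinearMap.trace R.Q R.ρ.V (R.ρ.ρ σ) = 2 := h1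
  rw [h3, h4, map_one]
  have : (C (2 : R.Q) : R.Q[X]) = 2 := map_ofNat C 2
  rw [this]
  ring

include hpO G in
theorem flT (hpN : ¬ p ∣ N0) : FlT p O R.ρ.trace := by
  intro n
  obtain ⟨c, hc⟩ := exists_pow_le_lamI (O := O) (B := R.Q)
  obtain ⟨X, i1, i2, act, h1, h2⟩ := G.fl N0 (bd N0 p) (mem_bd_self hp.out) (mem_bd_of_dvd hp.out)
    hpN R.Q (R.hpQ hpO) R.ρ R.π R.hfrob (c * n)
  refine ⟨X, i1, i2, act, h1, fun y hy h => ?_⟩
  have h3 := h2 y hy h
  rw [pow_mul] at h3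
  exact Ideal.pow_right_mono hc n h3

end NRep

end Fermat.Agent.H25.PT
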