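import Mathlib
import Fermat.Agent.H25.PtC
import Fermat.Agent.H25.Asm5

set_option autoImplicit false
set_option linter.unusedSectionVars false
set_option linter.style.haveILetI false

/-!
# Hecke algebras whose points come from newforms
-/

namespace Fermat.Agent.H25.PT

open Fermat.Agent.H25 Fermat.Agent.H25.PR Fermat.Agent.CC Fermat.Agent.TW IsLocalRing Matrix
open Fermat.Agent.H05 Fermat.Agent.H25.TR Fermat.Agent.H25.TWM Fermat.Agent.H19
open Fermat.Agent.H25.GE
open CongruenceSubgroup Polynomial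
open ModularFormClass (qCoeff)

/-- A point coming from a newform. -/
structure NPt (K : Type) [Field K] (p : ℕ) (bad : Finset ℕ) (S : Finset Nat.Primes)
    (a : ℕ → K) where
  N0 : ℕ
  [nz : NeZero N0]
  g : CuspForm (Gamma0 N0) 2
  hg : g.IsNewform
  τ : integralClosure ℤ ℂ →+* K
  hτ : ∀ ℓ : ℕ, ℓ.Prime → ℓ ∉ bad → ∃ y : integralClosure ℤ ℂ, (y : ℂ) = qCoeff g ℓ ∧ τ y = a ℓ
  hbad : ∀ ℓ : ℕ, ℓ.Prime → ℓ ∣ N0 * p → ℓ ∈ bad
  hS : ∀ q : Nat.Primes, (q : ℕ) ∣ N0 * p → q ∈ S

attribute [instance] NPt.nz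

/-- A Hecke algebra with its points. -/
structure HIn {O k : Type} [CommRing O] [IsLocalRing O] [Field k] (D : RD O k) (K : Type)
    [Field K] [Algebra O K] (p : ℕ) (S : Finset Nat.Primes) (bad : Finset ℕ) where
  B : Type
  [ringB : CommRing B]
  [algB : Algebra O B]
  [finB : Module.Finite O B]
  T : ℕ → B
  X : Type
  [finX : Finite X]
  pt : X → (B →ₐ[O] K)
  pt_inj : ∀ b, (∀ x, pt x b = 0) → b = 0
  np : ∀ x, NPt K p bad S (fun ℓ => pt x (T ℓ))
  res : B →+* k
  res_comp : ∀ a : O, res (algebraMap O B a) = D.res a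
  loc : ∀ b : B, res b ≠ 0 → IsUnit b
  res_T : ∀ ℓ : ℕ, ℓ.Prime → ℓ ∉ bad → ∀ A : ValuationSubring Qb, A.LiesOverPrime ℓ →
    ∀ φ : GQ, A.IsFrobeniusAt φ ℓ → D.tbar φ = res (T ℓ)

attribute [instance] HIn.ringB HIn.algB HIn.finB HIn.finX

section

variable {O k : Type} [CommRing O] [IsDomain O] [IsDiscreteValuationRing O]
  [IsAdicComplete (maximalIdeal O) O] [Finite (ResidueField O)] [CharZero O] [Field k]
  {D : RD O k}
  {K : Type} [Field K] [IsAlgClosed K] [Algebra O K] [FaithfulSMul O K]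
  {p : ℕ} [hp : Fact p.Prime] (hpO : (p : O) ∈ maximalIdeal O) (G : Geo p)
  (hchi : IsCyc p D.chi) (hc : D.chi D.c = -1)
  {S : Finset Nat.Primes} {bad : Finset ℕ} (H : HIn D K p S bad)

namespace HIn

include hpO G in
theorem exists_rep (x : H.X) : ∃ R : NRep O p (H.np x).hg (H.np x).τ, ∀ b, H.pt x b ∈ R.e.range := by
  classical
  obtain ⟨s, hs⟩ := (Module.Finite.fg_top : (⊤ : Submodule O H.B).FG)
  obtain ⟨R, hR⟩ := exists_NRep hpO G (H.np x).hg (H.np x).τ (H.pt x '' (s : Set H.B))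
    (s.finite_toSet.image _) (by
      rintro _ ⟨y, hy, rfl⟩
      exact (Algebra.IsIntegral.isIntegral (R := O) y).map (H.pt x))
  refine ⟨R, fun b => ?_⟩
  have hb : b ∈ Submodule.span O (s : Set H.B) := by rw [hs]; trivial
  induction hb using Submodule.span_induction with
  | mem y hy => exact hR (Algebra.subset_adjoin ⟨y, hy, rfl⟩)
  | zero => rw [map_zero]; exact zero_mem _
  | add y z _ _ hy hz => rw [map_add]; exact add_mem hy hz
  | smul a y _ hy => rw [map_smul]; exact Subalgebra.smul_mem _ hy a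

/-- the representation at a point -/
noncomputable def rep (x : H.X) : NRep O p (H.np x).hg (H.np x).τ := (H.exists_rep hpO G x).choose

theorem rep_range (x : H.X) (b : H.B) : H.pt x b ∈ (H.rep hpO G x).e.range :=
  (H.exists_rep hpO G x).choose_spec b

/-- evaluation at a point, with values in the coefficient ring of the representation -/
noncomputable def evQ (x : H.X) : H.B →ₐ[O] (H.rep hpO G x).Q :=
  (AlgEquiv.ofInjective (H.rep hpO G x).e (H.rep hpO G x).e_inj).symm.toAlgHom.comp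
    ((H.pt x).codRestrict (H.rep hpO G x).e.range (H.rep_range hpO G x))

theorem e_evQ (x : H.X) (b : H.B) : (H.rep hpO G x).e (H.evQ hpO G x b) = H.pt x b := by
  have h : AlgEquiv.ofInjective (H.rep hpO G x).e (H.rep hpO G x).e_inj (H.evQ hpO G x b) =
      ⟨H.pt x b, H.rep_range hpO G x b⟩ := AlgEquiv.apply_symm_apply _ _
  exact congrArg Subtype.val h

include hchi hc in
/-- **The component attached to a Hecke algebra.** -/
noncomputable def cd : CData D S bad where
  B := H.B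
  T := H.T
  X := H.X
  P x := (H.rep hpO G x).Q
  faithP x := (faithfulSMul_iff_algebraMap_injective _ _).mpr (H.rep hpO G x).injQ
  f := AlgHom.pi (fun x => H.evQ hpO G x)
  f_inj := by
    rw [injective_iff_map_eq_zero]
    intro b hb
    apply H.pt_inj
    intro x
    have h1 : H.evQ hpO G x b = 0 := congrFun hb x
    rw [← H.e_evQ hpO G x b, h1, map_zero]
  t x := (H.rep hpO G x).ρ.trace
  ps x := (H.rep hpO G x).ps
  tc x := (H.rep hpO G x).tc hpO hchi D.cc hc
  dt x := (H.rep hpO G x).dt hpO hchi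
  cont x n := (H.rep hpO G x).cont (H.np x).hS n
  frob := by
    intro ℓ hℓ hb A hA φ hφ x
    obtain ⟨y, hy1, hy2⟩ := (H.np x).hτ ℓ hℓ hb
    apply (H.rep hpO G x).e_inj
    have h1 := (H.rep hpO G x).trace_frob hℓ
      (fun h => hb ((H.np x).hbad ℓ hℓ (h.mul_right p)))
      (fun h => hb ((H.np x).hbad ℓ hℓ (by rw [h]; exact dvd_mul_left _ _))) hA hφ hy1
    rw [h1, hy2]
    exact (H.e_evQ hpO G x (H.T ℓ)).symm
  res := H.res
  res_comp := H.res_comp
  loc := H.loc
  res_T := H.res_T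

variable (hbar : HBar D S)

include hbar in
/-- flatness of the component -/
theorem flT_cd (hN : ∀ x, ¬ p ∣ (H.np x).N0) :
    FlT p O ((H.cd hpO G hchi hc).C hbar).t := by
  refine FlT.of_pi (H.cd hpO G hchi hc).f (H.cd hpO G hchi hc).f_inj fun x => ?_
  have h1 : (fun g => (H.cd hpO G hchi hc).f (((H.cd hpO G hchi hc).C hbar).t g) x) =
      (H.rep hpO G x).ρ.trace := by
    funext g
    exact (H.cd hpO G hchi hc).ev_C hbar g x
  rw [h1]
  exact (H.rep hpO G x).flT hpO G (hN x)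

/-- the newform at a point of the component -/
def npt (x : (H.cd hpO G hchi hc).X) : NPt K p bad S (fun ℓ => H.pt x (H.T ℓ)) := H.np x

/-- type 1 -/
theorem t_tmv_eq_two (x : (H.cd hpO G hchi hc).X) {q : ℕ} (hq : q.Prime) (hqp : q ≠ p)
    (hq2 : ¬ q ^ 2 ∣ (H.npt hpO G hchi hc x).N0) :
    (H.cd hpO G hchi hc).t x (tmv p hp.out q hq) = 2 :=
  (H.rep hpO G x).trace_inertia hpO G hq hqp hq2 (plv_over q hq) (tmv_spec p hp.out q hq).2.1

end HIn

end

end Fermat.Agent.H25.PT
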