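import Mathlib
import Fermat.Agent.H25.PtD
import Fermat.Agent.H12.InertiaConj

set_option autoImplicit false
set_option linter.unusedSectionVars false
set_option linter.style.haveILetI false

/-!
# Local conditions at the points of a Hecke component
-/

namespace Fermat.Agent.H25.PT

open Fermat.Agent.H25 Fermat.Agent.H25.PR Fermat.Agent.CC Fermat.Agent.TW IsLocalRing Matrix
open Fermat.Agent.H05 Fermat.Agent.H25.TR Fermat.Agent.H25.TWM Fermat.Agent.H19
open Fermat.Agent.H25.GE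
open scoped Pointwise

section Tame

variable {O k : Type} [CommRing O] [IsLocalRing O] [IsNoetherianRing O]
    [IsAdicComplete (maximalIdeal O) O] [Field k] {D : RD O k}
    {S : Finset Nat.Primes} {B : Type} [CommRing B] [Algebra O B] [Module.Finite O B]
    (C : Comp D B) {p : ℕ} (hp : p.Prime) (hpO : (p : O) ∈ maximalIdeal O)
    {P : Type} [CommRing P] [Algebra O P] [Module.Finite O P]

theorem pw_two_one {R : Type} [CommRing R] (n : ℕ) : pw (2 : R) 1 n = 2 := by
  have h : ∀ n, pw (2 : R) 1 n = 2 ∧ pw (2 : R) 1 (n + 1) = 2 := by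
    intro n
    induction n with
    | zero => exact ⟨rfl, rfl⟩
    | succ n ih =>
      refine ⟨ih.2, ?_⟩
      change 2 * pw (2 : R) 1 (n + 1) - 1 * pw (2 : R) 1 n = 2
      rw [ih.1, ih.2]; ring
  exact (h n).1

include hpO in
/-- If the trace of the tame generator is `2` then the trace of every element of inertia is `2`. -/
theorem trace_of_tmv (hC : C.ContS S (lamI O B)) {q : ℕ} (hq : q.Prime) (hpq : p ≠ q)
    (hunr : ∀ σ ∈ (plv q hq).inertiaSubgroupIn ℚ, D.rbar σ = 1)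
    (hchi : ∀ σ ∈ (plv q hq).inertiaSubgroupIn ℚ, D.chi σ = 1)
    (f : B →ₐ[O] P) (h2 : f (C.t (tmv p hp q hq)) = 2) {σ : GQ}
    (hσ : σ ∈ (plv q hq).inertiaSubgroupIn ℚ) : f (C.t σ) = 2 := by
  haveI := C.isLocalRing
  haveI := C.isHausdorff_map f
  rw [← sub_eq_zero]
  apply IsHausdorff.haus (inferInstance : IsHausdorff ((maximalIdeal B).map (f : B →+* P)) P)
  intro n
  rw [SModEq.zero, smul_eq_mul, Ideal.mul_top]
  obtain ⟨b, hb⟩ := (C.local_at hp hpO hC hq hpq hunr n).1 σ hσ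
  have h3 : C.t σ - C.t (tmv p hp q hq ^ b) ∈ maximalIdeal B ^ n := by
    rw [← C.trace_rho, ← C.trace_rho, map_pow, Matrix.trace_fin_two, Matrix.trace_fin_two]
    have e1 := hb 0 0
    have e2 := hb 1 1
    rw [Matrix.sub_apply] at e1 e2
    have := add_mem e1 e2
    convert this using 1
    ring
  have h4 : f (C.t (tmv p hp q hq ^ b)) = 2 := by
    rw [t_pow C.ps C.h2B (C.dt _), hchi _ (tmv_spec p hp q hq).2.1, map_one]
    have := map_pw (f : B →+* P) (C.t (tmv p hp q hq)) 1 b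
    rw [map_one] at this
    refine this.trans ?_
    have h5 : (f : B →+* P) (C.t (tmv p hp q hq)) = 2 := h2
    rw [h5, pw_two_one]
  have h5 := Ideal.mem_map_of_mem (f : B →+* P) h3
  rw [Ideal.map_pow, map_sub] at h5
  have h6 : (f : B →+* P) (C.t (tmv p hp q hq ^ b)) = 2 := h4
  rw [h6] at h5
  exact h5

end Tame

/-- inertia at all places above `q` is conjugate. -/
theorem exists_conj_inertia {q : ℕ} (hq : q.Prime) {A : ValuationSubring Qb}
    (hA : A.LiesOverPrime q) {σ : GQ} (hσ : σ ∈ A.inertiaSubgroupIn ℚ) :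
    ∃ g : GQ, g⁻¹ * σ * g ∈ (plv q hq).inertiaSubgroupIn ℚ := by
  haveI := Fermat.Agent.H51.isGalois_Qbar
  obtain ⟨g, rfl⟩ := exists_smul_eq hq (plv_over q hq) hA
  exact ⟨g, (Fermat.Agent.H12.mem_inertia_conj hq (plv_over q hq) g σ).mp hσ⟩

theorem trace_conj {G R : Type*} [Group G] [CommRing R] {t : G → R} (ht : IsPseudo2 t) (g σ : G) :
    t (g⁻¹ * σ * g) = t σ := by
  rw [mul_assoc, ht.comm, mul_assoc, mul_inv_cancel, mul_one]

/-- at primes with distinct residual Frobenius eigenvalues there is no Steinberg point -/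
theorem sq_ne_of_eig {O k : Type} [CommRing O] [IsLocalRing O] [IsNoetherianRing O]
    [IsAdicComplete (maximalIdeal O) O] [Field k] {D : RD O k}
    {S : Finset Nat.Primes} {bad : Finset ℕ} (H : CData D S bad) (hbar : HBar D S) (x : H.X)
    {q : ℕ} (hq : q.Prime)
    (heig : ∃ a b : k, (D.rbar (frv q hq)).trace = a + b ∧
      (D.rbar (frv q hq)).det = a * b ∧ a ≠ b) (hq1 : ((q : ℕ) : k) = 1)
    (hF : D.chi (frv q hq) = (q : O)) :
    (H.t x (frv q hq)) ^ 2 ≠ ((q : H.P x) + 1) ^ 2 := by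
  intro h3
  obtain ⟨a, c, e1, e2, e3⟩ := heig
  have h4 : (H.C hbar).resB ((H.C hbar).t (frv q hq) ^ 2 - ((q : H.B) + 1) ^ 2) ≠ 0 := by
    have k1 : (H.C hbar).resB ((H.C hbar).t (frv q hq)) = a + c := by
      rw [(H.C hbar).res_t, ← e1, D.trace_rbar]
    have k2 : (D.res (D.chi (frv q hq))) = a * c := by rw [← D.det_rbar, e2]
    rw [hF, map_natCast, hq1] at k2
    rw [map_sub, map_pow, map_pow, map_add, map_one, k1, map_natCast, hq1]
    intro h0
    have h5 : (a - c) ^ 2 = 0 := by linear_combination h0 + 4 * k2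
    exact e3 (sub_eq_zero.mp (pow_eq_zero_iff two_ne_zero |>.mp h5))
  have h5 := ((H.C hbar).loc _ h4).map (H.ev x)
  have h6 : (H.ev x) ((H.C hbar).t (frv q hq) ^ 2 - ((q : H.B) + 1) ^ 2) = 0 := by
    rw [map_sub, map_pow, map_pow, map_add, map_one, map_natCast, H.ev_C, h3, sub_self]
  rw [h6] at h5
  exact not_isUnit_zero h5

section

variable {O k : Type} [CommRing O] [IsDomain O] [IsDiscreteValuationRing O]
  [IsAdicComplete (maximalIdeal O) O] [Finite (ResidueField O)] [CharZero O] [Field k]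
  {D : RD O k}
  {K : Type} [Field K] [IsAlgClosed K] [Algebra O K] [FaithfulSMul O K]
  {p : ℕ} [hp : Fact p.Prime] (hpO : (p : O) ∈ maximalIdeal O) (G : Geo p)
  (hchi : IsCyc p D.chi) (hc : D.chi D.c = -1)
  {S : Finset Nat.Primes} {bad : Finset ℕ} (H : HIn D K p S bad) (hbar : HBar D S)

namespace HIn

include hbar in
/-- type `χ` -/
theorem t_tmv_ne_two (x : (H.cd hpO G hchi hc).X) {q : ℕ} (hq : q.Prime) (hqp : q ≠ p)
    (hunr : ∀ σ ∈ (plv q hq).inertiaSubgroupIn ℚ, D.rbar σ = 1)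
    (hq2 : (H.npt hpO G hchi hc x).N0.factorization q = 2) :
    (H.cd hpO G hchi hc).t x (tmv p hp.out q hq) ≠ 2 := by
  intro h
  obtain ⟨A, hA, σ, hσ, hne⟩ := (H.rep hpO G x).exists_ramified hpO G hchi hq hqp hq2
  apply hne
  obtain ⟨g, hg⟩ := exists_conj_inertia hq hA hσ
  have h1 := trace_of_tmv ((H.cd hpO G hchi hc).C hbar) hp.out hpO
    ((H.cd hpO G hchi hc).C_contS hbar) hq (Ne.symm hqp) hunr
    (fun σ hσ => hchi.inertia hpO hq hqp (plv_over q hq) hσ) ((H.cd hpO G hchi hc).ev x)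
    (by rw [CData.ev_C]; exact h) hg
  rw [CData.ev_C] at h1
  have h2 : (H.rep hpO G x).ρ.trace (g⁻¹ * σ * g) = 2 := h1
  rwa [trace_conj (H.rep hpO G x).ps] at h2

include hbar in
/-- Taylor–Wiles primes -/
theorem tw_iff (x : (H.cd hpO G hchi hc).X) {q : ℕ} (hq : q.Prime) (hqp : q ≠ p)
    (heig : ∃ a b : k, (D.rbar (frv q hq)).trace = a + b ∧
      (D.rbar (frv q hq)).det = a * b ∧ a ≠ b) (hq1 : ((q : ℕ) : k) = 1)
    (hq2 : (H.npt hpO G hchi hc x).N0.factorization q ≤ 2) {b : H.B}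
    (hb : q ^ 2 ∣ (H.npt hpO G hchi hc x).N0 ↔ H.pt x b ≠ 1) :
    (H.cd hpO G hchi hc).ev x b = 1 ↔
      ∀ σ ∈ (plv q hq).inertiaSubgroupIn ℚ, ∀ g,
        (H.cd hpO G hchi hc).t x (σ * g) = (H.cd hpO G hchi hc).t x g := by
  have hev : (H.cd hpO G hchi hc).ev x b = 1 ↔ H.pt x b = 1 := by
    have h1 := H.e_evQ hpO G x b
    constructor
    · intro h
      have h2 : H.evQ hpO G x b = 1 := h
      rw [← h1, h2, map_one]
    · intro h
      have h2 : H.evQ hpO G x b = 1 := by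
        apply (H.rep hpO G x).e_inj
        rw [h1, h, map_one]
      exact h2
  rw [hev]
  constructor
  · intro h σ hσ g
    have hnd : ¬ q ^ 2 ∣ (H.npt hpO G hchi hc x).N0 := fun h' => hb.mp h' h
    by_cases hqN : q ∣ (H.npt hpO G hchi hc x).N0
    · exact absurd ((H.rep hpO G x).trace_sq hpO G hq hqp hqN hnd (plv_over q hq) (frv_spec q hq))
        (sq_ne_of_eig (H.cd hpO G hchi hc) hbar x hq heig hq1
          (hchi.frob hpO hq hqp (plv_over q hq) (frv_spec q hq)))
    · have h1 := (H.rep hpO G x).unr q hq hqN hqp _ (plv_over q hq) σ hσ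
      change (H.rep hpO G x).ρ.trace (σ * g) = (H.rep hpO G x).ρ.trace g
      rw [GaloisRepAdic.trace, GaloisRepAdic.trace, map_mul, h1, one_mul]
  · intro h
    by_contra hne
    have hd := hb.mpr hne
    have hq2' : (H.npt hpO G hchi hc x).N0.factorization q = 2 :=
      le_antisymm hq2 ((hq.pow_dvd_iff_le_factorization (NeZero.ne _)).mp hd)
    obtain ⟨A, hA, σ, hσ, hne⟩ := (H.rep hpO G x).exists_ramified hpO G hchi hq hqp hq2'
    apply hne
    obtain ⟨g, hg⟩ := exists_conj_inertia hq hA hσ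
    have h1 := h _ hg 1
    rw [mul_one] at h1
    have h2 : (H.rep hpO G x).ρ.trace (g⁻¹ * σ * g) = (H.rep hpO G x).ρ.trace 1 := h1
    rwa [trace_conj (H.rep hpO G x).ps, (H.rep hpO G x).ps.one] at h2

end HIn

end

end Fermat.Agent.H25.PT
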