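import Mathlib
import Fermat.Agent.H25.PtE
import Fermat.Agent.TW.Tan

set_option autoImplicit false
set_option linter.unusedSectionVars false
set_option linter.style.haveILetI false

/-!
# First order deformations as representations over the dual numbers
-/

namespace Fermat.Agent.H25.SB

open Fermat.Agent.H25 Fermat.Agent.H25.PR Fermat.Agent.CC Fermat.Agent.TW IsLocalRing Matrix
open Fermat.Agent.H05 Fermat.Agent.H25.TR Fermat.Agent.H25.TWM Fermat.Agent.H25.GD
open Fermat.Agent.H25.PT Fermat.Agent.H19 Fermat.Agent.H25.GE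
open Fermat.Agent.H04 (DN M2)

section dual

variable {O A : Type} [CommRing O] [IsLocalRing O] [CommRing A] [Algebra O A]
  {res : A →+* ResidueField O} {d : A → ResidueField O}

/-- the ring homomorphism to the dual numbers attached to a derivation -/
noncomputable def dualHom (hd : IsDer O res d) : A →+* DN O where
  toFun a := DN.mk O (res a) (d a)
  map_one' := by rw [map_one, hd.one, Fermat.Agent.H04.DN.one_eq]
  map_mul' x y := by
    rw [Fermat.Agent.H04.DN.mk_mul, map_mul, hd.mul]
  map_zero' := by rw [map_zero, hd.zero, Fermat.Agent.H04.DN.zero_eq]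
  map_add' x y := by rw [Fermat.Agent.H04.DN.mk_add, map_add, hd.add]

theorem dualHom_apply (hd : IsDer O res d) (a : A) : dualHom hd a = DN.mk O (res a) (d a) := rfl

theorem dualHom_algebraMap (hd : IsDer O res d)
    (hres : ∀ a : O, res (algebraMap O A a) = residue O a) (a : O) :
    dualHom hd (algebraMap O A a) = algebraMap O (DN O) a := by
  rw [dualHom_apply, hd.const, hres, Fermat.Agent.H04.DN.algebraMap_eq]

/-- the deformation to the dual numbers -/
noncomputable def sHom (hd : IsDer O res d) (ρ : GQ →* Mt A) : GQ →* M2 (DN O) :=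
  ((dualHom hd).mapMatrix : Matrix (Fin 2) (Fin 2) A →+* Matrix (Fin 2) (Fin 2) (DN O)).toMonoidHom.comp ρ

theorem sHom_apply (hd : IsDer O res d) (ρ : GQ →* Mt A) (g : GQ) :
    sHom hd ρ g = (ρ g).map (dualHom hd) := rfl

theorem FM_sHom (hd : IsDer O res d) (ρ : GQ →* Mt A) (g : GQ) :
    FM (sHom hd ρ g) = (ρ g).map res := rfl

theorem SM_sHom (hd : IsDer O res d) (ρ : GQ →* Mt A) (g : GQ) :
    SM (sHom hd ρ g) = (ρ g).map d := rfl

theorem det_sHom (hd : IsDer O res d) (ρ : GQ →* Mt A) (g : GQ) :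
    (sHom hd ρ g).det = dualHom hd (ρ g).det := by
  rw [sHom_apply]
  exact (RingHom.map_det (dualHom hd) (ρ g)).symm

theorem trace_sHom (hd : IsDer O res d) (ρ : GQ →* Mt A) (g : GQ) :
    (sHom hd ρ g).trace = dualHom hd (ρ g).trace := by
  rw [sHom_apply]
  exact (AddMonoidHom.map_trace (dualHom hd).toAddMonoidHom (ρ g)).symm

variable {rbar : GQ →* Mt (ResidueField O)} {ρ : GQ →* Mt A} {S : Finset Nat.Primes}

theorem sn_det_sHom (hd : IsDer O res d) (hdet : ∀ g, ∃ a : O, (ρ g).det = algebraMap O A a)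
    (g : GQ) : sn (sHom hd ρ g).det = 0 := by
  obtain ⟨a, ha⟩ := hdet g
  rw [det_sHom, ha, dualHom_apply, sn_mk, hd.const]

theorem isOpen_ker_sHom (hd : IsDer O res d)
    (hcont : ∃ U, (levS S).isOpen U ∧ ∀ s ∈ U, MatCong (RingHom.ker res ^ 2) (ρ s) 1) :
    (levS S).isOpen (sHom hd ρ).ker := by
  obtain ⟨U, hU, hU'⟩ := hcont
  refine (levS S).mono _ _ hU fun g hg => ?_
  rw [MonoidHom.mem_ker, sHom_apply]
  have h1 := hd.mat_cong (hU' g hg)
  have h2 := map_res_cong (hU' g hg)
  rw [hd.mat_one] at h1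
  ext i j
  have e1 : d (ρ g i j) = 0 := congrFun (congrFun h1 i) j
  have e2 : res (ρ g i j) = res ((1 : Mt A) i j) := congrFun (congrFun h2 i) j
  change DN.mk O (res (ρ g i j)) (d (ρ g i j)) = _
  rw [e1, e2, Matrix.one_apply, Matrix.one_apply]
  split_ifs
  · rw [map_one]; rfl
  · rw [map_zero]; rfl

/-- the cocycle of a derivation is the class of the deformation -/
theorem cls_eq_coc (hd : IsDer O res d) (hbar : ∀ g, (ρ g).map res = rbar g)
    (hdet : ∀ g, ∃ a : O, (ρ g).det = algebraMap O A a)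
    (hcont : ∃ U, (levS S).isOpen U ∧ ∀ s ∈ U, MatCong (RingHom.ker res ^ 2) (ρ s) 1) :
    cls (rb := rbar) S (s := sHom hd ρ) (fun g => hbar g) (isOpen_ker_sHom hd hcont)
      (sn_det_sHom hd hdet) = coc hd hbar hdet hcont := by
  apply Subtype.ext
  funext g
  exact Ad0.ext rfl

end dual

section flat

variable {O : Type} [CommRing O] [IsLocalRing O] {D : RD O (ResidueField O)} {A : Type} [CommRing A]
  [Algebra O A] (C : Comp D A) {d : A → ResidueField O}

/-- nondegeneracy after base change -/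
theorem eq_zero_of_trace_map {R' : Type} [CommRing R'] (f : A →+* R') {X : Mt R'}
    (h : ∀ g, (X * (C.rho g).map f).trace = 0) : X = 0 := by
  let M : GQ →* Mt R' := (f.mapMatrix : Mt A →+* Mt R').toMonoidHom.comp C.rho
  refine eq_zero_of_trace_mul (G := GQ) (t := fun g => f (C.t g)) (hf := f (algebraMap O A D.hf))
    (c := D.c) (r := D.r) (s := D.s) (u := f C.ui) (M := M) ?_ D.cc ?_ ?_ ?_ ?_ h
  · rw [← map_ofNat f 2, ← map_mul, C.h2B, map_one]
  · exact C.ps.map f
  · change f (C.t D.c) = 0
    rw [C.tc, map_zero]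
  · have h1 : entX (fun g => f (C.t g)) (f (algebraMap O A D.hf)) D.c D.r D.s =
        f (entX C.t (algebraMap O A D.hf) D.c D.r D.s) := by
      simp only [entX, map_sub, map_mul, map_add]
    rw [h1, ← map_mul, C.mul_ui, map_one]
  · intro g
    change (C.rho g).map f = _
    rw [C.rho_eq, repMat_map]

/-- the action on `k[ε]²` -/
noncomputable def actG (s : GQ →* M2 (DN O)) : GQ →* AddMonoid.End (Fin 2 → DN O) where
  toFun σ := (Matrix.mulVecLin (s σ)).toAddMonoidHom
  map_one' := by
    ext v : 1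
    change (s 1).mulVec v = v
    rw [map_one, Matrix.one_mulVec]
  map_mul' σ τ := by
    ext v : 1
    change (s (σ * τ)).mulVec v = (s σ).mulVec ((s τ).mulVec v)
    rw [map_mul, Matrix.mulVec_mulVec]

theorem actG_apply (s : GQ →* M2 (DN O)) (σ : GQ) (v : Fin 2 → DN O) :
    actG s σ v = (s σ).mulVec v := rfl

theorem finite_DN' [Finite (ResidueField O)] : Finite (DN O) :=
  inferInstanceAs (Finite (ResidueField O × ResidueField O))

theorem res_eq_zero {a : O} (ha : a ∈ maximalIdeal O) : D.res a = 0 := by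
  have h1 : (RingHom.ker D.res).IsMaximal := RingHom.ker_isMaximal_of_surjective D.res D.surj
  have h2 := IsLocalRing.eq_maximalIdeal h1
  rw [← h2] at ha
  exact ha

theorem dualHom_lamI (hd : IsDer O C.resB d) {x : A} (hx : x ∈ lamI O A) : dualHom hd x = 0 := by
  have h1 : lamI O A ≤ RingHom.ker (dualHom hd) := by
    rw [lamI, Ideal.map_le_iff_le_comap]
    intro a ha
    rw [Ideal.mem_comap, RingHom.mem_ker, dualHom_apply, hd.const, C.res_comp, res_eq_zero ha]
    rfl
  exact h1 hx

/-- flatness of the pseudocharacter gives flatness of all first order deformations -/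
theorem hasHopf_sHom [Finite (ResidueField O)] {p : ℕ} (hfl : FlT p O C.t)
    (hd : IsDer O C.resB d) : HasHopf p (actG (sHom hd C.rho)) := by
  haveI := finite_DN' (O := O)
  obtain ⟨X, i1, i2, act, h1, h2⟩ := hfl 1
  refine HasHopf.of_ann h1 fun c hc v => ?_
  have key : (c.sum fun g a => a • sHom hd C.rho g) = 0 := by
    refine eq_zero_of_trace_map C (dualHom hd) fun h => ?_
    have h3 := h2 c hc h
    rw [pow_one] at h3
    have h4 := dualHom_lamI C hd h3
    change dualHom hd (c.sum fun g a => a • C.t (g * h)) = 0 at h4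
    rw [Finsupp.sum, map_sum] at h4
    rw [Finsupp.sum, Finset.sum_mul, Matrix.trace_sum]
    refine Eq.trans ?_ h4
    refine Finset.sum_congr rfl fun g _ => ?_
    rw [smul_mul_assoc, Matrix.trace_smul, map_zsmul, ← C.trace_rho, ← trace_sHom, map_mul]
    rfl
  have h5 : gr (actG (sHom hd C.rho)) v c = (c.sum fun g a => a • sHom hd C.rho g).mulVec v := by
    rw [gr, Finsupp.linearCombination_apply, Finsupp.sum, Finsupp.sum, Matrix.sum_mulVec]
    refine Finset.sum_congr rfl fun g _ => ?_
    rw [Matrix.smul_mulVec]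
    rfl
  rw [h5, key, Matrix.zero_mulVec]

end flat

end Fermat.Agent.H25.SB
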