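import Mathlib
import Fermat.Agent.H25.SelA
import Fermat.Agent.TW.Local3

set_option autoImplicit false
set_option linter.unusedSectionVars false
set_option linter.style.haveILetI false

/-!
# Selmer groups of `ad⁰` with arbitrary local conditions, and their size at Taylor-Wiles levels
-/

namespace Fermat.Agent.H25.SB

open Fermat.Agent.H25 Fermat.Agent.H25.PR Fermat.Agent.CC Fermat.Agent.TW IsLocalRing Matrix
open Fermat.Agent.H05 Fermat.Agent.H25.TR Fermat.Agent.H25.TWM Fermat.Agent.H25.GD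
open Fermat.Agent.H25.PT Fermat.Agent.H19 Fermat.Agent.H25.GE
open Fermat.Agent.H04 (DN M2)

/-- decomposition group at the chosen place above `q` -/
noncomputable abbrev Dq (q : Nat.Primes) : Subgroup GQ := (plv q q.2).decompositionSubgroup ℚ

/-- local cohomology of `ad⁰` -/
abbrev HD {k : Type} [Field k] (rb : GQ →* Mt k) (q : Nat.Primes) : Type :=
  H1 (lev.sub (Dq q)) (Ad0 rb (1 : GQ →* k))

/-- local conditions -/
abbrev LocF {k : Type} [Field k] (rb : GQ →* Mt k) : Type :=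
  ∀ q : Nat.Primes, AddSubgroup (HD rb q)

section Sel

variable {k : Type} [Field k]

/-- Selmer group -/
noncomputable def Sel (S : Finset Nat.Primes) (rb : GQ →* Mt k) (L : LocF rb) :
    AddSubgroup (H1 (levS S) (Ad0 rb (1 : GQ →* k))) :=
  ⨅ q : S, (L q).comap (resD S (Dq q) _)

theorem mem_Sel {S : Finset Nat.Primes} {rb : GQ →* Mt k} {L : LocF rb}
    {x : H1 (levS S) (Ad0 rb (1 : GQ →* k))} :
    x ∈ Sel S rb L ↔ ∀ q ∈ S, resD S (Dq q) _ x ∈ L q := by
  rw [Sel, AddSubgroup.mem_iInf]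
  exact ⟨fun h q hq => h ⟨q, hq⟩, fun h q => h q q.2⟩

/-- global classes of `ad⁰(1)` vanishing at `Q` -/
noncomputable def SelD (S Q : Finset Nat.Primes) (rb : GQ →* Mt k) (χ : GQ →* k) :
    AddSubgroup (H1 (levS S) (Ad0 rb χ)) :=
  ⨅ q : Q, (resD S (Dq q) _).ker

theorem mem_SelD {S Q : Finset Nat.Primes} {rb : GQ →* Mt k} {χ : GQ →* k}
    {x : H1 (levS S) (Ad0 rb χ)} :
    x ∈ SelD S Q rb χ ↔ ∀ q ∈ Q, resD S (Dq q) _ x = 0 := by
  rw [SelD, AddSubgroup.mem_iInf]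
  exact ⟨fun h q hq => h ⟨q, hq⟩, fun h q => h q q.2⟩

/-- **Greenberg-Wiles for `ad⁰`** (interface) -/
def GWad (p : ℕ) : Prop := ∀ (k : Type) [Field k] [Finite k] [CharP k p]
  (S : Finset Nat.Primes) (r : GQ →* Mt k) (χ : GQ →* k), (∃ q ∈ S, (q : ℕ) = p) →
  TWData p S r χ → Finite (H1 (levS S) (Ad0 r χ)) ∧ ∀ (L : LocF r) (Q : Finset Nat.Primes),
    Q ⊆ S → (∀ q ∈ Q, L q = ⊤) →
    Finite (Sel S r L) ∧ Nat.card (Sel S r L) *
      (Nat.card k * ∏ q ∈ S, Nat.card (H0 (Dq q) (Ad0 r (1 : GQ →* k)))) ≤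
      Nat.card (SelD S Q r χ) * ∏ q ∈ S, Nat.card (L q)

end Sel

section Infl

variable {k : Type} [Field k] {p : ℕ} {S S₁ : Finset Nat.Primes} {r : GQ →* Mt k} {χ : GQ →* k}

/-- A cocycle of level `S` trivial at `S \ S₁` has level `S₁`. -/
theorem exists_descend (h : TWData p S₁ r χ) (f : Z1 (levS S) (Ad0 r χ))
    (hf : ∀ q ∈ S, q ∉ S₁ → ∃ a : Ad0 r χ, ∀ g ∈ Dq q, f.1 g = g • a - a) :
    ∃ f' : Z1 (levS S₁) (Ad0 r χ), f'.1 = f.1 := by
  have hχ : ∀ g, r g = 1 → χ g = 1 := fun g hg => by rw [← h.det, hg, Matrix.det_one]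
  have htriv : ∀ g, r g = 1 → ∀ a : Ad0 r χ, g • a = a := fun g hg a =>
    Ad0.smul_of_trivial hg (hχ g hg) a
  have hmul := f.2.2
  have hone : f.1 1 = 0 := Z1.map_one f
  let N : Subgroup GQ :=
    { carrier := {g | r g = 1 ∧ f.1 g = 0}
      one_mem' := ⟨map_one r, hone⟩
      mul_mem' := fun {a b} ha hb => ⟨by rw [map_mul, ha.1, hb.1, one_mul], by
        rw [hmul, ha.2, hb.2, smul_zero, add_zero]⟩
      inv_mem' := fun {a} ha => by
        have h1 : r a⁻¹ = 1 := by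
          have := r_mul_inv r a
          rwa [ha.1, one_mul] at this
        refine ⟨h1, ?_⟩
        have h2 := hmul a⁻¹ a
        rw [inv_mul_cancel, hone, ha.2, smul_zero, add_zero] at h2
        exact h2.symm }
  have hN1 : lev.isOpen N := by
    obtain ⟨U, hU, hfU⟩ := f.2.1
    refine lev.mono _ _ (lev.inf _ _ (lev_isOpen_of_levS hU) (lev_isOpen_of_levS h.open_ker))
      fun s hs => ⟨hs.2, ?_⟩
    have := hfU 1 s hs.1
    rwa [one_mul, hone] at this
  have hN : (levS S₁).isOpen N := by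
    refine levS_isOpen_of hN1 fun q hq A hA τ hτ => ?_
    have hr1 : r τ = 1 := h.r_inertia hq hA hτ
    refine ⟨hr1, ?_⟩
    by_cases hqS : q ∈ S
    · obtain ⟨a, ha⟩ := hf q hqS hq
      obtain ⟨g, rfl⟩ := H05.exists_smul_eq q.2 (plv_over q q.2) hA
      have h1 : g⁻¹ * τ * g ∈ (plv q q.2).inertiaSubgroupIn ℚ := H09.inertia_conj hτ
      have h2 : r (g⁻¹ * τ * g) = 1 := h.r_inertia hq (plv_over q q.2) h1
      have h3 : f.1 (g⁻¹ * τ * g) = 0 := by
        rw [ha _ (inertia_le_decomposition _ h1), htriv _ h2, sub_self]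
      have h4 : τ = g * (g⁻¹ * τ * g) * g⁻¹ := by group
      have h5 := hmul g g⁻¹
      rw [mul_inv_cancel, hone] at h5
      rw [h4, hmul, hmul, h3, smul_zero, add_zero, mul_smul, htriv _ h2, ← h5]
    · exact eq_zero_of_inertia f hqS hA hτ
  refine ⟨⟨f.1, ⟨N, hN, fun g s hs => ?_⟩, hmul⟩, rfl⟩
  rw [hmul, hs.2, smul_zero, add_zero]

theorem twdata_mono (hS : S₁ ⊆ S) (h : TWData p S₁ r χ) : TWData p S r χ :=
  ⟨h.prime, h.ne_two, CC.levS_mono hS h.open_ker, h.det, h.chi, h.noLine, h.noLine2⟩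

end Infl

section Glue

variable {k : Type} [Field k] [Finite k] {p : ℕ} [CharP k p] {S₁ : Finset Nat.Primes}
  {r : GQ →* Mt k} {χ : GQ →* k}

open scoped Classical in
/-- **Selmer groups at Taylor-Wiles levels.** -/
theorem exists_TW_Sel (hGW : GWad p) (hpS : ∃ q ∈ S₁, (q : ℕ) = p) (h : TWData p S₁ r χ) :
    ∃ m : ℕ, ∀ n : ℕ, n ≠ 0 → ∀ T : Finset ℕ, ∃ qv : Fin m → Nat.Primes, Function.Injective qv ∧
      (∀ j, (qv j : ℕ) ∉ T ∧ qv j ∉ S₁ ∧ TWData.IsTW p n r χ (qv j)) ∧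
      ∀ L : LocF r, (∀ j, L (qv j) = ⊤) →
        Finite (Sel (S₁ ∪ Finset.univ.image qv) r L) ∧
        Nat.card (Sel (S₁ ∪ Finset.univ.image qv) r L) *
          (Nat.card k * ∏ q ∈ S₁, Nat.card (H0 (Dq q) (Ad0 r (1 : GQ →* k)))) ≤
          (∏ q ∈ S₁, Nat.card (L q)) * Nat.card k ^ m := by
  have hfin := (hGW k S₁ r χ hpS h).1
  refine ⟨Nat.card (H1 (levS S₁) (Ad0 r χ)), fun n hn T => ?_⟩
  set m := Nat.card (H1 (levS S₁) (Ad0 r χ)) with hm
  let pl : ℕ → ValuationSubring Qb := fun q => if hq : q.Prime then plv q hq else ⊤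
  have hpl : ∀ q (hq : q.Prime), pl q = plv q hq := fun q hq => dif_pos hq
  have hfin2 : Finite (⊤ : AddSubgroup (H1 (levS S₁) (Ad0 r χ))) := inferInstance
  obtain ⟨qv, h1, h2, h3⟩ := h.exists_TW_set hn m (T ∪ S₁.image (fun q : Nat.Primes => (q : ℕ)) ∪ {p})
    (by simp) (fun q hq => by
      rw [Finset.mem_union, Finset.mem_union, Finset.mem_image]
      exact Or.inl (Or.inr ⟨q, hq, rfl⟩)) ⊤ (by
      rw [AddSubgroup.card_top]; omega) pl (fun q hq => by rw [hpl q hq]; exact plv_over q hq)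
  let Qv : Fin m → Nat.Primes := fun j => ⟨qv j, (h2 j).2.1⟩
  have hQinj : Function.Injective Qv := fun i j hij => h1 (congrArg Subtype.val hij)
  have hQ1 : ∀ j, Qv j ∉ S₁ := fun j hj => (h2 j).1 (by
    rw [Finset.mem_union, Finset.mem_union, Finset.mem_image]
    exact Or.inl (Or.inr ⟨Qv j, hj, rfl⟩))
  refine ⟨Qv, hQinj, fun j => ⟨fun hj => (h2 j).1 (by
    rw [Finset.mem_union, Finset.mem_union]
    exact Or.inl (Or.inl hj)), hQ1 j, (h2 j).2⟩, fun L hL => ?_⟩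
  set S := S₁ ∪ Finset.univ.image Qv with hS
  have hS1 : S₁ ⊆ S := Finset.subset_union_left
  have hTS : TWData p S r χ := twdata_mono hS1 h
  obtain ⟨hf1, hf2⟩ := hGW k S r χ (by obtain ⟨q, hq, hq'⟩ := hpS; exact ⟨q, hS1 hq, hq'⟩) hTS
  obtain ⟨hf3, hf4⟩ := hf2 L (Finset.univ.image Qv) Finset.subset_union_right (by
    intro q hq
    obtain ⟨j, -, rfl⟩ := Finset.mem_image.1 hq
    exact hL j)
  refine ⟨hf3, ?_⟩
  -- the dual Selmer group vanishes
  have hz : Nat.card (SelD S (Finset.univ.image Qv) r χ) = 1 := by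
    have : Subsingleton (SelD S (Finset.univ.image Qv) r χ) := by
      constructor
      have key : ∀ y ∈ SelD S (Finset.univ.image Qv) r χ, y = 0 := by
        intro y hy
        obtain ⟨f, rfl⟩ := H1.mk_surjective y
        rw [mem_SelD] at hy
        obtain ⟨f', hf'⟩ := exists_descend h f (fun q hq hq1 => by
          have hqQ : q ∈ Finset.univ.image Qv := by
            rcases Finset.mem_union.1 hq with h4 | h4
            · exact absurd h4 hq1
            · exact h4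
          exact (resD_mk_eq_zero f).1 (hy q hqQ))
        have h5 : H1.mk _ _ f' = 0 := by
          refine h3 _ trivial fun i => ?_
          rw [resD_mk_eq_zero, hpl (qv i) (h2 i).2.1, hf']
          exact (resD_mk_eq_zero f).1 (hy (Qv i) (Finset.mem_image_of_mem _ (Finset.mem_univ i)))
        rw [H1.mk_eq_zero] at h5 ⊢
        obtain ⟨a, ha⟩ := h5
        exact ⟨a, fun g => by rw [← hf']; exact ha g⟩
      rintro ⟨a, ha⟩ ⟨b, hb⟩
      exact Subtype.ext ((key a ha).trans (key b hb).symm)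
    exact Nat.card_of_subsingleton 0
  rw [hz, one_mul] at hf4
  have hdisj : Disjoint S₁ (Finset.univ.image Qv) := by
    rw [Finset.disjoint_right]
    intro q hq
    obtain ⟨j, -, rfl⟩ := Finset.mem_image.1 hq
    exact hQ1 j
  rw [hS, Finset.prod_union hdisj, Finset.prod_union hdisj,
    Finset.prod_image (fun i _ j _ hij => hQinj hij),
    Finset.prod_image (fun i _ j _ hij => hQinj hij), ← hS] at hf4
  have hloc : ∏ j, Nat.card (L (Qv j)) ≤
      Nat.card k ^ m * ∏ j, Nat.card (H0 (Dq (Qv j)) (Ad0 r (1 : GQ →* k))) := by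
    have e1 : Nat.card k ^ m = ∏ _j : Fin m, Nat.card k := by
      rw [Finset.prod_const, Finset.card_univ, Fintype.card_fin]
    rw [e1, ← Finset.prod_mul_distrib]
    refine Finset.prod_le_prod' fun j _ => ?_
    rw [hL j, AddSubgroup.card_top]
    refine (card_H1_TW h.prime h.ne_two (lev_isOpen_of_levS h.open_ker) (h2 j).2.1 ?_
      (plv_over _ _) (fun τ hτ => h.r_inertia (hQ1 j) (plv_over _ _) hτ) fun φ hφ => ?_).2
    · exact (dvd_pow_self p hn).trans (h2 j).2.2.1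
    · obtain ⟨h6, h7⟩ := (h2 j).2.2.2 _ (plv_over (qv j) (h2 j).2.1) φ hφ
      exact ⟨by rw [h.det, h6], h7⟩
  have hpos : 0 < ∏ j, Nat.card (H0 (Dq (Qv j)) (Ad0 r (1 : GQ →* k))) :=
    Finset.prod_pos fun j _ => Nat.card_pos
  refine Nat.le_of_mul_le_mul_right ?_ hpos
  calc _ = Nat.card (Sel S r L) * (Nat.card k *
        ((∏ q ∈ S₁, Nat.card (H0 (Dq q) (Ad0 r (1 : GQ →* k)))) *
          ∏ j, Nat.card (H0 (Dq (Qv j)) (Ad0 r (1 : GQ →* k))))) := by ring
    _ ≤ _ := hf4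
    _ ≤ (∏ q ∈ S₁, Nat.card (L q)) *
        (Nat.card k ^ m * ∏ j, Nat.card (H0 (Dq (Qv j)) (Ad0 r (1 : GQ →* k)))) :=
        Nat.mul_le_mul_left _ hloc
    _ = _ := by ring

end Glue

end Fermat.Agent.H25.SB
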