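import Mathlib
import Fermat.Agent.H25.SelC
import Fermat.Agent.H25.Asm5
import Fermat.Agent.H09.LHD
import Fermat.Agent.TW.LH7

set_option autoImplicit false
set_option linter.unusedSectionVars false
set_option linter.style.haveILetI false

/-!
# The Selmer bound at Taylor-Wiles levels
-/

namespace Fermat.Agent.H25.SB

open Fermat.Agent.H25 Fermat.Agent.H25.PR Fermat.Agent.CC Fermat.Agent.TW IsLocalRing Matrix
open Fermat.Agent.H05 Fermat.Agent.H25.TR Fermat.Agent.H25.TWM Fermat.Agent.H25.GD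
open Fermat.Agent.H25.PT Fermat.Agent.H19 Fermat.Agent.H25.GE
open Fermat.Agent.H04 (DN M2)

section Fam

variable {O : Type} [CommRing O] [IsLocalRing O] [IsNoetherianRing O]
    [IsAdicComplete (maximalIdeal O) O] {D : RD O (ResidueField O)}
    {S : Finset Nat.Primes} {bad : Finset ℕ} {κ : Type} [Finite κ] [Nonempty κ]
    (H : κ → CData D S bad) (hbar : HBar D S)

/-- the points separate the trace ring -/
theorem ext_pt {a b : AR H hbar} (h : ∀ i x, pt H hbar i x a = pt H hbar i x b) : a = b := by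
  apply Subtype.ext
  funext i
  exact (H i).ext_ev fun x => h i x

/-- traces on the trace ring -/
theorem CA_t_eq_two {τ : GQ} (h : ∀ i x, (H i).t x τ = 2) : (CA H hbar).t τ = 2 := by
  refine ext_pt H hbar fun i x => ?_
  rw [pt_t, h, map_ofNat]

/-- flatness on the trace ring -/
theorem flT_CA {p : ℕ} (h : ∀ i x, FlT p O ((H i).t x)) : FlT p O (CA H hbar).t := by
  haveI : ∀ ix : (Σ i, (H i).X), Module.Finite O ((H ix.1).P ix.2) := fun ix => inferInstance
  refine FlT.of_pi (κ := Σ i, (H i).X) (B := fun ix => (H ix.1).P ix.2)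
    (AlgHom.pi fun ix => pt H hbar ix.1 ix.2) ?_ ?_
  · intro a b hab
    exact ext_pt H hbar fun i x => congrFun hab ⟨i, x⟩
  · rintro ⟨i, x⟩
    have h1 : (fun g => (AlgHom.pi fun ix : (Σ i, (H i).X) => pt H hbar ix.1 ix.2)
        ((CA H hbar).t g) ⟨i, x⟩) = (H i).t x := funext fun g => pt_t H hbar i x g
    rw [h1]
    exact h i x

variable [Finite (ResidueField O)]

/-- the local condition at a prime where `ρbar` is ramified and all points are unipotent -/
theorem coc_mem_unr {p : ℕ} [CharP (ResidueField O) p] (hp : p.Prime) (hp2 : p ≠ 2)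
    (q : Nat.Primes) (hpq : p ≠ q)
    (hram : ∃ τ ∈ (plv q q.2).inertiaSubgroupIn ℚ, D.rbar τ ≠ 1)
    (hchi : ∀ τ ∈ (plv q q.2).inertiaSubgroupIn ℚ, D.chi τ = 1)
    (ht : ∀ i x, ∀ τ ∈ (plv q q.2).inertiaSubgroupIn ℚ, (H i).t x τ = 2)
    {d : AR H hbar → ResidueField O} (hd : IsDer O (CA H hbar).resB d) :
    resD S (Dq q) _ (H1.mk _ _ (coc hd (CA H hbar).rho_res (CA_det H hbar) (CA_cont2 H hbar))) ∈
      unr (plv q q.2) (Ad0 D.rbar (1 : GQ →* ResidueField O)) := by
  rw [← cls_eq_coc hd (CA H hbar).rho_res (CA_det H hbar) (CA_cont2 H hbar)]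
  refine cls_mem_unr hp hp2 _ _ _ q.2 hpq (plv_over q q.2) (fun τ hτ => ?_) (fun τ hτ => ?_) hram
  · rw [D.det_rbar, hchi τ hτ, map_one]
  · rw [trace_sHom, (CA H hbar).trace_rho, CA_t_eq_two H hbar (fun i x => ht i x τ hτ), map_ofNat]

/-- flatness of first order deformations at `p` -/
theorem hasLH_coc {p : ℕ} (hp : p.Prime) {A : ValuationSubring Qb} (hA : A.LiesOverPrime p)
    (h : ∀ i x, FlT p O ((H i).t x))
    {d : AR H hbar → ResidueField O} (hd : IsDer O (CA H hbar).resB d) :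
    HasLH A (actV A (sHom hd (CA H hbar).rho)) := by
  obtain ⟨Hh, hH⟩ := hasHopf_sHom (CA H hbar) (flT_CA H hbar h) hd
  exact Fermat.Agent.H09.LHopf.hasLH_of_isHopfOrder' hp hA hH fun σ m => rfl

end Fam

section Final

variable {O : Type} [CommRing O] [IsLocalRing O] [IsNoetherianRing O]
    [IsAdicComplete (maximalIdeal O) O] {D : RD O (ResidueField O)} [Finite (ResidueField O)]
    {p : ℕ} [CharP (ResidueField O) p]

open scoped Classical in
/-- **(W6)** Taylor-Wiles sets and the Selmer bound, general form. `S₁ = {p} ∪ S₀ ∪ U ∪ 𝒯`; the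
local condition at `p` is an arbitrary subgroup of order at most `|k|^b |H⁰|`, those at `q ∈ U` are
arbitrary subgroups of order at most `|H⁰|`. -/
theorem exists_TW_SelB_gen (hGW : GWad p) (hp2 : p ≠ 2) {χ : GQ →* ResidueField O}
    {pp : Nat.Primes} (hpp : (pp : ℕ) = p) (S₀ U : Finset Nat.Primes) {𝒯 : Type} [Fintype 𝒯]
    (tv : 𝒯 → Nat.Primes)
    (htv : Function.Injective tv) (hpS : pp ∉ S₀) (hpU : pp ∉ U) (hSU : Disjoint S₀ U)
    (hpT : ∀ t, tv t ≠ pp) (hTS : ∀ t, tv t ∉ S₀) (hTU : ∀ t, tv t ∉ U)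
    (hTW : TWData p ({pp} ∪ S₀ ∪ U ∪ Finset.univ.image tv) D.rbar χ)
    (hram : ∀ q ∈ S₀, ∃ τ ∈ (plv q q.2).inertiaSubgroupIn ℚ, D.rbar τ ≠ 1)
    (hchi : ∀ q ∈ S₀, ∀ τ ∈ (plv q q.2).inertiaSubgroupIn ℚ, D.chi τ = 1) :
    ∃ r : ℕ, ∀ n : ℕ, n ≠ 0 → ∀ T : Finset ℕ, ∃ qv : Fin r → Nat.Primes, Function.Injective qv ∧
      (∀ j, (qv j : ℕ) ∉ T ∧ qv j ∉ {pp} ∪ S₀ ∪ U ∪ Finset.univ.image tv ∧
        TWData.IsTW p n D.rbar χ (qv j)) ∧
      ∀ (Lp : AddSubgroup (HD D.rbar pp)) (b : ℕ), Finite Lp →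
        Nat.card Lp ≤ Nat.card (ResidueField O) ^ b *
          Nat.card (H0 (Dq pp) (Ad0 D.rbar (1 : GQ →* ResidueField O))) →
      ∀ (LU : LocF D.rbar), (∀ q ∈ U, Nat.card (LU q) ≤
          Nat.card (H0 (Dq q) (Ad0 D.rbar (1 : GQ →* ResidueField O)))) →
      ∀ (S : Finset Nat.Primes), S = {pp} ∪ S₀ ∪ U ∪ Finset.univ.image tv ∪
        Finset.univ.image qv →
      ∀ (κ : Type) [Finite κ] [Nonempty κ] (bad : Finset ℕ) (H : κ → CData D S bad)
        (hbar : HBar D S),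
        (∀ q ∈ S₀, ∀ i x, ∀ τ ∈ (plv q q.2).inertiaSubgroupIn ℚ, (H i).t x τ = 2) →
        ∃ (Sel : AddSubgroup (H1 (levS S) (Ad0 D.rbar (1 : GQ →* ResidueField O))))
          (_ : Finite Sel),
          (∀ (d : AR H hbar → ResidueField O) (hd : IsDer O (CA H hbar).resB d),
            resD S (Dq pp) _ (H1.mk _ _
              (coc hd (CA H hbar).rho_res (CA_det H hbar) (CA_cont2 H hbar))) ∈ Lp →
            (∀ q ∈ U, resD S (Dq q) _ (H1.mk _ _
              (coc hd (CA H hbar).rho_res (CA_det H hbar) (CA_cont2 H hbar))) ∈ LU q) →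
            (∀ q : 𝒯, ∃ a : Ad0 D.rbar (1 : GQ →* ResidueField O),
              ∀ g ∈ (plv (tv q) (tv q).2).decompositionSubgroup ℚ,
              (coc hd (CA H hbar).rho_res (CA_det H hbar) (CA_cont2 H hbar)).1 g = g • a - a) →
            H1.mk _ _ (coc hd (CA H hbar).rho_res (CA_det H hbar) (CA_cont2 H hbar)) ∈ Sel) ∧
          Nat.card Sel * Nat.card (∀ q : 𝒯,
            H0 ((plv (tv q) (tv q).2).decompositionSubgroup ℚ)
              (Ad0 D.rbar (1 : GQ →* ResidueField O))) * Nat.card (ResidueField O) ≤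
              Nat.card (ResidueField O) ^ (r + b) := by
  set k := ResidueField O with hk
  set S₁ : Finset Nat.Primes := {pp} ∪ S₀ ∪ U ∪ Finset.univ.image tv with hS₁
  have hppS : pp ∈ S₁ := by simp [hS₁]
  obtain ⟨m, hm⟩ := exists_TW_Sel hGW ⟨pp, hppS, hpp⟩ hTW
  refine ⟨m, fun n hn T => ?_⟩
  obtain ⟨qv, h1, h2, h3⟩ := hm n hn T
  refine ⟨qv, h1, h2, fun Lp b hLp hcard LU hLU S hS κ _ _ bad H hbar hS₀ => ?_⟩
  -- the local conditions
  have hSS₁ : ∀ q ∈ S₀, q ≠ pp := fun q hq h => hpS (h ▸ hq)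
  have hUU₁ : ∀ q ∈ U, q ≠ pp := fun q hq h => hpU (h ▸ hq)
  have hUS : ∀ q ∈ U, q ∉ S₀ := fun q hq h => Finset.disjoint_left.1 hSU h hq
  let L : LocF D.rbar := fun q => if h : q = pp then h ▸ Lp else
    if q ∈ S₀ then unr (plv q q.2) (Ad0 D.rbar (1 : GQ →* k)) else
    if q ∈ U then LU q else
    if q ∈ Finset.univ.image tv then ⊥ else ⊤
  have hLpp : L pp = Lp := by simp only [L, dif_pos]
  have hLS : ∀ q ∈ S₀, L q = unr (plv q q.2) (Ad0 D.rbar (1 : GQ →* k)) := by
    intro q hq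
    simp only [L]
    rw [dif_neg (hSS₁ q hq), if_pos hq]
  have hLUq : ∀ q ∈ U, L q = LU q := by
    intro q hq
    simp only [L]
    rw [dif_neg (hUU₁ q hq), if_neg (hUS q hq), if_pos hq]
  have hLT : ∀ t, L (tv t) = ⊥ := by
    intro t
    simp only [L]
    rw [dif_neg (hpT t), if_neg (hTS t), if_neg (hTU t),
      if_pos (Finset.mem_image_of_mem _ (Finset.mem_univ t))]
  have hLQ : ∀ j, L (qv j) = ⊤ := by
    intro j
    have h4 := (h2 j).2.1
    rw [hS₁, Finset.mem_union, Finset.mem_union, Finset.mem_union, Finset.mem_singleton, not_or,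
      not_or, not_or] at h4
    simp only [L]
    rw [dif_neg h4.1.1.1, if_neg h4.1.1.2, if_neg h4.1.2, if_neg h4.2]
  obtain ⟨h5, h6⟩ := h3 L hLQ
  rw [← hS] at h5 h6
  have hpf : Fact p.Prime := ⟨hTW.prime⟩
  refine ⟨Sel S D.rbar L, h5, fun d hd hLpmem hUmem hT => ?_, ?_⟩
  · rw [mem_Sel]
    intro q hq
    rw [hS, Finset.mem_union] at hq
    rcases hq with hq | hq
    · rw [hS₁, Finset.mem_union, Finset.mem_union, Finset.mem_union, Finset.mem_singleton] at hq
      rcases hq with ((rfl | hq) | hq) | hq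
      · rw [hLpp]
        exact hLpmem
      · rw [hLS q hq]
        refine coc_mem_unr H hbar hTW.prime hp2 q (fun h => hSS₁ q hq ?_) (hram q hq)
          (hchi q hq) (fun i x τ hτ => hS₀ q hq i x τ hτ) hd
        exact Subtype.ext (h.symm.trans hpp.symm)
      · rw [hLUq q hq]
        exact hUmem q hq
      · obtain ⟨t, -, rfl⟩ := Finset.mem_image.1 hq
        rw [hLT, AddSubgroup.mem_bot, resD_mk_eq_zero]
        exact hT t
    · obtain ⟨j, -, rfl⟩ := Finset.mem_image.1 hq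
      rw [hLQ]
      trivial
  · -- counting
    have hd1 : Disjoint ({pp} ∪ S₀ ∪ U) (Finset.univ.image tv) := by
      rw [Finset.disjoint_right]
      intro q hq
      obtain ⟨t, -, rfl⟩ := Finset.mem_image.1 hq
      rw [Finset.mem_union, Finset.mem_union, Finset.mem_singleton, not_or, not_or]
      exact ⟨⟨hpT t, hTS t⟩, hTU t⟩
    have hd2 : Disjoint ({pp} : Finset Nat.Primes) S₀ := by
      rw [Finset.disjoint_singleton_left]
      exact hpS
    have hd3 : Disjoint ({pp} ∪ S₀) U := by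
      rw [Finset.disjoint_right]
      intro q hq
      rw [Finset.mem_union, Finset.mem_singleton, not_or]
      exact ⟨hUU₁ q hq, hUS q hq⟩
    rw [hS₁, Finset.prod_union hd1, Finset.prod_union hd3, Finset.prod_union hd2,
      Finset.prod_union hd1, Finset.prod_union hd3,
      Finset.prod_union hd2, Finset.prod_singleton, Finset.prod_singleton,
      Finset.prod_image (fun i _ j _ hij => htv hij),
      Finset.prod_image (fun i _ j _ hij => htv hij), hLpp] at h6
    have e1 : ∏ t, Nat.card (L (tv t)) = 1 := by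
      refine Finset.prod_eq_one fun t _ => ?_
      rw [hLT]
      exact AddSubgroup.card_bot
    have e2 : ∏ q ∈ S₀, Nat.card (L q) ≤
        ∏ q ∈ S₀, Nat.card (H0 (Dq q) (Ad0 D.rbar (1 : GQ →* k))) := by
      refine Finset.prod_le_prod' fun q hq => ?_
      rw [hLS q hq]
      exact (card_unr_le q.2 (plv_over q q.2) (frv_spec q q.2)
        (smooth_Ad0 (lev_isOpen_of_levS hTW.open_ker) (fun _ _ => rfl))).2
    have e2' : ∏ q ∈ U, Nat.card (L q) ≤
        ∏ q ∈ U, Nat.card (H0 (Dq q) (Ad0 D.rbar (1 : GQ →* k))) := by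
      refine Finset.prod_le_prod' fun q hq => ?_
      rw [hLUq q hq]
      exact hLU q hq
    have e3 : Nat.card (∀ q : 𝒯, H0 ((plv (tv q) (tv q).2).decompositionSubgroup ℚ)
        (Ad0 D.rbar (1 : GQ →* k))) =
        ∏ t, Nat.card (H0 (Dq (tv t)) (Ad0 D.rbar (1 : GQ →* k))) := Nat.card_pi
    rw [e1, mul_one] at h6
    rw [e3]
    set X := ∏ q ∈ S₀, Nat.card (H0 (Dq q) (Ad0 D.rbar (1 : GQ →* k))) with hX
    set W := ∏ q ∈ U, Nat.card (H0 (Dq q) (Ad0 D.rbar (1 : GQ →* k))) with hW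
    set Y := Nat.card (H0 (Dq pp) (Ad0 D.rbar (1 : GQ →* k))) with hY
    set Z := ∏ t, Nat.card (H0 (Dq (tv t)) (Ad0 D.rbar (1 : GQ →* k))) with hZ
    have hXpos : 0 < X := Finset.prod_pos fun q _ => Nat.card_pos
    have hWpos : 0 < W := Finset.prod_pos fun q _ => Nat.card_pos
    have hYpos : 0 < Y := Nat.card_pos
    refine Nat.le_of_mul_le_mul_right ?_ (Nat.mul_pos (Nat.mul_pos hYpos hXpos) hWpos)
    calc _ = Nat.card (Sel S D.rbar L) * (Nat.card k * (Y * X * W * Z)) := by ring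
      _ ≤ _ := h6
      _ ≤ (Nat.card k ^ b * Y) * X * W * Nat.card k ^ m :=
        Nat.mul_le_mul_right _ (Nat.mul_le_mul (Nat.mul_le_mul hcard e2) e2')
      _ = _ := by rw [pow_add]; ring

end Final

end Fermat.Agent.H25.SB
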