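import Mathlib
import Fermat.Agent.H25.SelE

set_option autoImplicit false
set_option linter.unusedSectionVars false
set_option linter.style.haveILetI false

/-!
# The Selmer bound in the flat and strict cases
-/

namespace Fermat.Agent.H25.SB

open Fermat.Agent.H25 Fermat.Agent.H25.PR Fermat.Agent.CC Fermat.Agent.TW IsLocalRing Matrix
open Fermat.Agent.H05 Fermat.Agent.H25.TR Fermat.Agent.H25.TWM Fermat.Agent.H25.GD
open Fermat.Agent.H25.PT Fermat.Agent.H19 Fermat.Agent.H25.GE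
open Fermat.Agent.H04 (DN M2)

section defs

variable {O : Type} [CommRing O] [IsLocalRing O]

/-- the determinant of a representation over the dual numbers is cyclotomic -/
def CycDet (p : ℕ) (s : GQ →* M2 (DN O)) : Prop :=
  ∀ (σ : GQ) (a : ℕ), (∀ x : Qb, x ^ p = 1 → σ x = x ^ a) → (s σ).det = (a : DN O)

/-- **local condition at `p`** (interface): there is a subgroup of `H¹(D_A, ad⁰)` of order at most
`|k|^b |H⁰|` containing the classes of all deformations to the dual numbers with property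
`cond` -/
def LCond (A : ValuationSubring Qb) (rb : GQ →* Mt (ResidueField O)) (b : ℕ)
    (cond : (GQ →* M2 (DN O)) → Prop) : Prop :=
  ∃ L : AddSubgroup (H1 (lev.sub (A.decompositionSubgroup ℚ))
      (Ad0 rb (1 : GQ →* ResidueField O))), Finite L ∧
    Nat.card L ≤ Nat.card (ResidueField O) ^ b *
      Nat.card (H0 (A.decompositionSubgroup ℚ) (Ad0 rb (1 : GQ →* ResidueField O))) ∧
    ∀ (S' : Finset Nat.Primes) (s : GQ →* M2 (DN O)) (hs : ∀ σ, FM (s σ) = rb σ)
      (hU : (levS S').isOpen s.ker) (htr : ∀ σ, sn (s σ).det = 0), cond s →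
      resD S' (A.decompositionSubgroup ℚ) _ (H1.mk _ _ (cls S' hs hU htr)) ∈ L

/-- the flat local condition -/
def LFlat (p : ℕ) (A : ValuationSubring Qb) (rb : GQ →* Mt (ResidueField O)) : Prop :=
  LCond A rb 1 fun s => CycDet p s ∧ HasLH A (actV A s)

end defs

section Fam

variable {O : Type} [CommRing O] [IsLocalRing O] [IsNoetherianRing O]
    [IsAdicComplete (maximalIdeal O) O] {D : RD O (ResidueField O)}
    {S : Finset Nat.Primes} {bad : Finset ℕ} {κ : Type} [Finite κ] [Nonempty κ]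
    (H : κ → CData D S bad) (hbar : HBar D S)

/-- flatness on the trace ring from the components -/
theorem flT_CA' {p : ℕ} (h : ∀ i, FlT p O ((H i).C hbar).t) : FlT p O (CA H hbar).t := by
  refine FlT.of_pi (κ := κ) (B := fun i => (H i).B)
    (AR H hbar).val Subtype.val_injective fun i => ?_
  exact h i

theorem cycDet_sHom {p : ℕ} (hpO : (p : O) ∈ maximalIdeal O) (hchi : IsCyc p D.chi)
    {d : AR H hbar → ResidueField O} (hd : IsDer O (CA H hbar).resB d) :
    CycDet p (sHom hd (CA H hbar).rho) := by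
  intro σ a ha
  have h1 := hchi 1 σ a (fun x hx => ha x (by rwa [pow_one] at hx))
  rw [pow_one] at h1
  have h2 : D.chi σ - (a : O) ∈ maximalIdeal O := by
    refine (Ideal.span_singleton_le_iff_mem (maximalIdeal O)).2 ?_ h1
    exact hpO
  rw [det_sHom, (CA H hbar).det_rho]
  have h3 : dualHom hd (algebraMap O (AR H hbar) (D.chi σ - (a : O))) = 0 :=
    dualHom_lamI (CA H hbar) hd (Ideal.mem_map_of_mem _ h2)
  rw [map_sub, map_sub, map_natCast, map_natCast, sub_eq_zero] at h3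
  exact h3

variable [Finite (ResidueField O)]

/-- flatness of first order deformations at `p` -/
theorem hasLH_coc' {p : ℕ} (hp : p.Prime) {A : ValuationSubring Qb} (hA : A.LiesOverPrime p)
    (h : FlT p O (CA H hbar).t)
    {d : AR H hbar → ResidueField O} (hd : IsDer O (CA H hbar).resB d) :
    HasLH A (actV A (sHom hd (CA H hbar).rho)) := by
  obtain ⟨Hh, hH⟩ := hasHopf_sHom (CA H hbar) h hd
  exact Fermat.Agent.H09.LHopf.hasLH_of_isHopfOrder' hp hA hH fun σ m => rfl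

end Fam

section Final

variable {O : Type} [CommRing O] [IsLocalRing O] [IsNoetherianRing O]
    [IsAdicComplete (maximalIdeal O) O] {D : RD O (ResidueField O)} [Finite (ResidueField O)]
    {p : ℕ} [hpf : Fact p.Prime] [CharP (ResidueField O) p]

/-- the class at `p` satisfies the condition -/
theorem coc_mem_of_cond {A : ValuationSubring Qb} {cond : (GQ →* M2 (DN O)) → Prop}
    {L : AddSubgroup (H1 (lev.sub (A.decompositionSubgroup ℚ))
      (Ad0 D.rbar (1 : GQ →* ResidueField O)))}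
    (hL : ∀ (S' : Finset Nat.Primes) (s : GQ →* M2 (DN O)) (hs : ∀ σ, FM (s σ) = D.rbar σ)
      (hU : (levS S').isOpen s.ker) (htr : ∀ σ, sn (s σ).det = 0), cond s →
      resD S' (A.decompositionSubgroup ℚ) _ (H1.mk _ _ (cls S' hs hU htr)) ∈ L)
    {S : Finset Nat.Primes} {bad : Finset ℕ} {κ : Type} [Finite κ] [Nonempty κ]
    (H : κ → CData D S bad) (hbar : HBar D S)
    {d : AR H hbar → ResidueField O} (hd : IsDer O (CA H hbar).resB d)
    (hc : cond (sHom hd (CA H hbar).rho)) :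
    resD S (A.decompositionSubgroup ℚ) _ (H1.mk _ _
      (coc hd (CA H hbar).rho_res (CA_det H hbar) (CA_cont2 H hbar))) ∈ L := by
  rw [← cls_eq_coc hd (CA H hbar).rho_res (CA_det H hbar) (CA_cont2 H hbar)]
  exact hL S _ _ _ _ hc

open scoped Classical in
/-- **the Selmer bound in terms of local conditions**, general form: `U` = primes with an extra
local condition -/
theorem exists_SelB_cond_gen (hGW : GWad p) (hp2 : p ≠ 2) {χ : GQ →* ResidueField O}
    {S T U : Finset Nat.Primes} {pp : Nat.Primes} (hpp : (pp : ℕ) = p) (hpS : pp ∈ S)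
    (hpT : pp ∉ T) (hpU : pp ∉ U) (hTS : T ⊆ S) (hUS : U ⊆ S) (hTU : Disjoint T U)
    (hTW : TWData p S D.rbar χ)
    (hram : ∀ q ∈ S, q ∉ T → q ∉ U → q ≠ pp →
      ∃ τ ∈ (plv q q.2).inertiaSubgroupIn ℚ, D.rbar τ ≠ 1)
    (hchi : IsCyc p D.chi) (hpO : (p : O) ∈ maximalIdeal O) :
    ∃ r : ℕ, ∀ n : ℕ, n ≠ 0 → ∀ E : Finset ℕ, ∃ qv : Fin r → Nat.Primes, Function.Injective qv ∧
      (∀ j, (qv j : ℕ) ∉ E ∧ qv j ∉ S ∧ TWData.IsTW p n D.rbar χ (qv j)) ∧
      ∀ (cond : (GQ →* M2 (DN O)) → Prop) (b : ℕ), LCond (plv pp pp.2) D.rbar b cond →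
      ∀ (condU : Nat.Primes → (GQ →* M2 (DN O)) → Prop),
        (∀ q ∈ U, LCond (plv q q.2) D.rbar 0 (condU q)) →
      ∀ (S' : Finset Nat.Primes), S' = S ∪ Finset.univ.image qv →
      ∀ (κ : Type) [Finite κ] [Nonempty κ] (bad : Finset ℕ) (H : κ → CData D S' bad)
        (hbar : HBar D S'),
        (∀ q ∈ S, q ∉ T → q ∉ U → q ≠ pp → ∀ i x, ∀ τ ∈ (plv q q.2).inertiaSubgroupIn ℚ,
          (H i).t x τ = 2) →
        ∃ (Sel : AddSubgroup (H1 (levS S') (Ad0 D.rbar (1 : GQ →* ResidueField O))))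
          (_ : Finite Sel),
          (∀ (d : AR H hbar → ResidueField O) (hd : IsDer O (CA H hbar).resB d),
            cond (sHom hd (CA H hbar).rho) →
            (∀ q ∈ U, condU q (sHom hd (CA H hbar).rho)) →
            (∀ q : T, ∃ a : Ad0 D.rbar (1 : GQ →* ResidueField O),
              ∀ g ∈ (plv ((q : Nat.Primes) : ℕ) (q : Nat.Primes).2).decompositionSubgroup ℚ,
              (coc hd (CA H hbar).rho_res (CA_det H hbar) (CA_cont2 H hbar)).1 g = g • a - a) →
            H1.mk _ _ (coc hd (CA H hbar).rho_res (CA_det H hbar) (CA_cont2 H hbar)) ∈ Sel) ∧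
          Nat.card Sel * Nat.card (∀ q : T,
            H0 ((plv ((q : Nat.Primes) : ℕ) (q : Nat.Primes).2).decompositionSubgroup ℚ)
              (Ad0 D.rbar (1 : GQ →* ResidueField O))) * Nat.card (ResidueField O) ≤
              Nat.card (ResidueField O) ^ (r + b) := by
  have hmem : ∀ q ∈ S \ (T ∪ U ∪ {pp}), q ∈ S ∧ q ∉ T ∧ q ∉ U ∧ q ≠ pp := by
    intro q hq
    rw [Finset.mem_sdiff, Finset.mem_union, Finset.mem_union, Finset.mem_singleton, not_or,
      not_or] at hq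
    exact ⟨hq.1, hq.2.1.1, hq.2.1.2, hq.2.2⟩
  have hS : {pp} ∪ (S \ (T ∪ U ∪ {pp})) ∪ U ∪
      Finset.univ.image (fun t : T => (t : Nat.Primes)) = S := by
    ext q
    simp only [Finset.mem_union, Finset.mem_singleton, Finset.mem_sdiff, Finset.mem_image,
      Finset.mem_univ, true_and, Subtype.exists, exists_prop, exists_eq_right]
    constructor
    · rintro (((rfl | h) | h) | h)
      · exact hpS
      · exact h.1
      · exact hUS h
      · exact hTS h
    · intro h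
      by_cases h1 : q ∈ T
      · exact Or.inr h1
      · by_cases h2 : q = pp
        · exact Or.inl (Or.inl (Or.inl h2))
        · by_cases h4 : q ∈ U
          · exact Or.inl (Or.inr h4)
          refine Or.inl (Or.inl (Or.inr ⟨h, ?_⟩))
          rintro ((h3 | h3) | h3)
          · exact h1 h3
          · exact h4 h3
          · exact h2 h3
  obtain ⟨r, hr⟩ := exists_TW_SelB_gen (D := D) hGW hp2 (χ := χ) hpp (S \ (T ∪ U ∪ {pp})) U
    (fun t : T => (t : Nat.Primes)) Subtype.val_injective (by simp) hpU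
    (Finset.disjoint_left.2 fun q hq hq' => (hmem q hq).2.2.1 hq') (fun t h => hpT (h ▸ t.2))
    (fun t h => (hmem _ h).2.1 t.2) (fun t h => Finset.disjoint_left.1 hTU t.2 h)
    (by rw [hS]; exact hTW)
    (fun q hq => hram q (hmem q hq).1 (hmem q hq).2.1 (hmem q hq).2.2.1 (hmem q hq).2.2.2)
    (fun q hq τ hτ => hchi.inertia hpO q.2
      (fun h => (hmem q hq).2.2.2 (Subtype.ext (h.trans hpp.symm))) (plv_over q q.2) hτ)
  refine ⟨r, fun n hn E => ?_⟩
  obtain ⟨qv, h1, h2, h3⟩ := hr n hn E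
  rw [hS] at h2 h3
  refine ⟨qv, h1, h2, fun cond b hL condU hLU S' hS' κ _ _ bad H hbar hS₀ => ?_⟩
  obtain ⟨L, hLf, hLc, hLm⟩ := hL
  have hch : ∀ q : Nat.Primes, ∃ L : AddSubgroup (HD D.rbar q), q ∈ U →
      Nat.card L ≤ Nat.card (H0 (Dq q) (Ad0 D.rbar (1 : GQ →* ResidueField O))) ∧
      ∀ (S' : Finset Nat.Primes) (s : GQ →* M2 (DN O)) (hs : ∀ σ, FM (s σ) = D.rbar σ)
      (hU : (levS S').isOpen s.ker) (htr : ∀ σ, sn (s σ).det = 0), condU q s →
      resD S' (Dq q) _ (H1.mk _ _ (cls S' hs hU htr)) ∈ L := by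
    intro q
    by_cases hq : q ∈ U
    · obtain ⟨L, -, h4, h5⟩ := hLU q hq
      rw [pow_zero, one_mul] at h4
      exact ⟨L, fun _ => ⟨h4, h5⟩⟩
    · exact ⟨⊥, fun h => absurd h hq⟩
  choose LU hLU' using hch
  obtain ⟨Sel, hSel, h4, h5⟩ := h3 L b hLf hLc LU (fun q hq => (hLU' q hq).1) S' hS' κ bad H hbar
    (fun q hq i x τ hτ =>
    hS₀ q (hmem q hq).1 (hmem q hq).2.1 (hmem q hq).2.2.1 (hmem q hq).2.2.2 i x τ hτ)
  exact ⟨Sel, hSel, fun d hd hc hcU hT => h4 d hd (coc_mem_of_cond hLm H hbar hd hc)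
    (fun q hq => coc_mem_of_cond (hLU' q hq).2 H hbar hd (hcU q hq)) hT, h5⟩

open scoped Classical in
/-- **the Selmer bound in terms of a local condition at `p`** -/
theorem exists_SelB_cond (hGW : GWad p) (hp2 : p ≠ 2) {χ : GQ →* ResidueField O}
    {S T : Finset Nat.Primes} {pp : Nat.Primes} (hpp : (pp : ℕ) = p) (hpS : pp ∈ S)
    (hpT : pp ∉ T) (hTS : T ⊆ S) (hTW : TWData p S D.rbar χ)
    (hram : ∀ q ∈ S, q ∉ T → q ≠ pp → ∃ τ ∈ (plv q q.2).inertiaSubgroupIn ℚ, D.rbar τ ≠ 1)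
    (hchi : IsCyc p D.chi) (hpO : (p : O) ∈ maximalIdeal O) :
    ∃ r : ℕ, ∀ n : ℕ, n ≠ 0 → ∀ E : Finset ℕ, ∃ qv : Fin r → Nat.Primes, Function.Injective qv ∧
      (∀ j, (qv j : ℕ) ∉ E ∧ qv j ∉ S ∧ TWData.IsTW p n D.rbar χ (qv j)) ∧
      ∀ (cond : (GQ →* M2 (DN O)) → Prop) (b : ℕ), LCond (plv pp pp.2) D.rbar b cond →
      ∀ (S' : Finset Nat.Primes), S' = S ∪ Finset.univ.image qv →
      ∀ (κ : Type) [Finite κ] [Nonempty κ] (bad : Finset ℕ) (H : κ → CData D S' bad)
        (hbar : HBar D S'),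
        (∀ q ∈ S, q ∉ T → q ≠ pp → ∀ i x, ∀ τ ∈ (plv q q.2).inertiaSubgroupIn ℚ,
          (H i).t x τ = 2) →
        ∃ (Sel : AddSubgroup (H1 (levS S') (Ad0 D.rbar (1 : GQ →* ResidueField O))))
          (_ : Finite Sel),
          (∀ (d : AR H hbar → ResidueField O) (hd : IsDer O (CA H hbar).resB d),
            cond (sHom hd (CA H hbar).rho) →
            (∀ q : T, ∃ a : Ad0 D.rbar (1 : GQ →* ResidueField O),
              ∀ g ∈ (plv ((q : Nat.Primes) : ℕ) (q : Nat.Primes).2).decompositionSubgroup ℚ,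
              (coc hd (CA H hbar).rho_res (CA_det H hbar) (CA_cont2 H hbar)).1 g = g • a - a) →
            H1.mk _ _ (coc hd (CA H hbar).rho_res (CA_det H hbar) (CA_cont2 H hbar)) ∈ Sel) ∧
          Nat.card Sel * Nat.card (∀ q : T,
            H0 ((plv ((q : Nat.Primes) : ℕ) (q : Nat.Primes).2).decompositionSubgroup ℚ)
              (Ad0 D.rbar (1 : GQ →* ResidueField O))) * Nat.card (ResidueField O) ≤
              Nat.card (ResidueField O) ^ (r + b) := by
  obtain ⟨r, hr⟩ := exists_SelB_cond_gen (D := D) hGW hp2 (χ := χ) (U := ∅) hpp hpS hpT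
    (Finset.notMem_empty _) hTS (Finset.empty_subset _) (Finset.disjoint_empty_right _) hTW
    (fun q h1 h2 _ h4 => hram q h1 h2 h4) hchi hpO
  refine ⟨r, fun n hn E => ?_⟩
  obtain ⟨qv, h1, h2, h3⟩ := hr n hn E
  refine ⟨qv, h1, h2, fun cond b hL S' hS' κ _ _ bad H hbar hS₀ => ?_⟩
  obtain ⟨Sel, hSel, h4, h5⟩ := h3 cond b hL (fun _ _ => True)
    (fun q hq => absurd hq (Finset.notMem_empty _)) S' hS' κ bad H hbar
    (fun q h1 h2 _ h4 => hS₀ q h1 h2 h4)
  exact ⟨Sel, hSel, fun d hd hc hT => h4 d hd hc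
    (fun q hq => absurd hq (Finset.notMem_empty _)) hT, h5⟩

/-- extraction of `SelB` -/
theorem SelB.of_cond {S : Finset Nat.Primes} {bad : Finset ℕ} {κ : Type} [Finite κ] [Nonempty κ]
    {H : κ → CData D S bad} {hbar : HBar D S} {T : Finset Nat.Primes} {r : ℕ}
    {cond : (GQ →* M2 (DN O)) → Prop}
    (hcond : ∀ (d : AR H hbar → ResidueField O) (hd : IsDer O (CA H hbar).resB d),
      cond (sHom hd (CA H hbar).rho))
    (h : ∃ (Sel : AddSubgroup (H1 (levS S)
            (Ad0 D.rbar (1 : GQ →* ResidueField O)))) (_ : Finite Sel),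
          (∀ (d : AR H hbar → ResidueField O) (hd : IsDer O (CA H hbar).resB d),
            cond (sHom hd (CA H hbar).rho) →
            (∀ q : T, ∃ a : Ad0 D.rbar (1 : GQ →* ResidueField O),
              ∀ g ∈ (plv ((q : Nat.Primes) : ℕ) (q : Nat.Primes).2).decompositionSubgroup ℚ,
              (coc hd (CA H hbar).rho_res (CA_det H hbar) (CA_cont2 H hbar)).1 g = g • a - a) →
            H1.mk _ _ (coc hd (CA H hbar).rho_res (CA_det H hbar) (CA_cont2 H hbar)) ∈ Sel) ∧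
          Nat.card Sel * Nat.card (∀ q : T,
            H0 ((plv ((q : Nat.Primes) : ℕ) (q : Nat.Primes).2).decompositionSubgroup ℚ)
              (Ad0 D.rbar (1 : GQ →* ResidueField O))) * Nat.card (ResidueField O) ≤
              Nat.card (ResidueField O) ^ (r + 1)) :
    GE.SelB H hbar r (fun t : T => (t : Nat.Primes)) := by
  obtain ⟨Sel, hf, h1, h2⟩ := h
  refine ⟨Sel, hf, fun d hd hT => h1 d hd (hcond d hd) hT, ?_⟩
  rw [pow_succ] at h2
  exact Nat.le_of_mul_le_mul_right h2 Nat.card_pos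

/-- the flat condition holds for all first order deformations of a flat family -/
theorem flat_cond {S : Finset Nat.Primes} {bad : Finset ℕ} {κ : Type} [Finite κ] [Nonempty κ]
    {H : κ → CData D S bad} {hbar : HBar D S} (hpO : (p : O) ∈ maximalIdeal O)
    (hchi : IsCyc p D.chi) {pp : Nat.Primes} (hpp : (pp : ℕ) = p)
    (h : ∀ i, FlT p O ((H i).C hbar).t)
    (d : AR H hbar → ResidueField O) (hd : IsDer O (CA H hbar).resB d) :
    CycDet p (sHom hd (CA H hbar).rho) ∧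
      HasLH (plv pp pp.2) (actV (plv pp pp.2) (sHom hd (CA H hbar).rho)) := by
  refine ⟨cycDet_sHom H hbar hpO hchi hd, ?_⟩
  subst hpp
  have hA : (plv pp pp.2).LiesOverPrime pp := plv_over pp pp.2
  exact hasLH_coc' H hbar hpf.out hA (flT_CA' H hbar h) hd

theorem isTW_of_succ {k : Type} [Field k] {p n q : ℕ} {r : GQ →* Mt k} {χ : GQ →* k}
    (h : TWData.IsTW p (n + 1) r χ q) : TWData.IsTW p n r χ q :=
  ⟨h.1, (pow_dvd_pow p (Nat.le_succ n)).trans h.2.1, h.2.2⟩

open scoped Classical in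
/-- **(W6), flat mode.** -/
theorem exists_SelB_flat (hGW : GWad p) (hp2 : p ≠ 2) {χ : GQ →* ResidueField O}
    {S T : Finset Nat.Primes} {pp : Nat.Primes} (hpp : (pp : ℕ) = p) (hpS : pp ∈ S)
    (hpT : pp ∉ T) (hTS : T ⊆ S) (hTW : TWData p S D.rbar χ)
    (hram : ∀ q ∈ S, q ∉ T → q ≠ pp → ∃ τ ∈ (plv q q.2).inertiaSubgroupIn ℚ, D.rbar τ ≠ 1)
    (hchi : IsCyc p D.chi) (hpO : (p : O) ∈ maximalIdeal O)
    (hLF : LFlat p (plv pp pp.2) D.rbar) :
    ∃ r : ℕ, ∀ n : ℕ, ∀ E : Finset ℕ, ∃ qv : Fin r → Nat.Primes, Function.Injective qv ∧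
      (∀ j, (qv j : ℕ) ∉ E ∧ qv j ∉ S ∧ TWData.IsTW p n D.rbar χ (qv j)) ∧
      ∀ (S' : Finset Nat.Primes), S' = S ∪ Finset.univ.image qv →
      ∀ (κ : Type) [Finite κ] [Nonempty κ] (bad : Finset ℕ) (H : κ → CData D S' bad)
        (hbar : HBar D S'), (∀ i, FlT p O ((H i).C hbar).t) →
        (∀ q ∈ S, q ∉ T → q ≠ pp → ∀ i x, ∀ τ ∈ (plv q q.2).inertiaSubgroupIn ℚ,
          (H i).t x τ = 2) →
        GE.SelB H hbar r (fun t : T => (t : Nat.Primes)) := by
  obtain ⟨r, hr⟩ := exists_SelB_cond (D := D) hGW hp2 hpp hpS hpT hTS hTW hram hchi hpO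
  refine ⟨r, fun n E => ?_⟩
  obtain ⟨qv, h1, h2, h3⟩ := hr (n + 1) (Nat.succ_ne_zero n) E
  refine ⟨qv, h1, fun j => ⟨(h2 j).1, (h2 j).2.1, isTW_of_succ (h2 j).2.2⟩,
    fun S' hS' κ _ _ bad H hbar hfl hun => ?_⟩
  exact SelB.of_cond
    (cond := fun s => CycDet p s ∧ HasLH (plv pp pp.2) (actV (plv pp pp.2) s))
    (flat_cond hpO hchi hpp hfl) (h3 _ 1 hLF S' hS' κ bad H hbar hun)

end Final

end Fermat.Agent.H25.SB
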