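import Mathlib
import Fermat.Agent.H25.SelF
import Fermat.Agent.TW.LocMain

set_option autoImplicit false
set_option linter.unusedSectionVars false
set_option linter.style.haveILetI false

/-!
# The local conditions at `p` in the form used by the Selmer bound
-/

namespace Fermat.Agent.H25.SB

open Fermat.Agent.H25 Fermat.Agent.H25.PR Fermat.Agent.CC Fermat.Agent.TW IsLocalRing Matrix
open Fermat.Agent.H05 Fermat.Agent.H25.TR Fermat.Agent.H25.TWM Fermat.Agent.H25.GD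
open Fermat.Agent.H25.PT Fermat.Agent.H19 Fermat.Agent.H25.GE
open Fermat.Agent.H04 (DN M2)

variable {O : Type} [CommRing O] [IsLocalRing O] {p : ℕ}

theorem cy_act {ζ : Qb} {x : GQ → ZMod p} (C : CY p ζ x) (σ : GQ) {μ : Qb} (hμ : μ ^ p = 1) :
    σ μ = μ ^ (x σ).val := by
  haveI : NeZero p := ⟨C.prime.ne_zero⟩
  obtain ⟨i, -, rfl⟩ := C.prim.eq_pow_of_pow_eq_one hμ
  rw [map_pow, C.act]
  change (ζ ^ (x σ).val) ^ i = _
  rw [← pow_mul, ← pow_mul, mul_comm]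

theorem CycDet.val {s : GQ →* M2 (DN O)} (h : CycDet p s) {ζ : Qb} {x : GQ → ZMod p}
    (C : CY p ζ x) (σ : GQ) : (s σ).det = ((x σ).val : DN O) :=
  h σ _ fun μ hμ => cy_act C σ hμ

/-- the strict condition -/
def StrictC (p : ℕ) (A : ValuationSubring Qb) (s : GQ →* M2 (DN O)) : Prop :=
  ∀ (ζ : Qb) (x : GQ → ZMod p), CY p ζ x → StrictDN A x s

variable [Finite (ResidueField O)] [CharP (ResidueField O) p]

theorem lflat (hp : p.Prime) (hp2 : p ≠ 2) {A : ValuationSubring Qb} (hA : A.LiesOverPrime p)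
    (rb : GQ →* Mt (ResidueField O)) (hU : lev.isOpen rb.ker) (hrig : Rigid A p rb)
    (hsplit : ∀ s, ∃ a b : ResidueField O,
      (rb s).charpoly = (Polynomial.X - Polynomial.C a) * (Polynomial.X - Polynomial.C b)) :
    LFlat p A rb := by
  obtain ⟨w, hw⟩ := exists_NVal hp hA
  have P : PL p A w := ⟨hp, hA, hw⟩
  haveI : NeZero p := ⟨hp.ne_zero⟩
  obtain ⟨ζ, hζ⟩ := HasEnoughRootsOfUnity.exists_primitiveRoot Qb p
  obtain ⟨x, C⟩ := exists_CY hp hζ
  obtain ⟨L, h1, h2, h3⟩ := exists_Lflat' P hp2 C rb hU hrig hsplit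
  refine ⟨L, h1, by rw [pow_one]; exact h2, fun S' s hs hU' htr hc => ?_⟩
  exact h3 S' s hs hU' htr (fun σ => hc.1.val C σ) hc.2

theorem lstrict (hp : p.Prime) (hp2 : p ≠ 2) {A : ValuationSubring Qb} (hA : A.LiesOverPrime p)
    (rb : GQ →* Mt (ResidueField O)) (hU : lev.isOpen rb.ker) :
    LCond A rb 1 (StrictC p A) := by
  obtain ⟨w, hw⟩ := exists_NVal hp hA
  have P : PL p A w := ⟨hp, hA, hw⟩
  haveI : NeZero p := ⟨hp.ne_zero⟩
  obtain ⟨ζ, hζ⟩ := HasEnoughRootsOfUnity.exists_primitiveRoot Qb p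
  obtain ⟨x, C⟩ := exists_CY hp hζ
  obtain ⟨L, h1, h2, h3⟩ := exists_Lstrict P hp2 C rb hU
  refine ⟨L, h1, by rw [pow_one]; exact h2, fun S' s hs hU' htr hc => ?_⟩
  exact h3 S' s hs hU' htr (hc ζ x C)

theorem linter (hp : p.Prime) (hp2 : p ≠ 2) {A : ValuationSubring Qb} (hA : A.LiesOverPrime p)
    (rb : GQ →* Mt (ResidueField O)) (hU : lev.isOpen rb.ker) :
    LCond A rb 0 (fun s => CycDet p s ∧ HasLH A (actV A s) ∧ StrictC p A s) := by
  obtain ⟨w, hw⟩ := exists_NVal hp hA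
  have P : PL p A w := ⟨hp, hA, hw⟩
  haveI : NeZero p := ⟨hp.ne_zero⟩
  obtain ⟨ζ, hζ⟩ := HasEnoughRootsOfUnity.exists_primitiveRoot Qb p
  obtain ⟨x, C⟩ := exists_CY hp hζ
  obtain ⟨L, h1, h2, h3⟩ := exists_Linter P hp2 C rb hU
  refine ⟨L, h1, by rw [pow_zero, one_mul]; exact h2, fun S' s hs hU' htr hc => ?_⟩
  exact h3 S' s hs hU' htr (fun σ => hc.1.val C σ) hc.2.1 (hc.2.2 ζ x C)

end Fermat.Agent.H25.SB
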