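import Mathlib
import Fermat.Agent.H25.SelI

set_option autoImplicit false
set_option linter.unusedSectionVars false
set_option linter.style.haveILetI false

/-!
# The hard case at `p`: flat deformations with constant unit root are strictly ordinary
-/

namespace Fermat.Agent.H25.SB

open Fermat.Agent.H25 Fermat.Agent.H25.PR Fermat.Agent.CC Fermat.Agent.TW IsLocalRing Matrix
open Fermat.Agent.H05 Fermat.Agent.H25.TR Fermat.Agent.H25.TWM Fermat.Agent.H25.GD
open Fermat.Agent.H25.PT Fermat.Agent.H19 Fermat.Agent.H25.GE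
open Fermat.Agent.TAlg (TanSpace DerSpace)
open Fermat.Agent.H04 (DN M2)

section matrix

variable {O : Type} [CommRing O] [IsLocalRing O] {p : ℕ} {A : ValuationSubring Qb}
  {w : Qb → ℝ} {rb : GQ →* Mt (ResidueField O)} {s : GQ →* M2 (DN O)}

variable [Finite (ResidueField O)] [CharP (ResidueField O) p]

/-- **flat deformations with constant unit root are strictly ordinary** -/
theorem strictDN_of_flat (P : PL p A w) (hp2 : p ≠ 2) {ζ : Qb} {x : GQ → ZMod p} (C : CY p ζ x)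
    (hs : ∀ σ, FM (s σ) = rb σ) (hdet : ∀ σ, (s σ).det = ((x σ).val : DN O))
    (hU : lev.isOpen rb.ker) (hUs : lev.isOpen s.ker) {Q Q' : Mt (ResidueField O)}
    (B : BData A rb Q Q') (hH : HasLH A (actV A s)) {φ : GQ} (hφ : A.IsFrobeniusAt φ p)
    {σ₀ : GQ} (hσ₀ : σ₀ ∈ A.inertiaSubgroupIn ℚ) (hx₀ : x σ₀ ≠ 1)
    (hy : sn (((x σ₀).val : DN O) * (s φ).trace - (s (σ₀ * φ)).trace) = 0) :
    StrictDN A x s := by
  have hf : Fact p.Prime := ⟨P.prime⟩
  let _ : Algebra (ZMod p) (ResidueField O) := ZMod.algebra _ p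
  have hU' := lev_isOpen_iff.1 hU
  obtain ⟨M, M', hMM, h10, hx, h11, -⟩ := exists_adapted_flat P hp2 C hs hdet hU' B hH
  have hMM' : M' * M = 1 := mul_eq_one_comm.1 hMM
  have hle := inertia_le_decomposition A
  have hmul : ∀ g h, M' * s (g * h) * M = (M' * s g * M) * (M' * s h * M) := by
    intro g h
    have : (M' * s g * M) * (M' * s h * M) = M' * s g * (M * M') * s h * M := by noncomm_ring
    rw [this, hMM, mul_one, map_mul]
    noncomm_ring
  have hz : ∀ g ∈ A.decompositionSubgroup ℚ, ∀ h,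
      (M' * s (g * h) * M) 1 1 = (M' * s g * M) 1 1 * (M' * s h * M) 1 1 := by
    intro g hg h
    rw [hmul, Matrix.mul_apply, Fin.sum_univ_two, h10 g hg, zero_mul, zero_add]
  have ha : ∀ g, ∀ h ∈ A.decompositionSubgroup ℚ,
      (M' * s (g * h) * M) 0 0 = (M' * s g * M) 0 0 * (M' * s h * M) 0 0 := by
    intro g h hh
    rw [hmul, Matrix.mul_apply, Fin.sum_univ_two, h10 h hh, mul_zero, add_zero]
  have htr : ∀ g, (s g).trace = (M' * s g * M) 0 0 + (M' * s g * M) 1 1 := by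
    intro g
    rw [← Matrix.trace_fin_two, Matrix.trace_mul_comm, ← mul_assoc, hMM, one_mul]
  have hφD := hφ.mem_decompositionSubgroup
  -- the unit root at Frobenius
  have hX : fs (((x σ₀).val : DN O)) ≠ 1 := by
    rw [map_natCast, natCast_val_eq, ← map_one (algebraMap (ZMod p) (ResidueField O))]
    exact fun h => hx₀ ((algebraMap (ZMod p) (ResidueField O)).injective h)
  have hzφ : sn ((M' * s φ * M) 1 1) = 0 := by
    rw [htr, htr, ha _ _ hφD, hz _ (hle hσ₀), hx _ hσ₀, h11 _ hσ₀, one_mul, mul_add] at hy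
    have e1 : ∀ (X a z : DN O), X * a + X * z - (X * a + z) = (X - 1) * z := by
      intro X a z; ring
    rw [e1, sn_mul, map_sub, map_one, sn_sub, sn_natCast, sn_one, sub_zero, zero_mul,
      add_zero] at hy
    exact (mul_eq_zero.1 hy).resolve_left (sub_ne_zero.2 hX)
  have hpow : ∀ n : ℕ, (M' * s (φ ^ n) * M) 1 1 = (M' * s φ * M) 1 1 ^ n := by
    intro n
    induction n with
    | zero => rw [pow_zero, pow_zero, map_one, mul_one, hMM', Matrix.one_apply_eq]
    | succ n ih => rw [pow_succ, hz _ (pow_mem hφD n), ih, pow_succ]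
  have hsnpow : ∀ (z : DN O), sn z = 0 → ∀ n : ℕ, sn (z ^ n) = 0 := by
    intro z hz n
    induction n with
    | zero => rw [pow_zero, sn_one]
    | succ n ih => rw [pow_succ, sn_mul, ih, hz, mul_zero, zero_mul, add_zero]
  obtain ⟨V, hVn, hV, hVs⟩ := lev.nor _ hUs
  have hzD : ∀ g ∈ A.decompositionSubgroup ℚ, sn ((M' * s g * M) 1 1) = 0 := by
    intro g hg
    obtain ⟨n, σ, hσ, h, hh, hhD, e⟩ := exists_dec P.prime P.lies hφ hg hVn hV
    have hsh : s h = 1 := hVs hh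
    rw [e, hz _ (mul_mem (pow_mem hφD n) (hle hσ)), hz _ (pow_mem hφD n), h11 _ hσ, hpow, hsh,
      mul_one, mul_one, hMM', Matrix.one_apply_eq, mul_one]
    exact hsnpow _ hzφ n
  refine ⟨M, M', hMM, h10, fun g hg => ?_, h11, hx⟩
  have hdetg : (M' * s g * M) 0 0 * (M' * s g * M) 1 1 = ((x g).val : DN O) := by
    have h1 : (M' * s g * M).det = (s g).det := by
      rw [Matrix.det_mul, Matrix.det_mul, mul_comm (M'.det), mul_assoc, ← Matrix.det_mul, hMM',
        Matrix.det_one, mul_one]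
    rw [Matrix.det_fin_two, h10 g hg, mul_zero, sub_zero, hdet] at h1
    exact h1
  have h2 := congrArg sn hdetg
  rw [sn_mul, hzD g hg, mul_zero, zero_add, sn_natCast] at h2
  have h3 := congrArg fs hdetg
  rw [map_mul, map_natCast] at h3
  have h4 : fs ((M' * s g * M) 1 1) ≠ 0 := by
    intro h0
    rw [h0, mul_zero, natCast_val_eq] at h3
    have h5 : x g = 0 := by
      apply (algebraMap (ZMod p) (ResidueField O)).injective
      rw [← h3, map_zero]
    exact C.x_ne g h5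
  exact (mul_eq_zero.1 h2).resolve_right h4

end matrix

section der

variable {O : Type} [CommRing O] [IsLocalRing O] [IsNoetherianRing O]
    [IsAdicComplete (maximalIdeal O) O] {D : RD O (ResidueField O)}
    {S : Finset Nat.Primes} {bad : Finset ℕ} {κ : Type} [Finite κ] [Nonempty κ]
    (H : κ → CData D S bad) (hbar : HBar D S)

/-- the element of the trace ring which computes the unit root -/
noncomputable def zEl (φ σ₀ : GQ) : AR H hbar :=
  algebraMap O (AR H hbar) (D.chi σ₀) * (CA H hbar).t φ - (CA H hbar).t (σ₀ * φ)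

variable [Finite (ResidueField O)] {p : ℕ} [hpf : Fact p.Prime] [CharP (ResidueField O) p]

/-- **derivations of a flat family killing the unit root are strictly ordinary** -/
theorem strictC_of_der (hp2 : p ≠ 2) {pp : Nat.Primes} (hpp : (pp : ℕ) = p)
    {d : AR H hbar → ResidueField O} (hd : IsDer O (CA H hbar).resB d)
    (hfl : CycDet p (sHom hd (CA H hbar).rho) ∧
      HasLH (plv pp pp.2) (actV (plv pp pp.2) (sHom hd (CA H hbar).rho)))
    {Q Q' : Mt (ResidueField O)} (B : BData (plv pp pp.2) D.rbar Q Q')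
    (hU : lev.isOpen D.rbar.ker) {φ : GQ} (hφ : (plv pp pp.2).IsFrobeniusAt φ p) {σ₀ : GQ}
    (hσ₀ : σ₀ ∈ (plv pp pp.2).inertiaSubgroupIn ℚ) (hu : IsUnit (D.chi σ₀ - 1))
    (hy : d (zEl H hbar φ σ₀) = 0) :
    StrictC p (plv pp pp.2) (sHom hd (CA H hbar).rho) := by
  intro ζ x C
  have hp : p.Prime := hpf.out
  have hA : (plv pp pp.2).LiesOverPrime p := by
    subst hpp
    exact plv_over pp pp.2
  obtain ⟨w, hw⟩ := exists_NVal hp hA
  have P : PL p (plv pp pp.2) w := ⟨hp, hA, hw⟩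
  have hdet : ∀ σ, (sHom hd (CA H hbar).rho σ).det = ((x σ).val : DN O) :=
    fun σ => hfl.1.val C σ
  have hchi : dualHom hd (algebraMap O (AR H hbar) (D.chi σ₀)) = ((x σ₀).val : DN O) := by
    rw [← hdet, det_sHom, (CA H hbar).det_rho]
  refine strictDN_of_flat P hp2 C (rb := D.rbar) (fun σ => (CA H hbar).rho_res σ) hdet hU
    (lev_isOpen_of_levS (isOpen_ker_sHom hd (CA_cont2 H hbar))) B hfl.2 hφ hσ₀ ?_ ?_
  · intro h1
    have h2 : dualHom hd (algebraMap O (AR H hbar) (D.chi σ₀ - 1)) = 0 := by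
      rw [map_sub, map_sub, map_one, map_one, hchi, h1, ZMod.val_one, Nat.cast_one, sub_self]
    have h3 := (hu.map (algebraMap O (AR H hbar))).map (dualHom hd)
    rw [h2] at h3
    have h4 := h3.map (fs (𝒪 := O))
    rw [map_zero] at h4
    exact not_isUnit_zero h4
  · rw [← hchi, trace_sHom, trace_sHom, (CA H hbar).trace_rho, (CA H hbar).trace_rho, ← map_mul,
      ← map_sub]
    exact hy

end der

section count

variable {O A k 𝒯 : Type} [CommRing O] [CommRing A] [Field k] [Finite k] [Algebra O A]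
  [Finite 𝒯] {S : Finset Nat.Primes}

/-- **Counting framed first order deformations** in a subspace. -/
theorem card_Tan_le_of_le (res : A →+* k) (ρ : GQ →* Mt A) (rbar : GQ →* Mt k)
    (hbar : ∀ g, (ρ g).map res = rbar g)
    (hdet : ∀ g, ∃ a : O, (ρ g).det = algebraMap O A a)
    (hcont : ∃ U, (levS S).isOpen U ∧ ∀ s ∈ U, MatCong (RingHom.ker res ^ 2) (ρ s) 1)
    (hgen : Algebra.adjoin O (Set.range fun g => (ρ g).trace) = ⊤)
    (D : 𝒯 → Subgroup GQ) (φ τ : 𝒯 → GQ) (hτ1 : ∀ q, rbar (τ q) = 1)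
    (hD : ∀ q, ∀ g ∈ D q, ∃ a b : ℕ,
      MatCong (RingHom.ker res ^ 2) (ρ g) (ρ (φ q) ^ a * ρ (τ q) ^ b))
    (Sel : AddSubgroup (H1 (levS S) (Ad0 rbar (1 : GQ →* k)))) [Finite Sel]
    (Pd : (A → k) → Prop)
    (hSel : ∀ (d : A → k) (hd : IsDer O res d), Pd d →
      (∀ q, ∃ a : Ad0 rbar (1 : GQ →* k), ∀ g ∈ D q,
        (coc hd hbar hdet hcont).1 g = g • a - a) →
      H1.mk _ _ (coc hd hbar hdet hcont) ∈ Sel)
    (𝒟 : Submodule k ((A → k) × (𝒯 → Fermat.Agent.TAlg.M2 k)))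
    (h𝒟 : 𝒟 ≤ TanSpace (algebraMap O A) res (fun q => ρ (φ q)) (fun q => ρ (τ q)))
    (hPd : ∀ z ∈ 𝒟, Pd z.1) :
    Finite 𝒟 ∧ Nat.card 𝒟 ≤
      Nat.card Sel * Nat.card (∀ q, H0 (D q) (Ad0 rbar (1 : GQ →* k))) := by
  classical
  -- restriction to A
  have hdA : ∀ d : 𝒟, IsDer O res d.1.1 := fun d => isDer_of_mem (h𝒟 d.2).1
  let y : ∀ (_ : 𝒟) (_ : 𝒯), Ad0 rbar (1 : GQ →* k) := fun d q => Ad0.mk (d.1.2 q) ((h𝒟 d.2).2.1 q)
  have hyval : ∀ (d : 𝒟) (q : 𝒯), (y d q).val = d.1.2 q := fun d q => rfl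
  have hφ : ∀ (d : 𝒟) (q : 𝒯), (coc (hdA d) hbar hdet hcont).1 (φ q) =
      φ q • y d q - y d q := by
    intro d q
    apply Ad0.ext
    rw [coc_val, Ad0.val_sub, Ad0.val_gsmul, MonoidHom.one_apply, one_smul, hyval, cocVal]
    have h1 : (ρ (φ q)).map d.1.1 = rbar (φ q) * d.1.2 q - d.1.2 q * rbar (φ q) := by
      ext i j
      have h2 := (h𝒟 d.2).2.2.1 q i j
      have h3 : (ρ (φ q)).map res = rbar (φ q) := hbar (φ q)
      beta_reduce at h2
      rw [h3] at h2
      rw [Matrix.map_apply, Matrix.sub_apply]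
      rw [Matrix.sub_apply] at h2
      linear_combination h2
    rw [h1, sub_mul, mul_assoc (d.1.2 q), r_mul_inv, mul_one]
  have hτ : ∀ (d : 𝒟) (q : 𝒯), (coc (hdA d) hbar hdet hcont).1 (τ q) =
      τ q • y d q - y d q := by
    intro d q
    apply Ad0.ext
    rw [coc_val, Ad0.val_sub, Ad0.val_gsmul, MonoidHom.one_apply, one_smul, hyval, cocVal]
    have h1 : (ρ (τ q)).map d.1.1 = 0 := by
      ext i j
      exact (h𝒟 d.2).2.2.2 q i j
    have h2 : rbar (τ q)⁻¹ = 1 := by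
      have := r_mul_inv rbar (τ q)
      rwa [hτ1, one_mul] at this
    rw [h1, zero_mul, hτ1, h2, one_mul, mul_one, sub_self]
  have hmul : ∀ (d : 𝒟) (q : 𝒯) (g h : GQ),
      (coc (hdA d) hbar hdet hcont).1 g = g • y d q - y d q →
      (coc (hdA d) hbar hdet hcont).1 h = h • y d q - y d q →
      (coc (hdA d) hbar hdet hcont).1 (g * h) = (g * h) • y d q - y d q := by
    intro d q g h hg hh
    rw [(coc (hdA d) hbar hdet hcont).2.2, hg, hh, smul_sub, mul_smul]
    abel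
  have hpow : ∀ (d : 𝒟) (q : 𝒯) (g : GQ),
      (coc (hdA d) hbar hdet hcont).1 g = g • y d q - y d q → ∀ n : ℕ,
      (coc (hdA d) hbar hdet hcont).1 (g ^ n) = (g ^ n) • y d q - y d q := by
    intro d q g hg n
    induction n with
    | zero =>
      have h1 := (coc (hdA d) hbar hdet hcont).2.2 1 1
      rw [one_mul, one_smul] at h1
      rw [pow_zero, one_smul, sub_self]
      exact left_eq_add.mp h1
    | succ n ih =>
      rw [pow_succ]
      exact hmul d q _ _ ih hg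
  have hDq : ∀ (d : 𝒟) (q : 𝒯), ∀ g ∈ D q,
      (coc (hdA d) hbar hdet hcont).1 g = g • y d q - y d q := by
    intro d q g hg
    obtain ⟨a, b, hab⟩ := hD q g hg
    have h1 := hmul d q _ _ (hpow d q _ (hφ d q) a) (hpow d q _ (hτ d q) b)
    have h2 : MatCong (RingHom.ker res ^ 2) (ρ g) (ρ (φ q ^ a * τ q ^ b)) := by
      rwa [map_mul, map_pow, map_pow]
    have h3 : rbar g = rbar (φ q ^ a * τ q ^ b) := by
      rw [← hbar, ← hbar, map_res_cong h2]
    have h4 : rbar g⁻¹ = rbar (φ q ^ a * τ q ^ b)⁻¹ := by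
      have e1 := r_mul_inv rbar (φ q ^ a * τ q ^ b)
      rw [← h3] at e1
      calc rbar g⁻¹ = rbar g⁻¹ * (rbar g * rbar (φ q ^ a * τ q ^ b)⁻¹) := by rw [e1, mul_one]
        _ = _ := by rw [← mul_assoc, r_inv_mul, one_mul]
    apply Ad0.ext
    have h5 := congrArg Ad0.val h1
    rw [coc_val, cocVal, Ad0.val_sub, Ad0.val_gsmul, MonoidHom.one_apply, one_smul] at h5 ⊢
    rw [(hdA d).mat_cong h2, h4, h3, h5]
  -- determination
  have hdet' : ∀ d d' : 𝒟, H1.mk _ _ (coc (hdA d) hbar hdet hcont) =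
      H1.mk _ _ (coc (hdA d') hbar hdet hcont) → d.1.1 = d'.1.1 := by
    intro d d' h
    exact eq_of_mk_eq (hdA d) (hdA d') hbar hdet hcont hgen h
  have hall : ∀ d d' : 𝒟, d.1.1 = d'.1.1 → (∀ q, y d q = y d' q) → d = d' := by
    intro d d' h1 h2
    refine Subtype.ext (Prod.ext h1 (funext fun q => ?_))
    have h3 := congrArg Ad0.val (h2 q)
    rwa [hyval, hyval] at h3
  have hmemSel : ∀ d : 𝒟, H1.mk _ _ (coc (hdA d) hbar hdet hcont) ∈ Sel := fun d =>
    hSel _ (hdA d) (hPd _ d.2) fun q => ⟨y d q, hDq d q⟩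
  -- representatives
  let cl : 𝒟 → Sel := fun d => ⟨H1.mk _ _ (coc (hdA d) hbar hdet hcont), hmemSel d⟩
  let rep : Sel → Option 𝒟 := fun x => if h : ∃ d, cl d = x then some h.choose else none
  have hrep : ∀ d : 𝒟, ∃ d₀, rep (cl d) = some d₀ ∧ cl d₀ = cl d := by
    intro d
    have h : ∃ d', cl d' = cl d := ⟨d, rfl⟩
    exact ⟨h.choose, by simp only [rep]; rw [dif_pos h], h.choose_spec⟩
  choose d₀ hd₀ hd₀' using hrep
  have hd₀A : ∀ d : 𝒟, (d₀ d).1.1 = d.1.1 := fun d =>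
    hdet' _ _ (congrArg Subtype.val (hd₀' d))
  have hH0 : ∀ (d : 𝒟) (q : 𝒯), y d q - y (d₀ d) q ∈ H0 (D q) (Ad0 rbar (1 : GQ →* k)) := by
    intro d q g
    have h1 := hDq d q g g.2
    have h2 := hDq (d₀ d) q g g.2
    have h3 : (coc (hdA (d₀ d)) hbar hdet hcont).1 (g : GQ) =
        (coc (hdA d) hbar hdet hcont).1 (g : GQ) := by
      apply Ad0.ext
      rw [coc_val, coc_val, cocVal, cocVal, hd₀A d]
    rw [h3, h1] at h2
    rw [Ad0.smul_eq_of_mem, smul_sub]
    rw [sub_eq_sub_iff_add_eq_add] at h2 ⊢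
    rw [add_comm (y d q), ← h2]
  let F : 𝒟 → Sel × (∀ q, H0 (D q) (Ad0 rbar (1 : GQ →* k))) := fun d =>
    (cl d, fun q => ⟨y d q - y (d₀ d) q, hH0 d q⟩)
  have hF : Function.Injective F := by
    intro d d' h
    have h1 : cl d = cl d' := congrArg Prod.fst h
    have h2 : d₀ d = d₀ d' := by
      have e1 := hd₀ d
      rw [h1, hd₀ d'] at e1
      exact (Option.some_inj.mp e1).symm
    have h3 : ∀ q, y d q - y (d₀ d) q = y d' q - y (d₀ d') q := fun q =>
      congrArg Subtype.val (congrFun (congrArg Prod.snd h) q)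
    refine hall d d' (hdet' _ _ (congrArg Subtype.val h1)) fun q => ?_
    have := h3 q
    rw [h2] at this
    exact sub_left_injective this
  have hfinT : Finite (Sel × (∀ q, H0 (D q) (Ad0 rbar (1 : GQ →* k)))) := inferInstance
  haveI hfin : Finite 𝒟 := Finite.of_injective F hF
  refine ⟨hfin, ?_⟩
  rw [← Nat.card_prod]
  exact Nat.card_le_card_of_injective F hF

end count

section Tan

variable {O k : Type} [CommRing O] [IsLocalRing O] [IsNoetherianRing O]
    [IsAdicComplete (maximalIdeal O) O] [Field k] [Finite k] {D : RD O k}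
    {S : Finset Nat.Primes} {bad : Finset ℕ} {κ : Type} [Finite κ] [Nonempty κ]
    (H : κ → CData D S bad) (hbar : HBar D S) {p : ℕ} (hp : p.Prime)
    (hpO : (p : O) ∈ maximalIdeal O) {𝒯 : Type} [Finite 𝒯] {tv : 𝒯 → Nat.Primes}

/-- the Selmer bound for derivations killing `y` -/
def SelBy (r : ℕ) (tv : 𝒯 → Nat.Primes) (y : AR H hbar) : Prop :=
  ∃ (Sel : AddSubgroup (H1 (levS S) (Ad0 D.rbar (1 : GQ →* k)))) (_ : Finite Sel),
    (∀ (d : AR H hbar → k) (hd : IsDer O (CA H hbar).resB d), d y = 0 →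
      (∀ q : 𝒯, ∃ a : Ad0 D.rbar (1 : GQ →* k),
        ∀ g ∈ (plv (tv q) (tv q).2).decompositionSubgroup ℚ,
        (coc hd (CA H hbar).rho_res (CA_det H hbar) (CA_cont2 H hbar)).1 g = g • a - a) →
      H1.mk _ _ (coc hd (CA H hbar).rho_res (CA_det H hbar) (CA_cont2 H hbar)) ∈ Sel) ∧
    Nat.card Sel * Nat.card (∀ q : 𝒯,
      H0 ((plv (tv q) (tv q).2).decompositionSubgroup ℚ) (Ad0 D.rbar (1 : GQ →* k))) *
        Nat.card k ≤ Nat.card k ^ r

include hpO in
theorem finrank_tan_y {r : ℕ} (hT : FrD D p tv) {y : AR H hbar} (hSel : SelBy H hbar r tv y)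
    (N : Submodule k ((AR H hbar → k) × (𝒯 → Fermat.Agent.TAlg.M2 k)))
    (hN : N ≤ TanSpace (algebraMap O (AR H hbar)) (CA H hbar).resB
      (fun q => (CA H hbar).rho (frv (tv q) (tv q).2))
      (fun q => (CA H hbar).rho (tmv p hp (tv q) (tv q).2)))
    (hy : ∀ z ∈ N, z.1 y = 0) :
    Module.finrank k N + 1 ≤ r := by
  obtain ⟨Sel, hfin, h1, h2⟩ := hSel
  obtain ⟨h3, h4⟩ := card_Tan_le_of_le (CA H hbar).resB (CA H hbar).rho D.rbar
    (CA H hbar).rho_res (CA_det H hbar) (CA_cont2 H hbar) (CA_gen H hbar)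
    (fun q => (plv (tv q) (tv q).2).decompositionSubgroup ℚ)
    (fun q => frv (tv q) (tv q).2) (fun q => tmv p hp (tv q) (tv q).2)
    (fun q => hT.unr q _ (tmv_spec p hp (tv q) (tv q).2).2.1)
    (fun q g hg => by
      rw [(CA H hbar).ker_resB]
      exact ((CA H hbar).local_at hp hpO (CA_contS H hbar) (tv q).2 (hT.ne q) (hT.unr q) 2).2.1
        g hg) Sel (fun d => d y = 0) h1 N hN hy
  haveI := h3
  haveI : Fintype k := Fintype.ofFinite k
  have h5 : Nat.card N = Nat.card k ^ Module.finrank k N := Module.natCard_eq_pow_finrank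
  have h6 : Nat.card k ^ (Module.finrank k N + 1) ≤ Nat.card k ^ r := by
    rw [pow_succ, ← h5]
    exact (Nat.mul_le_mul_right _ h4).trans h2
  exact (Nat.pow_le_pow_iff_right (Finite.one_lt_card)).mp h6

end Tan

section Final

variable {O : Type} [CommRing O] [IsLocalRing O] [IsNoetherianRing O]
    [IsAdicComplete (maximalIdeal O) O] {D : RD O (ResidueField O)} [Finite (ResidueField O)]
    {p : ℕ} [hpf : Fact p.Prime] [CharP (ResidueField O) p]

/-- extraction of `SelBy` -/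
theorem SelBy.of_cond {S : Finset Nat.Primes} {bad : Finset ℕ} {κ : Type} [Finite κ] [Nonempty κ]
    {H : κ → CData D S bad} {hbar : HBar D S} {T : Finset Nat.Primes} {r : ℕ}
    {cond : (GQ →* M2 (DN O)) → Prop} {y : AR H hbar}
    (hcond : ∀ (d : AR H hbar → ResidueField O) (hd : IsDer O (CA H hbar).resB d), d y = 0 →
      cond (sHom hd (CA H hbar).rho))
    (h : ∃ (Sel : AddSubgroup (H1 (levS S)
            (Ad0 D.rbar (1 : GQ →* ResidueField O)))) (_ : Finite Sel),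
          (∀ (d : AR H hbar → ResidueField O) (hd : IsDer O (CA H hbar).resB d),
            cond (sHom hd (CA H hbar).rho) →
            (∀ q : T, ∃ a : Ad0 D.rbar (1 : GQ →* ResidueField O),
              ∀ g ∈ (plv ((q : Nat.Primes) : ℕ) (q : Nat.Primes).2).decompositionSubgroup ℚ,
              (coc hd (CA H hbar).rho_res (CA_det H hbar) (CA_cont2 H hbar)).1 g = g • a - a) →
            H1.mk _ _ (coc hd (CA H hbar).rho_res (CA_det H hbar) (CA_cont2 H hbar)) ∈ Sel) ∧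
          Nat.card Sel * Nat.card (∀ q : T,
            H0 ((plv ((q : Nat.Primes) : ℕ) (q : Nat.Primes).2).decompositionSubgroup ℚ)
              (Ad0 D.rbar (1 : GQ →* ResidueField O))) * Nat.card (ResidueField O) ≤
              Nat.card (ResidueField O) ^ (r + 0)) :
    SelBy H hbar r (fun t : T => (t : Nat.Primes)) y := by
  obtain ⟨Sel, hf, h1, h2⟩ := h
  exact ⟨Sel, hf, fun d hd hy hT => h1 d hd (hcond d hd hy) hT, h2⟩

open scoped Classical in
/-- **(W6), all modes.** The Taylor-Wiles primes are the same for all conditions at `p`. -/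
theorem exists_SelB_modes (hGW : GWad p) (hp2 : p ≠ 2) {χ : GQ →* ResidueField O}
    {S T U : Finset Nat.Primes} {pp : Nat.Primes} (hpp : (pp : ℕ) = p) (hpS : pp ∈ S)
    (hpT : pp ∉ T) (hpU : pp ∉ U) (hTS : T ⊆ S) (hUS : U ⊆ S) (hTU : Disjoint T U)
    (hTW : TWData p S D.rbar χ)
    (hram : ∀ q ∈ S, q ∉ T → q ∉ U → q ≠ pp →
      ∃ τ ∈ (plv q q.2).inertiaSubgroupIn ℚ, D.rbar τ ≠ 1)
    (hchi : IsCyc p D.chi) (hpO : (p : O) ∈ maximalIdeal O) (hUr : lev.isOpen D.rbar.ker)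
    {condU : Nat.Primes → (GQ →* M2 (DN O)) → Prop}
    (hLU : ∀ q ∈ U, LCond (plv q q.2) D.rbar 0 (condU q)) :
    ∃ r : ℕ, ∀ n : ℕ, ∀ E : Finset ℕ, ∃ qv : Fin r → Nat.Primes, Function.Injective qv ∧
      (∀ j, (qv j : ℕ) ∉ E ∧ qv j ∉ S ∧ TWData.IsTW p n D.rbar χ (qv j)) ∧
      ∀ (S' : Finset Nat.Primes), S' = S ∪ Finset.univ.image qv →
      ∀ (κ : Type) [Finite κ] [Nonempty κ] (bad : Finset ℕ) (H : κ → CData D S' bad)
        (hbar : HBar D S'),
        (∀ q ∈ S, q ∉ T → q ∉ U → q ≠ pp → ∀ i x, ∀ τ ∈ (plv q q.2).inertiaSubgroupIn ℚ,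
          (H i).t x τ = 2) →
        (∀ (d : AR H hbar → ResidueField O) (hd : IsDer O (CA H hbar).resB d), ∀ q ∈ U,
          condU q (sHom hd (CA H hbar).rho)) →
        -- the flat case
        (LFlat p (plv pp pp.2) D.rbar → (∀ i, FlT p O ((H i).C hbar).t) →
          GE.SelB H hbar r (fun t : T => (t : Nat.Primes))) ∧
        -- the strict case
        ((∀ (d : AR H hbar → ResidueField O) (hd : IsDer O (CA H hbar).resB d),
          StrictC p (plv pp pp.2) (sHom hd (CA H hbar).rho)) →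
          GE.SelB H hbar r (fun t : T => (t : Nat.Primes))) ∧
        -- the flat case, constant unit root
        ((∀ i, FlT p O ((H i).C hbar).t) → ∀ (Q Q' : Mt (ResidueField O)),
          BData (plv pp pp.2) D.rbar Q Q' → ∀ (φ σ₀ : GQ), (plv pp pp.2).IsFrobeniusAt φ p →
          σ₀ ∈ (plv pp pp.2).inertiaSubgroupIn ℚ → IsUnit (D.chi σ₀ - 1) →
          SelBy H hbar r (fun t : T => (t : Nat.Primes)) (zEl H hbar φ σ₀)) := by
  have hA : (plv pp pp.2).LiesOverPrime p := by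
    subst hpp
    exact plv_over pp pp.2
  obtain ⟨r, hr⟩ := exists_SelB_cond_gen (D := D) hGW hp2 (χ := χ) hpp hpS hpT hpU hTS hUS hTU
    hTW hram hchi hpO
  refine ⟨r, fun n E => ?_⟩
  obtain ⟨qv, h1, h2, h3⟩ := hr (n + 1) (Nat.succ_ne_zero n) E
  refine ⟨qv, h1, fun j => ⟨(h2 j).1, (h2 j).2.1, isTW_of_succ (h2 j).2.2⟩,
    fun S' hS' κ _ _ bad H hbar hun hcU => ⟨fun hLF hfl => ?_, fun hst => ?_,
      fun hfl Q Q' B φ σ₀ hφ hσ₀ hu => ?_⟩⟩
  · obtain ⟨Sel, hf, h4, h5⟩ := h3 _ 1 hLF condU hLU S' hS' κ bad H hbar hun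
    refine SelB.of_cond
      (cond := fun s => CycDet p s ∧ HasLH (plv pp pp.2) (actV (plv pp pp.2) s))
      (flat_cond hpO hchi hpp hfl) ⟨Sel, hf, fun d hd hc hT => h4 d hd hc (hcU d hd) hT, h5⟩
  · obtain ⟨Sel, hf, h4, h5⟩ := h3 _ 1 (lstrict hpf.out hp2 hA D.rbar hUr) condU hLU S' hS' κ
      bad H hbar hun
    exact SelB.of_cond (cond := StrictC p (plv pp pp.2)) hst
      ⟨Sel, hf, fun d hd hc hT => h4 d hd hc (hcU d hd) hT, h5⟩
  · obtain ⟨Sel, hf, h4, h5⟩ := h3 _ 0 (linter hpf.out hp2 hA D.rbar hUr) condU hLU S' hS' κ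
      bad H hbar hun
    refine SelBy.of_cond
      (cond := fun s => CycDet p s ∧ HasLH (plv pp pp.2) (actV (plv pp pp.2) s) ∧
        StrictC p (plv pp pp.2) s) (fun d hd hy => ?_)
      ⟨Sel, hf, fun d hd hc hT => h4 d hd hc (hcU d hd) hT, h5⟩
    have h6 := flat_cond (H := H) (hbar := hbar) hpO hchi hpp hfl d hd
    exact ⟨h6.1, h6.2, strictC_of_der H hbar hp2 hpp hd h6 B hUr hφ hσ₀ hu hy⟩

end Final

end Fermat.Agent.H25.SB
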