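import Mathlib
import Fermat.Agent.H25.PtE
import Fermat.Agent.H02M.StT6
import Fermat.Agent.H01.OrdLev

set_option autoImplicit false
set_option linter.unusedSectionVars false
set_option linter.style.haveILetI false

/-!
# The operator `T_p` at the ordinary points of level prime to `p`
-/

namespace Fermat.Agent.H25.NO

open Fermat.Agent.H25 Fermat.Agent.H25.PR Fermat.Agent.CC Fermat.Agent.TW IsLocalRing Matrix
open Fermat.Agent.H05 Fermat.Agent.H25.TR Fermat.Agent.H25.TWM Fermat.Agent.H19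
open Fermat.Agent.H25.PT Fermat.Agent.H25.GE Fermat.Agent.H25.St
open Fermat.Agent.Strict (OrdLine zc xc mem_line)
open CongruenceSubgroup Polynomial
open ModularFormClass (qCoeff)

section ext

variable {O : Type} [CommRing O] [IsDomain O] [IsDiscreteValuationRing O]
  [IsAdicComplete (maximalIdeal O) O] [Finite (ResidueField O)] [CharZero O]
  {K : Type} [Field K] [IsAlgClosed K] [Algebra O K] [FaithfulSMul O K]
  {p : ℕ} [hp : Fact p.Prime] (hpO : (p : O) ∈ maximalIdeal O) (G : Geo p)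
  {N0 : ℕ} [NeZero N0] {g : CuspForm (Gamma0 N0) 2} {hg : g.IsNewform}
  {τ : integralClosure ℤ ℂ →+* K} (R : NRep O p hg τ)

include hpO G in
/-- enlarging the coefficient ring of a representation attached to a newform -/
theorem exists_ext : ∃ (R' : NRep O p hg τ) (f : R.Q →ₐ[O] R'.Q)
    (π' : CuspForm.heckeAlgebra N0 2 (↑(N0.primeFactors) : Set ℕ) →+* R'.Q),
    (∀ y, R'.e (f y) = R.e y) ∧ (∀ t, R'.e (π' t) = τ (H23.eigenChar hg.1 _ t)) ∧
    IsLocalHom (f : R.Q →+* R'.Q) ∧ ∀ σ, f (R.ρ.trace σ) = R'.ρ.trace σ := by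
  classical
  let 𝕋 := CuspForm.heckeAlgebra N0 2 (↑(N0.primeFactors) : Set ℕ)
  haveI : Module.Finite ℤ 𝕋 := S22.result N0 2 _
  let θ : 𝕋 →+* K := τ.comp (H23.eigenChar hg.1 _)
  obtain ⟨s1, hs1⟩ := (Module.Finite.fg_top : (⊤ : Submodule O R.Q).FG)
  obtain ⟨s2, hs2⟩ := (Module.Finite.fg_top : (⊤ : Submodule ℤ 𝕋).FG)
  obtain ⟨R', hR'⟩ := exists_NRep hpO G hg τ (R.e '' (s1 : Set R.Q) ∪ θ '' (s2 : Set 𝕋))
    ((s1.finite_toSet.image _).union (s2.finite_toSet.image _)) (by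
      rintro _ (⟨y, hy, rfl⟩ | ⟨y, hy, rfl⟩)
      · exact (Algebra.IsIntegral.isIntegral (R := O) y).map R.e
      · have h1 : IsIntegral ℤ y := Algebra.IsIntegral.isIntegral y
        have h2 : IsIntegral ℤ (θ y) := h1.map θ.toIntAlgHom
        exact h2.tower_top)
  have hm1 : ∀ y, R.e y ∈ R'.e.range := by
    intro y
    have hy : y ∈ Submodule.span O (s1 : Set R.Q) := by rw [hs1]; trivial
    induction hy using Submodule.span_induction with
    | mem y hy => exact hR' (Algebra.subset_adjoin (Or.inl ⟨y, hy, rfl⟩))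
    | zero => rw [map_zero]; exact zero_mem _
    | add y z _ _ hy hz => rw [map_add]; exact add_mem hy hz
    | smul a y _ hy => rw [map_smul]; exact Subalgebra.smul_mem _ hy a
  have hm2 : ∀ t : 𝕋, θ t ∈ R'.e.range := by
    intro t
    have ht : t ∈ Submodule.span ℤ (s2 : Set 𝕋) := by rw [hs2]; trivial
    induction ht using Submodule.span_induction with
    | mem y hy => exact hR' (Algebra.subset_adjoin (Or.inr ⟨y, hy, rfl⟩))
    | zero => rw [map_zero]; exact zero_mem _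
    | add y z _ _ hy hz => rw [map_add]; exact add_mem hy hz
    | smul a y _ hy => rw [map_zsmul]; exact zsmul_mem hy a
  let E : R'.Q ≃ₐ[O] R'.e.range := AlgEquiv.ofInjective R'.e R'.e_inj
  have hE : ∀ z, R'.e (E.symm z) = z := fun z =>
    congrArg Subtype.val (E.apply_symm_apply z)
  let f : R.Q →ₐ[O] R'.Q := (E.symm.toAlgHom).comp (R.e.codRestrict R'.e.range hm1)
  have hf : ∀ y, R'.e (f y) = R.e y := fun y => hE _
  let π' : 𝕋 →+* R'.Q := (E.symm : R'.e.range →+* R'.Q).comp (θ.codRestrict R'.e.range hm2)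
  have hπ' : ∀ t, R'.e (π' t) = τ (H23.eigenChar hg.1 _ t) := fun t => hE _
  have hfinj : Function.Injective f := by
    intro y z h
    apply R.e_inj
    rw [← hf, ← hf, h]
  have hloc : IsLocalHom (f : R.Q →+* R'.Q) := by
    letI : Algebra R.Q R'.Q := (f : R.Q →+* R'.Q).toAlgebra
    haveI : IsScalarTower O R.Q R'.Q := IsScalarTower.of_algebraMap_eq fun a => (f.commutes a).symm
    haveI : FaithfulSMul R.Q R'.Q := (faithfulSMul_iff_algebraMap_injective _ _).mpr hfinj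
    haveI : Algebra.IsIntegral R.Q R'.Q :=
      ⟨fun y => (Algebra.IsIntegral.isIntegral (R := O) y).tower_top⟩
    have h1 : IsLocalHom (algebraMap R.Q R'.Q) := inferInstance
    exact h1
  refine ⟨R', f, π', hf, hπ', hloc, fun σ => ?_⟩
  refine trace_eq_of_frob (f : R.Q →+* R'.Q) R.ρ R'.ρ (bd N0 p) (fun ℓ hℓ hb P hP φ hφ => ?_) σ
  have hℓN : ¬ ℓ ∣ N0 := fun h => hb (mem_bd_of_dvd hp.out ℓ hℓ h)
  refine ⟨R.π (CuspForm.heckeAlgebra.T hℓ hℓN hb), R.hfrob ℓ hℓ hℓN hb P hP φ hφ, ?_⟩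
  have h1 : (f : R.Q →+* R'.Q) (R.π (CuspForm.heckeAlgebra.T hℓ hℓN hb)) =
      R'.π (CuspForm.heckeAlgebra.T hℓ hℓN hb) := by
    apply R'.e_inj
    have h2 := hf (R.π (CuspForm.heckeAlgebra.T hℓ hℓN hb))
    rw [R.hπ] at h2
    rw [R'.hπ]
    exact h2
  rw [h1]
  exact R'.hfrob ℓ hℓ hℓN hb P hP φ hφ

end ext

section ordline

variable {O : Type} [CommRing O] {T : Type} [CommRing T] [IsLocalRing T] [Algebra O T]
  {ρ : GaloisRepAdic T} {A : ValuationSubring Qb} {b : Module.Basis (Fin 2) T ρ.V} {chi : GQ → O}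

/-- the quotient character from the trace -/
theorem sub_one_mul_zc (hb : OrdLine b A)
    (hdet : ∀ g, LinearMap.det (ρ.ρ g) = algebraMap O T (chi g)) {φ σ₀ : GQ}
    (hφ : φ ∈ A.decompositionSubgroup ℚ) (hσ₀ : σ₀ ∈ A.inertiaSubgroupIn ℚ) :
    algebraMap O T (chi σ₀ - 1) * zc b φ =
      algebraMap O T (chi σ₀) * ρ.trace φ - ρ.trace (σ₀ * φ) := by
  have hσD := inertia_le_decomposition A hσ₀
  have h1 : zc b (σ₀ * φ) = zc b φ := by rw [hb.zc_mul hσD, hb.zc_inertia hσ₀, one_mul]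
  have h2 := hb.det_eq hφ
  have h3 := hb.det_eq (mul_mem hσD hφ)
  have h4 : LinearMap.det (ρ.ρ (σ₀ * φ)) = algebraMap O T (chi σ₀) * LinearMap.det (ρ.ρ φ) := by
    rw [map_mul, map_mul, hdet σ₀]
  have hu : IsUnit (zc b φ) := hb.isUnit_zc hφ
  have h5 : xc b (σ₀ * φ) = algebraMap O T (chi σ₀) * xc b φ := by
    apply hu.mul_right_cancel
    rw [h1, h4, h2] at h3
    rw [← h3, mul_assoc]
  rw [ordLine_trace_eq (b := b), ordLine_trace_eq (b := b), h1, h5, map_sub, map_one]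
  ring

end ordline

section Pts

variable {O k : Type} [CommRing O] [IsDomain O] [IsDiscreteValuationRing O]
  [IsAdicComplete (maximalIdeal O) O] [Finite (ResidueField O)] [CharZero O] [Field k]
  {D : RD O k}
  {K : Type} [Field K] [IsAlgClosed K] [Algebra O K] [FaithfulSMul O K]
  {p : ℕ} [hp : Fact p.Prime] (hpO : (p : O) ∈ maximalIdeal O) (G : Geo p)
  (hchi : IsCyc p D.chi) (hc : D.chi D.c = -1)
  {S : Finset Nat.Primes} {bad : Finset ℕ} (H : HIn D K p S bad) (hbar : HBar D S)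
  {A : ValuationSubring Qb} {psi : GQ → ℤ}

include hp in
/-- **(TP) at the points**: the unit root `z(φ)` computed from the traces satisfies
`z² - a_p z + p = 0`. -/
theorem relation_pt (hp2 : p ≠ 2) (x : H.X) (hN : ¬ p ∣ (H.np x).N0)
    (hA : A.LiesOverPrime p) (ho : OrdD D A psi)
    (hne : ∃ σ ∈ A.inertiaSubgroupIn ℚ, D.res (D.chi σ) ≠ 1) {φ σ₀ : GQ}
    (hφ : A.IsFrobeniusAt φ p) (hσ₀ : σ₀ ∈ A.inertiaSubgroupIn ℚ) (hu : IsUnit (D.chi σ₀ - 1))
    {α : (H.cd hpO G hchi hc).B}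
    (hα : algebraMap O (H.cd hpO G hchi hc).B (D.chi σ₀ - 1) * α =
      algebraMap O (H.cd hpO G hchi hc).B (D.chi σ₀) * ((H.cd hpO G hchi hc).C hbar).t φ -
        ((H.cd hpO G hchi hc).C hbar).t (σ₀ * φ))
    {z : integralClosure ℤ ℂ} (hz : (z : ℂ) = qCoeff (H.np x).g p) :
    H.pt x α ^ 2 - (H.np x).τ z * H.pt x α + (p : K) = 0 := by
  obtain ⟨R', f, π', hf, hπ', hloc, htr⟩ := exists_ext hpO G (H.rep hpO G x)
  let ev : (H.cd hpO G hchi hc).B →ₐ[O] (H.rep hpO G x).Q := (H.cd hpO G hchi hc).ev x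
  let F : (H.cd hpO G hchi hc).B →ₐ[O] R'.Q := f.comp ev
  have hFt : ∀ g, F (((H.cd hpO G hchi hc).C hbar).t g) = R'.ρ.trace g := by
    intro g
    rw [← htr]
    exact congrArg f ((H.cd hpO G hchi hc).ev_C hbar g x)
  have hpt : ∀ b, R'.e (F b) = H.pt x b := fun b => (hf _).trans (H.e_evQ hpO G x b)
  have hpQ := R'.hpQ hpO
  obtain ⟨ι, hι⟩ := exists_iota_of_comp (Q := R'.Q) ((H.cd hpO G hchi hc).C hbar) F
  have hιt : ∀ g, residue R'.Q (R'.ρ.trace g) = ι (D.tbar g) := fun g => by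
    rw [← hFt, hι, ((H.cd hpO G hchi hc).C hbar).res_t]
  have habs : R'.ρ.residual.IsAbsolutelyIrreducible :=
    isAbsIrr_of_trace D _ ι fun g => (trace_residual _ g).trans (hιt g)
  obtain ⟨b0, hb0⟩ := exists_ordLine_resid ho hne
    (GaloisRepAdic.ofResidualGaloisRep R'.ρ.residual) ι
    fun g => (trace_residual _ g).trans (hιt g)
  have hres := isOrdinaryAt_of_one hp.out hA hb0
  have hpS : p ∉ (↑((H.np x).N0.primeFactors) : Set ℕ) := fun h =>
    hN (Nat.mem_primeFactors.1 (Finset.mem_coe.1 h)).2.1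
  have hfr : ∀ (ℓ : ℕ) (hℓ : ℓ.Prime) (hℓN : ¬ ℓ ∣ (H.np x).N0)
      (hℓS : ℓ ∉ (↑((H.np x).N0.primeFactors) : Set ℕ)), ℓ ≠ p →
      ∀ A : ValuationSubring (AlgebraicClosure ℚ), A.LiesOverPrime ℓ →
        ∀ σ : GQ, A.IsFrobeniusAt σ ℓ → LinearMap.charpoly (R'.ρ.ρ σ) =
          X ^ 2 - C (π' (CuspForm.heckeAlgebra.T hℓ hℓN hℓS)) * X + C ((ℓ : R'.Q)) := by
    intro ℓ hℓ hℓN hℓS hℓp P hP σ hσ
    have h1 : π' (CuspForm.heckeAlgebra.T hℓ hℓN hℓS) =
        R'.π (CuspForm.heckeAlgebra.T hℓ hℓN (not_mem_bd hp.out hℓ hℓN hℓp)) := by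
      apply R'.e_inj
      rw [R'.hπ, hπ']
      congr 1
    rw [h1]
    exact R'.hfrob ℓ hℓ hℓN (not_mem_bd hp.out hℓ hℓN hℓp) P hP σ hσ
  obtain ⟨b, hb, hrel⟩ := Fermat.Agent.Strict.exists_ordLine_of_lev hp.out hp2 hN
    (S := (H.np x).N0.primeFactors) hpS
    (fun q hq h => Nat.mem_primeFactors.2 ⟨hq, h, NeZero.ne _⟩) hpQ R'.ρ habs π' hfr hres hA
  have h2 := (hrel φ hφ).2
  have hdet : ∀ g, LinearMap.det (R'.ρ.ρ g) = algebraMap O R'.Q (D.chi g) :=
    fun g => R'.det_eq hpO hchi g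
  have h3 := sub_one_mul_zc hb hdet hφ.mem_decompositionSubgroup hσ₀
  have h4 : F α = zc b φ := by
    apply (hu.map (algebraMap O R'.Q)).mul_left_cancel
    rw [h3, ← hFt, ← hFt, ← F.commutes, ← F.commutes, ← map_mul, ← map_mul, ← map_sub, hα]
  have h5 : R'.e (π' (CuspForm.heckeAlgebra.T hp.out hN hpS)) = (H.np x).τ z := by
    rw [hπ']
    exact congrArg _ (Subtype.ext ((H23.coe_eigenChar_T _ _ _ _).trans hz.symm))
  have h6 := congrArg R'.e h2
  rw [map_add, map_sub, map_mul, map_pow, map_zero, map_natCast, h5, ← h4, hpt] at h6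
  exact h6

end Pts

section ring

variable {O k : Type} [CommRing O] [Field k] {D : RD O k} {A : ValuationSubring Qb}
  {psi : GQ → ℤ}

/-- `(chi σ₀ - 1)` times the unit root, in a trace ring -/
noncomputable def zB {B : Type} [CommRing B] [Algebra O B] (C : Comp D B) (φ σ₀ : GQ) : B :=
  algebraMap O B (D.chi σ₀) * C.t φ - C.t (σ₀ * φ)

theorem resB_zB {B : Type} [CommRing B] [Algebra O B] (C : Comp D B) (ho : OrdD D A psi)
    (hne : ∃ σ ∈ A.inertiaSubgroupIn ℚ, D.res (D.chi σ) ≠ 1) {φ σ₀ : GQ}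
    (hφ : φ ∈ A.decompositionSubgroup ℚ) (hσ₀ : σ₀ ∈ A.inertiaSubgroupIn ℚ) :
    C.resB (zB C φ σ₀) = D.res (D.chi σ₀ - 1) * (psi φ : k) := by
  have hσD := inertia_le_decomposition A hσ₀
  rw [zB, map_sub, map_mul, C.res_comp, C.res_t, C.res_t, ho.tbar_eq hne hφ,
    ho.tbar_eq hne (mul_mem hσD hφ), res_chi_mul, ho.uq.mul _ hσD _ hφ, ho.uq.ine _ hσ₀,
    one_mul, map_sub, map_one]
  ring

/-- **the operator `T_p` in a trace ring.** `α` = unit root, `t = α + p / α`. -/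
theorem exists_tp {B : Type} [CommRing B] [Algebra O B] (C : Comp D B) (p : ℕ)
    (ho : OrdD D A psi) (hne : ∃ σ ∈ A.inertiaSubgroupIn ℚ, D.res (D.chi σ) ≠ 1) {φ σ₀ : GQ}
    (hφ : φ ∈ A.decompositionSubgroup ℚ) (hσ₀ : σ₀ ∈ A.inertiaSubgroupIn ℚ) {c : O}
    (hc : c * (D.chi σ₀ - 1) = 1) :
    ∃ t e : B, IsUnit (algebraMap O B c * zB C φ σ₀) ∧
      C.resB (algebraMap O B c * zB C φ σ₀) = (psi φ : k) ∧
      C.resB (algebraMap O B c * zB C φ σ₀ - algebraMap O B (psi φ : O)) = 0 ∧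
      (algebraMap O B c * zB C φ σ₀) * t = (algebraMap O B c * zB C φ σ₀) ^ 2 + (p : B) ∧
      ((p : B) + 1) ^ 2 - t ^ 2 =
        (algebraMap O B c * zB C φ σ₀ - algebraMap O B (psi φ : O)) * e := by
  have h1 : C.resB (algebraMap O B c * zB C φ σ₀) = (psi φ : k) := by
    rw [map_mul, C.res_comp, resB_zB C ho hne hφ hσ₀, ← mul_assoc, ← map_mul, hc, map_one,
      one_mul]
  have hsq := ho.uq.sq' hφ (R := k)
  have hu : IsUnit (algebraMap O B c * zB C φ σ₀) := by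
    apply C.loc
    rw [h1]
    intro h0
    rw [h0, mul_zero] at hsq
    exact zero_ne_one hsq
  obtain ⟨v, hv⟩ := hu.exists_right_inv
  set α := algebraMap O B c * zB C φ σ₀ with hα
  have hl : algebraMap O B (psi φ : O) * algebraMap O B (psi φ : O) = 1 := by
    rw [map_intCast]
    exact ho.uq.sq' hφ
  refine ⟨α + p * v, -((α + algebraMap O B (psi φ : O)) * (1 - (p * v) ^ 2)), hu, h1, ?_, ?_, ?_⟩
  · rw [map_sub, h1, C.res_comp, map_intCast, sub_self]
  · linear_combination (p : B) * hv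
  · generalize algebraMap O B (psi φ : O) = l at hl
    linear_combination (-(1 - (p : B) ^ 2 * v ^ 2)) * hl - 2 * (p : B) * hv -
      (p : B) ^ 2 * (α * v + 1) * hv

end ring

section final

variable {O k : Type} [CommRing O] [IsDomain O] [IsDiscreteValuationRing O]
  [IsAdicComplete (maximalIdeal O) O] [Finite (ResidueField O)] [CharZero O] [Field k]
  {D : RD O k}
  {K : Type} [Field K] [IsAlgClosed K] [Algebra O K] [FaithfulSMul O K]
  {p : ℕ} [hp : Fact p.Prime] (hpO : (p : O) ∈ maximalIdeal O) (G : Geo p)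
  (hchi : IsCyc p D.chi) (hc : D.chi D.c = -1)
  {S : Finset Nat.Primes} {bad : Finset ℕ} (H : HIn D K p S bad) (hbar : HBar D S)
  {A : ValuationSubring Qb} {psi : GQ → ℤ}

/-- **(TP) at the points, final form**: `t = α + p / α` has the value `a_p` at every point. -/
theorem pt_tp (hp2 : p ≠ 2) (x : H.X) (hN : ¬ p ∣ (H.np x).N0)
    (hA : A.LiesOverPrime p) (ho : OrdD D A psi)
    (hne : ∃ σ ∈ A.inertiaSubgroupIn ℚ, D.res (D.chi σ) ≠ 1) {φ σ₀ : GQ}
    (hφ : A.IsFrobeniusAt φ p) (hσ₀ : σ₀ ∈ A.inertiaSubgroupIn ℚ) {c : O}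
    (hcu : c * (D.chi σ₀ - 1) = 1) {t : (H.cd hpO G hchi hc).B}
    (ht : (algebraMap O (H.cd hpO G hchi hc).B c * zB ((H.cd hpO G hchi hc).C hbar) φ σ₀) * t =
      (algebraMap O (H.cd hpO G hchi hc).B c * zB ((H.cd hpO G hchi hc).C hbar) φ σ₀) ^ 2 +
        (p : (H.cd hpO G hchi hc).B))
    {z : integralClosure ℤ ℂ} (hz : (z : ℂ) = qCoeff (H.np x).g p) :
    H.pt x t = (H.np x).τ z := by
  obtain ⟨-, -, hu, -⟩ := exists_tp ((H.cd hpO G hchi hc).C hbar) p ho hne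
    hφ.mem_decompositionSubgroup hσ₀ hcu
  have hα : algebraMap O (H.cd hpO G hchi hc).B (D.chi σ₀ - 1) *
      (algebraMap O (H.cd hpO G hchi hc).B c * zB ((H.cd hpO G hchi hc).C hbar) φ σ₀) =
      algebraMap O (H.cd hpO G hchi hc).B (D.chi σ₀) * ((H.cd hpO G hchi hc).C hbar).t φ -
        ((H.cd hpO G hchi hc).C hbar).t (σ₀ * φ) := by
    rw [← mul_assoc, ← map_mul, mul_comm (D.chi σ₀ - 1), hcu, map_one, one_mul]
    rfl
  have h1 := relation_pt hpO G hchi hc H hbar hp2 x hN hA ho hne hφ hσ₀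
    (IsUnit.of_mul_eq_one c (by rw [mul_comm]; exact hcu)) hα hz
  obtain ⟨P, hP⟩ : ∃ P : (H.cd hpO G hchi hc).B →ₐ[O] K, ∀ b, H.pt x b = P b :=
    ⟨H.pt x, fun _ => rfl⟩
  rw [hP] at h1 ⊢
  have h2 := congrArg P ht
  have hu' := hu.map P
  generalize algebraMap O (H.cd hpO G hchi hc).B c *
    zB ((H.cd hpO G hchi hc).C hbar) φ σ₀ = α at h1 h2 hu'
  rw [map_mul, map_add, map_pow, map_natCast] at h2
  have h4 : P α * (P t - (H.np x).τ z) = 0 := by linear_combination h2 + h1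
  exact sub_eq_zero.1 ((hu'.mul_right_eq_zero).1 h4)

end final

section fam

variable {O k : Type} [CommRing O] [IsLocalRing O] [IsNoetherianRing O]
    [IsAdicComplete (maximalIdeal O) O] [Field k] {D : RD O k}
    {S : Finset Nat.Primes} {bad : Finset ℕ} {κ : Type} [Finite κ] [Nonempty κ]
    (H : κ → CData D S bad) (hbar : HBar D S)

theorem pr_zB (i : κ) (φ σ₀ : GQ) :
    pr H hbar i (zB (CA H hbar) φ σ₀) = zB ((H i).C hbar) φ σ₀ := by
  rw [zB, zB, map_sub, map_mul, AlgHom.commutes, pr_t, pr_t]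

end fam

end Fermat.Agent.H25.NO
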