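import Mathlib

set_option autoImplicit false

namespace Fermat.Agent.H25

/-! Formal trace identities for `F g = r g + κ g * r g⁻¹`. -/

section

variable {A G : Type*} [Ring A] [Group G] (r κ : G →* A)

/-- The formal trace. -/
def ftr (g : G) : A := r g + κ g * r g⁻¹

theorem ftr_one : ftr r κ 1 = 2 := by
  rw [ftr, inv_one, map_one, map_one, one_mul, one_add_one_eq_two]

variable (hκ : ∀ g a, κ g * a = a * κ g) (hF : ∀ g h, ftr r κ g * r h = r h * ftr r κ g)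

include hκ in
theorem kappa_comm (g h : G) : κ (g * h) = κ (h * g) := by
  rw [map_mul, hκ, ← map_mul]

include hκ hF in
theorem ftr_comm (g h : G) : ftr r κ (g * h) = ftr r κ (h * g) := by
  have h1 : r g⁻¹ * (ftr r κ (g * h) * r g) = ftr r κ (h * g) := by
    rw [ftr, ftr, ← kappa_comm κ hκ g h]
    have e1 : r g⁻¹ * (r (g * h) * r g) = r (h * g) := by
      rw [← map_mul, ← map_mul]; congr 1; group
    have e2 : r g⁻¹ * (r (g * h)⁻¹ * r g) = r (h * g)⁻¹ := by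
      rw [← map_mul, ← map_mul]; congr 1; group
    rw [add_mul, mul_add, e1, mul_assoc, ← mul_assoc, ← hκ, mul_assoc, e2]
  rw [← h1, hF, ← mul_assoc, ← map_mul, inv_mul_cancel, map_one, one_mul]

include hκ hF in
theorem ftr_mul (g h : G) :
    ftr r κ g * ftr r κ h = ftr r κ (g * h) + κ h * ftr r κ (g * h⁻¹) := by
  have e1 : ftr r κ g * ftr r κ h = r g * ftr r κ h + κ g * (ftr r κ h * r g⁻¹) := by
    rw [hF h g⁻¹]
    conv_lhs => rw [ftr]
    rw [add_mul, mul_assoc]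
  have e2 : κ h * κ (g * h⁻¹) = κ g := by
    rw [← map_mul, kappa_comm κ hκ, inv_mul_cancel_right]
  rw [e1]
  simp only [ftr, mul_add, add_mul]
  have e3 : r g * (κ h * r h⁻¹) = κ h * r (g * h⁻¹) := by
    rw [← mul_assoc, ← hκ, mul_assoc, ← map_mul]
  have e4 : κ g * (r h * r g⁻¹) = κ h * (κ (g * h⁻¹) * r (g * h⁻¹)⁻¹) := by
    rw [← mul_assoc (κ h), e2, ← map_mul, mul_inv_rev, inv_inv]
  have e5 : κ g * (κ h * r h⁻¹ * r g⁻¹) = κ (g * h) * r (g * h)⁻¹ := by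
    rw [mul_assoc (κ h), ← mul_assoc, ← map_mul, ← map_mul, mul_inv_rev]
  rw [e3, e4, e5, ← map_mul]
  abel

include hκ hF in
theorem ftr_commute (g h : G) : ftr r κ g * ftr r κ h = ftr r κ h * ftr r κ g := by
  conv_lhs => rw [ftr.eq_def r κ h]
  rw [mul_add, hF, ← mul_assoc, ← hκ, mul_assoc, hF, ← mul_assoc, ← add_mul]
  rfl

include hκ hF in
theorem ftr_tri (g h k : G) :
    ftr r κ g * ftr r κ h * ftr r κ k - ftr r κ g * ftr r κ (h * k)
      - ftr r κ h * ftr r κ (g * k) - ftr r κ k * ftr r κ (g * h) + ftr r κ (g * h * k)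
      + ftr r κ (g * k * h) = 0 := by
  have hm := ftr_mul r κ hκ hF
  have hc := ftr_comm r κ hκ hF
  have hcc := ftr_commute r κ hκ hF
  have e1 : ftr r κ g * ftr r κ h * ftr r κ k = ftr r κ (g * h) * ftr r κ k +
      κ h * (ftr r κ (g * k * h⁻¹) + κ k * ftr r κ (g * k⁻¹ * h⁻¹)) := by
    rw [hm g h, add_mul, mul_assoc (κ h), hc g h⁻¹, hm (h⁻¹ * g) k, mul_assoc h⁻¹ g k,
      mul_assoc h⁻¹ g k⁻¹, hc h⁻¹, hc h⁻¹]
  have e2 : ftr r κ g * ftr r κ (h * k) = ftr r κ (g * h * k) +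
      κ h * (κ k * ftr r κ (g * k⁻¹ * h⁻¹)) := by
    rw [hm g (h * k), mul_inv_rev, ← mul_assoc, ← mul_assoc, map_mul, mul_assoc (κ h)]
  have e3 : ftr r κ h * ftr r κ (g * k) = ftr r κ (g * k * h) + κ h * ftr r κ (g * k * h⁻¹) := by
    rw [hcc h (g * k), hm (g * k) h]
  have e4 : ftr r κ k * ftr r κ (g * h) = ftr r κ (g * h) * ftr r κ k := hcc _ _
  rw [e1, e2, e3, e4, mul_add]
  abel

end

end Fermat.Agent.H25
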