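import Mathlib
import Fermat.Agent.H25.FTrace
import Fermat.Agent.H25.LatticeRep
import Fermat.Agent.H25.Density
import Fermat.Agent.H05_Unram
import Fermat.Prelude.Def_GaloisRep_ComplexConjugation

set_option autoImplicit false

namespace Fermat.Agent.H25

open Module Polynomial IsLocalRing

/-- The absolute Galois group of `ℚ`. -/
local notation "Γℚ" => AlgebraicClosure ℚ ≃ₐ[ℚ] AlgebraicClosure ℚ

/-- A Galois module of `p`-power torsion with an action of a commutative ring `T` (think of the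
`p ^ m` torsion of a modular Jacobian and the Hecke algebra), faithful modulo `p ^ n`. -/
structure HeckeLevel (p : ℕ) (T : Type) [CommRing T] (S : Finset ℕ) (a : ℕ → T) (U : Set ℕ)
    (n : ℕ) : Type 1 where
  W : Type
  [inst : AddCommGroup W]
  act : T →+* Module.End ℤ W
  r : Γℚ →* Module.End ℤ W
  m : ℕ
  tors : ∀ w : W, (p ^ m) • w = 0
  level : GaloisFactorsThroughFiniteLevel r
  faithful : ∀ t : T, act t = 0 → ∃ s, t = (p ^ n) • s
  commutes : ∀ (t : T) (g : Γℚ), act t * r g = r g * act t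
  unram : ∀ q ∈ U, q.Prime → q ≠ p → ∀ A : ValuationSubring (AlgebraicClosure ℚ),
    A.LiesOverPrime q → ∀ τ ∈ A.inertiaSubgroupIn ℚ, r τ = 1
  eichlerShimura : ∀ ℓ : ℕ, ℓ.Prime → ℓ ∉ S → ∀ A : ValuationSubring (AlgebraicClosure ℚ),
    A.LiesOverPrime ℓ → ∀ φ : Γℚ, A.IsFrobeniusAt φ ℓ → ∀ w : W,
      r φ (r φ w) - act (a ℓ) (r φ w) + ℓ • w = 0

attribute [instance] HeckeLevel.inst

/-- The abstract geometric input. -/
def HeckeInput (p : ℕ) (T : Type) [CommRing T] (S : Finset ℕ) (a : ℕ → T) (U : Set ℕ) : Prop :=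
  ∀ n, Nonempty (HeckeLevel p T S a U n)

namespace HeckeLevel

variable {p : ℕ} {T : Type} [CommRing T] {S : Finset ℕ} {a : ℕ → T} {U : Set ℕ} {n : ℕ}
  (L : HeckeLevel p T S a U n)

theorem cast_pow_eq_zero : ((p ^ L.m : ℕ) : Module.End ℤ L.W) = 0 := by
  ext w
  rw [Module.End.natCast_apply]
  exact L.tors w

variable [hp : Fact p.Prime]

theorem exists_zeta : ∃ ζ : AlgebraicClosure ℚ, IsPrimitiveRoot ζ (p ^ L.m) := by
  have : NeZero ((p ^ L.m : ℕ) : AlgebraicClosure ℚ) :=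
    ⟨by exact_mod_cast (pow_pos hp.out.pos L.m).ne'⟩
  exact HasEnoughRootsOfUnity.exists_primitiveRoot (AlgebraicClosure ℚ) (p ^ L.m)

/-- A primitive root of unity of order `p ^ m`. -/
noncomputable def zeta : AlgebraicClosure ℚ := L.exists_zeta.choose

theorem zeta_spec : IsPrimitiveRoot L.zeta (p ^ L.m) := L.exists_zeta.choose_spec

theorem cast_eq {x y : ℕ} (h : L.zeta ^ x = L.zeta ^ y) :
    (x : Module.End ℤ L.W) = (y : Module.End ℤ L.W) := by
  have hζ0 : L.zeta ≠ 0 := L.zeta_spec.ne_zero (pow_pos hp.out.pos L.m).ne'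
  have h2 : ((p ^ L.m : ℕ) : ℤ) ∣ (y : ℤ) - x := by
    rw [← L.zeta_spec.zpow_eq_one_iff_dvd, zpow_sub₀ hζ0, zpow_natCast, zpow_natCast, h,
      div_self (pow_ne_zero _ hζ0)]
  obtain ⟨d, hd⟩ := h2
  have h3 : ((y : ℤ) : Module.End ℤ L.W) - ((x : ℤ) : Module.End ℤ L.W) = 0 := by
    rw [← Int.cast_sub, hd, Int.cast_mul, Int.cast_natCast, L.cast_pow_eq_zero, zero_mul]
  have h4 := sub_eq_zero.mp h3
  rw [Int.cast_natCast, Int.cast_natCast] at h4
  exact h4.symm

theorem exists_exponent (g : Γℚ) : ∃ c : ℕ, g L.zeta = L.zeta ^ c := by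
  have h1 : (g L.zeta) ^ (p ^ L.m) = 1 := by
    rw [← map_pow, L.zeta_spec.pow_eq_one, map_one]
  have : NeZero (p ^ L.m) := ⟨(pow_pos hp.out.pos L.m).ne'⟩
  obtain ⟨c, -, hc⟩ := L.zeta_spec.eq_pow_of_pow_eq_one h1
  exact ⟨c, hc.symm⟩

/-- The exponent of the cyclotomic character. -/
noncomputable def cexp (g : Γℚ) : ℕ := (L.exists_exponent g).choose

theorem cexp_spec (g : Γℚ) : g L.zeta = L.zeta ^ L.cexp g := (L.exists_exponent g).choose_spec

/-- The cyclotomic character with values in the endomorphisms. -/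
noncomputable def kap : Γℚ →* Module.End ℤ L.W where
  toFun g := (L.cexp g : Module.End ℤ L.W)
  map_one' := by
    rw [← Nat.cast_one]
    apply L.cast_eq
    rw [← L.cexp_spec, pow_one]
    rfl
  map_mul' g h := by
    rw [← Nat.cast_mul]
    apply L.cast_eq
    rw [← L.cexp_spec, pow_mul, ← L.cexp_spec]
    change g (h L.zeta) = _
    rw [L.cexp_spec h, map_pow]

theorem kap_eq {g : Γℚ} {c : ℕ} (h : g L.zeta = L.zeta ^ c) :
    L.kap g = (c : Module.End ℤ L.W) := by
  apply L.cast_eq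
  rw [← L.cexp_spec, h]

theorem kap_comm (g : Γℚ) (x : Module.End ℤ L.W) : L.kap g * x = x * L.kap g :=
  Nat.cast_commute (L.cexp g) x

/-- `s` represents the trace of `g` modulo `p ^ n`. -/
def App (g : Γℚ) (s : T) : Prop := L.act s = ftr L.r L.kap g

theorem exists_field : ∃ F : IntermediateField ℚ (AlgebraicClosure ℚ), FiniteDimensional ℚ F ∧
    ∀ u : Γℚ, (∀ x ∈ F, u x = x) → L.r u = 1 ∧ L.kap u = 1 := by
  obtain ⟨L₁, hL₁, h1⟩ := L.level
  let L₂ : IntermediateField ℚ (AlgebraicClosure ℚ) := IntermediateField.adjoin ℚ {L.zeta}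
  have hL₂ : FiniteDimensional ℚ L₂ := by
    apply IntermediateField.adjoin.finiteDimensional
    apply IsIntegral.of_pow (pow_pos hp.out.pos L.m)
    rw [L.zeta_spec.pow_eq_one]
    exact isIntegral_one
  refine ⟨L₁ ⊔ L₂, IntermediateField.finiteDimensional_sup L₁ L₂, fun u hu => ⟨?_, ?_⟩⟩
  · exact h1 u fun x hx => hu x (le_sup_left (a := L₁) hx)
  · have h2 : u L.zeta = L.zeta ^ 1 := by
      rw [pow_one]
      exact hu _ (le_sup_right (a := L₁) (IntermediateField.mem_adjoin_simple_self ℚ L.zeta))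
    rw [L.kap_eq h2, Nat.cast_one]

theorem ftr_mul_of_trivial {u : Γℚ} (h1 : L.r u = 1) (h2 : L.kap u = 1) (g : Γℚ) :
    ftr L.r L.kap (g * u) = ftr L.r L.kap g := by
  have h3 : L.r u⁻¹ = 1 := by
    have : L.r u * L.r u⁻¹ = 1 := by rw [← map_mul, mul_inv_cancel, map_one]
    rwa [h1, one_mul] at this
  rw [ftr, ftr, map_mul, map_mul, h1, h2, mul_inv_rev, map_mul, h3, mul_one, mul_one, one_mul]

theorem ftr_mul_of_trivial' {u : Γℚ} (h1 : L.r u = 1) (h2 : L.kap u = 1) (g : Γℚ) :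
    ftr L.r L.kap (u * g) = ftr L.r L.kap g := by
  have h3 : L.r u⁻¹ = 1 := by
    have : L.r u * L.r u⁻¹ = 1 := by rw [← map_mul, mul_inv_cancel, map_one]
    rwa [h1, one_mul] at this
  rw [ftr, ftr, map_mul, map_mul, h1, h2, mul_inv_rev, map_mul, h3, mul_one, one_mul, one_mul]

theorem app_frob_pow (hpS : p ∈ S) {ℓ : ℕ} (hℓ : ℓ.Prime) (hℓS : ℓ ∉ S)
    {A : ValuationSubring (AlgebraicClosure ℚ)} (hA : A.LiesOverPrime ℓ) {φ : Γℚ}
    (hφ : A.IsFrobeniusAt φ ℓ) (j : ℕ) :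
    L.App (φ ^ j) (H05.lucas (a ℓ) (ℓ : T) j) := by
  have hℓp : ℓ ≠ p := fun h => hℓS (h ▸ hpS)
  have hℓm : ¬ ℓ ∣ p ^ L.m := fun h =>
    hℓp ((Nat.prime_dvd_prime_iff_eq hℓ hp.out).mp (hℓ.dvd_of_dvd_pow h))
  have hk1 : L.kap φ = (ℓ : Module.End ℤ L.W) := by
    apply L.kap_eq
    exact H05.IsFrobeniusAt.apply_rootOfUnity hℓ hA hℓm hφ L.zeta_spec.pow_eq_one
  have hk : L.kap (φ ^ j) = ((ℓ ^ j : ℕ) : Module.End ℤ L.W) := by
    rw [map_pow, hk1, Nat.cast_pow]
  rw [App, ftr, hk]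
  ext w
  rw [H05.act_lucas L.act L.r φ (a ℓ) ℓ (L.eichlerShimura ℓ hℓ hℓS A hA φ hφ) j w,
    LinearMap.add_apply, Module.End.mul_apply, Module.End.natCast_apply]

theorem app_unique {g : Γℚ} {s s' : T} (h : L.App g s) (h' : L.App g s') :
    ∃ y, s - s' = (p ^ n) • y := by
  apply L.faithful
  rw [map_sub, h, h', sub_self]

end HeckeLevel

section Limit

variable {p : ℕ} [hp : Fact p.Prime] {T : Type} [CommRing T] {S : Finset ℕ} {a : ℕ → T}
  {U : Set ℕ}

/-- Simultaneous approximation at two levels. -/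
theorem exists_joint_app (hpS : p ∈ S) {n n' : ℕ} (L : HeckeLevel p T S a U n)
    (L' : HeckeLevel p T S a U n') (g : Γℚ) : ∃ s : T, L.App g s ∧ L'.App g s := by
  obtain ⟨F, hF, h1⟩ := L.exists_field
  obtain ⟨F', hF', h1'⟩ := L'.exists_field
  have : FiniteDimensional ℚ (F ⊔ F' : IntermediateField ℚ (AlgebraicClosure ℚ)) :=
    IntermediateField.finiteDimensional_sup F F'
  obtain ⟨ℓ, hℓ, hℓS, A, hA, φ, hφ, -, j, -, hj⟩ := exists_frobenius (F ⊔ F') S g
  let u : Γℚ := (φ ^ j)⁻¹ * g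
  have hu : ∀ x ∈ (F ⊔ F' : IntermediateField ℚ (AlgebraicClosure ℚ)), u x = x := by
    intro x hx
    change (φ ^ j)⁻¹ (g x) = x
    rw [hj x hx]
    change ((φ ^ j)⁻¹ * (φ ^ j)) x = x
    rw [inv_mul_cancel]
    rfl
  have hg : g = φ ^ j * u := by
    change g = φ ^ j * ((φ ^ j)⁻¹ * g)
    rw [mul_inv_cancel_left]
  refine ⟨H05.lucas (a ℓ) (ℓ : T) j, ?_, ?_⟩
  · obtain ⟨h2, h3⟩ := h1 u fun x hx => hu x (le_sup_left (a := F) hx)
    rw [HeckeLevel.App, hg, L.ftr_mul_of_trivial h2 h3]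
    exact L.app_frob_pow hpS hℓ hℓS hA hφ j
  · obtain ⟨h2, h3⟩ := h1' u fun x hx => hu x (le_sup_right (a := F) hx)
    rw [HeckeLevel.App, hg, L'.ftr_mul_of_trivial h2 h3]
    exact L'.app_frob_pow hpS hℓ hℓS hA hφ j

variable {R : Type} [CommRing R] [IsLocalRing R] [IsAdicComplete (maximalIdeal R) R]

omit hp [IsAdicComplete (maximalIdeal R) R] in
theorem nsmul_mem_pow {χ : T →+* R} (hpR : (p : R) ∈ maximalIdeal R) (n : ℕ) (y : T) :
    χ ((p ^ n) • y) ∈ maximalIdeal R ^ n := by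
  rw [nsmul_eq_mul, map_mul, Nat.cast_pow, map_pow, map_natCast]
  exact Ideal.mul_mem_right _ _ (Ideal.pow_mem_pow hpR n)

/-- The pseudocharacter attached to a character of the Hecke algebra. -/
theorem exists_limit_trace (hpS : p ∈ S) (hpR : (p : R) ∈ maximalIdeal R)
    (L : ∀ n, HeckeLevel p T S a U n) (χ : T →+* R) :
    ∃ t : Γℚ → R, ∀ n g s, (L n).App g s → t g - χ s ∈ maximalIdeal R ^ n := by
  have happ : ∀ n g, ∃ s, (L n).App g s := fun n g => by
    obtain ⟨s, hs, -⟩ := exists_joint_app hpS (L n) (L n) g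
    exact ⟨s, hs⟩
  choose s hs using happ
  have key : ∀ g, ∃ x : R, ∀ n, x - χ (s n g) ∈ maximalIdeal R ^ n := by
    intro g
    obtain ⟨x, hx⟩ := IsPrecomplete.prec
      (inferInstance : IsPrecomplete (maximalIdeal R) R) (f := fun n => χ (s n g)) (by
        intro n n' hn
        obtain ⟨s', h1, h2⟩ := exists_joint_app hpS (L n) (L n') g
        obtain ⟨y, hy⟩ := (L n).app_unique (hs n g) h1
        obtain ⟨y', hy'⟩ := (L n').app_unique h2 (hs n' g)
        rw [SModEq.sub_mem, smul_eq_mul, Ideal.mul_top, ← map_sub]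
        have : s n g - s n' g = (s n g - s') + (s' - s n' g) := by ring
        rw [this, map_add, hy, hy']
        exact add_mem (nsmul_mem_pow hpR n y)
          (Ideal.pow_le_pow_right hn (nsmul_mem_pow hpR n' y')))
    refine ⟨x, fun n => ?_⟩
    have := (hx n).symm
    rw [SModEq.sub_mem, smul_eq_mul, Ideal.mul_top] at this
    exact this
  choose t ht using key
  refine ⟨t, fun n g s' hs' => ?_⟩
  obtain ⟨y, hy⟩ := (L n).app_unique (hs n g) hs'
  have : t g - χ s' = (t g - χ (s n g)) + χ (s n g - s') := by rw [map_sub]; ring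
  rw [this, hy]
  exact add_mem (ht g n) (nsmul_mem_pow hpR n y)

variable {L : ∀ n, HeckeLevel p T S a U n} {χ : T →+* R} {t : Γℚ → R}
  (ht : ∀ n g s, (L n).App g s → t g - χ s ∈ maximalIdeal R ^ n)

omit hp [IsAdicComplete (maximalIdeal R) R] in
theorem mk_eq_of_act_eq (hpR : (p : R) ∈ maximalIdeal R) (n : ℕ) {x y : T}
    (h : (L n).act x = (L n).act y) :
    Ideal.Quotient.mk (maximalIdeal R ^ n) (χ x) = Ideal.Quotient.mk (maximalIdeal R ^ n) (χ y) := by
  rw [Ideal.Quotient.eq, ← map_sub]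
  obtain ⟨z, hz⟩ := (L n).faithful (x - y) (by rw [map_sub, h, sub_self])
  rw [hz]
  exact nsmul_mem_pow hpR n z

theorem eq_of_forall_mk_eq {x y : R}
    (h : ∀ n, Ideal.Quotient.mk (maximalIdeal R ^ n) x = Ideal.Quotient.mk (maximalIdeal R ^ n) y) :
    x = y := by
  rw [← sub_eq_zero]
  apply IsHausdorff.haus (inferInstance : IsHausdorff (maximalIdeal R) R)
  intro n
  rw [SModEq.zero, smul_eq_mul, Ideal.mul_top]
  exact Ideal.Quotient.eq.mp (h n)

include ht in
omit [IsAdicComplete (maximalIdeal R) R] in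
theorem mk_t (n : ℕ) {g : Γℚ} {s : T} (h : (L n).App g s) :
    Ideal.Quotient.mk (maximalIdeal R ^ n) (t g) = Ideal.Quotient.mk (maximalIdeal R ^ n) (χ s) :=
  Ideal.Quotient.eq.mpr (ht n g s h)

theorem exists_app (hpS : p ∈ S) {n : ℕ} (L : HeckeLevel p T S a U n) (g : Γℚ) :
    ∃ s, L.App g s := by
  obtain ⟨s, hs, -⟩ := exists_joint_app hpS L L g
  exact ⟨s, hs⟩

/-- The formal traces commute with the Galois action. -/
theorem ftr_commutes (hpS : p ∈ S) {n : ℕ} (L : HeckeLevel p T S a U n) (g h : Γℚ) :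
    ftr L.r L.kap g * L.r h = L.r h * ftr L.r L.kap g := by
  obtain ⟨s, hs⟩ := exists_app hpS L g
  have hs' : L.act s = ftr L.r L.kap g := hs
  rw [← hs', L.commutes]

include ht in
theorem limit_isPseudo2 (hpS : p ∈ S) (hpR : (p : R) ∈ maximalIdeal R) : IsPseudo2 t where
  one := by
    apply eq_of_forall_mk_eq
    intro n
    have : (L n).App 1 2 := by rw [HeckeLevel.App, ftr_one, map_ofNat]
    rw [mk_t ht n this, map_ofNat]
  comm g h := by
    apply eq_of_forall_mk_eq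
    intro n
    obtain ⟨s, hs⟩ := exists_app hpS (L n) (g * h)
    have hs' : (L n).App (h * g) s := by
      rw [HeckeLevel.App, ← ftr_comm (L n).r (L n).kap (L n).kap_comm (ftr_commutes hpS (L n))]
      exact hs
    rw [mk_t ht n hs, mk_t ht n hs']
  tri g h k := by
    apply eq_of_forall_mk_eq
    intro n
    obtain ⟨s1, h1⟩ := exists_app hpS (L n) g
    obtain ⟨s2, h2⟩ := exists_app hpS (L n) h
    obtain ⟨s3, h3⟩ := exists_app hpS (L n) k
    obtain ⟨s4, h4⟩ := exists_app hpS (L n) (h * k)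
    obtain ⟨s5, h5⟩ := exists_app hpS (L n) (g * k)
    obtain ⟨s6, h6⟩ := exists_app hpS (L n) (g * h)
    obtain ⟨s7, h7⟩ := exists_app hpS (L n) (g * h * k)
    obtain ⟨s8, h8⟩ := exists_app hpS (L n) (g * k * h)
    have key : (L n).act (s1 * s2 * s3 - s1 * s4 - s2 * s5 - s3 * s6 + s7 + s8) =
        (L n).act 0 := by
      have h1' : (L n).act s1 = _ := h1
      have h2' : (L n).act s2 = _ := h2
      have h3' : (L n).act s3 = _ := h3
      have h4' : (L n).act s4 = _ := h4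
      have h5' : (L n).act s5 = _ := h5
      have h6' : (L n).act s6 = _ := h6
      have h7' : (L n).act s7 = _ := h7
      have h8' : (L n).act s8 = _ := h8
      simp only [map_add, map_sub, map_mul, h1', h2', h3', h4', h5', h6', h7', h8', map_zero]
      exact ftr_tri (L n).r (L n).kap (L n).kap_comm (ftr_commutes hpS (L n)) g h k
    have h := mk_eq_of_act_eq (χ := χ) hpR n key
    simp only [map_add, map_sub, map_mul, map_zero] at h ⊢
    rw [mk_t ht n h1, mk_t ht n h2, mk_t ht n h3, mk_t ht n h4, mk_t ht n h5, mk_t ht n h6,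
      mk_t ht n h7, mk_t ht n h8]
    exact h

theorem complexConjugation_zeta {x : AlgebraicClosure ℚ} {m : ℕ} (hm : m ≠ 0) (hx : x ^ m = 1) :
    complexConjugation x = x⁻¹ := by
  have hinj : Function.Injective complexEmbedding := complexEmbedding.injective
  apply hinj
  rw [complexEmbedding_complexConjugation, map_inv₀]
  have h1 : (complexEmbedding x) ^ m = 1 := by rw [← map_pow, hx, map_one]
  have h2 : ‖complexEmbedding x‖ = 1 := Complex.norm_eq_one_of_pow_eq_one h1 hm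
  rw [Complex.inv_def, Complex.normSq_eq_norm_sq, h2]
  simp

include ht in
theorem limit_complexConjugation : t complexConjugation = 0 := by
  apply eq_of_forall_mk_eq
  intro n
  have : (L n).App complexConjugation 0 := by
    rw [HeckeLevel.App, map_zero, ftr]
    have h1 : complexConjugation (L n).zeta = (L n).zeta⁻¹ :=
      complexConjugation_zeta (pow_pos hp.out.pos (L n).m).ne' (L n).zeta_spec.pow_eq_one
    have h2 : complexConjugation (L n).zeta = (L n).zeta ^ (p ^ (L n).m - 1) := by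
      rw [h1]
      have hpos := pow_pos hp.out.pos (L n).m
      apply inv_eq_of_mul_eq_one_right
      rw [← pow_succ', Nat.sub_add_cancel hpos, (L n).zeta_spec.pow_eq_one]
    have h3 : (L n).kap complexConjugation = -1 := by
      rw [(L n).kap_eq h2, Nat.cast_sub (pow_pos hp.out.pos (L n).m), (L n).cast_pow_eq_zero]
      simp
    rw [h3, complexConjugation_inv]
    simp
  rw [mk_t ht n this, map_zero]

include ht in
theorem limit_frob (hpS : p ∈ S) {ℓ : ℕ} (hℓ : ℓ.Prime) (hℓS : ℓ ∉ S)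
    {A : ValuationSubring (AlgebraicClosure ℚ)} (hA : A.LiesOverPrime ℓ) {φ : Γℚ}
    (hφ : A.IsFrobeniusAt φ ℓ) (j : ℕ) :
    t (φ ^ j) = H05.lucas (χ (a ℓ)) (ℓ : R) j := by
  apply eq_of_forall_mk_eq
  intro n
  rw [mk_t ht n ((L n).app_frob_pow hpS hℓ hℓS hA hφ j), H05.map_lucas, map_natCast]

include ht in
theorem limit_unram (hpS : p ∈ S) {q : ℕ} (hq : q.Prime) (hqU : q ∈ U) (hqp : q ≠ p)
    {A : ValuationSubring (AlgebraicClosure ℚ)} (hA : A.LiesOverPrime q) {τ : Γℚ}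
    (hτ : τ ∈ A.inertiaSubgroupIn ℚ) (g : Γℚ) : t (τ * g) = t g := by
  apply eq_of_forall_mk_eq
  intro n
  obtain ⟨s, hs⟩ := exists_app hpS (L n) g
  have h1 : (L n).r τ = 1 := (L n).unram q hqU hq hqp A hA τ hτ
  have h2 : (L n).kap τ = 1 := by
    have h3 : τ (L n).zeta = (L n).zeta ^ 1 := by
      rw [pow_one]
      exact H05.inertia_apply_rootOfUnity hq hA
        (fun h => hqp ((Nat.prime_dvd_prime_iff_eq hq hp.out).mp (hq.dvd_of_dvd_pow h))) hτ
        (L n).zeta_spec.pow_eq_one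
    rw [(L n).kap_eq h3, Nat.cast_one]
  have hs' : (L n).App (τ * g) s := by
    rw [HeckeLevel.App, (L n).ftr_mul_of_trivial' h1 h2]
    exact hs
  rw [mk_t ht n hs, mk_t ht n hs']

include ht in
omit [IsAdicComplete (maximalIdeal R) R] in
theorem limit_continuous (hpS : p ∈ S) (n : ℕ) :
    ∃ F : IntermediateField ℚ (AlgebraicClosure ℚ), FiniteDimensional ℚ F ∧
      ∀ u : Γℚ, (∀ x ∈ F, u x = x) → ∀ g, t (u * g) - t g ∈ maximalIdeal R ^ n := by
  obtain ⟨F, hF, h1⟩ := (L n).exists_field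
  refine ⟨F, hF, fun u hu g => ?_⟩
  obtain ⟨h2, h3⟩ := h1 u hu
  obtain ⟨s, hs⟩ := exists_app hpS (L n) g
  have hs' : (L n).App (u * g) s := by
    rw [HeckeLevel.App, (L n).ftr_mul_of_trivial' h2 h3]
    exact hs
  rw [← Ideal.Quotient.eq, mk_t ht n hs, mk_t ht n hs']

end Limit

/-- **The Galois representation attached to a character of the Hecke algebra.** -/
theorem exists_galoisRepAdic {p : ℕ} [hp : Fact p.Prime] {T : Type} [CommRing T] {S : Finset ℕ}
    {a : ℕ → T} {U : Set ℕ} (hpS : p ∈ S) (hin : HeckeInput p T S a U)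
    {R : Type} [CommRing R] [IsDomain R] [IsDiscreteValuationRing R]
    [IsAdicComplete (maximalIdeal R) R] [CharZero R] (hpR : (p : R) ∈ maximalIdeal R)
    (χ : T →+* R) :
    ∃ ρ : GaloisRepAdic R,
      (∀ ℓ : ℕ, ℓ.Prime → ℓ ∉ S → ∀ A : ValuationSubring (AlgebraicClosure ℚ),
        A.LiesOverPrime ℓ → ∀ σ : Γℚ, A.IsFrobeniusAt σ ℓ →
          LinearMap.charpoly (ρ.ρ σ) = X ^ 2 - C (χ (a ℓ)) * X + C ((ℓ : R))) ∧
      (∀ q ∈ U, q.Prime → q ≠ p → ρ.IsUnramifiedAt q) ∧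
      LinearMap.trace R ρ.V (ρ.ρ complexConjugation) = 0 := by
  let L := fun n => (hin n).some
  obtain ⟨t, ht⟩ := exists_limit_trace hpS hpR L χ
  have hps := limit_isPseudo2 ht hpS hpR
  have h2 : (2 : R) ≠ 0 := two_ne_zero
  obtain ⟨V, i1, i2, i3, i4, ρ, hfr, htr, hun, hcont⟩ := exists_lattice_rep h2 hps
    complexConjugation_mul_self (limit_complexConjugation ht)
  refine ⟨{ V := V, finrank_eq := hfr, ρ := ρ, isAdicContinuous := ?_ }, ?_, ?_, ?_⟩
  · intro n
    obtain ⟨m, hm⟩ := hcont n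
    obtain ⟨F, hF, h1⟩ := limit_continuous ht hpS m
    exact ⟨F, hF, fun u hu => hm u (h1 u hu)⟩
  · intro ℓ hℓ hℓS A hA σ hσ
    have e1 : t σ = χ (a ℓ) := by
      have := limit_frob ht hpS hℓ hℓS hA hσ 1
      rw [pow_one] at this
      rw [this]
      rfl
    have e2 : t (σ * σ) = χ (a ℓ) * χ (a ℓ) - (ℓ : R) * 2 := by
      have := limit_frob ht hpS hℓ hℓS hA hσ 2
      rw [pow_two] at this
      rw [this]
      rfl
    have hdet : LinearMap.det (ρ σ) = (ℓ : R) := by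
      have h3 := two_mul_det_eq hfr (ρ σ)
      rw [← map_mul, htr, htr, e1, e2] at h3
      apply mul_left_cancel₀ h2
      rw [h3]
      ring
    change LinearMap.charpoly (ρ σ) = _
    rw [charpoly_eq_of_finrank_two hfr, htr, e1, hdet]
  · intro q hqU hq hqp A hA τ hτ
    exact hun τ (fun g => limit_unram ht hpS hq hqU hqp hA hτ g)
  · change LinearMap.trace R V (ρ complexConjugation) = 0
    rw [htr]
    exact limit_complexConjugation ht

end Fermat.Agent.H25
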