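import Mathlib
import Fermat.Agent.H25.HeckePseudo
import Fermat.Agent.H05_Unram

set_option autoImplicit false

namespace Fermat.Agent.H25

open Module Polynomial IsLocalRing
open scoped Pointwise

/-- The absolute Galois group of `ℚ`. -/
local notation "Γℚ" => AlgebraicClosure ℚ ≃ₐ[ℚ] AlgebraicClosure ℚ

open scoped Classical in
/-- The function `ℓ ↦ T_ℓ`. -/
noncomputable def heckeT (N : ℕ) [NeZero N] (S : Finset ℕ) (ℓ : ℕ) :
    CuspForm.heckeAlgebra N 2 (↑S : Set ℕ) :=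
  if h : ℓ.Prime ∧ ¬ ℓ ∣ N ∧ ℓ ∉ (↑S : Set ℕ) then
    CuspForm.heckeAlgebra.T h.1 h.2.1 h.2.2 else 0

theorem heckeT_eq {N : ℕ} [NeZero N] {S : Finset ℕ} {ℓ : ℕ} (hℓ : ℓ.Prime) (hℓN : ¬ ℓ ∣ N)
    (hℓS : ℓ ∉ (↑S : Set ℕ)) : heckeT N S ℓ = CuspForm.heckeAlgebra.T hℓ hℓN hℓS := by
  rw [heckeT, dif_pos ⟨hℓ, hℓN, hℓS⟩]

theorem galois_galΩ : IsGalois ℚ (AlgebraicClosure ℚ) := by
  have hnc : Normal ℚ (AlgebraicClosure ℚ) := IsAlgClosure.normal ℚ (AlgebraicClosure ℚ)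
  exact ⟨⟩

/-- Commutation of the Hecke and Galois actions follows from the Eichler–Shimura relation. -/
theorem commutes_of_eichlerShimura {p N : ℕ} [NeZero N] {S : Finset ℕ} (hpS : p ∈ S)
    (hNS : ∀ q : ℕ, q.Prime → q ∣ N → q ∈ S) {W : Type} [AddCommGroup W]
    (act : CuspForm.heckeAlgebra N 2 (↑S : Set ℕ) →+* Module.End ℤ W)
    (r : Γℚ →* Module.End ℤ W)
    (hES : ∀ (ℓ : ℕ) (hℓ : ℓ.Prime) (hℓN : ¬ ℓ ∣ N) (hℓS : ℓ ∉ (↑S : Set ℕ)), ℓ ≠ p →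
      ∀ A : ValuationSubring (AlgebraicClosure ℚ), A.LiesOverPrime ℓ →
      ∀ φ : Γℚ, A.IsFrobeniusAt φ ℓ → ∀ w : W,
        r φ (r φ w) - act (CuspForm.heckeAlgebra.T hℓ hℓN hℓS) (r φ w) + ℓ • w = 0)
    (t : CuspForm.heckeAlgebra N 2 (↑S : Set ℕ)) (g : Γℚ) : act t * r g = r g * act t := by
  have hcan : ∀ (g : Γℚ), r g * r g⁻¹ = 1 := fun g => by rw [← map_mul, mul_inv_cancel, map_one]
  have hform : ∀ (ℓ : ℕ) (hℓ : ℓ.Prime) (hℓN : ¬ ℓ ∣ N) (hℓS : ℓ ∉ (↑S : Set ℕ)), ℓ ≠ p →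
      ∀ A : ValuationSubring (AlgebraicClosure ℚ), A.LiesOverPrime ℓ →
      ∀ φ : Γℚ, A.IsFrobeniusAt φ ℓ →
        act (CuspForm.heckeAlgebra.T hℓ hℓN hℓS) = r φ + ℓ * r φ⁻¹ := by
    intro ℓ hℓ hℓN hℓS hℓp A hA φ hφ
    ext w
    have h := hES ℓ hℓ hℓN hℓS hℓp A hA φ hφ (r φ⁻¹ w)
    have h1 : r φ (r φ⁻¹ w) = w := LinearMap.congr_fun (hcan φ) w
    rw [h1] at h
    rw [LinearMap.add_apply, Module.End.mul_apply, Module.End.natCast_apply]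
    have h2 := sub_eq_zero.mp ((sub_add_eq_add_sub _ _ _).symm.trans h)
    exact h2.symm
  obtain ⟨t, ht⟩ := t
  induction ht using Algebra.adjoin_induction with
  | mem x hx =>
    rcases hx with ⟨ℓ, hℓ, hℓN, hℓS, rfl⟩ | ⟨q, hqN, hq, hqS, -⟩
    · have hℓp : ℓ ≠ p := fun h => hℓS (by rw [h]; exact_mod_cast hpS)
      obtain ⟨A, hA⟩ := H05.exists_liesOverPrime (AlgebraicClosure ℚ) hℓ
      have := galois_galΩ
      obtain ⟨φ, hφ⟩ := H05.exists_isFrobeniusAt hℓ hA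
      have h1 := hform ℓ hℓ hℓN hℓS hℓp A hA φ hφ
      have h2 := hform ℓ hℓ hℓN hℓS hℓp (g • A) ((H05.liesOverPrime_smul_iff g A ℓ).mpr hA)
        (g * φ * g⁻¹) (H05.IsFrobeniusAt.conj hℓ hA hφ g)
      change act (CuspForm.heckeAlgebra.T hℓ hℓN hℓS) * r g =
        r g * act (CuspForm.heckeAlgebra.T hℓ hℓN hℓS)
      conv_lhs => rw [h2]
      rw [h1]
      have e1 : r (g * φ * g⁻¹) * r g = r g * r φ := by
        rw [← map_mul, ← map_mul]; congr 1; group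
      have e2 : r (g * φ * g⁻¹)⁻¹ * r g = r g * r φ⁻¹ := by
        rw [← map_mul, ← map_mul]; congr 1; group
      rw [add_mul, mul_add, mul_assoc (ℓ : Module.End ℤ W), e1, e2,
        ← mul_assoc (r g) (ℓ : Module.End ℤ W), ← Nat.cast_comm ℓ (r g), mul_assoc]
    · exact absurd (hNS q hq hqN) (fun h => hqS (by exact_mod_cast h))
  | algebraMap k =>
    have : act ⟨algebraMap ℤ _ k, Subalgebra.algebraMap_mem _ k⟩ = (k : Module.End ℤ W) := by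
      have h1 : (⟨algebraMap ℤ _ k, Subalgebra.algebraMap_mem _ k⟩ :
          CuspForm.heckeAlgebra N 2 (↑S : Set ℕ)) = (k : CuspForm.heckeAlgebra N 2 (↑S : Set ℕ)) :=
        rfl
      rw [h1, map_intCast]
    rw [this]
    exact Int.cast_comm k (r g)
  | add x y hx hy h1 h2 =>
    have h3 : act ⟨x + y, add_mem hx hy⟩ = act ⟨x, hx⟩ + act ⟨y, hy⟩ := by
      rw [← map_add]; rfl
    rw [h3, add_mul, mul_add, h1, h2]
  | mul x y hx hy h1 h2 =>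
    have h3 : act ⟨x * y, mul_mem hx hy⟩ = act ⟨x, hx⟩ * act ⟨y, hy⟩ := by
      rw [← map_mul]; rfl
    rw [h3, mul_assoc, h2, ← mul_assoc, h1, mul_assoc]

theorem heckeInput_of_heckeGaloisInput {p N : ℕ} [NeZero N] {S : Finset ℕ} (hpS : p ∈ S)
    (hNS : ∀ q : ℕ, q.Prime → q ∣ N → q ∈ S)
    (h : H05.HeckeGaloisInput p N (↑S : Set ℕ)) :
    HeckeInput p (CuspForm.heckeAlgebra N 2 (↑S : Set ℕ)) S (heckeT N S) {q | ¬ q ∣ N} := by
  intro n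
  obtain ⟨W, i1, act, r, m, h1, h2, h3, h4, h5⟩ := h n
  exact ⟨{
    W := W
    act := act
    r := r
    m := m
    tors := h1
    level := h2
    faithful := h3
    commutes := commutes_of_eichlerShimura hpS hNS act r h5
    unram := fun q hqN hq hqp => h4 q hq hqN hqp
    eichlerShimura := by
      intro ℓ hℓ hℓS A hA φ hφ w
      have hℓN : ¬ ℓ ∣ N := fun h => hℓS (hNS ℓ hℓ h)
      have hℓS' : ℓ ∉ (↑S : Set ℕ) := fun h => hℓS (by exact_mod_cast h)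
      rw [heckeT_eq hℓ hℓN hℓS']
      exact h5 ℓ hℓ hℓN hℓS' (fun h => hℓS (h ▸ hpS)) A hA φ hφ w }⟩

/-- **S30 from the geometric input.** -/
theorem s30_of_input (p : ℕ) [Fact p.Prime] (N : ℕ) [NeZero N] (S : Finset ℕ)
      (hpS : p ∈ S) (hNS : ∀ q : ℕ, q.Prime → q ∣ N → q ∈ S)
      (hin : H05.HeckeGaloisInput p N (↑S : Set ℕ))
      (𝒪' : Type) [CommRing 𝒪'] [IsDomain 𝒪'] [IsDiscreteValuationRing 𝒪']
      [IsAdicComplete (IsLocalRing.maximalIdeal 𝒪') 𝒪'] [Finite (IsLocalRing.ResidueField 𝒪')]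
      [CharZero 𝒪'] (hp𝒪' : (p : 𝒪') ∈ IsLocalRing.maximalIdeal 𝒪')
      (χ : CuspForm.heckeAlgebra N 2 (↑S : Set ℕ) →+* 𝒪') :
      ∃ (𝒪'' : Type) (_ : CommRing 𝒪'') (_ : IsDomain 𝒪'') (_ : IsDiscreteValuationRing 𝒪'')
        (_ : IsAdicComplete (IsLocalRing.maximalIdeal 𝒪'') 𝒪'')
        (_ : Finite (IsLocalRing.ResidueField 𝒪'')) (_ : CharZero 𝒪'')
        (_ : Algebra 𝒪' 𝒪'') (_ : Module.Finite 𝒪' 𝒪'') (_ : IsLocalHom (algebraMap 𝒪' 𝒪'')),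
      Function.Injective (algebraMap 𝒪' 𝒪'') ∧
      ∃ ρ : GaloisRepAdic 𝒪'',
        (∀ (ℓ : ℕ) (hℓ : ℓ.Prime) (hℓN : ¬ ℓ ∣ N) (hℓS : ℓ ∉ (↑S : Set ℕ)),
          ∀ A : ValuationSubring (AlgebraicClosure ℚ), A.LiesOverPrime ℓ →
            ∀ σ : AlgebraicClosure ℚ ≃ₐ[ℚ] AlgebraicClosure ℚ, A.IsFrobeniusAt σ ℓ →
              LinearMap.charpoly (ρ.ρ σ) =
                X ^ 2 - C (algebraMap 𝒪' 𝒪'' (χ (CuspForm.heckeAlgebra.T hℓ hℓN hℓS))) * X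
                  + C ((ℓ : 𝒪''))) ∧
        (∀ q : ℕ, q.Prime → ¬ q ∣ N → q ≠ p → ρ.IsUnramifiedAt q) := by
  obtain ⟨ρ, h1, h2, -⟩ := exists_galoisRepAdic hpS
    (heckeInput_of_heckeGaloisInput hpS hNS hin) hp𝒪' χ
  have hloc : IsLocalHom (algebraMap 𝒪' 𝒪') := by
    rw [Algebra.algebraMap_self]; infer_instance
  refine ⟨𝒪', inferInstance, inferInstance, inferInstance, inferInstance, inferInstance,
    inferInstance, Algebra.id 𝒪', inferInstance, hloc, fun x y h => h, ρ, ?_, ?_⟩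
  · intro ℓ hℓ hℓN hℓS A hA σ hσ
    have h3 := h1 ℓ hℓ (fun h => hℓS (by exact_mod_cast h)) A hA σ hσ
    rw [heckeT_eq hℓ hℓN hℓS] at h3
    exact h3
  · intro q hq hqN hqp
    exact h2 q hqN hq hqp

end Fermat.Agent.H25
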