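import Mathlib
import Fermat.Agent.H25.PtB
import Fermat.Agent.H05.Geom
import Fermat.Agent.H19.S32C
import Fermat.Agent.H02F.ModHopf2
import Fermat.Agent.H28.Final
import Fermat.Agent.RR.S36Wire
import Fermat.Agent.H23.R.TheoremR

set_option autoImplicit false
set_option linter.unusedSectionVars false
set_option linter.style.haveILetI false
set_option maxSynthPendingDepth 3

/-!
# The geometric inputs
-/

namespace Fermat.Agent.H25.PT

open Fermat.Agent.H25 IsLocalRing Polynomial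
open Fermat.Agent.H05 Fermat.Agent.H19
open Fermat.Agent.H01 Fermat.Agent.H02F Fermat.Agent.H26
open CongruenceSubgroup ModularCurve AlgebraicCurve
open ModularFormClass (qCoeff)

theorem geo_fro {p : ℕ} (hp : p.Prime) {M : ℕ} [NeZero M]
    {g : CuspForm (CongruenceSubgroup.Gamma0 M) 2} (hg : g.IsNewform)
    (S : Finset ℕ) (hpS : p ∈ S) (hMS : ∀ q : ℕ, q.Prime → q ∣ M → q ∈ S)
    (O : Type) [CommRing O] [IsDomain O] [IsDiscreteValuationRing O]
    [IsAdicComplete (IsLocalRing.maximalIdeal O) O] [CharZero O]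
    (hpO : (p : O) ∈ IsLocalRing.maximalIdeal O)
    (π : CuspForm.heckeAlgebra M 2 (↑S : Set ℕ) →+* O)
    (hπ : ∀ x, H23.eigenCharC hg.1 (↑S : Set ℕ) x = 0 → π x = 0) (ρ : GaloisRepAdic O)
    (hfrob : HFrob ρ π) (q : ℕ) (hq : q.Prime) (hqp : q ≠ p) (hqM : q ∣ M) (hq2 : ¬ q ^ 2 ∣ M)
    (A : ValuationSubring (AlgebraicClosure ℚ)) (hA : A.LiesOverPrime q)
    (σ : AlgebraicClosure ℚ ≃ₐ[ℚ] AlgebraicClosure ℚ) (hσ : A.IsFrobeniusAt σ q) :
    LinearMap.charpoly (ρ.ρ σ) = X ^ 2 - C ((q : O) + 1) * X + C ((q : O)) ∨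
      LinearMap.charpoly (ρ.ρ σ) = X ^ 2 + C ((q : O) + 1) * X + C ((q : O)) := by
  classical
  refine charpoly_frobenius_of_input H25.weakChebotarev (p := p) (N := M) hp hpS hMS hpO
    ρ π hfrob q hq hqp ?_ A hA σ hσ
  haveI : Fact q.Prime := ⟨hq⟩
  obtain ⟨M', hM'0, hcop, hM⟩ := exists_factor hq hqM hq2
  haveI : NeZero M' := ⟨hM'0⟩
  have hne : M' ≠ M := by
    rw [hM]
    intro h
    have : M' * 1 = M' * q := by rw [mul_one]; exact h
    exact hq.one_lt.ne (Nat.eq_of_mul_eq_mul_left (Nat.pos_of_ne_zero hM'0) this)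
  obtain ⟨t₀, ht₀S, ht₀, ht₀g⟩ := exists_separating hg (M := M') ⟨q, hM⟩ hne
    (S := (↑S : Set ℕ)) S.finite_toSet
  let chig := H23.eigenCharC hg.1 (↑S : Set ℕ)
  have hchig : ∀ (ℓ : ℕ) (hℓ : ℓ.Prime) (hℓM : ¬ ℓ ∣ M) (hℓS : ℓ ∉ (↑S : Set ℕ)),
      chig (CuspForm.heckeAlgebra.T hℓ hℓM hℓS) = qCoeff g ℓ :=
    fun ℓ hℓ hℓM hℓS => H23.eigenCharC_T hg.1 hℓ hℓM hℓS
  let iota : chig.range →+* O :=
    (Ideal.Quotient.lift (RingHom.ker chig) π (fun x hx => hπ x hx)).comp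
      (RingHom.quotientKerEquivRange chig).symm.toRingHom
  have hiota : ∀ x, iota (chig.rangeRestrict x) = π x := by
    intro x
    have h1 : (RingHom.quotientKerEquivRange chig).symm (chig.rangeRestrict x) =
        Ideal.Quotient.mk _ x := by
      rw [RingEquiv.symm_apply_eq]
      rfl
    change Ideal.Quotient.lift (RingHom.ker chig) π (fun x hx => hπ x hx)
      ((RingHom.quotientKerEquivRange chig).symm (chig.rangeRestrict x)) = _
    rw [h1, Ideal.Quotient.lift_mk]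
  have hπ' : π (awayEval M (↑S : Set ℕ) ⟨t₀, ht₀S⟩) ≠ 0 := by
    rw [← hiota]
    refine iota_ne_zero chig iota (awayEval M (↑S : Set ℕ) ⟨t₀, ht₀S⟩) ?_
    rw [chig_awayEval chig hchig hMS]
    exact ht₀g
  have hqS : q ∈ (↑S : Set ℕ) := by exact_mod_cast hMS q hq hqM
  have hNew := newAt_of_hyp hp hqp (fun M _ h hyp => toricHyp p hp q hqp M h hyp) hcop
  have hES := esAt_of_geom esHyp hp M
  clear hiota
  clear_value iota
  clear hfrob ρ hchig iota hπ ht₀g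
  clear_value chig
  clear chig
  subst hM
  exact newFrobInput_of hp hq hcop _ hqS hpO π ⟨t₀, ht₀S⟩ ht₀ hπ' hNew hES

/-- **The geometric inputs** hold, given `THEOREM R`. -/
theorem geo (HR : RR.TheoremRAux) {p : ℕ} (hp : p.Prime) : Geo p where
  s30 := by
    intro N _ S hpS hNS 𝒪' _ _ _ _ _ _ hp𝒪' χ
    haveI : Fact p.Prime := ⟨hp⟩
    exact Fermat.Agent.H25.s30_of_input p N S hpS hNS
      (Fermat.Agent.H05.heckeGaloisInput Fact.out N _) 𝒪' hp𝒪' χ
  uni := by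
    intro N _ S hpS hNS q hq hqp hqN hq2
    refine unipotentInput_of hp _ ?_ (esAt_of_geom esHyp hp N)
    haveI : Fact q.Prime := ⟨hq⟩
    obtain ⟨M, hM0, hcop, hN⟩ := exists_factor hq hqN hq2
    haveI : NeZero M := ⟨hM0⟩
    have key := uniAt_of_hyp hp hqp (fun M _ h hyp => toricHyp p hp q hqp M h hyp) hcop
    subst hN
    exact key
  fro := by
    intro M _ g hg S hpS hMS O _ _ _ _ _ hpO π hπ ρ hfrob q hq hqp hqM hq2 A hA σ hσ
    exact geo_fro hp hg S hpS hMS O hpO π hπ ρ hfrob q hq hqp hqM hq2 A hA σ hσ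
  ram := by
    intro M _ g hg S hpS hMS O _ _ _ _ hpO π hπ ρ hfrob q hq hqp hqM
    refine RR.not_isUnipotent HR hg hp hpS hMS hpO (H23.eigenCharC hg.1 (↑S : Set ℕ))
      (fun ℓ hℓ hℓM hℓS => H23.eigenCharC_T hg.1 hℓ hℓM hℓS) π hπ ρ hfrob ?_ hq hqp hqM
    intro m ℓ hℓ hℓN hℓp A hA φ hφ x hx
    refine Fermat.Agent.H28.frobenius_torsion M hℓ hℓN A hA (m := p ^ m) ?_ hφ x hx
    intro h
    exact hℓp ((Nat.prime_dvd_prime_iff_eq hℓ hp).mp (hℓ.dvd_of_dvd_pow h))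
  fl := by
    intro N _ S hpS hNS hpN T _ _ hpT ρ π hfrob n
    let inst1 : Algebra (AlgebraicClosure ℚ) ℂ :=
      (IsAlgClosed.lift : AlgebraicClosure ℚ →ₐ[ℚ] ℂ).toRingHom.toAlgebra
    obtain ⟨m, inst, hm⟩ := exists_level_trace H25.weakChebotarev hp hpS hNS ρ π hfrob hpT
      (fun m ℓ hℓ hℓN hℓp A hA φ hφ x hx => by
        refine Fermat.Agent.H28.frobenius_torsion N hℓ hℓN A hA (m := p ^ m) ?_ hφ x hx
        intro h
        exact hℓp ((Nat.prime_dvd_prime_iff_eq hℓ hp).mp (hℓ.dvd_of_dvd_pow h))) n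
    have hfinT : Finite (H26.Tor N (p ^ m)) := finite_tor N (p ^ m)
    refine ⟨_, _, hfinT, actTor N (p ^ m),
      Fermat.Agent.H02F.hasHopf_torsion_nat N hp hpN (m := p ^ m) (pow_pos hp.pos m),
      fun c hc h => ?_⟩
    have h1 := hm c hc h
    have h2 : ext ρ.trace c h = LinearMap.trace T ρ.V (rr ρ c * ρ.ρ h) := by
      rw [ext, rr, Finset.sum_mul, map_sum, Finsupp.sum]
      refine Finset.sum_congr rfl fun g _ => ?_
      rw [smul_mul_assoc, map_zsmul, ← map_mul]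
      rfl
    rw [h2]
    exact h1

/-- **All geometric inputs.** -/
theorem geo_all {p : ℕ} (hp : p.Prime) : Geo p := geo Fermat.Agent.H23.R.theoremRAux hp

end Fermat.Agent.H25.PT
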