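import Mathlib
import Fermat.Agent.H25.SelC
import Fermat.Agent.TW.CharCount
import Fermat.Agent.CC.PT1
import Fermat.Agent.CC.Iface3

set_option autoImplicit false
set_option linter.unusedSectionVars false
set_option linter.style.haveILetI false

/-!
# The trace pairing of `ad⁰` and `ad⁰(1)`
-/

namespace Fermat.Agent.H25.SB

open Fermat.Agent.CC Fermat.Agent.TW Matrix

section Schur

variable {k : Type} [Field k] [Finite k] {p : ℕ} [CharP k p] {S : Finset Nat.Primes}
  {r : GQ →* Mt k} {χ : GQ →* k}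

theorem two_ne (h : TWData p S r χ) : (2 : k) ≠ 0 := by
  haveI : Fact p.Prime := ⟨h.prime⟩
  simpa using cast_ne_zero (k := k) (p := p) Nat.prime_two h.ne_two

/-- global invariants of `ad⁰` vanish -/
theorem ad0_inv_zero (h : TWData p S r χ) (X : Ad0 r (1 : GQ →* k)) (hX : ∀ g : GQ, g • X = X) :
    X = 0 := by
  have h2 := two_ne h
  have hcomm : ∀ g, r g * X.val = X.val * r g := by
    intro g
    have h1 := congrArg Ad0.val (hX g)
    rw [Ad0.val_gsmul, MonoidHom.one_apply, one_smul] at h1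
    calc r g * X.val = r g * X.val * (r g⁻¹ * r g) := by rw [r_inv_mul, mul_one]
      _ = (r g * X.val * r g⁻¹) * r g := by simp only [mul_assoc]
      _ = _ := by rw [h1]
  let K := AlgebraicClosure k
  let XK : Mt K := X.val.map (algebraMap k K)
  have hcommK : ∀ g, ext K r g * XK = XK * ext K r g := by
    intro g
    have := congrArg (fun M : Mt k => M.map (algebraMap k K)) (hcomm g)
    simp only [Matrix.map_mul] at this
    exact this
  obtain ⟨c, hc⟩ := Module.End.exists_eigenvalue (Matrix.toLin' XK)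
  obtain ⟨v, hv⟩ := hc.exists_hasEigenvector
  have hv0 : v ≠ 0 := hv.2
  have hXv : XK *ᵥ v = c • v := by
    have := hv.apply_eq_smul
    rwa [Matrix.toLin'_apply] at this
  obtain ⟨γ, -, hγ⟩ := h.noLine v hv0
  set w := ext K r γ *ᵥ v with hw
  have hXw : XK *ᵥ w = c • w := by
    rw [hw, Matrix.mulVec_mulVec, ← hcommK, ← Matrix.mulVec_mulVec, hXv, Matrix.mulVec_smul]
  have hdet : v 0 * w 1 - v 1 * w 0 ≠ 0 := by
    intro h0
    by_cases hv00 : v 0 = 0
    · have hv1 : v 1 ≠ 0 := by
        intro h1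
        apply hv0
        funext i
        fin_cases i
        · exact hv00
        · exact h1
      apply hγ (w 1 / v 1)
      rw [hv00, zero_mul, zero_sub, neg_eq_zero] at h0
      have hw0 := (mul_eq_zero.1 h0).resolve_left hv1
      funext i
      fin_cases i
      · simp [hv00, hw0]
      · simp [hv1]
    · apply hγ (w 0 / v 0)
      funext i
      fin_cases i
      · simp [hv00]
      · change w 1 = w 0 / v 0 * v 1
        rw [div_mul_eq_mul_div, eq_div_iff hv00]
        linear_combination h0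
  have key : ∀ i, XK i 0 = (c • (1 : Mt K)) i 0 ∧ XK i 1 = (c • (1 : Mt K)) i 1 := by
    intro i
    have e1 := congrFun hXv i
    have e2 := congrFun hXw i
    simp only [Matrix.mulVec, dotProduct, Fin.sum_univ_two, Pi.smul_apply, smul_eq_mul] at e1 e2
    fin_cases i
    · simp only [Fin.zero_eta, Fin.isValue] at e1 e2 ⊢
      constructor
      · have : (XK 0 0 - c) * (v 0 * w 1 - v 1 * w 0) = 0 := by
          linear_combination w 1 * e1 - v 1 * e2
        rw [sub_eq_zero.1 ((mul_eq_zero.1 this).resolve_right hdet)]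
        simp
      · have : (XK 0 1) * (v 0 * w 1 - v 1 * w 0) = 0 := by
          linear_combination v 0 * e2 - w 0 * e1
        rw [(mul_eq_zero.1 this).resolve_right hdet]
        simp
    · simp only [Fin.mk_one, Fin.isValue] at e1 e2 ⊢
      constructor
      · have : (XK 1 0) * (v 0 * w 1 - v 1 * w 0) = 0 := by
          linear_combination w 1 * e1 - v 1 * e2
        rw [(mul_eq_zero.1 this).resolve_right hdet]
        simp
      · have : (XK 1 1 - c) * (v 0 * w 1 - v 1 * w 0) = 0 := by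
          linear_combination v 0 * e2 - w 0 * e1
        rw [sub_eq_zero.1 ((mul_eq_zero.1 this).resolve_right hdet)]
        simp
  have hXK : XK = c • (1 : Mt K) := by
    ext i j
    fin_cases j
    · exact (key i).1
    · exact (key i).2
  have htr : XK.trace = 0 := by
    have h3 : XK.trace = algebraMap k K X.val.trace :=
      (AddMonoidHom.map_trace (algebraMap k K).toAddMonoidHom X.val).symm
    rw [h3, X.trace_val, map_zero]
  have hc0 : c = 0 := by
    rw [hXK, Matrix.trace_smul, Matrix.trace_one, Fintype.card_fin, smul_eq_mul] at htr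
    have h4 : ((2 : ℕ) : K) ≠ 0 := by
      have : algebraMap k K ((2 : ℕ) : k) = ((2 : ℕ) : K) := map_natCast _ 2
      rw [← this]
      exact (map_ne_zero _).2 (by exact_mod_cast h2)
    exact (mul_eq_zero.1 htr).resolve_right h4
  rw [hc0, zero_smul] at hXK
  apply Ad0.ext
  ext i j
  have h5 := congrFun (congrFun hXK i) j
  have h6 : algebraMap k K (X.val i j) = 0 := h5
  rw [Ad0.val_zero, Matrix.zero_apply]
  exact (map_eq_zero _).1 h6

theorem card_H0_ad0 (h : TWData p S r χ) : Nat.card (H0 GQ (Ad0 r (1 : GQ →* k))) = 1 := by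
  have : Subsingleton (H0 GQ (Ad0 r (1 : GQ →* k))) := by
    constructor
    intro a b
    apply Subtype.ext
    rw [ad0_inv_zero h a.1 fun g => a.2 g, ad0_inv_zero h b.1 fun g => b.2 g]
  exact Nat.card_of_subsingleton 0

end Schur

section Pairing

variable {k : Type} [Field k] {r : GQ →* Mt k} {χ : GQ →* k}

/-- the trace form -/
noncomputable def trF (r : GQ →* Mt k) (χ : GQ →* k) : Ad0 r (1 : GQ →* k) →+ Ad0 r χ →+ k :=
  AddMonoidHom.mk' (fun X => AddMonoidHom.mk' (fun Y => (X.val * Y.val).trace) (fun Y Y' => by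
      rw [Ad0.val_add, mul_add, Matrix.trace_add])) (fun X X' => by
      ext Y
      change ((X + X').val * Y.val).trace = (X.val * Y.val).trace + (X'.val * Y.val).trace
      rw [Ad0.val_add, add_mul, Matrix.trace_add])

theorem trF_apply (X : Ad0 r (1 : GQ →* k)) (Y : Ad0 r χ) :
    trF r χ X Y = (X.val * Y.val).trace := rfl

theorem trF_smul (g : GQ) (X : Ad0 r (1 : GQ →* k)) (Y : Ad0 r χ) :
    trF r χ (g • X) (g • Y) = χ g * trF r χ X Y := by
  rw [trF_apply, trF_apply, Ad0.val_gsmul, Ad0.val_gsmul, MonoidHom.one_apply, one_smul,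
    mul_smul_comm, Matrix.trace_smul, smul_eq_mul]
  congr 1
  have h1 : r g * X.val * r g⁻¹ * (r g * Y.val * r g⁻¹) = r g * (X.val * Y.val) * r g⁻¹ := by
    calc _ = r g * X.val * (r g⁻¹ * r g) * Y.val * r g⁻¹ := by simp only [mul_assoc]
      _ = _ := by rw [r_inv_mul, mul_one]; simp only [mul_assoc]
  rw [h1, TW.trace_conj]

theorem trF_smul_right (c : k) (X : Ad0 r (1 : GQ →* k)) (Y : Ad0 r χ) :
    trF r χ X (c • Y) = c * trF r χ X Y := by
  rw [trF_apply, trF_apply, Ad0.val_smul, mul_smul_comm, Matrix.trace_smul, smul_eq_mul]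

theorem trF_smul_left (c : k) (X : Ad0 r (1 : GQ →* k)) (Y : Ad0 r χ) :
    trF r χ (c • X) Y = c * trF r χ X Y := by
  rw [trF_apply, trF_apply, Ad0.val_smul, smul_mul_assoc, Matrix.trace_smul, smul_eq_mul]

theorem eq_zero_of_trace_form (h2 : (2 : k) ≠ 0) {X : Mt k} (hX : X.trace = 0)
    (h : ∀ Y : Mt k, Y.trace = 0 → (X * Y).trace = 0) : X = 0 := by
  have h1 := h !![0, 1; 0, 0] (by simp [Matrix.trace_fin_two])
  have h3 := h !![0, 0; 1, 0] (by simp [Matrix.trace_fin_two])
  have h4 := h !![1, 0; 0, -1] (by simp [Matrix.trace_fin_two])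
  rw [Matrix.trace_fin_two] at h1 h3 h4 hX
  simp only [Matrix.mul_apply, Fin.sum_univ_two, Matrix.of_apply, Matrix.cons_val',
    Matrix.cons_val_zero, Matrix.cons_val_one, Matrix.cons_val_fin_one, mul_zero, add_zero,
    zero_add, mul_one, mul_neg] at h1 h3 h4
  have h5 : X 0 0 = 0 := by
    have : (2 : k) * X 0 0 = 0 := by linear_combination hX + h4
    exact (mul_eq_zero.1 this).resolve_left h2
  have h6 : X 1 1 = 0 := by linear_combination hX - h5
  ext i j
  fin_cases i <;> fin_cases j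
  · exact h5
  · exact h3
  · exact h1
  · exact h6

end Pairing

section Mu

variable {k : Type} [Field k] {p : ℕ} [hpf : Fact p.Prime]
  {S : Finset Nat.Primes} {r : GQ →* Mt k} {χ : GQ →* k}

theorem zs_eq_zero {M : Type} [AddCommGroup M] {m : M} {hm : p • m = 0} (h0 : m ≠ 0) {z : ZMod p}
    (h : zs m hm z = 0) : z = 0 := by
  have h1 : z = ((z.val : ℤ) : ZMod p) := by simp
  rw [h1, zs_intCast, natCast_zsmul] at h
  have h2 : addOrderOf m = p := addOrderOf_eq_prime hm h0
  have h3 := addOrderOf_dvd_of_nsmul_eq_zero h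
  rw [h2] at h3
  have h4 : z.val = 0 := Nat.eq_zero_of_dvd_of_lt h3 (ZMod.val_lt z)
  rw [h1, h4]
  simp

theorem exists_zeta : ∃ m : Mu p, m ≠ 0 := by
  obtain ⟨ζ, hζ⟩ := HasEnoughRootsOfUnity.exists_primitiveRoot Qb p
  have h0 : ζ ≠ 0 := hζ.ne_zero hpf.out.ne_zero
  refine ⟨TorP.mk (UL.mk ζ h0) (UL.ext ?_), fun h => ?_⟩
  · rw [UL.val_nsmul, UL.val_mk, UL.val_zero, hζ.pow_eq_one]
  · have h1 := congrArg (fun x => (TorP.incl p (UL Qb) x).val) h
    have h2 : ζ = 1 := h1
    exact hζ.ne_one hpf.out.one_lt h2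

theorem smul_mu {g : GQ} {a : ℕ} (ha : ∀ x : Qb, x ^ p = 1 → g x = x ^ a) (m : Mu p) :
    g • m = a • m := by
  apply TorP.incl_injective
  rw [TorP.incl_smul, map_nsmul]
  apply UL.ext
  rw [UL.val_smul, UL.val_nsmul]
  refine ha _ ?_
  have h1 := congrArg UL.val (TorP.incl_mem (p := p) m)
  rwa [UL.val_nsmul, UL.val_zero] at h1

variable [Algebra (ZMod p) k]

/-- the pairing with values in `μ_p` -/
noncomputable def ePair (r : GQ →* Mt k) (χ : GQ →* k) (l : k →ₗ[ZMod p] ZMod p) (m : Mu p) :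
    Ad0 r (1 : GQ →* k) →+ Ad0 r χ →+ Mu p :=
  (trF r χ).compr₂ ((zs m (TorP.killed m)).comp l.toAddMonoidHom)

theorem ePair_apply (l : k →ₗ[ZMod p] ZMod p) (m : Mu p) (X : Ad0 r (1 : GQ →* k))
    (Y : Ad0 r χ) : ePair r χ l m X Y = zs m (TorP.killed m) (l (trF r χ X Y)) := rfl

theorem eqPair_ePair (h : TWData p S r χ) (l : k →ₗ[ZMod p] ZMod p) (m : Mu p) :
    EqPair GQ (ePair r χ l m) := by
  intro g X Y
  haveI : NeZero p := ⟨hpf.out.ne_zero⟩
  obtain ⟨a, ha⟩ := exists_pow_action p g
  rw [ePair_apply, ePair_apply, trF_smul, h.chi g a ha, smul_mu ha, ← nsmul_eq_mul, map_nsmul,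
    map_nsmul]

variable [Finite k] [CharP k p]

theorem pr_ePair (h : TWData p S r χ) {l : k →ₗ[ZMod p] ZMod p}
    (hl : ∀ a : k, (∀ z, l (z * a) = 0) → a = 0) {m : Mu p} (hm : m ≠ 0) :
    CC.Pr p (levS S) (ePair r χ l m) where
  fA := inferInstance
  fB := inferInstance
  he := eqPair_ePair h l m
  smA := fun X => ⟨r.ker, h.open_ker, fun s hs => Ad0.smul_of_trivial hs rfl X⟩
  smB := fun X => ⟨r.ker, h.open_ker, fun s hs => Ad0.smul_of_trivial hs (by
    rw [← h.det, show r s = 1 from hs, Matrix.det_one]) X⟩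
  kA X := by
    have h1 : (p : k) • X = 0 := by rw [CharP.cast_eq_zero, zero_smul]
    rwa [Nat.cast_smul_eq_nsmul] at h1
  kB X := by
    have h1 : (p : k) • X = 0 := by rw [CharP.cast_eq_zero, zero_smul]
    rwa [Nat.cast_smul_eq_nsmul] at h1
  hl X hX := by
    apply Ad0.ext
    refine eq_zero_of_trace_form (two_ne h) X.trace_val fun Y hY => ?_
    refine hl _ fun z => zs_eq_zero (hm := TorP.killed m) hm ?_
    have := hX (z • Ad0.mk Y hY)
    rw [ePair_apply, trF_smul_right] at this
    exact this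
  hr Y hY := by
    apply Ad0.ext
    refine eq_zero_of_trace_form (two_ne h) Y.trace_val fun X hX => ?_
    rw [Matrix.trace_mul_comm]
    refine hl _ fun z => zs_eq_zero (hm := TorP.killed m) hm ?_
    have := hY (z • Ad0.mk X hX)
    rw [ePair_apply, trF_smul_left] at this
    exact this

end Mu

end Fermat.Agent.H25.SB
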