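import Mathlib
import Fermat.Agent.H25.SelG
import Fermat.Agent.CFT.EC.GWStmt
import Fermat.Agent.CC.LocInv2

set_option autoImplicit false
set_option linter.unusedSectionVars false
set_option linter.style.haveILetI false

/-!
# Greenberg-Wiles for `ad⁰` from the general formula
-/

namespace Fermat.Agent.H25.SB

open Fermat.Agent.CC Fermat.Agent.TW Matrix
open Fermat.Agent.CFT.EC (GW SelS mem_SelS mem_dualC cc cfix)
open Fermat.Agent.LF (DK)
open Fermat.Agent.H25.PR Fermat.Agent.H25.TR Fermat.Agent.H25.TWM Fermat.Agent.H25.GD Fermat.Agent.H25.GE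

theorem DK_bot (A : ValuationSubring Qb) : DK A ⊥ = A.decompositionSubgroup ℚ := by
  rw [DK, IntermediateField.fixingSubgroup_bot, inf_top_eq]

section cast

variable {D D' : Subgroup GQ} (M : Type) [AddCommGroup M] [DistribMulAction GQ M]

/-- transport along an equality of subgroups -/
noncomputable def castD (h : D = D') : H1 (lev.sub D) M ≃+ H1 (lev.sub D') M := by
  subst h; exact AddEquiv.refl _

theorem castD_resD (h : D = D') (S : Finset Nat.Primes) (x : H1 (levS S) M) :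
    castD M h (resD S D M x) = resD S D' M x := by
  subst h; rfl

theorem card_H0_cast (h : D = D') : Nat.card (H0 D M) = Nat.card (H0 D' M) := by
  subst h; rfl

end cast

/-- complex conjugation inverts roots of unity -/
theorem cc_root {p : ℕ} (hp : 0 < p) {x : Qb} (hx : x ^ p = 1) : cc x = x ^ (p - 1) := by
  have hinj : Function.Injective complexEmbedding := complexEmbedding.injective
  have hx0 : x ≠ 0 := by
    rintro rfl
    rw [zero_pow hp.ne'] at hx
    exact zero_ne_one hx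
  have h1 : x * x ^ (p - 1) = 1 := by
    rw [← pow_succ', Nat.sub_add_cancel hp, hx]
  have h2 : x * cc x = 1 := by
    apply hinj
    rw [map_mul, complexEmbedding_complexConjugation, map_one, Complex.mul_conj,
      Complex.normSq_eq_norm_sq]
    have h3 : ‖complexEmbedding x‖ = 1 := by
      refine Complex.norm_eq_one_of_pow_eq_one (n := p) ?_ hp.ne'
      rw [← map_pow, hx, map_one]
    rw [h3]
    simp
  exact mul_left_cancel₀ hx0 (h2.trans h1.symm)

section

variable {k : Type} [Field k] [Finite k] {p : ℕ} [hpf : Fact p.Prime] [CharP k p]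
  {S : Finset Nat.Primes} {r : GQ →* Mt k} {χ : GQ →* k}

theorem chi_cc (h : TWData p S r χ) : χ cc = -1 := by
  rw [h.chi cc (p - 1) (fun x hx => cc_root hpf.out.pos hx), Nat.cast_sub hpf.out.one_lt.le,
    CharP.cast_eq_zero, Nat.cast_one, zero_sub]

theorem trace_cc (h : TWData p S r χ) : (r cc).trace = 0 := by
  have h1 : r cc * r cc = 1 := by
    rw [← map_mul, complexConjugation_mul_self, map_one]
  have h2 := Fermat.Agent.H25.TW.cayley (r cc)
  rw [h.det, chi_cc h, h1, neg_one_smul, sub_neg_eq_add] at h2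
  have h3 : (r cc).trace • r cc = 0 := by
    have : (1 : Mt k) = (r cc).trace • r cc + 1 := h2
    exact left_eq_add.1 (by rw [add_comm]; exact this)
  have h4 := congrArg (fun X => X * r cc) h3
  simp only [smul_mul_assoc, h1, zero_mul] at h4
  have h5 := congrFun (congrFun h4 0) 0
  simpa using h5

theorem le_cfix (h : TWData p S r χ) : Nat.card k ≤ cfix cc (Ad0 r (1 : GQ →* k)) := by
  have h0 : (r cc) ≠ 0 := by
    intro h1
    have := chi_cc h
    rw [← h.det, h1, Matrix.det_zero] at this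
    have h2 : (1 : k) = 0 := by linear_combination this
    exact one_ne_zero h2
  let f : k → {m : Ad0 r (1 : GQ →* k) // cc • m = m} := fun a =>
    ⟨a • Ad0.mk (r cc) (trace_cc h), by
      apply Ad0.ext
      rw [Ad0.val_gsmul, Ad0.val_smul, Ad0.val_mk, MonoidHom.one_apply, one_smul,
        mul_smul_comm, smul_mul_assoc, mul_assoc, r_mul_inv, mul_one]⟩
  refine Nat.card_le_card_of_injective f fun a b hab => ?_
  have h1 : a • (r cc) = b • (r cc) := congrArg (fun x => x.1.val) hab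
  have h2 : (a - b) • (r cc) = 0 := by rw [sub_smul, h1, sub_self]
  rcases smul_eq_zero.1 h2 with h3 | h3
  · exact sub_eq_zero.1 h3
  · exact absurd h3 h0

end

/-- **Greenberg-Wiles for `ad⁰`.** -/
theorem gwad {p : ℕ} [hpf : Fact p.Prime] (hp2 : p ≠ 2) (hGW : GW p) : GWad p := by
  intro k _ _ _ S r χ hpS h
  classical
  letI : Algebra (ZMod p) k := ZMod.algebra k p
  obtain ⟨l, hl⟩ := exists_functional (p := p) k
  obtain ⟨m, hm⟩ := exists_zeta (p := p)
  have hP := pr_ePair h hl hm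
  have hpS' : pP p ∈ S := by
    obtain ⟨q, hq, hqp⟩ := hpS
    have : q = pP p := Subtype.ext hqp
    rwa [← this]
  let A : S → ValuationSubring Qb := fun q => plv q.1 q.1.2
  have hA : ∀ q : S, (A q).LiesOverPrime ((q : Nat.Primes) : ℕ) := fun q => plv_over _ _
  have hD : ∀ q : S, DK (A q) ⊥ = Dq q := fun q => DK_bot _
  have hfin : Finite (H1 (levS S) (Ad0 r χ)) := by
    have h1 := (hGW S hpS' A hA _ _ _ hP.flip (fun q => ⊤)).1
    exact Finite.of_injective (β := SelS S A (Ad0 r χ) fun q => ⊤)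
      (fun x => ⟨x, (mem_SelS S A).2 fun q => trivial⟩) fun a b hab => congrArg Subtype.val hab
  refine ⟨hfin, fun L Q hQ hLQ => ?_⟩
  let L' : ∀ q : S, AddSubgroup (H1 (lev.sub (DK (A q) ⊥)) (Ad0 r (1 : GQ →* k))) :=
    fun q => (L q).comap (castD (Ad0 r (1 : GQ →* k)) (hD q)).toAddMonoidHom
  have hL' : ∀ (q : S) (x : H1 (levS S) (Ad0 r (1 : GQ →* k))),
      loc1 (cont_D S (A q) ⊥) (Ad0 r (1 : GQ →* k)) x ∈ L' q ↔ resD S (Dq q) _ x ∈ L q := by
    intro q x
    rw [← castD_resD (Ad0 r (1 : GQ →* k)) (hD q) S x]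
    rfl
  obtain ⟨h1, h2, h3⟩ := hGW S hpS' A hA _ _ _ hP L'
  have e1 : Sel S r L = SelS S A _ L' := by
    ext x
    rw [mem_Sel, mem_SelS S A]
    exact ⟨fun h q => (hL' q x).2 (h q q.2), fun h q hq => (hL' ⟨q, hq⟩ x).1 (h ⟨q, hq⟩)⟩
  have e2 : ∏ q : S, Nat.card (L' q) = ∏ q ∈ S, Nat.card (L q) := by
    rw [← Finset.prod_coe_sort S (fun q => Nat.card (L q))]
    refine Finset.prod_congr rfl fun q _ => ?_
    exact Nat.card_congr ((castD (Ad0 r (1 : GQ →* k)) (hD q)).toEquiv.subtypeEquiv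
      (fun x => Iff.rfl))
  have e3 : ∏ q : S, Nat.card (H0 (DK (A q) ⊥) (Ad0 r (1 : GQ →* k))) =
      ∏ q ∈ S, Nat.card (H0 (Dq q) (Ad0 r (1 : GQ →* k))) := by
    rw [← Finset.prod_coe_sort S (fun q => Nat.card (H0 (Dq q) (Ad0 r (1 : GQ →* k))))]
    exact Finset.prod_congr rfl fun q _ => card_H0_cast _ (hD q)
  have e4 : Fermat.Agent.CFT.EC.SelD S A hP L' ≤ SelD S Q r χ := by
    intro y hy
    rw [mem_SelD]
    intro q hq
    have hqS := hQ hq
    have h4 := (mem_SelS S A).1 hy ⟨q, hqS⟩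
    rw [mem_dualC S A] at h4
    have hld := ldK hp2 q.2 (hA ⟨q, hqS⟩) ⊥ (ePair r χ l m) (hP.he.sub (DK (A ⟨q, hqS⟩) ⊥))
      (smooth_loc (cont_D S (A ⟨q, hqS⟩) ⊥) hP.smA) (smooth_loc (cont_D S (A ⟨q, hqS⟩) ⊥) hP.smB)
      hP.kA hP.kB hP.hl hP.hr
    have h5 := hld.b1 _ (fun x => h4 x (by
      change castD _ _ x ∈ L q
      rw [hLQ q hq]
      trivial))
    have h6 : resD S (DK (A ⟨q, hqS⟩) ⊥) (Ad0 r χ) y = 0 := h5
    rw [← castD_resD (Ad0 r χ) (hD ⟨q, hqS⟩) S y, h6, map_zero]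
  have hle : Nat.card (Fermat.Agent.CFT.EC.SelD S A hP L') ≤ Nat.card (SelD S Q r χ) :=
    Nat.card_le_card_of_injective (AddSubgroup.inclusion e4) (AddSubgroup.inclusion_injective e4)
  rw [e1]
  refine ⟨h1, ?_⟩
  rw [e2, e3, card_H0_ad0 h, mul_one] at h3
  have hc := le_cfix h
  have hpos : 0 < Nat.card (H0 GQ (Ad0 r χ)) := Nat.card_pos
  calc _ ≤ Nat.card (SelS S A _ L') * cfix cc (Ad0 r (1 : GQ →* k)) *
        Nat.card (H0 GQ (Ad0 r χ)) * ∏ q ∈ S, Nat.card (H0 (Dq q) (Ad0 r (1 : GQ →* k))) := by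
        rw [mul_assoc, mul_assoc]
        refine Nat.mul_le_mul_left _ (Nat.mul_le_mul hc ?_)
        exact Nat.le_mul_of_pos_left _ hpos
    _ = _ := h3
    _ ≤ _ := Nat.mul_le_mul_right _ hle

end Fermat.Agent.H25.SB
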